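import Fermat.Agent.CoatesWiles.RationalLSeries
import Fermat.Agent.MordellWeil.Summary
import Fermat.Agent.Frob.VarChange
import Mathlib.GroupTheory.FiniteAbelian.Basic

/-!
# Finitely many rational points when the L-series does not vanish at `1`

By Mordell's theorem it is enough that every rational point has finite order.
-/

set_option autoImplicit false
set_option linter.style.haveILetI false

noncomputable section

open WeierstrassCurve
open scoped WeierstrassCurve.Affine Classical

namespace FA.CoatesWiles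

/-- **The theorem of Coates and Wiles over `ℚ`.** -/
theorem finite_point_of_ne_zero (E : WeierstrassCurve ℚ) [E.IsElliptic] {d v : ℤ}
    (h : IsMaximalInvariant d v) (hj : E.j = v) {g : ℂ → ℂ} (hg : Differentiable ℂ g)
    (hgE : ∀ s : ℂ, 3 / 2 < s.re → g s = E.LSeries s) (h1 : g 1 ≠ 0) :
    Finite E.toAffine.Point := by
  obtain ⟨a, b, C, hC⟩ := exists_shortInt E
  haveI hell : ((shortInt a b).map (Int.castRingHom ℚ)).IsElliptic := hC ▸ inferInstance
  have hΔ : (shortInt a b).Δ ≠ 0 := fun e =>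
    ((shortInt a b).map (Int.castRingHom ℚ)).isUnit_Δ.ne_zero (by rw [map_Δ, e, map_zero])
  have hj' : 6912 * (a : ℚ) ^ 3 = v * (4 * (a : ℚ) ^ 3 + 27 * (b : ℚ) ^ 2) := by
    have e := short_j_identity (R := ℚ) a b
    simp only [← hC, variableChange_j, hj] at e
    exact e
  obtain ⟨L, Ω, hW, hlat⟩ := exists_lattice h hΔ hj'
  obtain ⟨hd, hd0, -⟩ := h.cases
  haveI := FA.MordellWeil.mordell E
  refine AddCommGroup.finite_of_fg_isAddTorsion _ (fun P => ?_)
  by_contra hP
  refine h1 (lSeries_continuation_eq_zero hd hd0 hW hlat ⟨C, hC⟩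
    ((FA.Frob.vcEquiv C (W := E) hC).symm P) (fun m hm e => hP ?_) hg hgE)
  rw [← map_nsmul, map_eq_zero_iff _ (AddEquiv.injective _)] at e
  exact isOfFinAddOrder_iff_nsmul_eq_zero.2 ⟨m, Nat.pos_of_ne_zero hm, e⟩

/-- The same for every continuation holomorphic on `1/2 < re s`. -/
theorem finite_point_of_ne_zero_halfPlane (E : WeierstrassCurve ℚ) [E.IsElliptic] {d v : ℤ}
    (h : IsMaximalInvariant d v) (hj : E.j = v) {g g₀ : ℂ → ℂ} (hg₀ : Differentiable ℂ g₀)
    (hg₀E : ∀ s : ℂ, 3 / 2 < s.re → g₀ s = E.LSeries s)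
    (hg : DifferentiableOn ℂ g {s | 1 / 2 < s.re})
    (hgE : ∀ s : ℂ, 3 / 2 < s.re → g s = E.LSeries s) (h1 : g 1 ≠ 0) :
    Finite E.toAffine.Point := by
  refine finite_point_of_ne_zero E h hj hg₀ hg₀E ?_
  have hU : IsOpen {s : ℂ | (1 / 2 : ℝ) < s.re} := isOpen_lt continuous_const Complex.continuous_re
  have he : Set.EqOn g g₀ {s : ℂ | (1 / 2 : ℝ) < s.re} :=
    (hg.analyticOnNhd hU).eqOn_of_preconnected_of_eventuallyEq
      (fun z _ => hg₀.analyticAt z) (convex_halfSpace_re_gt _).isPreconnected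
      (show (2 : ℂ) ∈ _ by norm_num) (by
        filter_upwards [(isOpen_lt continuous_const Complex.continuous_re).mem_nhds
          (show (3 / 2 : ℝ) < (2 : ℂ).re by norm_num)] with s hs
        rw [hgE s hs, hg₀E s hs])
  rwa [← he (by norm_num : (1 / 2 : ℝ) < (1 : ℂ).re)]

end FA.CoatesWiles

end
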