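import Fermat.Agent.CoatesWiles.Reduced
import Fermat.Agent.DeuringCM.Gen
import Fermat.Agent.EllipticUnits.Field
import Fermat.Agent.JugendtraumField.NormEquation

/-!
# Frobenius at a place of degree one

At a split place `v` of degree one prime to six the element `π ∈ v` with `π π̄ = p` and trace `a_v`
reduces to the `p`-power map: the two agree on the points killed by infinitely many inert primes
unless it is `π̄` which does, and that is impossible since `π̄` is prime to `v`. So Frobenius is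
`π` on the torsion prime to `v`, the `π`-power torsion lies in the kernel of reduction and the
`π̄`-power torsion meets it only in zero.
-/

set_option autoImplicit false
set_option linter.style.haveILetI false
set_option linter.unusedSectionVars false

noncomputable section

open WeierstrassCurve NumberField IsDedekindDomain FA.IsogenyNF FA.Frob FA.Local FA.HasseBound
open FA.Mazur.Wp (latCurve)
open FA.ClassNumberOne (xP yP)
open FA.TraceNF (frobTrace levelField)
open FA.DeuringCM (IQF)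
open scoped WeierstrassCurve.Affine Classical

namespace FA.CoatesWiles

variable {K : Type} [Field K] [NumberField K] {D : CMDat K}

local notation "Kb" => AlgebraicClosure K

namespace CMPlace

variable (P : CMPlace D)

/-- The norm of the place. -/
abbrev p : ℕ := Ideal.absNorm P.v.asIdeal

theorem p_mem : (P.p : 𝓞 K) ∈ P.v.asIdeal := Ideal.absNorm_mem _

/-- The place of a Frobenius place over `v`. -/
def ofFrobPlace {σ : Kb ≃ₐ[K] Kb} {N : ℕ} (F : FrobPlace D.W σ N) (v : HeightOneSpectrum (𝓞 K))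
    (hΔ : D.W₀.Δ ∉ v.asIdeal)
    (hK : ∀ x : 𝓞 K, x ∈ v.asIdeal → F.A.valuation (algebraMap K Kb x) < 1) : CMPlace D where
  R := F.A
  v := v
  Δ_notMem := hΔ
  isOver := by
    have hle : ∀ a : 𝓞 K, F.A.valuation (algebraMap K Kb (a : K)) ≤ 1 := fun a => by
      refine (F.A.valuation_le_one_iff _).2 (?_ : algebraMap (𝓞 K) Kb a ∈ F.A)
      have : IsIntegrallyClosedIn F.A.toSubring Kb :=
        inferInstanceAs (IsIntegrallyClosedIn F.A Kb)
      exact Subring.isIntegrallyClosedIn_iff.mp this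
        (((RingOfIntegers.isIntegral a).algebraMap).tower_top)
    have hone : ∀ a : 𝓞 K, a ∉ v.asIdeal → F.A.valuation (algebraMap K Kb (a : K)) = 1 :=
        fun a ha => by
      refine le_antisymm (hle a) (not_lt.1 fun hlt => ?_)
      obtain ⟨b, m, hm, e⟩ := v.isMaximal.exists_inv ha
      have h := congrArg (fun t : 𝓞 K => F.A.valuation (algebraMap K Kb (t : K))) e
      simp only [map_add, map_mul, map_one] at h
      refine absurd h (F.A.valuation.map_add_lt ?_ (hK m hm)).ne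
      rw [map_mul]
      exact lt_of_le_of_lt (mul_le_of_le_one_left' (hle b)) hlt
    have key : ∀ x : K, v.valuation K x ≤ 1 → ∃ n d : 𝓞 K, d ∉ v.asIdeal ∧ x * (d : K) = n ∧
        F.A.valuation (algebraMap K Kb x) = F.A.valuation (algebraMap K Kb (n : K)) := fun x hx => by
      obtain ⟨n, ⟨d, hd⟩, e⟩ := v.exists_primeCompl_mul_eq_of_integer x hx
      exact ⟨n, d, hd, e, by rw [show ((n : 𝓞 K) : K) = x * (d : K) from e.symm, map_mul, map_mul,
        hone d hd, mul_one]⟩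
    refine ⟨fun x hx => ?_, fun x hx => ?_⟩
    · obtain ⟨n, -, -, -, hv⟩ := key x hx
      exact hv.trans_le (hle n)
    · obtain ⟨n, d, -, e, hv⟩ := key x hx.le
      refine hv.trans_lt (hK n ((v.valuation_lt_one_iff_mem (K := K) n).1 ?_))
      refine lt_of_eq_of_lt (congrArg (v.valuation K) e.symm) ?_
      rw [map_mul]
      exact lt_of_le_of_lt (mul_le_of_le_one_right' (v.valuation_le_one d)) hx

/-- Congruent to the `p`-power map on the coordinates of the points killed by `N`. -/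
def FrobCoord (σ : Kb ≃ₐ[K] Kb) (N : ℕ) : Prop :=
  (∀ S : D.Pt, N • S = 0 →
    P.R.valuation (σ (xP S) - xP S ^ P.p) < 1 ∧ P.R.valuation (σ (yP S) - yP S ^ P.p) < 1) ∧
  ∀ μ : Kb, μ ^ N = 1 → σ μ = μ ^ P.p

theorem frobCoord_one : P.FrobCoord 1 1 := by
  refine ⟨fun S hS => ?_, fun μ hμ => ?_⟩
  · rw [one_smul] at hS
    subst hS
    have hp : P.p ≠ 0 := fun h => P.v.ne_bot (Ideal.absNorm_eq_zero_iff.1 h)
    constructor <;>
      simp [show xP (0 : D.Pt) = (0 : Kb) from rfl, show yP (0 : D.Pt) = (0 : Kb) from rfl,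
        zero_pow hp]
  · rw [pow_one] at hμ
    simp [hμ]

/-- **Frobenius elements exist.** -/
theorem exists_frobCoord {N : ℕ} (hN : (N : 𝓞 K) ∉ P.v.asIdeal) : ∃ σ, P.FrobCoord σ N := by
  have hN0 : N ≠ 0 := fun e => hN (by simp [e])
  have : FiniteDimensional K (levelField Kb D.W N) :=
    FA.TraceNF.finiteDimensional_levelField D.W hN0
  have : IsGalois K (levelField Kb D.W N) := FA.TraceNF.isGalois_levelField D.W N
  obtain ⟨σ, hσ⟩ := FA.GoodNF.exists_frob_layer P.isOver (levelField Kb D.W N)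
  have hmem : ∀ z ∈ (frobSet D.W N : Set Kb), z ∈ levelField Kb D.W N :=
    fun z hz => IntermediateField.subset_adjoin K _ hz
  have hNv : P.R.valuation (N : Kb) = 1 := by simpa using P.coe_eq_one hN
  refine ⟨σ, fun S hS => ?_, fun μ hμ => ?_⟩
  · have hx := hmem _ (Or.inl (Or.inl (Or.inl ⟨S, hS, rfl⟩)))
    have hy := hmem _ (Or.inl (Or.inl (Or.inr ⟨S, hS, rfl⟩)))
    suffices h : P.R.valuation (xP S) ≤ 1 ∧ P.R.valuation (yP S) ≤ 1 from
      ⟨(hσ _ hx).2 h.1, (hσ _ hy).2 h.2⟩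
    by_cases h0 : S = 0
    · subst h0
      exact ⟨(map_zero P.R.valuation).trans_le zero_le, (map_zero P.R.valuation).trans_le zero_le⟩
    · obtain ⟨h1, h2, -⟩ := P.red_coord fun h => h0 (P.red_injective hN hS h)
      exact ⟨(P.R.valuation_le_one_iff _).2 h1, (P.R.valuation_le_one_iff _).2 h2⟩
  · have hμ1 : P.R.valuation μ = 1 :=
      (pow_eq_one_iff_of_nonneg zero_le hN0).1 (by rw [← map_pow, hμ, map_one])
    refine eq_of_congr_root hN0 hNv ?_ ?_ ((hσ μ (hmem μ (Or.inl (Or.inr hμ)))).2 hμ1.le)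
    · rw [← map_pow, hμ, map_one]
    · rw [← pow_mul, mul_comm, pow_mul, hμ, one_pow]

section degreeOne

variable [hp : Fact P.p.Prime]

instance instCharPRes : CharP (Res P.R) P.p :=
  residueField_charP P.R hp.out (P.R.mem_nonunits_iff.2 (by simpa using P.coe_lt_one P.p_mem))

/-- The residue field of the place is fixed by the `p`-power map. -/
theorem pow_sub_lt (a : 𝓞 K) :
    P.R.valuation (algebraMap K Kb (a : K) ^ P.p - algebraMap K Kb (a : K)) < 1 := by
  have := P.v.isMaximal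
  let _ := Ideal.Quotient.field P.v.asIdeal
  have : Finite (𝓞 K ⧸ P.v.asIdeal) := Ideal.finiteQuotientOfFreeOfNeBot _ P.v.ne_bot
  let _ := Fintype.ofFinite (𝓞 K ⧸ P.v.asIdeal)
  have hc : Fintype.card (𝓞 K ⧸ P.v.asIdeal) = P.p := by
    rw [← Nat.card_eq_fintype_card, p, Ideal.absNorm_apply]; rfl
  have h : a ^ P.p - a ∈ P.v.asIdeal := by
    rw [← Ideal.Quotient.eq_zero_iff_mem, map_sub, map_pow, ← hc, FiniteField.pow_card, sub_self]
  have h' := P.coe_lt_one h
  simpa using h'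

/-- The place as a Frobenius place of any level prime to it. -/
def frobPlace {σ : Kb ≃ₐ[K] Kb} {N : ℕ} (hN : (N : 𝓞 K) ∉ P.v.asIdeal) (hσ : P.FrobCoord σ N) :
    FrobPlace D.W σ N where
  A := P.R
  l := P.p
  n := 1
  prime := hp.out
  charP := inferInstance
  pos := one_ne_zero
  level := by simpa using P.coe_eq_one hN
  int := P.int
  good := P.good
  congr_coef := fun c hc => by
    obtain ⟨a, rfl⟩ : ∃ a : 𝓞 K, (a : K) = c := by
      simp only [List.mem_cons, List.not_mem_nil, or_false] at hc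
      rcases hc with rfl | rfl | rfl | rfl | rfl <;> exact ⟨_, rfl⟩
    rw [pow_one]
    exact P.pow_sub_lt a
  congr_coord := fun S hS => by rw [pow_one]; exact hσ.1 S hS
  congr_root := fun μ hμ => by rw [pow_one]; exact hσ.2 μ hμ

theorem one_notMem : ((1 : ℕ) : 𝓞 K) ∉ P.v.asIdeal := by
  rw [Nat.cast_one]
  exact (Ideal.ne_top_iff_one _).1 P.v.isPrime.ne_top

theorem exists_fixed :
    ∃ hW : P.Wb.map (iterateFrobenius (Res P.R) P.p 1) = P.Wb,
      trQ P.Wb hW = frobTrace D.W₀ P.v := by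
  set F := P.frobPlace P.one_notMem P.frobCoord_one
  haveI : CharP (Res F.A) F.l := P.instCharPRes
  haveI : Fact F.l.Prime := hp
  haveI : IsAlgClosed (Res F.A) := P.instIsAlgClosedRes
  haveI : (redCurve F.A (D.W.baseChange Kb).toAffine F.int).IsElliptic := P.instIsEllipticWb
  exact FA.JugendtraumField.exists_trQ_eq_frobTrace D.W₀ F (v := P.v) (pow_one P.p)
    fun x hx => P.coe_lt_one hx

/-- The `p`-power map on the reduced curve. -/
def qMap : P.Wb.toAffine.Point →+ P.Wb.toAffine.Point := qEnd P.Wb P.exists_fixed.choose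

theorem qMap_injective : Function.Injective P.qMap :=
  mapHom_injective (iterateFrobenius (Res P.R) P.p 1) P.exists_fixed.choose

theorem qMap_quadratic (S : P.Wb.toAffine.Point) :
    P.qMap (P.qMap S) - frobTrace D.W₀ P.v • P.qMap S + (P.p : ℤ) • S = 0 := by
  have h := qEnd_quadratic P.Wb P.exists_fixed.choose one_ne_zero S
  rw [P.exists_fixed.choose_spec, pow_one] at h
  exact h

theorem exists_spec_qMap : ∃ Z, Spec P.Wb Z P.qMap := by
  have h := spec_qGen P.Wb P.exists_fixed.choose (spec_gen P.Wb)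
  rw [AddMonoidHom.comp_id] at h
  exact ⟨_, h⟩

/-- A Frobenius element reduces to the `p`-power map. -/
theorem red_smul {σ : Kb ≃ₐ[K] Kb} {N : ℕ} (hN : (N : 𝓞 K) ∉ P.v.asIdeal)
    (hσ : P.FrobCoord σ N) {S : D.Pt} (hS : N • S = 0) :
    P.red (σ • S) = P.qMap (P.red S) := by
  set F := P.frobPlace hN hσ
  haveI : CharP (Res F.A) F.l := P.instCharPRes
  haveI : Fact F.l.Prime := hp
  haveI : IsAlgClosed (Res F.A) := P.instIsAlgClosedRes
  haveI : (redCurve F.A (D.W.baseChange Kb).toAffine F.int).IsElliptic := P.instIsEllipticWb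
  exact FA.JugendtraumField.red_smul F P.exists_fixed.choose hS

end degreeOne

/-- A multiplier maps the kernel of reduction into itself. -/
theorem red_mulPt_of_red (Q : IQF K) (h2 : (2 : 𝓞 K) ∉ P.v.asIdeal) (a : 𝓞 K) {S : D.Pt}
    (hS : P.red S = 0) : P.red (D.mulPt a S) = 0 := by
  obtain ⟨g, hg, -⟩ := P.descends Q h2 a
  rw [← hg, hS, map_zero]

end CMPlace

/-- The Frobenius element of a split place of degree one prime to six and to the discriminant. -/
structure IsFrobElt (D : CMDat K) (Q : IQF K) (v : HeightOneSpectrum (𝓞 K)) (π : 𝓞 K) : Prop where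
  prime : (Ideal.absNorm v.asIdeal).Prime
  Δ_notMem : D.W₀.Δ ∉ v.asIdeal
  six_notMem : (6 : 𝓞 K) ∉ v.asIdeal
  mem : π ∈ v.asIdeal
  conj_notMem : Q.conj π ∉ v.asIdeal
  mul_conj : π * Q.conj π = Ideal.absNorm v.asIdeal
  tr_eq : Q.tr π = frobTrace D.W₀ v

theorem emb_mem_cm (D : CMDat K) (Q : IQF K) :
    ∃ L : PeriodPair, L.g₂ = D.emb D.W.c₄ / 12 ∧ L.g₃ = D.emb D.W.c₆ / 216 ∧
      ∃ ω : ℂ, (∀ m : ℤ, ω ≠ m) ∧ (∀ l ∈ L.lattice, ω * l ∈ L.lattice) ∧
        ∃ x y : ℚ, (ω - (x : ℂ)) ^ 2 = (Q.d : ℂ) * (y : ℂ) ^ 2 := by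
  have hc4 : D.emb D.W.c₄ = (latCurve D.L).c₄ := by
    rw [← D.hL]
    simp only [WeierstrassCurve.baseChange, map_c₄]
    rfl
  have hc6 : D.emb D.W.c₆ = (latCurve D.L).c₆ := by
    rw [← D.hL]
    simp only [WeierstrassCurve.baseChange, map_c₆]
    rfl
  have hint : IsIntegral ℤ Q.s :=
    IsIntegral.of_pow two_pos (by rw [Q.hs]; exact isIntegral_algebraMap (x := Q.d))
  refine ⟨D.L, ?_, ?_, D.emb Q.s, fun m hm => ?_,
    fun l hl => D.stable ⟨Q.s, hint⟩ hl, 0, 1, ?_⟩
  · rw [hc4]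
    simp [latCurve, WeierstrassCurve.c₄, WeierstrassCurve.b₂, WeierstrassCurve.b₄]
    ring
  · rw [hc6]
    simp [latCurve, WeierstrassCurve.c₆, WeierstrassCurve.b₂, WeierstrassCurve.b₄,
      WeierstrassCurve.b₆]
    ring
  · have h := congrArg D.emb Q.hs
    rw [map_pow, hm, map_intCast] at h
    norm_cast at h
    nlinarith [Q.hd0, sq_nonneg m]
  · rw [Rat.cast_zero, Rat.cast_one, sub_zero, ← map_pow, Q.hs, map_intCast]
    ring

/-- **The Frobenius element exists.** -/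
theorem exists_isFrobElt (D : CMDat K) (Q : IQF K) {v : HeightOneSpectrum (𝓞 K)}
    (hp : (Ideal.absNorm v.asIdeal).Prime) (hΔ : D.W₀.Δ ∉ v.asIdeal)
    (h6 : (6 : 𝓞 K) ∉ v.asIdeal) (hsplit : ∃ x ∈ v.asIdeal, Q.conj x ∉ v.asIdeal) :
    ∃ π, IsFrobElt D Q v π := by
  obtain ⟨b, hb⟩ := FA.JugendtraumField.frobTrace_normEquation D.W₀ D.emb Q.hd
    (emb_mem_cm D Q) Q.hs hΔ
  obtain ⟨π, htr, hmul, -⟩ := Q.exists_trace_norm hb
  obtain ⟨x, hx, hx'⟩ := hsplit
  have key : ∀ z : 𝓞 K, v.asIdeal = Ideal.span {z} → Q.conj z ∉ v.asIdeal := fun z hz hzc => by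
    rw [hz, Ideal.mem_span_singleton] at hx
    obtain ⟨y, rfl⟩ := hx
    rw [map_mul] at hx'
    exact hx' (Ideal.mul_mem_right _ _ hzc)
  rcases Q.eq_span_or hp rfl hmul with h | h
  · exact ⟨π, hp, hΔ, h6, h ▸ Ideal.mem_span_singleton_self _, key π h, hmul, htr⟩
  · refine ⟨Q.conj π, hp, hΔ, h6, h ▸ Ideal.mem_span_singleton_self _, key _ h, ?_, ?_⟩
    · rw [Q.conj_conj, mul_comm, hmul]
    · rw [← htr, IQF.tr, IQF.tr, Q.conj_conj, add_comm]

namespace IsFrobElt

variable {Q : IQF K} {v : HeightOneSpectrum (𝓞 K)} {π : 𝓞 K} (h : IsFrobElt D Q v π)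
include h

theorem two_notMem : (2 : 𝓞 K) ∉ v.asIdeal := fun e => h.six_notMem (by
  rw [show (6 : 𝓞 K) = 2 * 3 by norm_num]; exact Ideal.mul_mem_right _ _ e)

theorem three_notMem : (3 : 𝓞 K) ∉ v.asIdeal := fun e => h.six_notMem (by
  rw [show (6 : 𝓞 K) = 2 * 3 by norm_num]; exact Ideal.mul_mem_left _ _ e)

theorem natCast_mem_iff (m : ℕ) : (m : 𝓞 K) ∈ v.asIdeal ↔ Ideal.absNorm v.asIdeal ∣ m := by
  have := FA.EllipticUnits.intCast_mem_iff_dvd h.prime (rfl : Ideal.absNorm v.asIdeal = _) (m : ℤ)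
  rw [Int.cast_natCast, Int.natCast_dvd_natCast] at this
  exact this

theorem not_isUnit_conj : ¬ IsUnit (Q.conj π) := fun hu => by
  have e := Q.mul_conj π
  rw [h.mul_conj, ← Q.absNorm_conj, Ideal.span_singleton_eq_top.2 hu, Ideal.absNorm_top,
    Nat.cast_one] at e
  exact h.prime.ne_one (by exact_mod_cast e)

theorem span_eq : v.asIdeal = Ideal.span {π} := by
  rcases Q.eq_span_or h.prime rfl h.mul_conj with e | e
  · exact e
  · exact absurd (e ▸ Ideal.mem_span_singleton_self _) h.conj_notMem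

variable (P : CMPlace D) (hP : P.v = v)
include hP

/-- **`π̄` kills no point of the kernel of reduction.** -/
theorem eq_zero_of_conj {T : D.Pt} (hT : D.mulPt (Q.conj π) T = 0) (hred : P.red T = 0) :
    T = 0 := by
  by_contra hT0
  set c := Q.conj π
  have h1 : (1 : 𝓞 K) ∉ v.asIdeal := (Ideal.ne_top_iff_one _).1 v.isPrime.ne_top
  have hdiff : ∀ x y : 𝓞 K, c + x ∈ v.asIdeal → c + y ∈ v.asIdeal → x - y ∈ v.asIdeal :=
    fun x y hx hy => by simpa using sub_mem hx hy
  obtain ⟨j, hj, hcj, hc2j⟩ : ∃ j : ℕ, (j : 𝓞 K) ∉ v.asIdeal ∧ c + j ∉ v.asIdeal ∧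
      c + 2 * j ∉ v.asIdeal := by
    by_cases e1 : c + 1 ∈ v.asIdeal
    · refine ⟨2, by exact_mod_cast h.two_notMem, fun e => ?_, fun e => ?_⟩
      · exact h1 (by have := hdiff _ _ (by exact_mod_cast e) e1; norm_num at this; exact this)
      · exact h.three_notMem (by have := hdiff _ _ e e1; norm_num at this; exact this)
    by_cases e2 : c + 2 ∈ v.asIdeal
    · refine ⟨3, by exact_mod_cast h.three_notMem, fun e => ?_, fun e => ?_⟩
      · exact h1 (by have := hdiff _ _ (by exact_mod_cast e) e2; norm_num at this; exact this)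
      · have h4 := hdiff _ _ e e2
        norm_num at h4
        rw [show (4 : 𝓞 K) = 2 * 2 by norm_num] at h4
        exact h.two_notMem ((v.isPrime.mem_or_mem h4).elim id id)
    exact ⟨1, by simpa using h1, by simpa using e1, by simpa using e2⟩
  subst hP
  have ha : P.UnitMul (c + j) := by
    refine ⟨Ideal.absNorm (Ideal.span {c + j}), ?_,
      Ideal.mem_span_singleton.1 (Ideal.absNorm_mem _)⟩
    rw [← Q.mul_conj, map_add, map_natCast, Q.conj_conj]
    intro e
    rcases P.v.isPrime.mem_or_mem e with e | e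
    · exact hcj e
    · exact hj (by simpa using sub_mem e h.mem)
  obtain ⟨hne, hb, hred'⟩ := ha.e1 hred hT0
  obtain ⟨-, hb', -⟩ := (CMPlace.UnitMul.natCast (P := P) hj).e1 hred hT0
  have e : D.mulPt (c + j) T = D.mulPt (j : 𝓞 K) T := by rw [D.mulPt_add, hT, zero_add]
  have hbig := P.one_lt_xP hred' hne
  rw [e] at hb hbig
  have hd := P.R.valuation.map_sub_le hb hb'
  rw [sub_sub_sub_cancel_right, ← mul_sub] at hd
  have h2 : algebraMap K Kb ((c + j : 𝓞 K) : K) ^ 2 - algebraMap K Kb ((j : 𝓞 K) : K) ^ 2 =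
      algebraMap K Kb ((c * (c + 2 * j) : 𝓞 K) : K) := by
    simp only [map_add, map_mul, map_ofNat, map_natCast]
    ring
  rw [h2, map_mul, P.coe_eq_one fun e => (P.v.isPrime.mem_or_mem e).elim h.conj_notMem hc2j,
    mul_one] at hd
  exact absurd hd (not_le.2 hbig)

/-- **The `p`-power map is the reduction of `π`.** -/
theorem red_mulPt [Fact P.p.Prime] (S : D.Pt) :
    P.red (D.mulPt π S) = P.qMap (P.red S) := by
  subst hP
  have h2 := h.two_notMem
  -- infinitely many inert primes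
  set A : Set ℕ := {ℓ | ℓ.Prime ∧ P.p < ℓ ∧ ¬ IsSquare (Q.d : ZMod ℓ)}
  have hA : A.Infinite := Set.infinite_of_forall_exists_gt fun N => by
    obtain ⟨ℓ, hℓ, hN, hns⟩ := Q.exists_inert (max N P.p)
    exact ⟨ℓ, ⟨hℓ, (le_max_right _ _).trans_lt hN, hns⟩, (le_max_left _ _).trans_lt hN⟩
  have hℓv : ∀ ℓ ∈ A, (ℓ : 𝓞 K) ∉ P.v.asIdeal := fun ℓ hℓ hm => by
    rw [h.natCast_mem_iff] at hm
    have := (Nat.prime_dvd_prime_iff_eq h.prime hℓ.1).1 hm
    exact absurd hℓ.2.1 (by show ¬ Ideal.absNorm P.v.asIdeal < ℓ; omega)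
  let T : ℕ → D.Pt := fun ℓ => D.tor ((1 : K) / ℓ)
  have hT : ∀ ℓ : ℕ, ℓ ≠ 0 → ℓ • T ℓ = 0 := fun ℓ hℓ => by
    rw [← map_nsmul, nsmul_eq_mul, mul_one_div, div_self (Nat.cast_ne_zero.2 hℓ)]
    exact D.tor_eq_zero_iff.2 ⟨1, by simp⟩
  -- on each of them it is one of the two
  have hcase : ∀ ℓ ∈ A, P.qMap (P.red (T ℓ)) = P.red (D.mulPt π (T ℓ)) ∨
      P.qMap (P.red (T ℓ)) = P.red (D.mulPt (Q.conj π) (T ℓ)) := fun ℓ hℓ => by
    have hv := hℓv ℓ hℓ
    have hℓ0 := hℓ.1.ne_zero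
    obtain ⟨σ, hσ⟩ := P.exists_frobCoord hv
    have hσT : ℓ • (σ • T ℓ) = 0 := by rw [← smul_nsmul', hT ℓ hℓ0, smul_zero]
    obtain ⟨c, hc⟩ := D.exists_tor_eq hℓ0 hσT
    have hc' : σ • T ℓ = D.mulPt c (T ℓ) := by
      rw [hc, D.mulPt_tor, mul_one_div]
    have e1 : P.qMap (P.red (T ℓ)) = P.red (D.mulPt c (T ℓ)) := by
      rw [← hc', P.red_smul hv hσ (hT ℓ hℓ0)]
    have e2 : P.qMap (P.qMap (P.red (T ℓ))) = P.red (D.mulPt (c * c) (T ℓ)) := by
      rw [← P.red_smul hv hσ (hT ℓ hℓ0), ← P.red_smul hv hσ hσT, hc', ← D.mulPt_smul, hc',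
        ← D.mulPt_mul]
    have hq := P.qMap_quadratic (P.red (T ℓ))
    rw [e2, e1] at hq
    have hq' : P.red (D.mulPt (c * c - (frobTrace D.W₀ P.v : 𝓞 K) * c + ((P.p : ℤ) : 𝓞 K))
        (T ℓ)) = 0 := by
      rw [D.mulPt_add, D.mulPt_sub, D.mulPt_mul (frobTrace D.W₀ P.v : 𝓞 K) c, D.mulPt_intCast,
        D.mulPt_intCast, map_add, map_sub, map_zsmul, map_zsmul]
      exact hq
    have h0 := P.red_injective hv (by rw [← map_nsmul, hT ℓ hℓ0, map_zero]) hq'
    rw [D.mulPt_tor, mul_one_div] at h0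
    obtain ⟨a, ha⟩ := D.tor_eq_zero_iff.1 h0
    have hmem : (c - π) * (c - Q.conj π) ∈ Ideal.span {(ℓ : 𝓞 K)} :=
      Ideal.mem_span_singleton.2 ⟨a, RingOfIntegers.coe_injective (by
        have hx : (c - π) * (c - Q.conj π) =
            c * c - (frobTrace D.W₀ P.v : 𝓞 K) * c + ((P.p : ℤ) : 𝓞 K) := by
          rw [← h.tr_eq, Int.cast_natCast, ← h.mul_conj, IQF.tr]
          ring
        rw [hx, map_mul, map_natCast]
        rw [div_eq_iff (Nat.cast_ne_zero.2 hℓ0)] at ha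
        exact ha.trans (mul_comm _ _))⟩
    have hgo : ∀ x : 𝓞 K, c - x ∈ Ideal.span {(ℓ : 𝓞 K)} →
        P.qMap (P.red (T ℓ)) = P.red (D.mulPt x (T ℓ)) := fun x hx => by
      obtain ⟨b, hb⟩ := Ideal.mem_span_singleton.1 hx
      rw [e1, show c = x + b * (ℓ : 𝓞 K) by linear_combination hb, D.mulPt_add, D.mulPt_mul,
        D.mulPt_natCast, hT ℓ hℓ0, map_zero, add_zero]
    exact ((Q.isMaximal_span hℓ.1 hℓ.2.2).isPrime.mem_or_mem hmem).imp (hgo _) (hgo _)
  -- so one of the two agrees everywhere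
  have hall : ∀ x : 𝓞 K, {ℓ ∈ A | P.qMap (P.red (T ℓ)) = P.red (D.mulPt x (T ℓ))}.Infinite →
      ∀ S : D.Pt, P.qMap (P.red S) = P.red (D.mulPt x S) := fun x hx S => by
    obtain ⟨g, hg, Z, hZ⟩ := P.descends Q h2 x
    obtain ⟨Z', hZ'⟩ := P.exists_spec_qMap
    have hinj : Set.InjOn (fun ℓ => P.red (T ℓ))
        {ℓ ∈ A | P.qMap (P.red (T ℓ)) = P.red (D.mulPt x (T ℓ))} := fun l hl m hm e => by
      by_contra hne
      simp only at e
      have hml : m • P.red (T l) = 0 := by rw [e, ← map_nsmul, hT m hm.1.1.ne_zero, map_zero]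
      rw [← map_nsmul] at hml
      have h0 := P.red_injective (hℓv l hl.1)
        (by rw [← mul_nsmul', mul_comm, mul_nsmul', hT l hl.1.1.ne_zero, nsmul_zero]) hml
      rw [← map_nsmul, nsmul_eq_mul, mul_one_div] at h0
      obtain ⟨a, ha⟩ := D.tor_eq_zero_iff.1 h0
      rw [div_eq_iff (Nat.cast_ne_zero.2 hl.1.1.ne_zero)] at ha
      have hd : (l : ℕ) * l ∣ m * m := by
        have e' : Ideal.absNorm (Ideal.span {(m : 𝓞 K)}) =
            Ideal.absNorm (Ideal.span {a}) * Ideal.absNorm (Ideal.span {(l : 𝓞 K)}) := by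
          rw [← map_mul, Ideal.span_singleton_mul_span_singleton]
          congr 2
          refine congrArg (fun z => ({z} : Set (𝓞 K))) (RingOfIntegers.coe_injective ?_)
          rw [map_natCast, map_mul, map_natCast]
          exact ha
        rw [← Q.absNorm_span_natCast l, ← Q.absNorm_span_natCast m, e']
        exact dvd_mul_left _ _
      exact hne ((Nat.prime_dvd_prime_iff_eq hl.1.1 hm.1.1).1
        ((hl.1.1.dvd_mul.1 ((dvd_mul_right _ _).trans hd)).elim id id))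
    have hker : {R | (P.qMap - g) R = 0}.Infinite := by
      refine (hx.image hinj).mono ?_
      rintro _ ⟨ℓ, hℓ, rfl⟩
      show P.qMap (P.red (T ℓ)) - g (P.red (T ℓ)) = 0
      rw [hg, hℓ.2, sub_self]
    have h0 := DFunLike.congr_fun (eq_zero_of_infinite_ker P.Wb (hZ'.sub P.Wb hZ) hker) (P.red S)
    rw [AddMonoidHom.sub_apply, AddMonoidHom.zero_apply, hg, sub_eq_zero] at h0
    exact h0
  rcases (Set.infinite_union.1 (hA.mono (fun ℓ hℓ => by
      rcases hcase ℓ hℓ with e | e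
      · exact Or.inl ⟨hℓ, e⟩
      · exact Or.inr ⟨hℓ, e⟩) :
      ({ℓ ∈ A | P.qMap (P.red (T ℓ)) = P.red (D.mulPt π (T ℓ))} ∪
        {ℓ ∈ A | P.qMap (P.red (T ℓ)) = P.red (D.mulPt (Q.conj π) (T ℓ))}).Infinite)) with hi | hi
  · exact (hall π hi S).symm
  · exfalso
    set U := D.tor (((Q.conj π : 𝓞 K) : K))⁻¹
    have hc0 : ((Q.conj π : 𝓞 K) : K) ≠ 0 :=
      RingOfIntegers.coe_ne_zero_iff.2 fun e => h.conj_notMem (e ▸ zero_mem _)
    have hU : D.mulPt (Q.conj π) U = 0 := by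
      rw [D.mulPt_tor, mul_inv_cancel₀ hc0]
      exact D.tor_eq_zero_iff.2 ⟨1, by simp⟩
    have e := hall _ hi U
    rw [hU, map_zero, map_eq_zero_iff _ P.qMap_injective] at e
    obtain ⟨a, ha⟩ := D.tor_eq_zero_iff.1 (h.eq_zero_of_conj P rfl hU e)
    refine h.not_isUnit_conj (IsUnit.of_mul_eq_one a (RingOfIntegers.coe_injective ?_))
    rw [map_mul, map_one]
    show _ * (a : K) = 1
    rw [← ha, mul_inv_cancel₀ hc0]

/-- **Frobenius is `π` on the torsion prime to the place.** -/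
theorem smul_eq [Fact P.p.Prime] {σ : Kb ≃ₐ[K] Kb} {N : ℕ} (hN : (N : 𝓞 K) ∉ v.asIdeal)
    (hσ : P.FrobCoord σ N) {S : D.Pt} (hS : N • S = 0) : σ • S = D.mulPt π S := by
  subst hP
  refine sub_eq_zero.1 (P.red_injective hN ?_ ?_)
  · rw [nsmul_sub, ← smul_nsmul', ← map_nsmul, hS, smul_zero, map_zero, sub_zero]
  · rw [map_sub, P.red_smul hN hσ hS, h.red_mulPt P rfl, sub_self]

/-- **The `π`-power torsion lies in the kernel of reduction.** -/
theorem red_eq_zero_of_pow {n : ℕ} {S : D.Pt} (hS : D.mulPt (π ^ n) S = 0) : P.red S = 0 := by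
  haveI : Fact P.p.Prime := ⟨by rw [CMPlace.p, hP]; exact h.prime⟩
  induction n generalizing S with
  | zero => rw [pow_zero, D.mulPt_one] at hS; rw [hS, map_zero]
  | succ n ih =>
    rw [pow_succ, D.mulPt_mul] at hS
    have h0 := ih hS
    rw [h.red_mulPt P hP] at h0
    exact (map_eq_zero_iff _ P.qMap_injective).1 h0

/-- **The `π̄`-power torsion meets the kernel of reduction in zero.** -/
theorem eq_zero_of_conj_pow {n : ℕ} {S : D.Pt} (hS : D.mulPt (Q.conj π ^ n) S = 0)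
    (hred : P.red S = 0) : S = 0 := by
  induction n generalizing S with
  | zero => rwa [pow_zero, D.mulPt_one] at hS
  | succ n ih =>
    rw [pow_succ, D.mulPt_mul] at hS
    exact h.eq_zero_of_conj P hP
      (ih hS (P.red_mulPt_of_red Q (by rw [hP]; exact h.two_notMem) _ hred)) hred

end IsFrobElt

/-- **Frobenius at any Frobenius place over the place.** -/
theorem IsFrobElt.smul_eq_of_frobPlace {Q : IQF K} {v : HeightOneSpectrum (𝓞 K)} {π : 𝓞 K}
    (h : IsFrobElt D Q v π) {σ : Kb ≃ₐ[K] Kb} {N : ℕ} (F : FrobPlace D.W σ N)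
    (hq : F.l ^ F.n = Ideal.absNorm v.asIdeal)
    (hK : ∀ x : 𝓞 K, x ∈ v.asIdeal → F.A.valuation (algebraMap K Kb x) < 1) {S : D.Pt}
    (hS : N • S = 0) : σ • S = D.mulPt π S := by
  let P := CMPlace.ofFrobPlace F v h.Δ_notMem hK
  have : Fact P.p.Prime := ⟨h.prime⟩
  have hN : (N : 𝓞 K) ∉ v.asIdeal := fun e => by
    have h' := hK _ e
    rw [show algebraMap K Kb ((N : 𝓞 K) : K) = (N : Kb) by simp, F.level] at h'
    exact lt_irrefl _ h'
  refine h.smul_eq P rfl hN ⟨fun R hR => ?_, fun μ hμ => ?_⟩ hS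
  · show F.A.valuation (σ (xP R) - xP R ^ Ideal.absNorm v.asIdeal) < 1 ∧
      F.A.valuation (σ (yP R) - yP R ^ Ideal.absNorm v.asIdeal) < 1
    rw [← hq]
    exact F.congr_coord R hR
  · show σ μ = μ ^ Ideal.absNorm v.asIdeal
    rw [← hq]
    exact F.congr_root μ hμ

end FA.CoatesWiles

end
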