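import Fermat.Agent.CoatesWiles.DegreeOne
import Fermat.Agent.CoatesWiles.Frobenius
import Fermat.Agent.DeuringCM.LSeries

/-!
# The character of the curve and the group of its generators

Deuring's character `ψ` is periodic modulo a natural number `M` in the form `ψ ((x)) / x`. Every
ideal prime to `M` has a generator `z` with `ψ ((z)) = z`, since its class contains a place of
degree one where `ψ` is the Frobenius element; and Galois acts on the points killed by `M` through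
these `z`.
-/

set_option autoImplicit false
set_option linter.style.haveILetI false
set_option linter.unusedSectionVars false

noncomputable section

open WeierstrassCurve NumberField IsDedekindDomain FA.IsogenyNF
open FA.TraceNF (frobTrace levelField)
open FA.DeuringCM (IQF)
open FA.AlgHecke (IsAlgChar typeVal)
open FA.Hecke (IsRayElt rayClass rayClass_eq_iff)
open FA.Ext (primeIdeal)
open scoped WeierstrassCurve.Affine nonZeroDivisors Classical ComplexConjugate

namespace FA.CoatesWiles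

variable {K : Type} [Field K] [NumberField K] {D : CMDat K} {Q : IQF K}

/-- The character, periodic modulo `M`. -/
structure Grossen (D : CMDat K) (Q : IQF K) where
  /-- The modulus. -/
  M : ℕ
  /-- The character. -/
  ψ : Ideal (𝓞 K) →* ℂ
  M_ne : M ≠ 0
  six_dvd : 6 ∣ M
  coprime_M : ∀ v : HeightOneSpectrum (𝓞 K), (M : 𝓞 K) ∉ v.asIdeal →
    D.W₀.Δ ∉ v.asIdeal ∧ (6 : 𝓞 K) ∉ v.asIdeal ∧ ((2 * Q.d : ℤ) : 𝓞 K) ∉ v.asIdeal
  algChar : IsAlgChar (Ideal.span {(M : 𝓞 K)})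
    (fun σ : K →+* ℂ => if σ Q.s = D.emb Q.s then (1 : ℤ) else 0) ψ
  not_normPower : ¬ FA.AlgHecke.IsNormPower ψ
  periodic : ∀ x y : 𝓞 K, IsCoprime x (M : 𝓞 K) → x - y ∈ Ideal.span {(M : 𝓞 K)} →
    ψ (Ideal.span {x}) * D.emb (y : K) = ψ (Ideal.span {y}) * D.emb (x : K)
  frob : ∀ (v : HeightOneSpectrum (𝓞 K)) (π : 𝓞 K), IsFrobElt D Q v π →
    (M : 𝓞 K) ∉ v.asIdeal → ψ v.asIdeal = D.emb (π : K)

theorem sqrt_integral (Q : IQF K) : IsIntegral ℤ Q.s :=
  IsIntegral.of_pow two_pos (by rw [Q.hs]; exact isIntegral_algebraMap (x := Q.d))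

theorem emb_eq_of_sqrt (Q : IQF K) {σ τ : K →+* ℂ} (h : σ Q.s = τ Q.s) : σ = τ := by
  refine IsLocalization.ringHom_ext (nonZeroDivisors (𝓞 K)) (RingHom.ext fun x => ?_)
  obtain ⟨A, B, N, h2, -⟩ := Q.exists_coord x
  have e1 := congrArg σ h2
  have e2 := congrArg τ h2
  simp only [map_mul, map_add, map_intCast, map_ofNat, h] at e1 e2
  exact mul_left_cancel₀ (two_ne_zero (α := ℂ)) (e1.trans e2.symm)

theorem typeVal_sqrt (Q : IQF K) (e : K →+* ℂ) (x : K) :
    typeVal (fun σ : K →+* ℂ => if σ Q.s = e Q.s then (1 : ℤ) else 0) x = e x := by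
  rw [typeVal, Finset.prod_eq_single e
    (fun σ _ hσ => by rw [if_neg fun h => hσ (emb_eq_of_sqrt Q h), zpow_zero])
    (fun h => absurd (Finset.mem_univ e) h), if_pos rfl, zpow_one]

theorem isRayElt_of (Q : IQF K) {𝔪 : Ideal (𝓞 K)} {x : 𝓞 K} (h0 : x ≠ 0) (h : x - 1 ∈ 𝔪) :
    IsRayElt 𝔪 x := by
  refine ⟨h0, h, fun φ => ?_⟩
  have h' := congrArg φ Q.hs
  rw [map_pow, map_intCast] at h'
  have : (Q.d : ℝ) < 0 := Int.cast_lt_zero.2 Q.hd0
  nlinarith [sq_nonneg (φ Q.s)]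

theorem exists_mul_sub_one {m x : 𝓞 K} (h : IsCoprime x m) :
    ∃ z, IsCoprime z m ∧ x * z - 1 ∈ Ideal.span {m} := by
  obtain ⟨z, k, e⟩ := h
  exact ⟨z, ⟨x, k, by linear_combination e⟩, Ideal.mem_span_singleton.2 ⟨-k, by linear_combination e⟩⟩

theorem sup_span_eq_top {x m : 𝓞 K} (h : IsCoprime x m) :
    Ideal.span {x} ⊔ Ideal.span {m} = ⊤ :=
  Ideal.isCoprime_iff_sup_eq.1 (Ideal.isCoprime_span_singleton_iff ..|>.2 h)

/-- **The character exists.** -/
theorem exists_grossen (D : CMDat K) (Q : IQF K) : Nonempty (Grossen D Q) := by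
  obtain ⟨𝔣, f₁, hf₁, hne, -, hv⟩ :=
    FA.DeuringCM.exists_hecke_char D.W₀ D.emb Q.hd Q.hd0 Q.hs (emb_mem_cm D Q)
  have hΔ0 : D.W₀.Δ ≠ 0 := fun e => D.W.isUnit_Δ.ne_zero (by
    show (D.W₀.map (algebraMap (𝓞 K) K)).Δ = 0
    rw [map_Δ, e, map_zero])
  set M : ℕ := 6 * Ideal.absNorm 𝔣 * Ideal.absNorm (Ideal.span {D.W₀.Δ}) * (2 * Q.d).natAbs
  have hM : M ≠ 0 := by
    have hd := Q.hd0
    refine mul_ne_zero (mul_ne_zero (mul_ne_zero (by norm_num) ?_) ?_) (by omega)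
    · rw [Ne, Ideal.absNorm_eq_zero_iff]; exact hf₁.ne_bot
    · rw [Ne, Ideal.absNorm_eq_zero_iff, Ideal.span_singleton_eq_bot]; exact hΔ0
  have hmem : ∀ {I : Ideal (𝓞 K)} {m : ℕ}, (m : 𝓞 K) ∈ I → m ∣ M → (M : 𝓞 K) ∈ I := fun {I m} h hd => by
    obtain ⟨c, hc⟩ := hd
    rw [hc, Nat.cast_mul]
    exact I.mul_mem_right _ h
  have hle : Ideal.span {(M : 𝓞 K)} ≤ 𝔣 := (Ideal.span_singleton_le_iff_mem _).2
    (hmem (Ideal.absNorm_mem 𝔣) (Dvd.intro_left 6 rfl |>.mul_right _ |>.mul_right _))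
  have hdM : (2 * Q.d).natAbs ∣ M := dvd_mul_left _ _
  have hΔM : Ideal.absNorm (Ideal.span {D.W₀.Δ}) ∣ M := (dvd_mul_left _ _).mul_right _
  have h6M : 6 ∣ M := ((dvd_mul_right _ _).mul_right _).mul_right _
  have hcop : ∀ v : HeightOneSpectrum (𝓞 K), (M : 𝓞 K) ∉ v.asIdeal →
      D.W₀.Δ ∉ v.asIdeal ∧ (6 : 𝓞 K) ∉ v.asIdeal ∧ ((2 * Q.d : ℤ) : 𝓞 K) ∉ v.asIdeal :=
    fun v hMv => by
    refine ⟨fun h => hMv (hmem ((Ideal.span_singleton_le_iff_mem _).2 h (Ideal.absNorm_mem _)) hΔM),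
      fun h => hMv (hmem (m := 6) (by exact_mod_cast h) h6M), fun h => hMv (hmem ?_ hdM)⟩
    rcases Int.natAbs_eq (2 * Q.d) with e | e
    · rw [← Int.cast_natCast, ← e]; exact h
    · rw [← Int.cast_natCast, show ((2 * Q.d).natAbs : ℤ) = -(2 * Q.d) by omega, Int.cast_neg]
      exact neg_mem h
  let f : Ideal (𝓞 K) →* ℂ :=
    { toFun := fun I => if I ⊔ Ideal.span {(M : 𝓞 K)} = ⊤ then f₁ I else 0
      map_one' := by rw [if_pos (by simp [Ideal.one_eq_top]), _root_.map_one]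
      map_mul' := fun I J => by
        by_cases hI : I ⊔ Ideal.span {(M : 𝓞 K)} = ⊤
        · by_cases hJ : J ⊔ Ideal.span {(M : 𝓞 K)} = ⊤
          · rw [if_pos hI, if_pos hJ, if_pos (FA.Hecke.mul_sup_eq_top.2 ⟨hI, hJ⟩), _root_.map_mul]
          · rw [if_neg hJ, if_neg fun h => hJ (FA.Hecke.mul_sup_eq_top.1 h).2, mul_zero]
        · rw [if_neg hI, if_neg fun h => hI (FA.Hecke.mul_sup_eq_top.1 h).1, zero_mul] }
  have hval : ∀ {I : Ideal (𝓞 K)}, I ⊔ Ideal.span {(M : 𝓞 K)} = ⊤ → f I = f₁ I :=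
    fun h => if_pos h
  have hM0 : Ideal.span {(M : 𝓞 K)} ≠ ⊥ := by simp [hM]
  have hf : IsAlgChar (Ideal.span {(M : 𝓞 K)})
      (fun σ : K →+* ℂ => if σ Q.s = D.emb Q.s then (1 : ℤ) else 0) f := by
    refine ⟨hM0, fun I hI => ?_, fun x hx => ?_⟩
    · show (if I ⊔ Ideal.span {(M : 𝓞 K)} = ⊤ then f₁ I else 0) ≠ 0 ↔ _
      split_ifs with h
      · exact iff_of_true ((hf₁.ne_zero_iff I hI).2 (FA.DeuringCM.coprime_mono hle h)) h
      · exact iff_of_false (fun h' => h' rfl) h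
    · rw [show f (Ideal.span {x}) = f₁ (Ideal.span {x}) from hval (FA.DeuringCM.rayIdeal hx).2]
      exact hf₁.ray x (isRayElt_of Q hx.1 (hle hx.2.1))
  have hnf : ¬ FA.AlgHecke.IsNormPower f := by
    rintro ⟨a, ha⟩
    obtain ⟨v, hvc, hvS, hp, -⟩ := FA.DeuringCM.exists_degree_one_class hM0 1
      (S := {v : HeightOneSpectrum (𝓞 K) | D.W₀.Δ ∈ v.asIdeal})
      ((Ideal.finite_factors (show Ideal.span {D.W₀.Δ} ≠ ⊥ by
        simpa using hΔ0)).subset fun u hu => Ideal.dvd_span_singleton.2 hu)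
    obtain ⟨-, -, hn⟩ := hv v hvS
    have e := ha v.asIdeal v.ne_bot ((hf.ne_zero_iff _ v.ne_bot).2 hvc)
    rw [hval hvc] at e
    rw [e, map_zpow₀, map_natCast, ← zpow_add₀ (Nat.cast_ne_zero.mpr hp.ne_zero)] at hn
    have h1 : ((Ideal.absNorm v.asIdeal : ℕ) : ℝ) ^ (a + a) =
        ((Ideal.absNorm v.asIdeal : ℕ) : ℝ) ^ (1 : ℤ) := by
      rw [zpow_one]
      apply Complex.ofReal_injective
      push_cast
      exact hn
    have := (zpow_right_injective₀ (by exact_mod_cast hp.pos) (by exact_mod_cast hp.ne_one)) h1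
    omega
  have hray : ∀ x : 𝓞 K, x ≠ 0 → x - 1 ∈ Ideal.span {(M : 𝓞 K)} →
      f (Ideal.span {x}) = D.emb (x : K) := fun x h0 h1 => by
    rw [hf.ray x (isRayElt_of Q h0 h1)]
    exact typeVal_sqrt Q D.emb x
  have hnu : ¬ IsUnit (M : 𝓞 K) := fun hu => by
    have h1 := Q.mul_conj (M : 𝓞 K)
    rw [map_natCast, Ideal.span_singleton_eq_top.2 hu, Ideal.absNorm_top] at h1
    have h2 : M * M = 1 := by exact_mod_cast h1
    have h3 : M = 1 := Nat.eq_one_of_mul_eq_one_right h2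
    have := Nat.le_of_dvd (by omega) h6M
    omega
  have hne0 : ∀ x : 𝓞 K, IsCoprime x (M : 𝓞 K) → x ≠ 0 := fun x hx e => by
    subst e
    exact hnu (isCoprime_zero_left.1 hx)
  refine ⟨⟨M, f, hM, h6M, hcop, hf, hnf, fun x y hx hxy => ?_, fun v π hπ hMv => ?_⟩⟩
  · obtain ⟨z, hzc, hz⟩ := exists_mul_sub_one hx
    have hy : IsCoprime y (M : 𝓞 K) := by
      obtain ⟨k, hk⟩ := Ideal.mem_span_singleton.1 hxy
      rw [show y = x + (M : 𝓞 K) * -k by linear_combination -hk]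
      exact hx.add_mul_left_left (-k)
    have hyz : y * z - 1 ∈ Ideal.span {(M : 𝓞 K)} := by
      rw [show y * z - 1 = (x * z - 1) - (x - y) * z by ring]
      exact sub_mem hz (Ideal.mul_mem_right _ _ hxy)
    have e1 := hray _ (mul_ne_zero (hne0 x hx) (hne0 z hzc)) hz
    have e2 := hray _ (mul_ne_zero (hne0 y hy) (hne0 z hzc)) hyz
    rw [← Ideal.span_singleton_mul_span_singleton, map_mul] at e1 e2
    simp only [map_mul] at e1 e2
    refine mul_left_cancel₀ ((hf.ne_zero_iff _ (by simpa using hne0 z hzc)).2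
      (sup_span_eq_top hzc)) ?_
    linear_combination D.emb (y : K) * e1 - D.emb (x : K) * e2
  · obtain ⟨hvf, hs, hp⟩ := hv v hπ.Δ_notMem
    have htopv : v.asIdeal ⊔ Ideal.span {(M : 𝓞 K)} = ⊤ := by
      by_contra h
      exact hMv (le_sup_right.trans (v.isMaximal.eq_of_le h le_sup_left).ge
        (Ideal.mem_span_singleton_self _))
    rw [← hval htopv] at hs hp
    set p := Ideal.absNorm v.asIdeal
    have htr : D.emb (π : K) + D.emb ((Q.conj π : 𝓞 K) : K) = (frobTrace D.W₀ v : ℂ) := by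
      have h := congrArg (fun t : 𝓞 K => D.emb (t : K)) hπ.tr_eq
      simp only [IQF.tr, map_add, map_intCast] at h
      exact h
    have hnm : D.emb (π : K) * D.emb ((Q.conj π : 𝓞 K) : K) = (p : ℂ) := by
      have h := congrArg (fun t : 𝓞 K => D.emb (t : K)) hπ.mul_conj
      simp only [map_mul, map_natCast] at h
      exact h
    have hroot : (f v.asIdeal - D.emb (π : K)) *
        (f v.asIdeal - D.emb ((Q.conj π : 𝓞 K) : K)) = 0 := by
      linear_combination f v.asIdeal * (hs - htr) + hnm - hp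
    rcases mul_eq_zero.1 hroot with e | e
    · exact sub_eq_zero.1 e
    exfalso
    have e' := sub_eq_zero.1 e
    -- a power of `π` is congruent to one
    have : Finite (𝓞 K ⧸ Ideal.span {(M : 𝓞 K)}) := Ideal.finiteQuotientOfFreeOfNeBot _
      (by simp [hM])
    let _ := Fintype.ofFinite (𝓞 K ⧸ Ideal.span {(M : 𝓞 K)})
    have hu : IsUnit (Ideal.Quotient.mk (Ideal.span {(M : 𝓞 K)}) π) := by
      have htop : v.asIdeal ⊔ Ideal.span {(M : 𝓞 K)} = ⊤ := by
        by_contra h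
        exact hMv (le_sup_right.trans (v.isMaximal.eq_of_le h le_sup_left).ge
          (Ideal.mem_span_singleton_self _))
      rw [hπ.span_eq, Ideal.eq_top_iff_one, Ideal.mem_span_singleton_sup] at htop
      obtain ⟨a, b, hb, e⟩ := htop
      refine IsUnit.of_mul_eq_one (Ideal.Quotient.mk _ a) ?_
      rw [← map_mul, ← map_one (Ideal.Quotient.mk _), Ideal.Quotient.eq]
      rw [show π * a - 1 = -b by linear_combination e]
      exact neg_mem hb
    obtain ⟨u, hu⟩ := hu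
    set m := orderOf u
    have hm : 0 < m := orderOf_pos u
    have hπm : π ^ m - 1 ∈ Ideal.span {(M : 𝓞 K)} := by
      rw [← Ideal.Quotient.eq, map_pow, ← hu, ← Units.val_pow_eq_pow_val, pow_orderOf_eq_one,
        Units.val_one, map_one]
    have hπ0 : π ≠ 0 := fun h => by
      have h' := hπ.mul_conj
      rw [h, zero_mul] at h'
      exact hπ.prime.ne_zero (by exact_mod_cast h'.symm)
    have h1 := hray _ (pow_ne_zero m hπ0) hπm
    rw [← Ideal.span_singleton_pow, ← hπ.span_eq, map_pow, e', ← map_pow] at h1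
    have h2 : Q.conj π ^ m = π ^ m := RingOfIntegers.coe_injective (D.emb.injective (by
      simpa [map_pow] using h1))
    exact hπ.conj_notMem (v.isPrime.mem_of_pow_mem m (h2 ▸ Ideal.pow_mem_of_mem _ hπ.mem m hm))

namespace Grossen

variable (G : Grossen D Q)

/-- The chosen generators. -/
def InH (x : 𝓞 K) : Prop :=
  IsCoprime x (G.M : 𝓞 K) ∧ G.ψ (Ideal.span {x}) = D.emb (x : K)

theorem not_isUnit_M : ¬ IsUnit (G.M : 𝓞 K) := fun hu => by
  have h1 := Q.mul_conj (G.M : 𝓞 K)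
  rw [map_natCast, Ideal.span_singleton_eq_top.2 hu, Ideal.absNorm_top] at h1
  have h2 : G.M * G.M = 1 := by exact_mod_cast h1
  have h3 : G.M = 1 := Nat.eq_one_of_mul_eq_one_right h2
  have := Nat.le_of_dvd (by omega) G.six_dvd
  omega

theorem ne_zero_of_coprime {x : 𝓞 K} (hx : IsCoprime x (G.M : 𝓞 K)) : x ≠ 0 := fun e => by
  subst e
  exact G.not_isUnit_M (isCoprime_zero_left.1 hx)

theorem emb_ne_zero {x : 𝓞 K} (hx : IsCoprime x (G.M : 𝓞 K)) : D.emb (x : K) ≠ 0 :=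
  (map_ne_zero _).2 (RingOfIntegers.coe_ne_zero_iff.2 (G.ne_zero_of_coprime hx))

theorem inH_one : G.InH 1 :=
  ⟨isCoprime_one_left, by simp [Ideal.span_singleton_one, ← Ideal.one_eq_top]⟩

theorem InH.congr {x y : 𝓞 K} (h : G.InH x) (hxy : x - y ∈ Ideal.span {(G.M : 𝓞 K)}) :
    G.InH y := by
  have hy : IsCoprime y (G.M : 𝓞 K) := by
    obtain ⟨k, hk⟩ := Ideal.mem_span_singleton.1 hxy
    rw [show y = x + (G.M : 𝓞 K) * -k by linear_combination -hk]
    exact h.1.add_mul_left_left (-k)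
  refine ⟨hy, mul_right_cancel₀ (G.emb_ne_zero h.1) ?_⟩
  have e := G.periodic x y h.1 hxy
  rw [h.2] at e
  linear_combination -e

theorem InH.mul {x y : 𝓞 K} (hx : G.InH x) (hy : G.InH y) : G.InH (x * y) :=
  ⟨hx.1.mul_left hy.1, by
    rw [← Ideal.span_singleton_mul_span_singleton, _root_.map_mul, hx.2, hy.2]
    push_cast
    rw [_root_.map_mul]⟩

/-- The generator is unique. -/
theorem eq_of_span {x y : 𝓞 K} (hx : G.InH x) (hy : G.InH y)
    (h : Ideal.span {x} = Ideal.span {y}) : x = y :=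
  RingOfIntegers.coe_injective (D.emb.injective (hx.2.symm.trans (h ▸ hy.2)))

theorem frob_inH {v : HeightOneSpectrum (𝓞 K)} {π : 𝓞 K} (h : IsFrobElt D Q v π)
    (hv : (G.M : 𝓞 K) ∉ v.asIdeal) : G.InH π := by
  refine ⟨?_, by rw [← h.span_eq]; exact G.frob v π h hv⟩
  rw [← Ideal.isCoprime_span_singleton_iff, Ideal.isCoprime_iff_sup_eq, ← h.span_eq]
  by_contra h'
  exact hv (le_sup_right.trans (v.isMaximal.eq_of_le h' le_sup_left).ge
    (Ideal.mem_span_singleton_self _))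

/-- A place of degree one prime to the modulus is split. -/
theorem exists_frobElt {v : HeightOneSpectrum (𝓞 K)} (hp : (Ideal.absNorm v.asIdeal).Prime)
    (hv : (G.M : 𝓞 K) ∉ v.asIdeal) : ∃ π, IsFrobElt D Q v π := by
  obtain ⟨hΔ, h6, h2d⟩ := G.coprime_M v hv
  refine exists_isFrobElt D Q hp hΔ h6 ?_
  by_contra! hcon
  set p := Ideal.absNorm v.asIdeal
  haveI := Fact.mk hp
  haveI : CharP (𝓞 K ⧸ v.asIdeal) p := by
    haveI := v.isMaximal
    let _ := Ideal.Quotient.field v.asIdeal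
    refine (CharP.charP_iff_prime_eq_zero hp).2 ?_
    rw [← map_natCast (Ideal.Quotient.mk v.asIdeal), Ideal.Quotient.eq_zero_iff_mem]
    exact Ideal.absNorm_mem _
  haveI : Finite (𝓞 K ⧸ v.asIdeal) := Ideal.finiteQuotientOfFreeOfNeBot _ v.ne_bot
  obtain ⟨c', hc'⟩ := ((ZMod.castHom dvd_rfl (𝓞 K ⧸ v.asIdeal)).injective.bijective_of_nat_card_le
    (by rw [Nat.card_zmod]; exact (Ideal.absNorm_apply _).ge)).2
    (Ideal.Quotient.mk v.asIdeal ⟨Q.s, sqrt_integral Q⟩)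
  obtain ⟨c, rfl⟩ := ZMod.intCast_surjective c'
  rw [map_intCast, ← map_intCast (Ideal.Quotient.mk v.asIdeal)] at hc'
  replace hc' := Ideal.Quotient.eq.1 hc'
  set S : 𝓞 K := ⟨Q.s, sqrt_integral Q⟩
  have hconj : Q.conj S = -S := by
    refine RingOfIntegers.coe_injective (mul_left_cancel₀ (two_ne_zero (α := K)) ?_)
    rw [Q.coe_conj_s (x := S) (A := 0) (B := 2) (by
      show 2 * Q.s = _
      push_cast; ring)]
    push_cast
    show _ = 2 * -Q.s
    ring
  have h' := hcon _ hc'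
  rw [map_sub, map_intCast, hconj] at h'
  refine h2d ?_
  have hS2 : S * S = (Q.d : 𝓞 K) := RingOfIntegers.coe_injective (by
    rw [map_mul, map_intCast, ← sq]
    exact Q.hs)
  have h2S : (2 : 𝓞 K) * S ∈ v.asIdeal := by
    have := sub_mem h' hc'
    rw [show (c : 𝓞 K) - -S - ((c : 𝓞 K) - S) = 2 * S by ring] at this
    exact this
  have h3 := v.asIdeal.mul_mem_right S h2S
  rw [mul_assoc, hS2] at h3
  push_cast
  exact h3

/-- **Every ideal prime to the modulus has a generator among them.** -/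
theorem exists_gen {I : Ideal (𝓞 K)} (hI : I ≠ ⊥) (hc : I ⊔ Ideal.span {(G.M : 𝓞 K)} = ⊤) :
    ∃ z, G.InH z ∧ I = Ideal.span {z} := by
  have hM : Ideal.span {(G.M : 𝓞 K)} ≠ ⊥ := by simp [G.M_ne]
  obtain ⟨v, hv, -, hp, hγ⟩ := FA.DeuringCM.exists_degree_one_class hM
    (rayClass hM ⟨⟨I, mem_nonZeroDivisors_iff_ne_zero.2 hI⟩, hc⟩) (S := ∅) Set.finite_empty
  have hvM : (G.M : 𝓞 K) ∉ v.asIdeal := FA.DeuringCM.not_mem_of_le hv le_rfl
  obtain ⟨π, hπ⟩ := G.exists_frobElt hp hvM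
  obtain ⟨x, y, hx, hy, e⟩ := (rayClass_eq_iff hM).1 hγ.symm
  change Ideal.span {x} * I = Ideal.span {y} * v.asIdeal at e
  rw [hπ.span_eq, Ideal.span_singleton_mul_span_singleton] at e
  obtain ⟨z, hz⟩ := Ideal.mem_span_singleton.1
    ((Ideal.mul_le_inf.trans inf_le_left :
    Ideal.span {x} * I ≤ Ideal.span {x}) (by rw [e]; exact Ideal.mem_span_singleton_self (y * π)))
  have hIz : I = Ideal.span {z} := by
    rw [hz, ← Ideal.span_singleton_mul_span_singleton] at e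
    exact mul_left_cancel₀ (show Ideal.span {x} ≠ 0 by simpa using hx.1) e
  have hzc : IsCoprime z (G.M : 𝓞 K) := by
    rw [← Ideal.isCoprime_span_singleton_iff, Ideal.isCoprime_iff_sup_eq, ← hIz, hc]
  have hH : ∀ w, IsRayElt (Ideal.span {(G.M : 𝓞 K)}) w → G.InH w := fun w hw => by
    refine InH.congr G G.inH_one ?_
    rw [← neg_sub]
    exact neg_mem hw.2.1
  refine ⟨z, ⟨hzc, ?_⟩, hIz⟩
  have h' := ((hH y hy).mul G (G.frob_inH hπ hvM))
  rw [hz] at h'
  have e' := h'.2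
  rw [← Ideal.span_singleton_mul_span_singleton, _root_.map_mul, (hH x hx).2] at e'
  refine mul_left_cancel₀ (G.emb_ne_zero (hH x hx).1) (e'.trans ?_)
  push_cast
  rw [_root_.map_mul]

/-- **Galois acts on the points killed by `M` through the chosen generators.** -/
theorem exists_inH_smul (σ : AlgebraicClosure K ≃ₐ[K] AlgebraicClosure K) :
    ∃ c, G.InH c ∧ ∀ S : D.Pt, G.M • S = 0 → σ • S = D.mulPt c S := by
  set T := D.tor ((1 : K) / G.M)
  have hT : G.M • T = 0 := by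
    rw [← map_nsmul, nsmul_eq_mul, mul_one_div, div_self (Nat.cast_ne_zero.2 G.M_ne)]
    exact D.tor_eq_zero_iff.2 ⟨1, by simp⟩
  obtain ⟨c, hc⟩ := D.exists_tor_eq G.M_ne
    (show G.M • (σ • T) = 0 by rw [← smul_nsmul', hT, smul_zero])
  have hc' : σ • T = D.mulPt c T := by rw [hc, D.mulPt_tor, mul_one_div]
  have hall : ∀ S : D.Pt, G.M • S = 0 → σ • S = D.mulPt c S := fun S hS => by
    obtain ⟨a, rfl⟩ := D.exists_tor_eq G.M_ne hS
    have e : D.tor ((a : K) / G.M) = D.mulPt a T := by rw [D.mulPt_tor, mul_one_div]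
    rw [e, ← D.mulPt_smul, hc', ← D.mulPt_mul, mul_comm, D.mulPt_mul]
  refine ⟨c, ?_, hall⟩
  set L := levelField (AlgebraicClosure K) D.W G.M
  have : FiniteDimensional K L := FA.TraceNF.finiteDimensional_levelField D.W G.M_ne
  have : IsGalois K L := FA.TraceNF.isGalois_levelField D.W G.M
  have : NumberField L := NumberField.of_module_finite K L
  obtain ⟨v, P, x, hv, hp, hP, hPv, hfr⟩ := exists_degree_one_frobenius Q
    (AlgEquiv.restrictNormalHom (F := K) L σ)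
    (T := {v : HeightOneSpectrum (𝓞 K) | (G.M : 𝓞 K) ∈ v.asIdeal})
    ((Ideal.finite_factors (I := Ideal.span {(G.M : 𝓞 K)}) (by simp [G.M_ne])).subset
      fun u hu => Ideal.dvd_span_singleton.2 hu)
  have : IsAlgClosure K (AlgebraicClosure K) := ⟨inferInstance, inferInstance⟩
  have : IsGalois K (AlgebraicClosure K) := IsAlgClosure.isGalois K _
  obtain ⟨x', rfl⟩ := AlgEquiv.restrictNormalHom_surjective (F := K) (K₁ := L)
    (AlgebraicClosure K) x
  obtain ⟨π, hπ⟩ := G.exists_frobElt hp hv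
  have hL : (frobSet D.W G.M : Set (AlgebraicClosure K)) ⊆ L := IntermediateField.subset_adjoin K _
  have hτ : AlgEquiv.restrictNormalHom (F := K) L (x' * σ * x'⁻¹) =
      AlgEquiv.restrictNormalHom (F := K) L x' * AlgEquiv.restrictNormalHom (F := K) L σ *
        (AlgEquiv.restrictNormalHom (F := K) L x')⁻¹ := by rw [map_mul, map_mul, map_inv]
  obtain ⟨F, hq, hK⟩ := FA.TraceNF.exists_frobPlace_at (L := L) D.W₀ G.M_ne hπ.Δ_notMem hv
    hL hP hPv hfr hτ
  have h1 := hπ.smul_eq_of_frobPlace F hq hK hT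
  have h2 : G.M • (x'⁻¹ • T) = 0 := by rw [← smul_nsmul', hT, smul_zero]
  rw [mul_smul, mul_smul, hall _ h2, D.mulPt_smul, smul_inv_smul, ← hc'] at h1
  rw [hc', D.mulPt_tor, D.mulPt_tor, ← sub_eq_zero, ← map_sub, mul_one_div, mul_one_div,
    ← sub_div] at h1
  obtain ⟨a, ha⟩ := D.tor_eq_zero_iff.1 h1
  refine (G.frob_inH hπ hv).congr G (Ideal.mem_span_singleton.2 ⟨-a, RingOfIntegers.coe_injective ?_⟩)
  rw [div_eq_iff (Nat.cast_ne_zero.2 G.M_ne)] at ha
  rw [map_sub, map_mul, map_natCast, map_neg]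
  linear_combination -ha

end Grossen

end FA.CoatesWiles

end
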