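import Fermat.Agent.NormResidue.Unique

/-!
# Conjugation of the norm residue symbol

For an abelian extension `L/F` inside a Galois extension `L/K` with `F/K` Galois and `F` totally
complex, an automorphism of `L` over `K` carries the symbol at a place to the symbol at the image
place, conjugated.
-/

set_option autoImplicit false
set_option linter.unusedSectionVars false
set_option linter.style.haveILetI false

noncomputable section

open NumberField NumberField.InfinitePlace IsDedekindDomain IsMulCommutative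
open FA.ArtinRec FA.NormResidue
open FA.HasseCyclic (nearOne mem_nearOne)
open scoped Pointwise nonZeroDivisors Classical

namespace FA.CoatesWiles

/-- Galois keeps the size of a residue ring. -/
theorem natCard_quot_smul {R G : Type*} [CommRing R] [Group G] [MulSemiringAction G R] (g : G)
    (I : Ideal R) : Nat.card (R ⧸ g • I) = Nat.card (R ⧸ I) :=
  (Nat.card_congr (Ideal.quotientEquiv I (g • I) (MulSemiringAction.toRingEquiv G R g)
    (Ideal.pointwise_smul_def ..)).toEquiv).symm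

variable {K F L : Type*} [Field K] [NumberField K] [Field F] [NumberField F] [Field L]
  [NumberField L] [Algebra K F] [Algebra K L] [Algebra F L] [IsScalarTower K F L]
  [IsGalois K F] [IsGalois K L] [IsGalois F L] [IsMulCommutative (L ≃ₐ[F] L)]

variable (F) in
/-- The restriction. -/
abbrev resAut (g : L ≃ₐ[K] L) : F ≃ₐ[K] F := AlgEquiv.restrictNormalHom F g

theorem apply_algebraMap (g : L ≃ₐ[K] L) (x : F) :
    g (algebraMap F L x) = algebraMap F L (resAut F g x) :=
  (g.restrictNormal_commutes F x).symm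

/-- The conjugate of an automorphism over `F`. -/
def conjAut (g : L ≃ₐ[K] L) (τ : L ≃ₐ[F] L) : L ≃ₐ[F] L :=
  AlgEquiv.ofRingEquiv (f := (g.symm.toRingEquiv.trans τ.toRingEquiv).trans g.toRingEquiv)
    fun x => by
      show g (τ (g.symm (algebraMap F L x))) = _
      rw [show g.symm (algebraMap F L x) = g⁻¹ (algebraMap F L x) from rfl, apply_algebraMap,
        τ.commutes, apply_algebraMap, ← AlgEquiv.mul_apply, ← map_mul, mul_inv_cancel, map_one,
        AlgEquiv.one_apply]

@[simp] theorem conjAut_apply (g : L ≃ₐ[K] L) (τ : L ≃ₐ[F] L) (x : L) :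
    conjAut g τ x = g (τ (g⁻¹ x)) := rfl

/-- As a homomorphism. -/
def conjHomAut (g : L ≃ₐ[K] L) : (L ≃ₐ[F] L) →* (L ≃ₐ[F] L) where
  toFun := conjAut g
  map_one' := AlgEquiv.ext fun x => g.apply_symm_apply x
  map_mul' σ τ := AlgEquiv.ext fun x => congrArg g (congrArg σ (g.symm_apply_apply _).symm)

theorem belowP_galPrime_res (g : L ≃ₐ[K] L) (Q : HeightOneSpectrum (𝓞 L)) :
    belowP F (galPrime g Q) = galPrime (resAut F g) (belowP F Q) :=
  HeightOneSpectrum.ext (by
    show (g • Q.asIdeal).under (𝓞 F) = resAut F g • Q.asIdeal.under (𝓞 F)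
    ext y
    rw [Ideal.mem_comap, Ideal.mem_pointwise_smul_iff_inv_smul_mem,
      Ideal.mem_pointwise_smul_iff_inv_smul_mem, Ideal.mem_comap, ← map_inv,
      FA.ArtinL.algebraMap_restrictNormal_smul])

theorem conjAut_smul (g : L ≃ₐ[K] L) (τ : L ≃ₐ[F] L) (x : 𝓞 L) :
    g • (τ • (g⁻¹ • x)) = conjAut g τ • x := RingOfIntegers.ext rfl

theorem conjAut_mem_inertia {g : L ≃ₐ[K] L} {τ : L ≃ₐ[F] L} {Q : HeightOneSpectrum (𝓞 L)}
    (h : τ ∈ Q.asIdeal.inertia (L ≃ₐ[F] L)) :
    conjAut g τ ∈ (galPrime g Q).asIdeal.inertia (L ≃ₐ[F] L) := fun x => by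
  show conjAut g τ • x - x ∈ g • Q.asIdeal
  have h' := Ideal.smul_mem_pointwise_smul g _ _ (h (g⁻¹ • x))
  rwa [smul_sub, conjAut_smul, smul_inv_smul] at h'

theorem isRam_galPrime {g : L ≃ₐ[K] L} {v : HeightOneSpectrum (𝓞 F)} (h : IsRam L v) :
    IsRam L (galPrime (resAut F g) v) := by
  obtain ⟨Q, rfl, hne⟩ := h
  refine ⟨galPrime g Q, belowP_galPrime_res g Q, ?_⟩
  obtain ⟨⟨τ, hτ⟩, hτ1⟩ := Subgroup.ne_bot_iff_exists_ne_one.1 hne
  intro e
  have h1 := conjAut_mem_inertia (g := g) hτ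
  rw [e, Subgroup.mem_bot] at h1
  refine hτ1 (Subtype.ext (AlgEquiv.ext fun x => ?_))
  have h2 := AlgEquiv.congr_fun h1 (g x)
  rw [conjAut_apply, AlgEquiv.one_apply, ← AlgEquiv.mul_apply g⁻¹ g x, inv_mul_cancel,
    AlgEquiv.one_apply] at h2
  exact g.injective h2

theorem isRam_galPrime_iff {g : L ≃ₐ[K] L} {v : HeightOneSpectrum (𝓞 F)} :
    IsRam L (galPrime (resAut F g) v) ↔ IsRam L v := by
  refine ⟨fun h => ?_, isRam_galPrime⟩
  have h' := isRam_galPrime (g := g⁻¹) h
  rwa [← galPrime_mul, ← map_mul, inv_mul_cancel, map_one, galPrime_one] at h'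

/-- **Frobenius is conjugated.** -/
theorem artinAt_galPrime {g : L ≃ₐ[K] L} {v : HeightOneSpectrum (𝓞 F)} (hv : ¬ IsRam L v) :
    artinAt L (galPrime (resAut F g) v) = conjAut g (artinAt L v) := by
  obtain ⟨Q, hQ, hτ⟩ := artinAt_spec (L := L) v
  refine (artinAt_eq (Q := galPrime g Q) (fun h => hv (isRam_galPrime_iff.1 h))
    (by rw [belowP_galPrime_res, hQ]) ?_).symm
  intro y
  show conjAut g (artinAt L v) • y - y ^ Nat.card (𝓞 F ⧸ (belowP F (galPrime g Q)).asIdeal) ∈
    g • Q.asIdeal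
  rw [belowP_galPrime_res, hQ,
    show Nat.card (𝓞 F ⧸ (galPrime (resAut F g) v).asIdeal) = Nat.card (𝓞 F ⧸ v.asIdeal) from
      natCard_quot_smul (resAut F g) v.asIdeal]
  have h' := Ideal.smul_mem_pointwise_smul g _ _ (hτ (g⁻¹ • y))
  rw [smul_sub, smul_pow', smul_inv_smul,
    show Ideal.under (𝓞 F) Q.asIdeal = v.asIdeal from congrArg HeightOneSpectrum.asIdeal hQ] at h'
  rw [← conjAut_smul]
  exact h'

/-- Galois permutes the primes. -/
def galPrimeEquiv (g : F ≃ₐ[K] F) : HeightOneSpectrum (𝓞 F) ≃ HeightOneSpectrum (𝓞 F) where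
  toFun := galPrime g
  invFun := galPrime g⁻¹
  left_inv v := by rw [← galPrime_mul, inv_mul_cancel, galPrime_one]
  right_inv v := by rw [← galPrime_mul, mul_inv_cancel, galPrime_one]

/-- Over a totally complex field the symbols of the finite primes have product `1`. -/
theorem finprod_normSymbol (hF : ∀ w : InfinitePlace F, ¬ IsReal w) (a : Fˣ) :
    ∏ᶠ v, normSymbol L v a = 1 := by
  have h := prod_normSymbol (L := L) a
  rwa [Finset.prod_eq_one fun w _ => infSymbol_eq_one_iff.2 fun _ hw => absurd hw (hF w), mul_one]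
    at h

/-- **The symbol is conjugated.** -/
theorem normSymbol_galPrime (hF : ∀ w : InfinitePlace F, ¬ IsReal w) (g : L ≃ₐ[K] L)
    (v : HeightOneSpectrum (𝓞 F)) (a : Fˣ) :
    normSymbol L (galPrime (resAut F g) v) (galU (resAut F g) a) =
      conjAut g (normSymbol L v a) := by
  set h := resAut F g
  let ψ : HeightOneSpectrum (𝓞 F) → Fˣ →* (L ≃ₐ[F] L) := fun u =>
    (conjHomAut g⁻¹).comp ((normSymbol L (galPrime h u)).comp (galU h))
  have hψ : ∀ u b, ψ u b = conjAut g⁻¹ (normSymbol L (galPrime h u) (galU h b)) := fun _ _ => rfl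
  have hcc : ∀ τ : L ≃ₐ[F] L, conjAut g⁻¹ (conjAut g τ) = τ := fun τ => AlgEquiv.ext fun x => by
    simp only [conjAut_apply, inv_inv]
    rw [AlgEquiv.aut_inv, AlgEquiv.symm_apply_apply, AlgEquiv.symm_apply_apply]
  have k1 : ∀ u, ¬ IsRam L u → ∀ b, ψ u b = artinAt L u ^ ord u b := fun u hu b => by
    rw [hψ, normSymbol_of_not_isRam (fun h' => hu (isRam_galPrime_iff.1 h')), ord_galU,
      artinAt_galPrime hu]
    show (conjHomAut g⁻¹) (conjHomAut g (artinAt L u) ^ ord u b) = _
    rw [map_zpow]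
    exact congrArg (· ^ ord u b) (hcc _)
  have k2 : ∀ u, ∃ k, nearOne u k ≤ (ψ u).ker := fun u => ⟨nrLevel F L, fun b hb => by
    show ψ u b = 1
    rw [hψ, MonoidHom.mem_ker.1 (nearOne_le_ker_normSymbol _ (galU_mem_nearOne h hb))]
    exact (conjHomAut g⁻¹).map_one⟩
  have k3 : ∀ b, (∏ᶠ u, ψ u b) * ∏ _w : InfinitePlace F, (1 : L ≃ₐ[F] L) = 1 := fun b => by
    rw [Finset.prod_eq_one fun _ _ => rfl, mul_one]
    have h1 := finprod_normSymbol (L := L) hF (galU h b)
    rw [← finprod_comp_equiv (galPrimeEquiv h)] at h1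
    rw [finprod_congr fun u => hψ u b]
    show ∏ᶠ u, (conjHomAut g⁻¹) (normSymbol L (galPrime h u) (galU h b)) = 1
    exact (MonoidHom.map_finprod (conjHomAut g⁻¹)
      (f := fun u => normSymbol L (galPrime h u) (galU h b))
      ((normSymbol_finite_support (L := L) (galU h b)).preimage
        (galPrimeEquiv h).injective.injOn)).symm.trans ((congrArg _ h1).trans (map_one _))
  obtain ⟨e, -⟩ := eq_normSymbol_of_product_formula (ψ := ψ) (φ := fun _ => 1) k1 k2
    (fun _ _ _ => rfl) k3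
  have e' := congrArg (conjAut g) (DFunLike.congr_fun (congrFun e v) a)
  rw [hψ] at e'
  rw [← e']
  exact AlgEquiv.ext fun x => by
    simp only [conjAut_apply, inv_inv, AlgEquiv.aut_inv, AlgEquiv.symm_symm,
      AlgEquiv.apply_symm_apply]

end FA.CoatesWiles

end
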