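import Fermat.Agent.CoatesWiles.Place

/-!
# The parameter of the kernel of reduction

For `z = -x / y` and `w = -1 / y` the equation is `w = z³ + A z w² + B w³`. The line through two
points has slope `≡ 0` and intercept small with either of them, so `z (S + T) ≡ z S + z T` modulo
`z T` times the square of the larger parameter.
-/

set_option autoImplicit false
set_option linter.style.haveILetI false
set_option linter.unusedSectionVars false

noncomputable section

open WeierstrassCurve NumberField IsDedekindDomain FA.IsogenyNF FA.Local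
open FA.ClassNumberOne (xP yP)
open scoped WeierstrassCurve.Affine Classical

namespace FA.CoatesWiles

variable {K : Type} [Field K] [NumberField K] {D : CMDat K}

local notation "Kb" => AlgebraicClosure K

namespace CMDat

/-- The parameter `-x / y`. -/
def zc (S : D.Pt) : Kb := -xP S / yP S

/-- The parameter `-1 / y`. -/
def wc (S : D.Pt) : Kb := -(yP S)⁻¹

variable (D) in
/-- The coefficient of `x` in the algebraic closure. -/
abbrev Ab : Kb := algebraMap K Kb (D.A : K)

variable (D) in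
/-- The constant coefficient in the algebraic closure. -/
abbrev Bb : Kb := algebraMap K Kb (D.B : K)

theorem zc_zero : zc (0 : D.Pt) = 0 := by simp [zc, show xP (0 : D.Pt) = (0 : Kb) from rfl]

theorem zc_neg (S : D.Pt) : zc (-S) = -zc S := by
  rcases S with _ | ⟨x, y, h⟩
  · simp [zc, show xP (0 : D.Pt) = (0 : Kb) from rfl, ← Affine.Point.zero_def]
  show -x / (D.W.toAffine⁄Kb).negY x y = -(-x / y)
  simp [Affine.negY]
  ring

theorem eqn {S : D.Pt} (hS : S ≠ 0) : yP S ^ 2 = xP S ^ 3 + D.Ab * xP S + D.Bb := by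
  rcases S with _ | ⟨x, y, h⟩
  · exact absurd rfl hS
  have e := (Affine.equation_iff _ _).1 h.1
  simp only [WeierstrassCurve.baseChange, WeierstrassCurve.map_a₁, WeierstrassCurve.map_a₂,
    WeierstrassCurve.map_a₃, WeierstrassCurve.map_a₄, WeierstrassCurve.map_a₆, map_zero, zero_mul,
    add_zero] at e
  exact e

theorem zc_smul (σ : Kb ≃ₐ[K] Kb) (S : D.Pt) : zc (σ • S) = σ (zc S) := by
  rw [zc, zc, map_div₀, map_neg, xP_smul, yP_smul]

end CMDat

open CMDat

/-- Three points of the curve on the line `y = l x + c`, in the parameter. -/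
theorem line_identity {F : Type*} [Field F] {x₁ x₂ x₃ l c A B : F} (h₁ : l * x₁ + c ≠ 0)
    (h₂ : l * x₂ + c ≠ 0) (h₃ : l * x₃ + c ≠ 0) (hc : c ≠ 0)
    (hx : x₁ + x₂ + x₃ = l ^ 2)
    (hA : A = x₁ * x₂ + x₃ * (x₁ + x₂) + 2 * l * c) (hB : B = c ^ 2 - x₁ * x₂ * x₃) :
    (-x₃ / -(l * x₃ + c) - -x₁ / (l * x₁ + c) - -x₂ / (l * x₂ + c)) *
        (1 + (A * (-(l / c)) ^ 2 + B * (-(l / c)) ^ 3)) =
      -c⁻¹ * ((2 * A + 3 * B * -(l / c)) * -(l / c)) := by
  subst hA hB
  obtain rfl : x₃ = l ^ 2 - x₁ - x₂ := by linear_combination hx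
  rw [neg_div_neg_eq, div_sub_div _ _ h₃ h₁, div_sub_div _ _ (mul_ne_zero h₃ h₁) h₂,
    div_mul_eq_mul_div, div_eq_iff (mul_ne_zero (mul_ne_zero h₃ h₁) h₂)]
  field_simp
  ring

namespace CMPlace

variable (P : CMPlace D)

local notation "vv" => P.R.valuation

theorem Ab_le : vv D.Ab ≤ 1 := P.coe_le_one D.A

theorem Bb_le : vv D.Bb ≤ 1 := P.coe_le_one D.B

theorem large {S : D.Pt} (hS : P.red S = 0) (h0 : S ≠ 0) :
    1 < vv (xP S) ∧ vv (xP S) < vv (yP S) ∧ vv (yP S) ^ 2 = vv (xP S) ^ 3 := by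
  rcases S with _ | ⟨x, y, h⟩
  · exact absurd rfl h0
  have hx : 1 < vv x := (e1_some ..).1 (P.red_eq_zero_iff.1 hS)
  exact ⟨hx, large_of_one_lt P.int h.1 hx⟩

theorem xP_ne_zero {S : D.Pt} (hS : P.red S = 0) (h0 : S ≠ 0) : xP S ≠ 0 := fun e => by
  have := (P.large hS h0).1
  rw [e, map_zero] at this
  exact not_lt_zero this

theorem yP_ne_zero {S : D.Pt} (hS : P.red S = 0) (h0 : S ≠ 0) : yP S ≠ 0 := fun e => by
  have := (P.large hS h0).2.1
  rw [e, map_zero] at this
  exact not_lt_zero this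

theorem val_xP {S : D.Pt} (hS : P.red S = 0) (h0 : S ≠ 0) :
    vv (xP S) * vv (zc S) ^ 2 = 1 := by
  obtain ⟨-, -, h⟩ := P.large hS h0
  have hx := (P.R.valuation.ne_zero_iff).2 (P.xP_ne_zero hS h0)
  rw [zc, map_div₀, Valuation.map_neg, div_pow, h, mul_div_assoc', ← pow_succ',
    div_self (pow_ne_zero _ hx)]

theorem val_zc_lt {S : D.Pt} (hS : P.red S = 0) : vv (zc S) < 1 := by
  by_cases h0 : S = 0
  · rw [h0, zc_zero, map_zero]; exact zero_lt_one
  obtain ⟨-, h, -⟩ := P.large hS h0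
  rw [zc, map_div₀, Valuation.map_neg, div_lt_one₀ (lt_of_le_of_lt zero_le h)]
  exact h

theorem zc_ne_zero {S : D.Pt} (hS : P.red S = 0) (h0 : S ≠ 0) : zc S ≠ 0 := fun e => by
  have := P.val_xP hS h0
  rw [e, map_zero, zero_pow two_ne_zero, mul_zero] at this
  exact zero_ne_one this

theorem wc_eq {S : D.Pt} (hS : P.red S = 0) :
    wc S = zc S ^ 3 + D.Ab * zc S * wc S ^ 2 + D.Bb * wc S ^ 3 := by
  by_cases h0 : S = 0
  · subst h0; simp [wc, zc, show yP (0 : D.Pt) = (0 : Kb) from rfl]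
  have hy := P.yP_ne_zero hS h0
  simp only [zc, wc]
  field_simp
  linear_combination -(eqn h0)

theorem val_wc {S : D.Pt} (hS : P.red S = 0) : vv (wc S) = vv (zc S) ^ 3 := by
  by_cases h0 : S = 0
  · subst h0; simp [wc, zc, show yP (0 : D.Pt) = (0 : Kb) from rfl]
  obtain ⟨-, -, h⟩ := P.large hS h0
  have hy := (P.R.valuation.ne_zero_iff).2 (P.yP_ne_zero hS h0)
  rw [wc, zc, Valuation.map_neg, map_inv₀, map_div₀, Valuation.map_neg, div_pow, ← h,
    eq_div_iff (pow_ne_zero _ hy), pow_succ' (vv (yP S)) 2, inv_mul_cancel_left₀ hy]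

/-- The factor `1 + small`. -/
theorem val_one_add {a : Kb} (h : vv a < 1) : vv (1 + a) = 1 :=
  P.R.valuation.map_one_add_of_lt h

theorem val_mul_le {a b : Kb} {r : P.R.ValueGroup} (ha : vv a ≤ 1) (hb : vv b ≤ r) :
    vv (a * b) ≤ r := by
  rw [map_mul]
  exact (mul_le_of_le_one_left' ha).trans hb

/-- The difference of two solutions of `w = z³ + A z w² + B w³`. -/
theorem wc_sub {S T : D.Pt} (hS : P.red S = 0) (hT : P.red T = 0) :
    ∃ μ : Kb, vv μ ≤ max (vv (zc S)) (vv (zc T)) ^ 2 ∧ wc S - wc T = μ * (zc S - zc T) := by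
  set r := max (vv (zc S)) (vv (zc T))
  have hr : r < 1 := max_lt (P.val_zc_lt hS) (P.val_zc_lt hT)
  have hw : ∀ {U : D.Pt}, P.red U = 0 → vv (zc U) ≤ r → vv (wc U) ≤ r ^ 3 := fun hU hz => by
    rw [P.val_wc hU]; exact pow_le_pow_left₀ zero_le hz 3
  have hS3 := hw hS (le_max_left _ _)
  have hT3 := hw hT (le_max_right _ _)
  have h31 : r ^ 3 ≤ r := pow_le_of_le_one zero_le hr.le three_ne_zero
  set m := D.Ab * (zc T * (wc S + wc T)) + D.Bb * (wc S ^ 2 + wc S * wc T + wc T ^ 2)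
  have hm : vv m < 1 := by
    refine lt_of_le_of_lt (Valuation.map_add_le _ (P.val_mul_le P.Ab_le ?_)
      (P.val_mul_le P.Bb_le ?_)) hr
    · exact P.val_mul_le (P.val_zc_lt hT).le ((Valuation.map_add_le _ hS3 hT3).trans h31)
    · have h1 : ∀ {a b : Kb}, vv a ≤ r ^ 3 → vv b ≤ r ^ 3 → vv (a * b) ≤ r := fun ha hb =>
        P.val_mul_le (ha.trans (h31.trans hr.le)) (hb.trans h31)
      exact Valuation.map_add_le _ (Valuation.map_add_le _ (sq (wc S) ▸ h1 hS3 hS3) (h1 hS3 hT3))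
        (sq (wc T) ▸ h1 hT3 hT3)
  refine ⟨(zc S ^ 2 + zc S * zc T + zc T ^ 2 + D.Ab * wc S ^ 2) / (1 - m), ?_, ?_⟩
  · rw [map_div₀, sub_eq_add_neg 1 m, P.val_one_add (by rwa [Valuation.map_neg]), div_one]
    have h2 : ∀ {a b : Kb}, vv a ≤ r → vv b ≤ r → vv (a * b) ≤ r ^ 2 := fun ha hb => by
      rw [map_mul, sq]; exact mul_le_mul' ha hb
    exact Valuation.map_add_le _ (Valuation.map_add_le _ (Valuation.map_add_le _
      (sq (zc S) ▸ h2 (le_max_left _ _) (le_max_left _ _)) (h2 (le_max_left _ _) (le_max_right _ _)))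
      (sq (zc T) ▸ h2 (le_max_right _ _) (le_max_right _ _)))
      (P.val_mul_le P.Ab_le (sq (wc S) ▸ h2 (hS3.trans h31) (hS3.trans h31)))
  · have hne : (1 : Kb) - m ≠ 0 := fun e => by
      rw [sub_eq_zero] at e
      rw [← e, map_one] at hm
      exact lt_irrefl _ hm
    rw [div_mul_eq_mul_div, eq_div_iff hne]
    linear_combination P.wc_eq hS - P.wc_eq hT

/-- **The parameter determines the point.** -/
theorem zc_injective {S T : D.Pt} (hS : P.red S = 0) (hT : P.red T = 0) (h : zc S = zc T) :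
    S = T := by
  by_cases hS0 : S = 0
  · subst hS0
    by_contra hT0
    exact P.zc_ne_zero hT (Ne.symm hT0) (by rw [← h, zc_zero])
  by_cases hT0 : T = 0
  · subst hT0
    exact absurd (h.trans zc_zero) (P.zc_ne_zero hS hS0)
  obtain ⟨μ, -, e⟩ := P.wc_sub hS hT
  rw [h, sub_self, mul_zero, sub_eq_zero] at e
  have hy : yP S = yP T := inv_injective (neg_injective e)
  have hx : xP S = xP T := by
    have hy0 := P.yP_ne_zero hS hS0
    simp only [zc] at h
    rw [← hy, div_left_inj' hy0, neg_inj] at h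
    exact h
  rcases S with _ | ⟨x, y, hns⟩
  · exact absurd rfl hS0
  rcases T with _ | ⟨x', y', hns'⟩
  · exact absurd rfl hT0
  simp only [Affine.Point.some.injEq]
  exact ⟨hx, hy⟩

/-- **The parameter of a sum.** -/
theorem val_zc_add {S T : D.Pt} (hS : P.red S = 0) (hT : P.red T = 0) :
    vv (zc (S + T) - zc S - zc T) ≤ max (vv (zc S)) (vv (zc T)) ^ 2 * vv (zc T) := by
  by_cases hS0 : S = 0
  · subst hS0; simp [zc_zero]
  by_cases hT0 : T = 0
  · subst hT0; simp [zc_zero]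
  by_cases hadd : S + T = 0
  · rw [eq_neg_of_add_eq_zero_left hadd, neg_add_cancel, zc_zero, zc_neg]; simp
  have hST : P.red (S + T) = 0 := by rw [map_add, hS, hT, add_zero]
  set r := max (vv (zc S)) (vv (zc T))
  have hr : r < 1 := max_lt (P.val_zc_lt hS) (P.val_zc_lt hT)
  obtain ⟨μ, hμ, hdiff⟩ := P.wc_sub hS hT
  have hinj := P.zc_injective hS hT
  have eT := eqn hT0
  have eS := eqn hS0
  have y1 := P.yP_ne_zero hS hS0
  have y2 := P.yP_ne_zero hT hT0
  have y3 := P.yP_ne_zero hST hadd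
  -- the line
  obtain ⟨l, c, h1, h2, h3, hX, hA, hB, hc, hlam⟩ : ∃ l c : Kb,
      yP S = l * xP S + c ∧ yP T = l * xP T + c ∧ yP (S + T) = -(l * xP (S + T) + c) ∧
      xP S + xP T + xP (S + T) = l ^ 2 ∧
      D.Ab = xP S * xP T + xP (S + T) * (xP S + xP T) + 2 * l * c ∧
      D.Bb = c ^ 2 - xP S * xP T * xP (S + T) ∧ c ≠ 0 ∧ vv (l / c) ≤ r ^ 2 := by
    rcases S with _ | ⟨x₁, y₁, k₁⟩
    · exact absurd rfl hS0
    rcases T with _ | ⟨x₂, y₂, k₂⟩
    · exact absurd rfl hT0
    change y₂ ^ 2 = x₂ ^ 3 + D.Ab * x₂ + D.Bb at eT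
    change y₁ ^ 2 = x₁ ^ 3 + D.Ab * x₁ + D.Bb at eS
    change y₁ ≠ 0 at y1
    change y₂ ≠ 0 at y2
    have hneg : ∀ x y : Kb, (D.W.toAffine⁄Kb).negY x y = -y := fun x y => by
      simp [Affine.negY]
    have hxy : ¬(x₁ = x₂ ∧ y₁ = (D.W.toAffine⁄Kb).negY x₂ y₂) := fun hh =>
      hadd (Affine.Point.add_of_Y_eq hh.1 hh.2)
    set l := (D.W.toAffine⁄Kb).slope x₁ x₂ y₁ y₂ with hl
    have hsum := Affine.Point.add_some hxy (h₁ := k₁) (h₂ := k₂)
    set c := y₁ - l * x₁ with hcdef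
    have hX : xP (Affine.Point.some x₁ y₁ k₁ + Affine.Point.some x₂ y₂ k₂ : D.Pt) =
        l ^ 2 - x₁ - x₂ := by
      rw [hsum]
      show (D.W.toAffine⁄Kb).addX x₁ x₂ l = _
      simp [Affine.addX]
    have hY : yP (Affine.Point.some x₁ y₁ k₁ + Affine.Point.some x₂ y₂ k₂ : D.Pt) =
        -(l * (l ^ 2 - x₁ - x₂) + c) := by
      rw [hsum]
      show (D.W.toAffine⁄Kb).addY x₁ x₂ y₁ l = _
      simp [Affine.addY, Affine.negY, Affine.negAddY, Affine.addX, hcdef]
      ring
    have r1 : xP (Affine.Point.some x₁ y₁ k₁ : D.Pt) = x₁ := rfl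
    have r2 : xP (Affine.Point.some x₂ y₂ k₂ : D.Pt) = x₂ := rfl
    refine ⟨l, c, ?_⟩
    rw [hX, hY, r1, r2]
    show y₁ = l * x₁ + c ∧ y₂ = l * x₂ + c ∧ _
    have he1 : y₁ = l * x₁ + c := by rw [hcdef]; ring
    by_cases hx : x₁ = x₂
    · subst hx
      have hy' : y₁ ≠ (D.W.toAffine⁄Kb).negY x₁ y₂ := fun e => hxy ⟨rfl, e⟩
      obtain rfl : y₁ = y₂ := Affine.Y_eq_of_Y_ne k₁.1 k₂.1 rfl hy'
      have hsl : 2 * y₁ * l = 3 * x₁ ^ 2 + D.Ab := by
        rw [hl, Affine.slope_of_Y_ne rfl hy', hneg, sub_neg_eq_add, ← two_mul,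
          mul_div_cancel₀ _ (mul_ne_zero two_ne_zero y1)]
        simp [WeierstrassCurve.baseChange]
      set z := zc (Affine.Point.some x₁ y₁ k₁ : D.Pt) with hzdef
      set w := wc (Affine.Point.some x₁ y₁ k₁ : D.Pt) with hwdef
      have hz : z = -x₁ / y₁ := rfl
      have hw : w = -y₁⁻¹ := rfl
      have hzr : vv z ≤ r := le_max_left _ _
      have hwr : vv w ≤ r := (P.val_wc hS).trans_le
        ((pow_le_of_le_one zero_le (P.val_zc_lt hS).le three_ne_zero).trans hzr)
      have hden : vv (1 - (2 * (D.Ab * (z * w)) + 3 * (D.Bb * w ^ 2))) = 1 := by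
        rw [sub_eq_add_neg]
        refine P.val_one_add ?_
        rw [Valuation.map_neg]
        refine lt_of_le_of_lt (Valuation.map_add_le _ (P.val_mul_le (natCast_le_one 2)
          (P.val_mul_le P.Ab_le (P.val_mul_le (hzr.trans hr.le) hwr)))
          (P.val_mul_le (natCast_le_one 3) (P.val_mul_le P.Bb_le ?_))) hr
        rw [sq]; exact P.val_mul_le (hwr.trans hr.le) hwr
      have hnum : c * (2 * y₁) = -(y₁ ^ 2 * (1 - (2 * (D.Ab * (z * w)) + 3 * (D.Bb * w ^ 2)))) := by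
        rw [hcdef, hz, hw]
        field_simp
        linear_combination (-x₁) * hsl + 3 * eS
      have hden0 : 1 - (2 * (D.Ab * (z * w)) + 3 * (D.Bb * w ^ 2)) ≠ 0 := fun e => by
        rw [e, map_zero] at hden; exact zero_ne_one hden
      have hc0 : c ≠ 0 := fun e => by
        rw [e, zero_mul, eq_comm, neg_eq_zero] at hnum
        exact mul_ne_zero (pow_ne_zero 2 y1) hden0 hnum
      refine ⟨he1, he1, rfl, by ring, ?_, ?_, hc0, ?_⟩
      · linear_combination -hsl + 2 * l * he1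
      · linear_combination (-1 : Kb) * eS + x₁ * hsl + (y₁ + l * x₁ + c - 2 * l * x₁) * he1
      · have e : l / c = -(3 * z ^ 2 + D.Ab * w ^ 2) /
            (1 - (2 * (D.Ab * (z * w)) + 3 * (D.Bb * w ^ 2))) := by
          rw [div_eq_div_iff hc0 hden0]
          have h2y : (2 : Kb) * y₁ ≠ 0 := mul_ne_zero two_ne_zero y1
          apply mul_right_cancel₀ h2y
          rw [mul_assoc (-(3 * z ^ 2 + D.Ab * w ^ 2)), hnum, hz, hw]
          field_simp
          linear_combination (y₁ ^ 2 - 2 * D.Ab * x₁ - 3 * D.Bb) * hsl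
        rw [e, map_div₀, hden, div_one, Valuation.map_neg]
        refine Valuation.map_add_le _ (P.val_mul_le (natCast_le_one 3) ?_)
          (P.val_mul_le P.Ab_le ?_)
        · rw [map_pow]; exact pow_le_pow_left₀ zero_le hzr 2
        · rw [map_pow]; exact pow_le_pow_left₀ zero_le hwr 2
    · have hsl : l * (x₁ - x₂) = y₁ - y₂ := by
        rw [hl, Affine.slope_of_X_ne hx, div_mul_cancel₀ _ (sub_ne_zero.2 hx)]
      have he2 : y₂ = l * x₂ + c := by linear_combination he1 + hsl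
      have hzne : zc (Affine.Point.some x₁ y₁ k₁ : D.Pt) -
          zc (Affine.Point.some x₂ y₂ k₂ : D.Pt) ≠ 0 := fun e => hx (by
        have := congrArg xP (hinj (sub_eq_zero.1 e))
        rwa [r1, r2] at this)
      have hcz : c * (x₁ - x₂) = (zc (Affine.Point.some x₂ y₂ k₂ : D.Pt) -
          zc (Affine.Point.some x₁ y₁ k₁ : D.Pt)) * (y₁ * y₂) := by
        show c * (x₁ - x₂) = (-x₂ / y₂ - -x₁ / y₁) * (y₁ * y₂)
        field_simp
        linear_combination (-x₁) * hsl
      have hc0 : c ≠ 0 := fun e => by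
        rw [e, zero_mul, eq_comm, mul_eq_zero, mul_eq_zero] at hcz
        rcases hcz with h | h | h
        · exact hzne (by linear_combination -h)
        · exact y1 h
        · exact y2 h
      refine ⟨he1, he2, rfl, by ring, ?_, ?_, hc0, ?_⟩
      · apply mul_right_cancel₀ (sub_ne_zero.2 hx)
        linear_combination eT - eS + (y₁ + l * x₁ + c) * he1 - (y₂ + l * x₂ + c) * he2
      · apply mul_right_cancel₀ (sub_ne_zero.2 hx)
        linear_combination x₂ * eS - x₁ * eT - x₂ * (y₁ + l * x₁ + c) * he1 +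
          x₁ * (y₂ + l * x₂ + c) * he2
      · have e : l / c = -μ := by
          rw [div_eq_iff hc0]
          apply mul_right_cancel₀ (sub_ne_zero.2 hx)
          rw [hsl, mul_assoc, hcz]
          change -y₁⁻¹ - -y₂⁻¹ = μ * _ at hdiff
          have hd := congrArg (· * (y₁ * y₂)) hdiff
          simp only [mul_assoc μ] at hd
          rw [show (-y₁⁻¹ - -y₂⁻¹) * (y₁ * y₂) = y₁ - y₂ by field_simp; ring] at hd
          rw [hd]; ring
        rw [e, Valuation.map_neg]
        exact hμ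
  -- the intercept
  set lam := -(l / c) with hlamdef
  set ν := -c⁻¹ with hνdef
  have hlam' : vv lam ≤ r ^ 2 := by rwa [hlamdef, Valuation.map_neg]
  have hν : vv ν ≤ r ^ 2 * vv (zc T) := by
    have e : ν = wc T - lam * zc T := by
      simp only [hνdef, hlamdef, wc, zc]
      field_simp
      linear_combination -h2
    rw [e]
    refine Valuation.map_sub_le _ ?_ ((map_mul vv lam (zc T)).trans_le (mul_le_mul' hlam' le_rfl))
    rw [P.val_wc hT, pow_succ]
    exact mul_le_mul' (pow_le_pow_left₀ zero_le (le_max_right _ _) 2) le_rfl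
  have hu : vv (1 + (D.Ab * lam ^ 2 + D.Bb * lam ^ 3)) = 1 := by
    refine P.val_one_add (lt_of_le_of_lt (Valuation.map_add_le _
      (P.val_mul_le P.Ab_le (?_ : vv (lam ^ 2) ≤ r)) (P.val_mul_le P.Bb_le ?_)) hr)
    all_goals
      rw [map_pow]
      refine (pow_le_pow_left₀ zero_le hlam' _).trans ?_
      rw [← pow_mul]
      exact pow_le_of_le_one zero_le hr.le (by norm_num)
  have key : (zc (S + T) - zc S - zc T) * (1 + (D.Ab * lam ^ 2 + D.Bb * lam ^ 3)) =
      ν * ((2 * D.Ab + 3 * D.Bb * lam) * lam) := by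
    show (-xP (S + T) / yP (S + T) - -xP S / yP S - -xP T / yP T) * _ = _
    rw [h1, h2, h3]
    exact line_identity (h1 ▸ y1) (h2 ▸ y2) (fun e => y3 (by rw [h3, e, neg_zero])) hc hX hA hB
  have key' := congrArg vv key
  rw [map_mul, hu, mul_one, map_mul] at key'
  rw [key']
  refine (mul_le_mul' hν ?_).trans_eq (mul_one _)
  rw [map_mul]
  refine mul_le_one' (Valuation.map_add_le _ ?_ ?_) (hlam'.trans (pow_le_one₀ zero_le hr.le))
  · exact P.val_mul_le (natCast_le_one 2) P.Ab_le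
  · rw [mul_assoc]
    exact P.val_mul_le (natCast_le_one 3)
      (P.val_mul_le P.Bb_le (hlam'.trans (pow_le_one₀ zero_le hr.le)))

theorem val_zc_add_le {S T : D.Pt} (hS : P.red S = 0) (hT : P.red T = 0) :
    vv (zc (S + T) - zc S) ≤ vv (zc T) := by
  rw [← sub_add_cancel (zc (S + T) - zc S) (zc T)]
  refine Valuation.map_add_le _ ((P.val_zc_add hS hT).trans (mul_le_of_le_one_left' ?_)) le_rfl
  exact pow_le_one₀ zero_le (max_lt (P.val_zc_lt hS) (P.val_zc_lt hT)).le

/-- **The parameter of a multiple.** -/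
theorem val_zc_nsmul {S : D.Pt} (hS : P.red S = 0) (j : ℕ) :
    vv (zc (j • S) - (j : Kb) * zc S) ≤ vv (zc S) ^ 3 := by
  induction j with
  | zero => simp [zc_zero]
  | succ j ih =>
    have hj : P.red (j • S) = 0 := by rw [map_nsmul, hS, nsmul_zero]
    have hjz : vv (zc (j • S)) ≤ vv (zc S) := by
      rw [← sub_add_cancel (zc (j • S)) ((j : Kb) * zc S)]
      exact Valuation.map_add_le _ (ih.trans (pow_le_of_le_one zero_le (P.val_zc_lt hS).le
        three_ne_zero)) (P.val_mul_le (natCast_le_one j) le_rfl)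
    rw [succ_nsmul, Nat.cast_succ, show zc (j • S + S) - ((j : Kb) + 1) * zc S =
      (zc (j • S + S) - zc (j • S) - zc S) + (zc (j • S) - (j : Kb) * zc S) by ring]
    refine Valuation.map_add_le _ ((P.val_zc_add hj hS).trans_eq ?_) ih
    rw [max_eq_right hjz, ← pow_succ]

/-- The parameter of a multiple prime to the place has the same value. -/
theorem val_zc_nsmul_eq {S : D.Pt} (hS : P.red S = 0) {j : ℕ} (hj : vv (j : Kb) = 1) :
    vv (zc (j • S)) = vv (zc S) := by
  by_cases h0 : S = 0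
  · subst h0; simp
  have hlt : vv (zc S) ^ 3 < vv ((j : Kb) * zc S) := by
    rw [map_mul, hj, one_mul]
    exact pow_lt_self_of_lt_one₀ (zero_lt_iff.2 ((Valuation.ne_zero_iff _).2 (P.zc_ne_zero hS h0)))
      (P.val_zc_lt hS) (by norm_num)
  rw [Valuation.map_eq_of_sub_lt _ ((P.val_zc_nsmul hS j).trans_lt hlt), map_mul, hj, one_mul]

end CMPlace

end FA.CoatesWiles

end
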