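import Fermat.Agent.DeuringCM.Quadratic
import Fermat.Agent.Root.SummaryChebotarevNumberField

/-!
# Frobenius elements at places of degree one of a quadratic field

The places of degree two are the inert primes, over which the sum of `N v ^ (-s)` is bounded, so a
set of positive density contains infinitely many places of prime norm: every conjugacy class of a
Galois extension consists of Frobenius elements at such places.
-/

set_option autoImplicit false
set_option linter.style.haveILetI false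

noncomputable section

open NumberField IsDedekindDomain Filter Topology FA.Density
open FA.Ext (zN zN_nonneg primeIdeal zN_primeIdeal)
open FA.Chebotarev (Ioc_one_two_mem tendsto_log_atTop summable_zN_primeIdeal)
open scoped Classical

namespace FA.CoatesWiles

variable {K : Type*} [Field K] [NumberField K]

/-- A place of a quadratic field whose norm is not prime is generated by its rational prime. -/
theorem eq_span_of_not_prime (Q : FA.DeuringCM.IQF K) {v : HeightOneSpectrum (𝓞 K)}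
    (hv : ¬ (Ideal.absNorm v.asIdeal).Prime) :
    ∃ q : ℕ, q.Prime ∧ v.asIdeal = Ideal.span {(q : 𝓞 K)} ∧
      Ideal.absNorm v.asIdeal = q ^ 2 := by
  obtain ⟨q, hq, hqv⟩ := FA.Ext.exists_rat_prime_mem v
  have hd := FA.Chebotarev.absNorm_dvd_of_mem hqv
  rw [Q.hK] at hd
  obtain ⟨i, hi, he⟩ := (Nat.dvd_prime_pow hq).1 hd
  have hi2 : i = 2 := by
    interval_cases i
    · exact absurd (Ideal.absNorm_eq_one_iff.1 (he.trans (pow_zero q))) v.isPrime.ne_top
    · exact absurd (he.trans (pow_one q) ▸ hq) hv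
    · rfl
  subst hi2
  refine ⟨q, hq, ?_, he⟩
  obtain ⟨J, hJ⟩ := Ideal.dvd_iff_le.2 ((Ideal.span_singleton_le_iff_mem _).2 hqv)
  have hn : Ideal.absNorm (Ideal.span {(q : 𝓞 K)}) = q ^ 2 := by
    rw [Ideal.absNorm_span_singleton, show (q : 𝓞 K) = algebraMap ℤ (𝓞 K) q by simp,
      Algebra.norm_algebraMap, RingOfIntegers.rank, Q.hK]
    simp [Int.natAbs_pow]
  have h1 := congrArg Ideal.absNorm hJ
  rw [map_mul, hn, he] at h1
  have hJ1 : Ideal.absNorm J = 1 :=
    mul_left_cancel₀ (pow_ne_zero 2 hq.ne_zero) (h1.symm.trans (mul_one _).symm)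
  rw [hJ, Ideal.absNorm_eq_one_iff.1 hJ1, Ideal.mul_top]

/-- The sum over the places of degree two is bounded. -/
theorem exists_bound_not_prime (Q : FA.DeuringCM.IQF K) : ∃ B : ℝ, ∀ s ∈ Set.Ioc (1 : ℝ) 2,
    {v : HeightOneSpectrum (𝓞 K) | ¬ (Ideal.absNorm v.asIdeal).Prime}.primeIdealZetaSum s ≤
      B := by
  set T := {v : HeightOneSpectrum (𝓞 K) | ¬ (Ideal.absNorm v.asIdeal).Prime}
  choose q hq he hn using fun v : T => eq_span_of_not_prime Q v.2
  have hsum : Summable fun n : ℕ => 1 / (n : ℝ) ^ 2 :=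
    Real.summable_one_div_nat_pow.2 one_lt_two
  refine ⟨∑' n : ℕ, 1 / (n : ℝ) ^ 2, fun s hs => ?_⟩
  rw [FA.Chebotarev.primeIdealZetaSum_eq_zN]
  refine Summable.tsum_le_tsum_of_inj q (fun a b h => Subtype.ext (HeightOneSpectrum.ext ?_))
    (fun c _ => by positivity) (fun v => ?_) ((summable_zN_primeIdeal hs.1).subtype T) hsum
  · rw [he a, he b, h]
  · show zN s (primeIdeal v.1) ≤ _
    rw [zN_primeIdeal, hn v, Nat.cast_pow, ← Real.rpow_natCast_mul (Nat.cast_nonneg _), one_div,
      ← Real.rpow_natCast, ← Real.rpow_neg (Nat.cast_nonneg _)]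
    refine Real.rpow_le_rpow_of_exponent_le (by exact_mod_cast (hq v).one_le) ?_
    push_cast
    linarith [hs.1]

/-- **A set of positive density contains infinitely many places of degree one.** -/
theorem exists_prime_norm_of_density (Q : FA.DeuringCM.IQF K)
    {S : Set (HeightOneSpectrum (𝓞 K))} {δ : ℝ} (h : S.HasDirichletDensity δ) (hδ : 0 < δ)
    {T : Set (HeightOneSpectrum (𝓞 K))} (hT : T.Finite) :
    ∃ v ∈ S, v ∉ T ∧ (Ideal.absNorm v.asIdeal).Prime := by
  by_contra! hcon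
  set B₂ : Set (HeightOneSpectrum (𝓞 K)) := {v | ¬ (Ideal.absNorm v.asIdeal).Prime}
  obtain ⟨B, hB⟩ := exists_bound_not_prime Q
  obtain ⟨M, hM⟩ := FA.Chebotarev.exists_univ_bounds (K := K)
  have hden : Tendsto (fun s => (Set.univ : Set (HeightOneSpectrum (𝓞 K))).primeIdealZetaSum s)
      (𝓝[>] 1) atTop := by
    refine tendsto_atTop_mono' _ ?_ (tendsto_atTop_add_const_right _ (-M) tendsto_log_atTop)
    filter_upwards [Ioc_one_two_mem] with s hs
    linarith [(abs_le.mp (hM s hs)).1]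
  have h0 := le_of_tendsto_of_tendsto h (hden.const_div_atTop ((T.ncard : ℝ) + B)) (by
    filter_upwards [Ioc_one_two_mem, hden.eventually_gt_atTop 0] with s hs hpos
    refine div_le_div_of_nonneg_right ?_ hpos.le
    refine (FA.Chebotarev.primeIdealZetaSum_mono (T := T ∪ (B₂ \ T)) (fun v hv => ?_) hs.1).trans ?_
    · by_cases hvT : v ∈ T
      · exact Or.inl hvT
      · exact Or.inr ⟨hcon v hv hvT, hvT⟩
    rw [FA.Chebotarev.primeIdealZetaSum_union disjoint_sdiff_self_right hs.1]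
    exact add_le_add (Set.primeIdealZetaSum_le_card_of_finite hT (by linarith [hs.1] : (0 : ℝ) ≤ s))
      ((FA.Chebotarev.primeIdealZetaSum_mono Set.sdiff_subset hs.1).trans (hB s hs)))
  linarith

/-- **A Frobenius element at a place of degree one.** -/
theorem exists_degree_one_frobenius (Q : FA.DeuringCM.IQF K) {L : Type*} [Field L] [NumberField L]
    [Algebra K L] [IsGalois K L] (σ : L ≃ₐ[K] L) {T : Set (HeightOneSpectrum (𝓞 K))}
    (hT : T.Finite) :
    ∃ (v : HeightOneSpectrum (𝓞 K)) (P : Ideal (𝓞 L)) (x : L ≃ₐ[K] L), v ∉ T ∧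
      (Ideal.absNorm v.asIdeal).Prime ∧ P.IsMaximal ∧ P.under (𝓞 K) = v.asIdeal ∧
      IsArithFrobAt (𝓞 K) (x * σ * x⁻¹) P := by
  have hpos : (0 : ℝ) < (Nat.card {τ : L ≃ₐ[K] L | IsConj σ τ} : ℝ) / Nat.card (L ≃ₐ[K] L) := by
    have : Nonempty {τ : L ≃ₐ[K] L | IsConj σ τ} := ⟨⟨σ, IsConj.refl σ⟩⟩
    exact div_pos (Nat.cast_pos.mpr Nat.card_pos) (Nat.cast_pos.mpr Nat.card_pos)
  obtain ⟨v, ⟨P, hP, hPv, τ, hτσ, hτ⟩, hvT, hp⟩ := exists_prime_norm_of_density Q
    (FA.Chebotarev.hasDirichletDensity_frobenius (K := K) {τ : L ≃ₐ[K] L | IsConj σ τ}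
      fun g hg y => IsConj.trans hg (isConj_iff.mpr ⟨y, rfl⟩)) hpos hT
  obtain ⟨x, hx⟩ := isConj_iff.mp (hτσ : IsConj σ τ)
  exact ⟨v, P, x, hvT, hp, hP, hPv, hx ▸ hτ⟩

end FA.CoatesWiles

end
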