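import Fermat.Agent.CoatesWiles.Tower
import Fermat.Agent.GoodReductionNF.Place
import Fermat.Agent.Supersingular.CMKernel

/-!
# Division by `π` in the points fixed by inertia

On the points of the kernel of reduction fixed by inertia `π` multiplies the parameter by `|π|`, so
a nonzero one is divisible only finitely often.  Dividing once more gives a point that an inertia
element fixing the points killed by the same power of `π` moves.
-/

set_option autoImplicit false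
set_option linter.style.haveILetI false
set_option linter.unusedSectionVars false

noncomputable section

open WeierstrassCurve NumberField IsDedekindDomain FA.IsogenyNF FA.Local
open FA.DeuringCM (IQF)
open FA.OpenImageNF (inertGroup mem_inertGroup exists_zpow_of_fixed)
open scoped WeierstrassCurve.Affine Classical

namespace FA.CoatesWiles

variable {K : Type} [Field K] [NumberField K]

local notation "Kb" => AlgebraicClosure K

open CMDat

namespace SplitPlace

variable {D : CMDat K} {Q : IQF K} (X : SplitPlace D Q)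

local notation "vv" => X.P.R.valuation

theorem valuation_π : X.P.v.valuation K (X.π : K) = WithZero.exp (-1 : ℤ) := by
  rw [show (X.π : K) = algebraMap (𝓞 K) K X.π from rfl, X.P.v.valuation_of_algebraMap]
  exact X.P.v.intValuation_singleton X.h.ne_zero X.h.span_eq

theorem vπ_lt_ρ_one : X.vπ < X.ρ 1 := by
  rw [← X.ρ_one_pow]
  exact pow_lt_self_of_lt_one₀ (X.ρ_pos one_ne_zero) (X.ρ_lt_one 1)
    (by have := X.five_le; omega)

/-- A point of the kernel of reduction fixed by inertia. -/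
def IsInertFixed (S : D.Pt) : Prop :=
  X.P.red S = 0 ∧ ∀ σ ∈ inertGroup K X.P.R, σ • S = S

theorem val_zc_le_of_fixed {S : D.Pt} (hS : X.IsInertFixed S) : vv (zc S) ≤ X.vπ :=
  FA.GoodNF.le_unif_of_fixed X.P.isOver X.valuation_π
    (fun σ hσ => by rw [← zc_smul, hS.2 σ hσ]) (X.P.val_zc_lt hS.1)

theorem val_zc_pow_mulPt {S : D.Pt} (hS : X.IsInertFixed S) (k : ℕ) :
    X.IsInertFixed (D.mulPt (X.π ^ k) S) ∧
      vv (zc (D.mulPt (X.π ^ k) S)) = X.vπ ^ k * vv (zc S) := by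
  induction k with
  | zero => rw [pow_zero, D.mulPt_one, pow_zero, one_mul]; exact ⟨hS, rfl⟩
  | succ k ih =>
    obtain ⟨hk, e⟩ := ih
    have e' : D.mulPt (X.π ^ (k + 1)) S = D.mulPt X.π (D.mulPt (X.π ^ k) S) := by
      rw [← D.mulPt_mul, pow_succ']
    rw [e']
    refine ⟨⟨X.P.red_mulPt_of_red Q X.h.two_notMem _ hk.1, fun σ hσ => ?_⟩, ?_⟩
    · rw [← D.mulPt_smul, hk.2 σ hσ]
    · rw [X.h.val_zc_mulPt_of_lt X.P rfl hk.1 ((X.val_zc_le_of_fixed hk).trans_lt X.vπ_lt_ρ_one),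
        e, pow_succ', mul_assoc]

/-- Some element of inertia moves the points killed by `π`. -/
theorem exists_inert_moves : ∃ δ ∈ inertGroup K X.P.R, δ • X.pt 1 ≠ X.pt 1 := by
  by_contra! h
  exact not_le.2 X.vπ_lt_ρ_one (X.val_zc_le_of_fixed ⟨X.red_pt 1, h⟩)

theorem red_eq_zero_of_mulPt {R : D.Pt} (h : X.P.red (D.mulPt X.π R) = 0) : X.P.red R = 0 := by
  haveI : Fact X.P.p.Prime := ⟨X.prime⟩
  rw [X.h.red_mulPt X.P rfl] at h
  exact (map_eq_zero_iff _ X.P.qMap_injective).1 h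

theorem nsmul_pt_of_cast {i j : ℕ} (h : (i : ZMod X.p) = j) : i • X.pt 1 = j • X.pt 1 := by
  rw [ZMod.natCast_eq_natCast_iff] at h
  rw [← X.nsmul_pt_mod i, pow_one, h, ← X.nsmul_pt_mod j, pow_one]

theorem cast_eq_of_nsmul {i j : ℕ} (h : i • X.pt 1 = j • X.pt 1) : (i : ZMod X.p) = j := by
  rw [ZMod.natCast_eq_natCast_iff]
  rcases le_total j i with hle | hle
  · have hd := X.nsmul_pt_sub hle h
    rw [pow_one] at hd
    exact ((Nat.modEq_iff_dvd' hle).2 hd).symm
  · have hd := X.nsmul_pt_sub hle h.symm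
    rw [pow_one] at hd
    exact (Nat.modEq_iff_dvd' hle).2 hd

/-- `π` is onto. -/
theorem mulPt_π_surjective (S : D.Pt) : ∃ R, D.mulPt X.π R = S := by
  haveI := Fact.mk X.prime
  obtain ⟨R, hR⟩ := FA.CMReduction.exists_nsmul_eq (p := X.p) (W := D.W.baseChange Kb) S
  exact ⟨D.mulPt (Q.conj X.π) R, by rw [← D.mulPt_mul, X.h.mul_conj, D.mulPt_natCast]; exact hR⟩

/-- **A division point moved by inertia over the layer.** -/
theorem exists_division {S : D.Pt} (hS : X.IsInertFixed S) (h0 : S ≠ 0) :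
    ∃ (k : ℕ) (R : D.Pt), D.mulPt (X.π ^ (k + 1)) R = S ∧ X.P.red R = 0 ∧
      ∃ τ ∈ inertGroup K X.P.R, τ • X.pt (k + 1) = X.pt (k + 1) ∧ τ • R ≠ R := by
  obtain ⟨i, hi⟩ := exists_zpow_of_fixed X.P.isOver X.valuation_π (X.P.zc_ne_zero hS.1 h0)
    fun σ hσ => by rw [← zc_smul, hS.2 σ hσ]
  set A := {k : ℕ | ∃ S', X.IsInertFixed S' ∧ D.mulPt (X.π ^ k) S' = S}
  have hbdd : ∀ k ∈ A, k ≤ i.toNat := fun k ⟨S', hS', e⟩ => by
    have h := (X.val_zc_pow_mulPt hS' k).2
    rw [e, hi] at h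
    have hle : X.vπ ^ i ≤ X.vπ ^ (k : ℤ) := by
      rw [zpow_natCast]
      exact h.trans_le (mul_le_of_le_one_right' ((X.P.val_zc_lt hS'.1).le))
    rw [zpow_le_zpow_iff_right_of_lt_one₀ X.vπ_pos X.vπ_lt] at hle
    omega
  obtain ⟨k, ⟨S', hS', hk⟩, hmax⟩ : ∃ k ∈ A, ∀ j ∈ A, j ≤ k :=
    have hfin : A.Finite := (Set.finite_Iic i.toNat).subset hbdd
    ⟨_, Nat.sSup_mem ⟨0, S, hS, by rw [pow_zero, D.mulPt_one]⟩ hfin.bddAbove,
      fun j hj => le_csSup hfin.bddAbove hj⟩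
  obtain ⟨R, hR⟩ := X.mulPt_π_surjective S'
  have hred : ∀ R', D.mulPt X.π R' = S' → X.P.red R' = 0 := fun R' e =>
    X.red_eq_zero_of_mulPt (by rw [e]; exact hS'.1)
  refine ⟨k, R, by rw [pow_succ, D.mulPt_mul, hR, hk], hred R hR, ?_⟩
  by_contra! hall
  -- the cocycle
  have hc : ∀ σ ∈ inertGroup K X.P.R, ∃ a : ℕ, σ • R = R + a • X.pt 1 := fun σ hσ => by
    obtain ⟨a, ha⟩ := X.h.exists_nsmul_piPt (m := 1) (T := σ • R - R) (by
      rw [pow_one, map_sub, D.mulPt_smul, hR, hS'.2 σ hσ, sub_self])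
    exact ⟨a, by rw [← ha, add_sub_cancel]⟩
  obtain ⟨δ, hδ, hmove⟩ := X.exists_inert_moves
  obtain ⟨d, -, hd⟩ := X.exists_mult δ (Nat.succ_ne_zero k)
  obtain ⟨a, ha⟩ := hc δ hδ
  have hd1 := X.smul_pt_le hd (Nat.succ_le_succ (Nat.zero_le k))
  haveI := Fact.mk X.prime
  have hdne : (d : ZMod X.p) - 1 ≠ 0 := fun e => hmove (by
    rw [hd1, X.nsmul_pt_of_cast (j := 1) (by rw [sub_eq_zero.1 e, Nat.cast_one]), one_nsmul])
  set t := ((a : ZMod X.p) * ((d : ZMod X.p) - 1)⁻¹).val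
  set R' := R - t • X.pt 1 with hR'
  have ht : (t : ZMod X.p) * ((d : ZMod X.p) - 1) = a := by
    rw [ZMod.natCast_zmod_val, inv_mul_cancel_right₀ hdne]
  have hR'π : D.mulPt X.π R' = S' := by
    rw [hR', map_sub, map_nsmul, X.h.mulPt_piPt 0, show piPt D X.π 0 = 0 from X.h.piPt_zero,
      nsmul_zero, sub_zero, hR]
  -- it is fixed by inertia
  have hfix : ∀ σ ∈ inertGroup K X.P.R, σ • R' = R' := fun σ hσ => by
    obtain ⟨j, -, hj⟩ := X.exists_mult σ (Nat.succ_ne_zero k)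
    obtain ⟨b, hb⟩ := hc σ hσ
    have hj1 := X.smul_pt_le hj (Nat.succ_le_succ (Nat.zero_le k))
    have hcomm : (σ * δ) • R = (δ * σ) • R := by
      have h := hall ((δ * σ)⁻¹ * (σ * δ)) (mul_mem (inv_mem (mul_mem hδ hσ)) (mul_mem hσ hδ)) (by
        rw [mul_smul, inv_smul_eq_iff, mul_smul, mul_smul, hj, hd, smul_nsmul', smul_nsmul', hj, hd,
          ← mul_nsmul', ← mul_nsmul', mul_comm])
      rwa [mul_smul, inv_smul_eq_iff] at h
    rw [mul_smul, mul_smul, ha, hb, smul_add (A := D.Pt) σ, smul_add (A := D.Pt) δ, smul_nsmul',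
      smul_nsmul', hj1, hd1, ha, hb, ← mul_nsmul', ← mul_nsmul', add_assoc, add_assoc,
      add_right_inj, ← add_nsmul, ← add_nsmul] at hcomm
    have hmod := X.cast_eq_of_nsmul hcomm
    push_cast at hmod
    rw [hR', smul_sub (A := D.Pt) σ, hb, smul_nsmul', hj1, ← mul_nsmul', sub_eq_sub_iff_add_eq_add,
      add_assoc, ← add_nsmul, add_right_inj]
    refine X.nsmul_pt_of_cast ?_
    push_cast
    refine mul_right_cancel₀ hdne ?_
    linear_combination (-hmod) - ((j : ZMod X.p) - 1) * ht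
  have hk1 : k + 1 ∈ A := ⟨R', ⟨hred R' hR'π, hfix⟩, by rw [pow_succ, D.mulPt_mul, hR'π, hk]⟩
  have := hmax _ hk1
  omega

end SplitPlace

end FA.CoatesWiles

end
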