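import Fermat.Agent.Tau.Uniformisation
import Mathlib.Analysis.Complex.LocallyUniformLimit
import Mathlib.Algebra.Module.ZLattice.Summable
import Mathlib.Analysis.Meromorphic.Order

/-!
# Second differences of `z̄ |z| ^ (-2 s)` over a lattice

The second differences are `O (|z| ^ (-2 σ - 1))`, so their sum over a translate of a lattice is
holomorphic in `σ > 1/2`. At `s = 1` the kernel is `1 / z` and the sum is `℘' x / (℘ x - ℘ a)`.
-/

set_option autoImplicit false
set_option linter.style.haveILetI false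
set_option linter.unusedSectionVars false

noncomputable section

open Complex Filter Set Topology
open scoped ComplexConjugate

namespace FA.CoatesWiles

/-- `z̄ |z| ^ (-2 s)`. -/
def kern (s z : ℂ) : ℂ := conj z * cexp (-s * (Real.log (normSq z) : ℂ))

/-- The second difference. -/
def diff2 (a s z : ℂ) : ℂ := kern s (z + a) + kern s (z - a) - 2 * kern s z

theorem norm_exp_log_normSq {z : ℂ} (hz : z ≠ 0) (s : ℂ) :
    ‖cexp (-s * (Real.log (normSq z) : ℂ))‖ = ‖z‖ ^ (-(2 * s.re)) := by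
  rw [Complex.norm_exp, Real.rpow_def_of_pos (norm_pos_iff.2 hz), normSq_eq_norm_sq, Real.log_pow]
  simp [Complex.mul_re]
  ring

theorem norm_kern {z : ℂ} (hz : z ≠ 0) (s : ℂ) : ‖kern s z‖ = ‖z‖ ^ (1 - 2 * s.re) := by
  rw [kern, norm_mul, RCLike.norm_conj, norm_exp_log_normSq hz, sub_eq_add_neg,
    Real.rpow_add (norm_pos_iff.2 hz), Real.rpow_one]

theorem kern_zero (s : ℂ) : kern s 0 = 0 := by simp [kern]

theorem kern_neg (s z : ℂ) : kern s (-z) = -kern s z := by simp [kern]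

theorem kern_one (z : ℂ) : kern 1 z = z⁻¹ := by
  rcases eq_or_ne z 0 with rfl | hz
  · simp [kern]
  have h : cexp (-1 * (Real.log (normSq z) : ℂ)) = ((normSq z : ℝ) : ℂ)⁻¹ := by
    rw [neg_one_mul, Complex.exp_neg, ← Complex.ofReal_exp, Real.exp_log (normSq_pos.2 hz)]
  rw [kern, h, Complex.inv_def z, Complex.ofReal_inv]

/-- The kernel is multiplicative. -/
theorem kern_mul (s : ℂ) {c z : ℂ} (hc : c ≠ 0) :
    kern s (c * z) = kern s c * kern s z := by
  rcases eq_or_ne z 0 with rfl | hz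
  · simp [kern_zero]
  simp only [kern, map_mul]
  rw [Real.log_mul (normSq_pos.2 hc).ne' (normSq_pos.2 hz).ne', Complex.ofReal_add, mul_add,
    Complex.exp_add]
  ring

theorem differentiable_kern (z : ℂ) : Differentiable ℂ fun s => kern s z := by
  unfold kern; fun_prop

theorem differentiable_diff2 (a z : ℂ) : Differentiable ℂ fun s => diff2 a s z :=
  ((differentiable_kern _).add (differentiable_kern _)).sub ((differentiable_kern _).const_mul 2)

/-- A bound on the kernel, uniform on bounded sets of exponents. -/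
theorem norm_kern_le {s : ℂ} {R : ℝ} (hR : ‖s‖ ≤ R) (z : ℂ) :
    ‖kern s z‖ ≤ ‖z‖ * Real.exp (R * |Real.log (normSq z)|) := by
  rw [kern, norm_mul, RCLike.norm_conj, Complex.norm_exp]
  refine mul_le_mul_of_nonneg_left (Real.exp_le_exp.2 ?_) (norm_nonneg _)
  simp only [mul_re, neg_re, ofReal_re, neg_im, ofReal_im, mul_zero, sub_zero, neg_mul]
  calc -(s.re * Real.log (normSq z)) ≤ |s.re * Real.log (normSq z)| := neg_le_abs _
    _ = |s.re| * |Real.log (normSq z)| := abs_mul _ _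
    _ ≤ R * |Real.log (normSq z)| :=
      mul_le_mul_of_nonneg_right ((Complex.abs_re_le_norm s).trans hR) (abs_nonneg _)

/-- **The second difference is smaller by two orders.** -/
theorem norm_diff2_le {a z : ℂ} (ha : 2 * ‖a‖ ≤ ‖z‖) (hz : z ≠ 0) {s : ℂ} (hs : 0 ≤ s.re) :
    ‖diff2 a s z‖ ≤
      2 * ((4 * ‖s‖ ^ 2 + 10 * ‖s‖) * ‖a‖ ^ 2 * (‖z‖ / 2) ^ (-(2 * s.re) - 1)) := by
  set C := (4 * ‖s‖ ^ 2 + 10 * ‖s‖) * ‖a‖ ^ 2 * (‖z‖ / 2) ^ (-(2 * s.re) - 1) with hC
  have hz0 : 0 < ‖z‖ := norm_pos_iff.2 hz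
  let w : ℝ → ℂ := fun t => z + t * a
  have hw : ∀ t ∈ Icc (-1 : ℝ) 1, ‖z‖ / 2 ≤ ‖w t‖ := fun t ht => by
    have h1 : ‖(t : ℂ) * a‖ ≤ ‖a‖ := by
      rw [norm_mul, Complex.norm_real, Real.norm_eq_abs]
      exact mul_le_of_le_one_left (norm_nonneg _) (abs_le.2 ht)
    have h2 := norm_sub_norm_le z (-((t : ℂ) * a))
    rw [norm_neg, sub_neg_eq_add] at h2
    linarith
  have hw0 : ∀ t ∈ Icc (-1 : ℝ) 1, w t ≠ 0 := fun t ht h => by
    have := hw t ht; rw [h, norm_zero] at this; linarith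
  let M : ℝ → ℝ := fun t => 2 * (conj a * w t).re
  let E : ℝ → ℂ := fun t => cexp (-s * (Real.log (normSq (w t)) : ℂ))
  let q : ℝ → ℂ := fun t => ((M t / normSq (w t) : ℝ) : ℂ)
  let q' : ℝ → ℂ := fun t =>
    (((2 * normSq a * normSq (w t) - M t * M t) / normSq (w t) ^ 2 : ℝ) : ℂ)
  let φ : ℝ → ℂ := fun t => conj (w t) * E t
  let φ' : ℝ → ℂ := fun t => E t * (conj a - s * conj (w t) * q t)
  let φ'' : ℝ → ℂ := fun t => E t * ((-s * q t) * (conj a - s * conj (w t) * q t) -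
    s * (conj a * q t + conj (w t) * q' t))
  have dM : ∀ t, HasDerivAt M (2 * normSq a) t := fun t => by
    have e : M = fun t : ℝ => 2 * (conj a * z).re + t * (2 * normSq a) := funext fun t => by
      simp [M, w, normSq_apply, mul_re, mul_im]; ring
    rw [e]
    simpa using ((hasDerivAt_id t).mul_const (2 * normSq a)).const_add (2 * (conj a * z).re)
  have dN : ∀ t, HasDerivAt (fun t => normSq (w t)) (M t) t := fun t => by
    have e : (fun t => normSq (w t)) =
        fun t : ℝ => normSq z + t * (2 * (conj a * z).re) + t * t * normSq a := funext fun t => by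
      simp [w, normSq_apply, mul_re, mul_im]; ring
    rw [e]
    have h := (((hasDerivAt_id t).mul_const (2 * (conj a * z).re)).const_add (normSq z)).add
      (((hasDerivAt_id t).mul (hasDerivAt_id t)).mul_const (normSq a))
    refine h.congr_deriv ?_
    simp [M, w, normSq_apply, mul_re, mul_im]; ring
  have dcw : ∀ t : ℝ, HasDerivAt (fun t => conj (w t)) (conj a) t := fun t => by
    have e : (fun t : ℝ => conj (w t)) = fun t : ℝ => conj z + (t : ℂ) * conj a :=
      funext fun t => by simp [w]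
    rw [e]
    simpa using ((hasDerivAt_id t).ofReal_comp.mul_const (conj a)).const_add (conj z)
  have dE : ∀ t ∈ Icc (-1 : ℝ) 1, HasDerivAt E (E t * (-s * q t)) t := fun t ht =>
    (((dN t).log (normSq_pos.2 (hw0 t ht)).ne').ofReal_comp.const_mul (-s)).cexp
  have dφ : ∀ t ∈ Icc (-1 : ℝ) 1, HasDerivAt φ (φ' t) t := fun t ht =>
    ((dcw t).mul (dE t ht)).congr_deriv (by simp only [φ']; ring)
  have dq : ∀ t ∈ Icc (-1 : ℝ) 1, HasDerivAt q (q' t) t := fun t ht => by
    exact ((dM t).div (dN t) (normSq_pos.2 (hw0 t ht)).ne').ofReal_comp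
  have dφ' : ∀ t ∈ Icc (-1 : ℝ) 1, HasDerivAt φ' (φ'' t) t := fun t ht => by
    refine ((dE t ht).mul (((hasDerivAt_const t (conj a)).sub
      (((dcw t).const_mul s).mul (dq t ht))))).congr_deriv ?_
    simp only [φ'', Pi.sub_apply, Pi.mul_apply]; ring
  have hb : ∀ t ∈ Icc (-1 : ℝ) 1, ‖φ'' t‖ ≤ C := fun t ht => by
    have hw' := hw t ht
    have hwp : 0 < ‖w t‖ := norm_pos_iff.2 (hw0 t ht)
    have hM : |M t| ≤ 2 * ‖a‖ * ‖w t‖ := by
      simp only [M, abs_mul, abs_two, mul_assoc]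
      exact mul_le_mul_of_nonneg_left ((Complex.abs_re_le_norm _).trans (by simp)) zero_le_two
    have hq : ‖q t‖ * ‖w t‖ ≤ 2 * ‖a‖ := by
      simp only [q, Complex.norm_real, Real.norm_eq_abs, abs_div, normSq_eq_norm_sq]
      rw [abs_of_pos (pow_pos hwp 2), div_mul_eq_mul_div, div_le_iff₀ (pow_pos hwp 2)]
      nlinarith
    have hq' : ‖q' t‖ * ‖w t‖ ^ 2 ≤ 6 * ‖a‖ ^ 2 := by
      simp only [q', Complex.norm_real, Real.norm_eq_abs, abs_div, normSq_eq_norm_sq]
      rw [abs_of_pos (pow_pos (pow_pos hwp 2) 2), div_mul_eq_mul_div,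
        div_le_iff₀ (pow_pos (pow_pos hwp 2) 2)]
      have h1 : |2 * ‖a‖ ^ 2 * ‖w t‖ ^ 2 - M t * M t| ≤ 6 * ‖a‖ ^ 2 * ‖w t‖ ^ 2 := by
        have : M t * M t ≤ (2 * ‖a‖ * ‖w t‖) ^ 2 := by
          rw [← sq, ← sq_abs]; exact pow_le_pow_left₀ (abs_nonneg _) hM 2
        rw [abs_le]
        constructor <;> nlinarith [mul_self_nonneg (M t), mul_nonneg (sq_nonneg ‖a‖) (sq_nonneg ‖w t‖)]
      calc |2 * ‖a‖ ^ 2 * ‖w t‖ ^ 2 - M t * M t| * ‖w t‖ ^ 2
          ≤ 6 * ‖a‖ ^ 2 * ‖w t‖ ^ 2 * ‖w t‖ ^ 2 := mul_le_mul_of_nonneg_right h1 (sq_nonneg _)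
        _ = 6 * ‖a‖ ^ 2 * (‖w t‖ ^ 2) ^ 2 := by ring
    have hE : ‖E t‖ = ‖w t‖ ^ (-(2 * s.re) - 1) * ‖w t‖ := by
      rw [norm_exp_log_normSq (hw0 t ht), ← Real.rpow_add_one hwp.ne']
      norm_num
    have hbr : ‖(-s * q t) * (conj a - s * conj (w t) * q t) -
        s * (conj a * q t + conj (w t) * q' t)‖ * ‖w t‖ ≤
        (4 * ‖s‖ ^ 2 + 10 * ‖s‖) * ‖a‖ ^ 2 := by
      have t1 : ‖(-s * q t) * (conj a - s * conj (w t) * q t)‖ ≤
          ‖s‖ * ‖q t‖ * (‖a‖ + ‖s‖ * ‖w t‖ * ‖q t‖) := by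
        rw [norm_mul, norm_mul, norm_neg]
        exact mul_le_mul_of_nonneg_left ((norm_sub_le _ _).trans_eq (by simp)) (by positivity)
      have t2 : ‖s * (conj a * q t + conj (w t) * q' t)‖ ≤
          ‖s‖ * (‖a‖ * ‖q t‖ + ‖w t‖ * ‖q' t‖) := by
        rw [norm_mul]
        exact mul_le_mul_of_nonneg_left ((norm_add_le _ _).trans_eq (by simp)) (norm_nonneg _)
      refine (mul_le_mul_of_nonneg_right ((norm_sub_le _ _).trans (add_le_add t1 t2)) hwp.le).trans ?_
      have hn := norm_nonneg s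
      have h1 : ‖s‖ * ‖q t‖ * (‖a‖ + ‖s‖ * ‖w t‖ * ‖q t‖) * ‖w t‖ ≤
          ‖s‖ * (2 * ‖a‖) * (‖a‖ + ‖s‖ * (2 * ‖a‖)) := by
        calc ‖s‖ * ‖q t‖ * (‖a‖ + ‖s‖ * ‖w t‖ * ‖q t‖) * ‖w t‖
            = ‖s‖ * (‖q t‖ * ‖w t‖) * (‖a‖ + ‖s‖ * (‖q t‖ * ‖w t‖)) := by ring
          _ ≤ _ := by gcongr
      have h2 : ‖s‖ * (‖a‖ * ‖q t‖ + ‖w t‖ * ‖q' t‖) * ‖w t‖ ≤
          ‖s‖ * (‖a‖ * (2 * ‖a‖) + 6 * ‖a‖ ^ 2) := by
        calc ‖s‖ * (‖a‖ * ‖q t‖ + ‖w t‖ * ‖q' t‖) * ‖w t‖
            = ‖s‖ * (‖a‖ * (‖q t‖ * ‖w t‖) + ‖q' t‖ * ‖w t‖ ^ 2) := by ring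
          _ ≤ _ := by gcongr
      nlinarith [h1, h2]
    calc ‖φ'' t‖ = ‖w t‖ ^ (-(2 * s.re) - 1) * (‖(-s * q t) * (conj a - s * conj (w t) * q t) -
          s * (conj a * q t + conj (w t) * q' t)‖ * ‖w t‖) := by
            simp only [φ'', norm_mul, hE]; ring
      _ ≤ (‖z‖ / 2) ^ (-(2 * s.re) - 1) * ((4 * ‖s‖ ^ 2 + 10 * ‖s‖) * ‖a‖ ^ 2) := by
            refine mul_le_mul ?_ hbr (by positivity) (by positivity)
            exact Real.rpow_le_rpow_of_nonpos (by positivity) hw' (by linarith)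
      _ = C := by rw [hC]; ring
  have hmem : ∀ t ∈ Icc (0 : ℝ) 1, t ∈ Icc (-1 : ℝ) 1 ∧ -t ∈ Icc (-1 : ℝ) 1 := fun t ht =>
    ⟨⟨by linarith [ht.1], ht.2⟩, ⟨by linarith [ht.2], by linarith [ht.1]⟩⟩
  have hb' : ∀ t ∈ Icc (0 : ℝ) 1, ‖φ' t - φ' (-t)‖ ≤ 2 * C := fun t ht => by
    refine ((convex_Icc (-1 : ℝ) 1).norm_image_sub_le_of_norm_hasDerivWithin_le
      (fun u hu => (dφ' u hu).hasDerivWithinAt) hb (hmem t ht).2 (hmem t ht).1).trans ?_
    have hC0 : 0 ≤ C := (norm_nonneg _).trans (hb t (hmem t ht).1)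
    rw [sub_neg_eq_add, Real.norm_eq_abs, abs_of_nonneg (by linarith [ht.1])]
    nlinarith [ht.2]
  have h := (convex_Icc (0 : ℝ) 1).norm_image_sub_le_of_norm_hasDerivWithin_le
    (f := fun t => φ t + φ (-t)) (f' := fun t => φ' t - φ' (-t)) (C := 2 * C)
    (fun t ht => (((dφ t (hmem t ht).1).add
      ((dφ (-t) (hmem t ht).2).scomp t (hasDerivAt_neg t))).congr_deriv (by simp [sub_eq_add_neg])).hasDerivWithinAt)
    hb' (left_mem_Icc.2 zero_le_one) (right_mem_Icc.2 zero_le_one)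
  refine le_of_eq_of_le ?_ (h.trans_eq (by simp))
  congr 1
  simp [φ, E, w, diff2, kern, sub_eq_add_neg]
  ring

variable (L : PeriodPair)

theorem summable_norm_add_rpow {r : ℝ} (hr : r < -2) (x : ℂ) :
    Summable fun l : L.lattice => ‖x + (l : ℂ)‖ ^ r := by
  refine (ZLattice.summable_norm_sub_rpow L.lattice r (by simpa using hr) (-x)).congr fun l => ?_
  rw [sub_neg_eq_add, add_comm]

theorem eventually_le_norm_add (x : ℂ) (hx : x ∉ L.lattice) (B : ℝ) :
    ∀ᶠ l : L.lattice in cofinite, B ≤ ‖x + (l : ℂ)‖ := by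
  set B' := max B 1
  have hB : 0 < B' := lt_max_of_lt_right one_pos
  filter_upwards [(summable_norm_add_rpow L (r := -3) (by norm_num) x).tendsto_cofinite_zero
    (Iio_mem_nhds (Real.rpow_pos_of_pos hB (-3)))] with l hl
  have hpos : 0 < ‖x + (l : ℂ)‖ := norm_pos_iff.2 fun h => hx (by
    rw [eq_neg_of_add_eq_zero_left h]; exact neg_mem l.2)
  refine (le_max_left B 1).trans (not_lt.1 fun hlt => ?_)
  exact absurd hl (not_lt.2 (Real.rpow_le_rpow_of_nonpos hpos hlt.le (by norm_num)))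

/-- The sum of the second differences over `x + L`. -/
def diffSum (x a s : ℂ) : ℂ := ∑' l : L.lattice, diff2 a s (x + l)

theorem add_notMem_ne_zero {x : ℂ} (hx : x ∉ L.lattice) (l : L.lattice) : x + (l : ℂ) ≠ 0 :=
  fun h => hx (by rw [eq_neg_of_add_eq_zero_left h]; exact neg_mem l.2)

/-- A summable bound on a bounded set of exponents with `σ ≥ σ₀ > 1/2`. -/
theorem exists_bound {x : ℂ} (hx : x ∉ L.lattice) (a : ℂ) {σ₀ R : ℝ} (hσ : 1 / 2 < σ₀) :
    ∃ u : L.lattice → ℝ, Summable u ∧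
      ∀ (l : L.lattice) (s : ℂ), σ₀ ≤ s.re → ‖s‖ ≤ R → ‖diff2 a s (x + l)‖ ≤ u l := by
  classical
  set B := max 1 (2 * ‖a‖)
  let big : L.lattice → ℝ := fun l => 2 * ((4 * R ^ 2 + 10 * R) * ‖a‖ ^ 2 *
    ((2 : ℝ) ^ (2 * R + 1) * ‖x + (l : ℂ)‖ ^ (-(2 * σ₀) - 1)))
  let small : ℂ → ℝ := fun z => ‖z‖ * Real.exp (R * |Real.log (normSq z)|)
  let u : L.lattice → ℝ := fun l => if B ≤ ‖x + (l : ℂ)‖ then big l else
    small (x + l + a) + small (x + l - a) + 2 * small (x + l)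
  have hbig : Summable big :=
    ((((summable_norm_add_rpow L (by linarith) x).mul_left _).mul_left _).mul_left _)
  refine ⟨u, hbig.congr_cofinite ((eventually_le_norm_add L x hx B).mono fun l hl => (if_pos hl).symm),
    fun l s hs hR => ?_⟩
  have hR0 : 0 ≤ R := (norm_nonneg s).trans hR
  simp only [u]
  split_ifs with hl
  · have hz := add_notMem_ne_zero L hx l
    have hz1 : 1 ≤ ‖x + (l : ℂ)‖ := (le_max_left _ _).trans hl
    refine (norm_diff2_le ((le_max_right _ _).trans hl) hz (by linarith)).trans ?_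
    simp only [big]
    gcongr
    rw [Real.div_rpow (norm_nonneg _) zero_le_two, div_eq_mul_inv, ← Real.rpow_neg zero_le_two,
      mul_comm]
    refine mul_le_mul (Real.rpow_le_rpow_of_exponent_le one_le_two ?_)
      (Real.rpow_le_rpow_of_exponent_le hz1 (by linarith)) (by positivity) (by positivity)
    linarith [(Complex.re_le_norm s).trans hR]
  · refine (norm_sub_le _ _).trans (add_le_add ((norm_add_le _ _).trans
      (add_le_add (norm_kern_le hR _) (norm_kern_le hR _))) ?_)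
    rw [norm_mul, RCLike.norm_ofNat]
    exact mul_le_mul_of_nonneg_left (norm_kern_le hR _) zero_le_two

theorem summable_diff2 {x : ℂ} (hx : x ∉ L.lattice) (a : ℂ) {s : ℂ} (hs : 1 / 2 < s.re) :
    Summable fun l : L.lattice => diff2 a s (x + l) := by
  obtain ⟨u, hu, hb⟩ := exists_bound L hx a (R := ‖s‖) hs
  exact Summable.of_norm_bounded hu fun l => hb l s le_rfl le_rfl

/-- **The sum is holomorphic in `σ > 1/2`.** -/
theorem differentiableOn_diffSum {x : ℂ} (hx : x ∉ L.lattice) (a : ℂ) :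
    DifferentiableOn ℂ (diffSum L x a) {s | 1 / 2 < s.re} := by
  intro s₀ hs₀
  simp only [mem_ofPred_eq] at hs₀
  set σ₀ := (1 / 2 + s₀.re) / 2 with hσ₀
  set U := {s : ℂ | σ₀ < s.re} ∩ Metric.ball 0 (‖s₀‖ + 1)
  have hU : IsOpen U := (isOpen_lt continuous_const Complex.continuous_re).inter Metric.isOpen_ball
  have hmem : s₀ ∈ U := ⟨by simp only [mem_ofPred_eq, hσ₀]; linarith, by simp⟩
  obtain ⟨u, hu, hb⟩ := exists_bound L hx a (σ₀ := σ₀) (R := ‖s₀‖ + 1) (by rw [hσ₀]; linarith)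
  exact ((Complex.differentiableOn_tsum_of_summable_norm hu
    (fun l => (differentiable_diff2 a (x + l)).differentiableOn) hU
    fun l w hw => hb l w hw.1.le (mem_ball_zero_iff.1 hw.2).le).differentiableAt
      (hU.mem_nhds hmem)).differentiableWithinAt

/-! ### The value at `s = 1` -/

/-- The summand at `s = 1`. -/
def invDiff (a z : ℂ) : ℂ := (z + a)⁻¹ + (z - a)⁻¹ - 2 * z⁻¹

theorem diff2_one (a z : ℂ) : diff2 a 1 z = invDiff a z := by simp [diff2, invDiff, kern_one]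

theorem wp_ne_wp {x a : ℂ} (hx : x ∉ L.lattice) (ha : a ∉ L.lattice) (h1 : x + a ∉ L.lattice)
    (h2 : x - a ∉ L.lattice) : L.weierstrassP x ≠ L.weierstrassP a := fun e => by
  have hx' := FA.Mazur.Wp.unif_of_notMem L hx
  have ha' := FA.Mazur.Wp.unif_of_notMem L ha
  rcases WeierstrassCurve.Affine.Y_eq_of_X_eq (FA.Mazur.Wp.equation_latCurve L hx)
    (FA.Mazur.Wp.equation_latCurve L ha) e with hy | hy
  · refine h2 ((FA.Mazur.Wp.unif_eq_unif_iff L).1 ?_)
    rw [hx', ha']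
    simp only [WeierstrassCurve.Affine.Point.some.injEq]
    exact ⟨e, hy⟩
  · refine h1 ?_
    rw [← sub_neg_eq_add, ← FA.Mazur.Wp.unif_eq_unif_iff, FA.Mazur.Wp.unif_neg, hx', ha',
      WeierstrassCurve.Affine.Point.neg_some]
    simp only [WeierstrassCurve.Affine.Point.some.injEq]
    exact ⟨e, hy⟩

/-- The difference form of the addition theorem. -/
theorem wp_sub_sub_wp_add {x a : ℂ} (hx : x ∉ L.lattice) (ha : a ∉ L.lattice)
    (hne : L.weierstrassP x ≠ L.weierstrassP a) :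
    L.weierstrassP (x - a) - L.weierstrassP (x + a) =
      L.derivWeierstrassP x * L.derivWeierstrassP a /
        (L.weierstrassP x - L.weierstrassP a) ^ 2 := by
  have ha' : -a ∉ L.lattice := fun h => ha (by simpa using neg_mem h)
  obtain ⟨-, e1⟩ := FA.Mazur.Wp.wp_add L hx ha hne
  obtain ⟨-, e2⟩ := FA.Mazur.Wp.wp_add L hx ha' (by rwa [L.weierstrassP_neg])
  rw [L.weierstrassP_neg, L.derivWeierstrassP_neg, ← sub_eq_add_neg] at e2
  rw [e1, e2]
  have hd := sub_ne_zero.2 hne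
  field_simp
  ring

/-- The points `a` with `x ± a` outside the lattice. -/
def offSet (x : ℂ) : Set ℂ := (fun a => x + a) ⁻¹' (L.lattice : Set ℂ)ᶜ ∩
  (fun a => x - a) ⁻¹' (L.lattice : Set ℂ)ᶜ

theorem isOpen_offSet (x : ℂ) : IsOpen (offSet L x) :=
  (L.isClosed_lattice.isOpen_compl.preimage (by fun_prop)).inter
    (L.isClosed_lattice.isOpen_compl.preimage (by fun_prop))

theorem add_ne_zero_of_offSet {x a : ℂ} (ha : a ∈ offSet L x) (l : L.lattice) :
    x + (l : ℂ) + a ≠ 0 ∧ x + (l : ℂ) - a ≠ 0 :=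
  ⟨fun h => ha.1 (by
      show x + a ∈ L.lattice
      rw [show x + a = -(l : ℂ) by linear_combination h]; exact neg_mem l.2),
    fun h => ha.2 (by
      show x - a ∈ L.lattice
      rw [show x - a = -(l : ℂ) by linear_combination h]; exact neg_mem l.2)⟩

theorem differentiableOn_invDiff {x : ℂ} (l : L.lattice) :
    DifferentiableOn ℂ (fun a => invDiff a (x + l)) (offSet L x) := fun a ha => by
  obtain ⟨h1, h2⟩ := add_ne_zero_of_offSet L ha l
  refine DifferentiableAt.differentiableWithinAt ?_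
  exact (((differentiableAt_id.const_add _).inv h1).add
    ((differentiableAt_id.const_sub _).inv h2)).sub_const _

theorem hasDerivAt_invDiff {z a : ℂ} (h1 : z + a ≠ 0) (h2 : z - a ≠ 0) :
    HasDerivAt (fun b => invDiff b z) (((z - a) ^ 2)⁻¹ - ((z + a) ^ 2)⁻¹) a := by
  refine (((((hasDerivAt_id a).const_add z).inv h1)).add
    (((hasDerivAt_id a).const_sub z).inv h2)).sub_const (2 * z⁻¹) |>.congr_deriv ?_
  simp only [id, neg_neg, one_div]
  ring

/-- A summable bound near a point of `offSet`. -/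
theorem exists_bound_invDiff {x a₀ : ℂ} (hx : x ∉ L.lattice) (ha : a₀ ∈ offSet L x) :
    ∃ (δ : ℝ) (u : L.lattice → ℝ), 0 < δ ∧ Metric.ball a₀ δ ⊆ offSet L x ∧ Summable u ∧
      ∀ l : L.lattice, ∀ a ∈ Metric.ball a₀ δ, ‖invDiff a (x + l)‖ ≤ u l := by
  classical
  obtain ⟨ε, hε, hsub⟩ := Metric.isOpen_iff.1 (isOpen_offSet L x) a₀ ha
  set δ := min (ε / 2) 1
  have hδ : 0 < δ := lt_min (by linarith) one_pos
  have hcb : Metric.closedBall a₀ δ ⊆ offSet L x := fun a h => hsub (by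
    have h' : dist a a₀ ≤ δ := h
    exact lt_of_le_of_lt (h'.trans (min_le_left _ _)) (by linarith))
  choose B hB using fun l : L.lattice => (isCompact_closedBall a₀ δ).exists_bound_of_continuousOn
    ((differentiableOn_invDiff L (x := x) l).continuousOn.mono hcb)
  set M := ‖a₀‖ + 1
  let big : L.lattice → ℝ := fun l => 8 * M ^ 2 * ‖x + (l : ℂ)‖ ^ (-3 : ℝ)
  refine ⟨δ, fun l => if 2 * M ≤ ‖x + (l : ℂ)‖ then big l else B l, hδ,
    Metric.ball_subset_closedBall.trans hcb,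
    ((summable_norm_add_rpow L (by norm_num) x).mul_left _).congr_cofinite
      ((eventually_le_norm_add L x hx (2 * M)).mono fun l hl => (if_pos hl).symm),
    fun l a haδ => ?_⟩
  simp only
  split_ifs with hl
  · set z := x + (l : ℂ)
    have hz : 0 < ‖z‖ := norm_pos_iff.2 (add_notMem_ne_zero L hx l)
    obtain ⟨h1, h2⟩ := add_ne_zero_of_offSet L (hcb (Metric.ball_subset_closedBall haδ)) l
    have haM : ‖a‖ ≤ M := by
      have h := (mem_ball_iff_norm.1 haδ).trans_le (min_le_right (ε / 2) 1)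
      linarith [norm_le_insert' a a₀]
    have e : invDiff a z = 2 * a ^ 2 / (z * (z ^ 2 - a ^ 2)) := by
      have h3 : z ^ 2 - a ^ 2 ≠ 0 := by
        rw [sq_sub_sq]; exact mul_ne_zero h1 h2
      have hz0 : z ≠ 0 := norm_pos_iff.1 hz
      have h1' : z + a ≠ 0 := h1
      have h2' : z - a ≠ 0 := h2
      rw [invDiff, sq_sub_sq]
      field_simp
      ring
    have hlow : 3 / 4 * ‖z‖ ^ 2 ≤ ‖z ^ 2 - a ^ 2‖ := by
      have h := norm_sub_norm_le (z ^ 2) (a ^ 2)
      rw [norm_pow, norm_pow] at h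
      nlinarith [norm_nonneg a]
    rw [e, norm_div, norm_mul, norm_mul, norm_pow, RCLike.norm_ofNat]
    simp only [big]
    rw [Real.rpow_neg (norm_nonneg _), show (3 : ℝ) = (3 : ℕ) by norm_num, Real.rpow_natCast,
      ← div_eq_mul_inv, div_le_div_iff₀ (mul_pos hz (lt_of_lt_of_le (by positivity) hlow))
        (pow_pos hz 3)]
    have hM0 : 0 ≤ 8 * M ^ 2 * ‖z‖ := by positivity
    calc 2 * ‖a‖ ^ 2 * ‖z‖ ^ 3 ≤ 2 * M ^ 2 * ‖z‖ ^ 3 := by gcongr
      _ ≤ 8 * M ^ 2 * ‖z‖ * (3 / 4 * ‖z‖ ^ 2) := by nlinarith [mul_nonneg hM0 (sq_nonneg ‖z‖)]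
      _ ≤ 8 * M ^ 2 * ‖z‖ * ‖z ^ 2 - a ^ 2‖ := mul_le_mul_of_nonneg_left hlow hM0
      _ = _ := by ring
  · exact hB l a (Metric.ball_subset_closedBall haδ)

/-- **The value at `s = 1`.** -/
theorem diffSum_one {x a : ℂ} (hx : x ∉ L.lattice) (ha : a ∉ L.lattice)
    (h1 : x + a ∉ L.lattice) (h2 : x - a ∉ L.lattice) :
    diffSum L x a 1 = L.derivWeierstrassP x / (L.weierstrassP x - L.weierstrassP a) := by
  set E : ℂ → ℂ := fun b => ∑' l : L.lattice, invDiff b (x + l)
  have hE : diffSum L x a 1 = E a := tsum_congr fun l => diff2_one _ _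
  have hdiff : ∀ b ∈ offSet L x, DifferentiableAt ℂ E b ∧
      deriv E b = L.weierstrassP (x - b) - L.weierstrassP (x + b) := fun b hb => by
    obtain ⟨δ, u, hδ, hsub, hu, hbd⟩ := exists_bound_invDiff L hx hb
    have hF := fun l : L.lattice => (differentiableOn_invDiff L (x := x) l).mono hsub
    refine ⟨(Complex.differentiableOn_tsum_of_summable_norm hu hF Metric.isOpen_ball hbd
      ).differentiableAt (Metric.ball_mem_nhds b hδ), ?_⟩
    have hs := Complex.hasSum_deriv_of_summable_norm hu hF Metric.isOpen_ball hbd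
      (Metric.mem_ball_self hδ)
    have hs' : HasSum (fun l : L.lattice => deriv (fun c => invDiff c (x + l)) b)
        (L.weierstrassP (x - b) - L.weierstrassP (x + b)) := by
      have h := ((L.hasSum_weierstrassP (x - b)).sub (L.hasSum_weierstrassP (x + b)))
      rw [← (Equiv.neg L.lattice).hasSum_iff] at h
      refine h.congr_fun fun l => ?_
      obtain ⟨g1, g2⟩ := add_ne_zero_of_offSet L hb l
      rw [(hasDerivAt_invDiff g1 g2).deriv]
      simp only [Function.comp_apply, Equiv.neg_apply, NegMemClass.coe_neg, one_div]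
      ring
    exact hs.unique hs'
  set U : Set ℂ := offSet L x ∩ (L.lattice : Set ℂ)ᶜ with hUdef
  have hUo : IsOpen U := (isOpen_offSet L x).inter L.isClosed_lattice.isOpen_compl
  have hUc : IsPreconnected U := by
    have hS : ((fun l => l - x) '' (L.lattice : Set ℂ) ∪ (fun l => x - l) '' (L.lattice : Set ℂ) ∪
        (L.lattice : Set ℂ)).Countable :=
      (((FA.Mazur.Wp.countable_lattice L).image _).union
        ((FA.Mazur.Wp.countable_lattice L).image _)).union (FA.Mazur.Wp.countable_lattice L)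
    refine ((congrArg IsPreconnected ?_).mp (FA.Mazur.Wp.isPreconnected_compl_countable hS))
    ext b
    simp only [hUdef, offSet, mem_inter_iff, mem_preimage, mem_compl_iff, mem_union, mem_image,
      not_or, not_exists, not_and, SetLike.mem_coe]
    constructor
    · rintro ⟨⟨g1, g2⟩, g3⟩
      exact ⟨⟨fun h => g1 _ h (by ring), fun h => g2 _ h (by ring)⟩, g3⟩
    · rintro ⟨⟨g1, g2⟩, g3⟩
      exact ⟨⟨fun l hl e => g1 (by rwa [← e, add_sub_cancel]),
        fun l hl e => g2 (by rwa [← e, sub_sub_cancel])⟩, g3⟩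
  set R : ℂ → ℂ := fun b => L.derivWeierstrassP x / (L.weierstrassP x - L.weierstrassP b)
  have hR : ∀ b ∈ U, HasDerivAt R (L.weierstrassP (x - b) - L.weierstrassP (x + b)) b :=
      fun b hb => by
    have hne := wp_ne_wp L hx hb.2 hb.1.1 hb.1.2
    refine ((hasDerivAt_const b _).div ((FA.Mazur.Wp.hasDerivAt_wp L hb.2).const_sub _)
      (sub_ne_zero.2 hne)).congr_deriv ?_
    rw [wp_sub_sub_wp_add L hx hb.2 hne]
    ring
  obtain ⟨c, hc⟩ := hUo.exists_is_const_of_deriv_eq_zero hUc (f := fun b => E b - R b)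
    (fun b hb => ((hdiff b hb.1).1.sub (hR b hb).differentiableAt).differentiableWithinAt)
    fun b hb => by
      rw [deriv_fun_sub (hdiff b hb.1).1 (hR b hb).differentiableAt, (hdiff b hb.1).2,
        (hR b hb).deriv]
      exact sub_self _
  have hmem0 : (0 : ℂ) ∈ offSet L x := ⟨by simpa using hx, by simpa using hx⟩
  have hev : ∀ᶠ b in 𝓝[≠] (0 : ℂ), b ∈ U :=
    (eventually_nhdsWithin_of_eventually_nhds ((isOpen_offSet L x).mem_nhds hmem0)).and
      (FA.Mazur.Wp.eventually_notMem_zero L)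
  have hlim : Tendsto (fun b => E b - R b) (𝓝[≠] 0) (𝓝 0) := by
    have hE0 : Tendsto E (𝓝[≠] 0) (𝓝 0) := by
      have h := (hdiff 0 hmem0).1.continuousAt.tendsto.mono_left
        (nhdsWithin_le_nhds (s := ({0}ᶜ : Set ℂ)))
      rwa [show E 0 = 0 by simp [E, invDiff, two_mul]] at h
    have hP : Tendsto L.weierstrassP (𝓝[≠] 0) (Bornology.cobounded ℂ) :=
      tendsto_cobounded_of_meromorphicOrderAt_neg (by
        rw [L.order_weierstrassP 0 (zero_mem _)]
        decide)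
    have hR0 : Tendsto R (𝓝[≠] 0) (𝓝 0) := by
      have h : Tendsto (fun b => L.weierstrassP x - L.weierstrassP b) (𝓝[≠] 0)
          (Bornology.cobounded ℂ) := by
        rw [← tendsto_norm_atTop_iff_cobounded] at hP ⊢
        refine tendsto_atTop_mono (fun b => ?_)
          (tendsto_atTop_add_const_right _ (-‖L.weierstrassP x‖) hP)
        rw [norm_sub_rev, ← sub_eq_add_neg]
        exact norm_sub_norm_le _ _
      have := (tendsto_inv₀_cobounded.comp h).const_mul (L.derivWeierstrassP x)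
      simpa [R, div_eq_mul_inv, Function.comp_def] using this
    simpa using hE0.sub hR0
  have hc0 : c = 0 := tendsto_nhds_unique
    (tendsto_const_nhds.congr' (hev.mono fun b hb => (hc b hb).symm)) hlim
  have h := hc a ⟨⟨h1, h2⟩, ha⟩
  rw [hc0, sub_eq_zero] at h
  rw [hE, h]

end FA.CoatesWiles

end
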