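import Fermat.Agent.CoatesWiles.Coordinate
import Fermat.Agent.CoatesWiles.Frobenius

/-!
# Multiplication by a Frobenius element on the kernel of reduction

At a split place `x (π S) π² ∏ (x - x_Q)` is a monic polynomial `P (x)` of degree `p`, the product
over the nonzero points killed by `π`. On integral points it reduces to `x ^ p`, so all coefficients
of `P / C - X ^ p` are small for `C = π² ∏ (-x_Q)`. Hence `C ≡ 1`, the parameters of those points
have value `|π| ^ (1 / (p - 1))`, and above it `π` raises values to the power `p`, below it it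
multiplies them by `|π|`.
-/

set_option autoImplicit false
set_option linter.style.haveILetI false
set_option linter.unusedSectionVars false

noncomputable section

open WeierstrassCurve NumberField IsDedekindDomain FA.IsogenyNF FA.Local FA.Frob Polynomial
open FA.ClassNumberOne (xP yP)
open FA.DeuringCM (IQF)
open FA.HasseBound (qEnd)
open scoped WeierstrassCurve.Affine Classical

namespace FA.CoatesWiles

variable {K : Type} [Field K] [NumberField K] {D : CMDat K}

local notation "Kb" => AlgebraicClosure K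

open CMDat

theorem xP_neg' (S : D.Pt) : xP (-S) = xP S := by
  rcases S with _ | ⟨x, y, h⟩ <;> rfl

theorem eq_or_eq_neg_of_xP {S T : D.Pt} (hS : S ≠ 0) (hT : T ≠ 0) (h : xP S = xP T) :
    S = T ∨ S = -T := by
  rcases S with _ | ⟨x, y, k⟩
  · exact absurd rfl hS
  rcases T with _ | ⟨x', y', k'⟩
  · exact absurd rfl hT
  change x = x' at h
  rcases Affine.Y_eq_of_X_eq k.1 k'.1 h with e | e
  · exact .inl (by simp only [Affine.Point.some.injEq]; exact ⟨h, e⟩)
  · exact .inr (by rw [Affine.Point.neg_some]; simp only [Affine.Point.some.injEq]; exact ⟨h, e⟩)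

/-- **The chord construction on a pair `± Q`.** -/
theorem pair_sum {S Q : D.Pt} (hS : S ≠ 0) (hQ : Q ≠ 0) (h : xP S ≠ xP Q) :
    xP (S - Q) + xP (S + Q) - 2 * xP Q =
      (2 * ((3 * xP Q ^ 2 + D.Ab) * (xP S - xP Q)) + 4 * yP Q ^ 2) / (xP S - xP Q) ^ 2 := by
  have eS := eqn hS
  have eQ := eqn hQ
  rcases S with _ | ⟨x, y, k⟩
  · exact absurd rfl hS
  rcases Q with _ | ⟨x', y', k'⟩
  · exact absurd rfl hQ
  change x ≠ x' at h
  change y ^ 2 = x ^ 3 + D.Ab * x + D.Bb at eS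
  change y' ^ 2 = x' ^ 3 + D.Ab * x' + D.Bb at eQ
  have hneg : (D.W.toAffine⁄Kb).negY x' y' = -y' := by simp [Affine.negY]
  rw [sub_eq_add_neg (Affine.Point.some x y k : D.Pt), Affine.Point.neg_some,
    Affine.Point.add_of_X_ne h, Affine.Point.add_of_X_ne h]
  show (D.W.toAffine⁄Kb).addX x x' _ + (D.W.toAffine⁄Kb).addX x x' _ - 2 * x' =
    (2 * ((3 * x' ^ 2 + D.Ab) * (x - x')) + 4 * y' ^ 2) / (x - x') ^ 2
  have hd : x - x' ≠ 0 := sub_ne_zero.2 h
  simp only [Affine.addX, Affine.slope_of_X_ne h, hneg, Affine.negY, WeierstrassCurve.baseChange,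
    WeierstrassCurve.map_a₁, WeierstrassCurve.map_a₂, WeierstrassCurve.map_a₃, map_zero, zero_mul,
    add_zero, sub_zero]
  field_simp
  linear_combination 2 * eS - 2 * eQ

namespace IsFrobElt

variable {Q : IQF K} {v : HeightOneSpectrum (𝓞 K)} {π : 𝓞 K} (h : IsFrobElt D Q v π)

include h

theorem ne_zero : π ≠ 0 := fun e => by
  have h' := h.mul_conj
  rw [e, zero_mul] at h'
  exact h.prime.ne_zero (by exact_mod_cast h'.symm)

theorem coe_ne_zero : (π : K) ≠ 0 := RingOfIntegers.coe_ne_zero_iff.2 h.ne_zero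

theorem five_le : 5 ≤ Ideal.absNorm v.asIdeal := by
  by_contra! hlt
  have hp := h.prime
  have hd : Ideal.absNorm v.asIdeal ∣ 6 := by
    interval_cases (Ideal.absNorm v.asIdeal) <;> norm_num at hp <;> norm_num
  obtain ⟨c, hc⟩ := hd
  refine h.six_notMem ?_
  rw [show (6 : 𝓞 K) = ((6 : ℕ) : 𝓞 K) by norm_num, hc, Nat.cast_mul]
  exact Ideal.mul_mem_right _ _ (Ideal.absNorm_mem _)

theorem prime_elt : Prime π :=
  (Ideal.span_singleton_prime h.ne_zero).1 (h.span_eq ▸ v.isPrime)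

theorem not_dvd_conj : ¬ π ∣ Q.conj π := fun hd => h.conj_notMem (by
  rw [h.span_eq]; exact Ideal.mem_span_singleton.2 hd)

theorem pow_dvd_natCast_iff {m j : ℕ} :
    π ^ m ∣ (j : 𝓞 K) ↔ Ideal.absNorm v.asIdeal ^ m ∣ j := by
  refine ⟨fun hd => ?_, fun ⟨c, hc⟩ => ?_⟩
  · induction m generalizing j with
    | zero => simp
    | succ m ih =>
      obtain ⟨j', rfl⟩ : Ideal.absNorm v.asIdeal ∣ j := by
        rw [← h.natCast_mem_iff, h.span_eq, Ideal.mem_span_singleton]
        exact (dvd_pow_self π (Nat.succ_ne_zero m)).trans hd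
      rw [Nat.cast_mul, ← h.mul_conj, pow_succ', mul_assoc, mul_dvd_mul_iff_left h.ne_zero] at hd
      rw [pow_succ']
      exact mul_dvd_mul_left _ (ih (h.prime_elt.pow_dvd_of_dvd_mul_left m h.not_dvd_conj hd))
  · rw [hc, Nat.cast_mul, Nat.cast_pow, ← h.mul_conj, mul_pow]
    exact dvd_mul_of_dvd_left (dvd_mul_right _ _) _

theorem exists_natCast_dvd_sub_one (a : 𝓞 K) : ∃ j : ℕ, π ∣ a - j := by
  set p := Ideal.absNorm v.asIdeal
  haveI := Fact.mk h.prime
  haveI := v.isMaximal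
  let _ := Ideal.Quotient.field v.asIdeal
  haveI : CharP (𝓞 K ⧸ v.asIdeal) p := by
    refine (CharP.charP_iff_prime_eq_zero h.prime).2 ?_
    rw [← map_natCast (Ideal.Quotient.mk v.asIdeal), Ideal.Quotient.eq_zero_iff_mem]
    exact Ideal.absNorm_mem _
  haveI : Finite (𝓞 K ⧸ v.asIdeal) := Ideal.finiteQuotientOfFreeOfNeBot _ v.ne_bot
  obtain ⟨c, hc⟩ := ((ZMod.castHom dvd_rfl (𝓞 K ⧸ v.asIdeal)).injective.bijective_of_nat_card_le
    (by rw [Nat.card_zmod]; exact (Ideal.absNorm_apply _).ge)).2 (Ideal.Quotient.mk v.asIdeal a)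
  refine ⟨c.val, ?_⟩
  rw [← Ideal.mem_span_singleton, ← h.span_eq, ← Ideal.Quotient.eq, map_natCast, ← hc,
    ← ZMod.cast_eq_val]
  rfl

/-- **The residues modulo a power of `π` are natural numbers.** -/
theorem exists_natCast_dvd_sub (m : ℕ) (a : 𝓞 K) : ∃ j : ℕ, π ^ m ∣ a - j := by
  induction m generalizing a with
  | zero => exact ⟨0, by simp⟩
  | succ m ih =>
    obtain ⟨j, b, hb⟩ := ih a
    obtain ⟨c, r, hr⟩ := h.exists_natCast_dvd_sub_one (Q.conj π)
    have hcp : ¬ Ideal.absNorm v.asIdeal ∣ c := fun hd => h.not_dvd_conj (by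
      have h1 : π ∣ (c : 𝓞 K) := (pow_one π) ▸ (h.pow_dvd_natCast_iff (m := 1)).2 (by simpa using hd)
      rw [show Q.conj π = π * r + c by linear_combination hr]
      exact dvd_add (dvd_mul_right _ _) h1)
    obtain ⟨i, s, hs⟩ := h.exists_natCast_dvd_sub_one b
    haveI := Fact.mk h.prime
    obtain ⟨i', hi'⟩ : ∃ i' : ℕ, ((i' * c ^ m : ℕ) : ZMod (Ideal.absNorm v.asIdeal)) = i := by
      have hc0 : ((c ^ m : ℕ) : ZMod (Ideal.absNorm v.asIdeal)) ≠ 0 := by
        rw [Nat.cast_pow]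
        exact pow_ne_zero m (fun e => hcp ((ZMod.natCast_eq_zero_iff _ _).1 e))
      refine ⟨((i : ZMod (Ideal.absNorm v.asIdeal)) * ((c ^ m : ℕ) : ZMod _)⁻¹).val, ?_⟩
      rw [Nat.cast_mul, ZMod.natCast_val, ZMod.cast_id, inv_mul_cancel_right₀ hc0]
    rw [ZMod.natCast_eq_natCast_iff, Nat.modEq_iff_dvd] at hi'
    obtain ⟨t, ht⟩ := hi'
    refine ⟨j + i' * Ideal.absNorm v.asIdeal ^ m, ?_⟩
    have e : a - ((j + i' * Ideal.absNorm v.asIdeal ^ m : ℕ) : 𝓞 K) =
        π ^ m * (b - (i' : 𝓞 K) * Q.conj π ^ m) := by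
      rw [Nat.cast_add, Nat.cast_mul, Nat.cast_pow, ← h.mul_conj]
      linear_combination hb
    rw [e, pow_succ]
    refine mul_dvd_mul_left _ ?_
    have ht' := congrArg (fun z : ℤ => (z : 𝓞 K)) ht
    push_cast at ht'
    rw [show b - (i' : 𝓞 K) * Q.conj π ^ m = (b - i) + (((i : 𝓞 K) - (i' : 𝓞 K) * (c : 𝓞 K) ^ m)) +
      (i' : 𝓞 K) * ((c : 𝓞 K) ^ m - Q.conj π ^ m) by ring, ht', ← h.mul_conj]
    refine dvd_add (dvd_add ⟨s, hs⟩ ((dvd_mul_right π _).mul_right _))
      (dvd_mul_of_dvd_right ?_ _)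
    exact (dvd_neg.2 ⟨r, hr⟩ : π ∣ -(Q.conj π - c)).trans
      (by rw [neg_sub]; exact sub_dvd_pow_sub_pow _ _ _)

end IsFrobElt

/-- The point with parameter `π ^ (-m) Ω`. -/
def piPt (D : CMDat K) (π : 𝓞 K) (m : ℕ) : D.Pt := D.tor (((π : K) ^ m)⁻¹)

namespace IsFrobElt

variable {Q : IQF K} {v : HeightOneSpectrum (𝓞 K)} {π : 𝓞 K} (h : IsFrobElt D Q v π)

include h

theorem piPt_zero : piPt D π 0 = 0 := by
  rw [piPt, pow_zero, inv_one]
  exact D.tor_eq_zero_iff.2 ⟨1, by simp⟩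

theorem mulPt_piPt (m : ℕ) : D.mulPt π (piPt D π (m + 1)) = piPt D π m := by
  rw [piPt, piPt, D.mulPt_tor, pow_succ', mul_inv, mul_inv_cancel_left₀ h.coe_ne_zero]

theorem mulPt_piPt_eq_zero_iff {a : 𝓞 K} {m : ℕ} :
    D.mulPt a (piPt D π m) = 0 ↔ π ^ m ∣ a := by
  rw [piPt, D.mulPt_tor, D.tor_eq_zero_iff]
  refine exists_congr fun b => ?_
  rw [← div_eq_mul_inv, div_eq_iff (pow_ne_zero m h.coe_ne_zero)]
  constructor
  · intro e
    refine RingOfIntegers.coe_injective ?_
    rw [map_mul, map_pow, mul_comm]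
    exact e
  · rintro rfl
    push_cast
    ring

theorem nsmul_piPt_eq_zero_iff {j m : ℕ} :
    j • piPt D π m = 0 ↔ Ideal.absNorm v.asIdeal ^ m ∣ j := by
  rw [← D.mulPt_natCast, h.mulPt_piPt_eq_zero_iff, h.pow_dvd_natCast_iff]

theorem piPt_ne_zero {m : ℕ} (hm : m ≠ 0) : piPt D π m ≠ 0 := fun e => by
  have h1 := (h.nsmul_piPt_eq_zero_iff (j := 1) (m := m)).1 (by rw [one_nsmul, e])
  rw [Nat.dvd_one, pow_eq_one_iff] at h1
  exact h1.elim h.prime.ne_one hm

/-- **The points killed by a power of `π` are multiples of one.** -/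
theorem exists_nsmul_piPt {m : ℕ} {T : D.Pt} (hT : D.mulPt (π ^ m) T = 0) :
    ∃ j : ℕ, T = j • piPt D π m := by
  set p := Ideal.absNorm v.asIdeal
  have hpm : ((p ^ m : ℕ) : 𝓞 K) = π ^ m * Q.conj π ^ m := by
    rw [Nat.cast_pow, ← h.mul_conj, mul_pow]
  obtain ⟨a, rfl⟩ := D.exists_tor_eq (pow_ne_zero m h.prime.ne_zero)
    (D.nsmul_eq_zero_of_mulPt ⟨_, hpm⟩ hT)
  rw [D.mulPt_tor, D.tor_eq_zero_iff] at hT
  obtain ⟨b, hb⟩ := hT
  have hpK : ((p ^ m : ℕ) : K) = (π : K) ^ m * ((Q.conj π : 𝓞 K) : K) ^ m := by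
    simpa using congrArg (fun t : 𝓞 K => (t : K)) hpm
  have hπ := pow_ne_zero m h.coe_ne_zero
  have hc : ((Q.conj π : 𝓞 K) : K) ^ m ≠ 0 := pow_ne_zero m
    (RingOfIntegers.coe_ne_zero_iff.2 fun e => h.conj_notMem (e ▸ zero_mem _))
  obtain ⟨j, hj⟩ := h.exists_natCast_dvd_sub m b
  refine ⟨j, ?_⟩
  rw [← D.mulPt_natCast, piPt, D.mulPt_tor, ← sub_eq_zero, ← map_sub, D.tor_eq_zero_iff]
  obtain ⟨c, hc'⟩ := hj
  refine ⟨c, ?_⟩
  rw [hpK, show ((π ^ m : 𝓞 K) : K) = (π : K) ^ m by push_cast; rfl] at hb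
  have e := congrArg (fun t : 𝓞 K => (t : K)) hc'
  simp only [map_sub, map_mul, map_pow, map_natCast] at e
  rw [hpK, show (((j : ℕ) : 𝓞 K) : K) = (j : K) by push_cast; rfl]
  field_simp at hb ⊢
  linear_combination hb + ((Q.conj π : 𝓞 K) : K) ^ m * e

variable (P : CMPlace D) (hP : P.v = v)
include hP

theorem red_piPt (m : ℕ) : P.red (piPt D π m) = 0 :=
  h.red_eq_zero_of_pow P hP (h.mulPt_piPt_eq_zero_iff.2 dvd_rfl)

theorem val_natCast {j : ℕ} (hj : ¬ Ideal.absNorm v.asIdeal ∣ j) :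
    P.R.valuation (j : Kb) = 1 := by
  have : (j : 𝓞 K) ∉ P.v.asIdeal := by rw [hP, h.natCast_mem_iff]; exact hj
  simpa using P.coe_eq_one this

theorem val_pi_lt : P.R.valuation (algebraMap K Kb (π : K)) < 1 :=
  P.coe_lt_one (by rw [hP]; exact h.mem)

theorem val_zc_kernel {j : ℕ} (hj : ¬ Ideal.absNorm v.asIdeal ∣ j) :
    P.R.valuation (zc (j • piPt D π 1)) = P.R.valuation (zc (piPt D π 1)) :=
  P.val_zc_nsmul_eq (h.red_piPt P hP 1) (h.val_natCast P hP hj)

omit hP

/-- The nonzero residues. -/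
abbrev idx (_h : IsFrobElt D Q v π) : Finset ℕ := Finset.Ico 1 (Ideal.absNorm v.asIdeal)

/-- The abscissa of a kernel point. -/
abbrev kx (π : 𝓞 K) (j : ℕ) : Kb := xP (j • piPt D π 1)

theorem not_dvd_idx {j : ℕ} (hj : j ∈ h.idx) : ¬ Ideal.absNorm v.asIdeal ∣ j := fun hd => by
  rw [Finset.mem_Ico] at hj
  exact absurd (Nat.le_of_dvd (by omega) hd) (by omega)

theorem kernel_ne_zero {j : ℕ} (hj : j ∈ h.idx) : j • piPt D π 1 ≠ 0 := fun e =>
  h.not_dvd_idx hj (by simpa using h.nsmul_piPt_eq_zero_iff.1 e)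

theorem neg_kernel {j : ℕ} (hj : j ∈ h.idx) :
    (Ideal.absNorm v.asIdeal - j) • piPt D π 1 = -(j • piPt D π 1) := by
  rw [Finset.mem_Ico] at hj
  refine eq_neg_of_add_eq_zero_left ?_
  rw [← add_nsmul, Nat.sub_add_cancel hj.2.le, h.nsmul_piPt_eq_zero_iff, pow_one]

theorem sub_mem_idx {j : ℕ} (hj : j ∈ h.idx) :
    Ideal.absNorm v.asIdeal - j ∈ h.idx ∧ Ideal.absNorm v.asIdeal - j ≠ j := by
  rw [Finset.mem_Ico] at hj ⊢
  refine ⟨by omega, fun e => ?_⟩
  rcases h.prime.eq_two_or_odd with h2 | h2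
  · have := h.five_le; omega
  · omega

/-- The numerator. -/
def num (_h : IsFrobElt D Q v π) : Kb[X] :=
  X * ∏ i ∈ Finset.Ico 1 (Ideal.absNorm v.asIdeal), (X - C (kx (D := D) π i)) +
    ∑ j ∈ Finset.Ico 1 (Ideal.absNorm v.asIdeal),
      (C (3 * kx (D := D) π j ^ 2 + D.Ab) * (X - C (kx (D := D) π j)) +
        C (2 * yP (j • piPt D π 1) ^ 2)) *
      ∏ i ∈ ((Finset.Ico 1 (Ideal.absNorm v.asIdeal)).erase j).erase (Ideal.absNorm v.asIdeal - j),
        (X - C (kx (D := D) π i))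

theorem num_natDegree_le : h.num.natDegree ≤ Ideal.absNorm v.asIdeal ∧
    h.num.coeff (Ideal.absNorm v.asIdeal) = 1 := by
  set p := Ideal.absNorm v.asIdeal
  have hp := h.five_le
  set lead : Kb[X] := X * ∏ i ∈ Finset.Ico 1 p, (X - C (kx (D := D) π i))
  have hm : lead.Monic := monic_X.mul (monic_prod_of_monic _ _ fun i _ => monic_X_sub_C _)
  have hdeg : lead.natDegree = p := by
    rw [Monic.natDegree_mul monic_X (monic_prod_of_monic _ _ fun i _ => monic_X_sub_C _),
      natDegree_prod_of_monic _ _ fun i _ => monic_X_sub_C _]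
    simp only [natDegree_X_sub_C, Finset.sum_const, Nat.card_Ico, smul_eq_mul, mul_one, natDegree_X]
    omega
  have hsum : ∀ j ∈ h.idx, ((C (3 * kx (D := D) π j ^ 2 + D.Ab) * (X - C (kx (D := D) π j)) +
      C (2 * yP (j • piPt D π 1) ^ 2)) *
      ∏ i ∈ ((Finset.Ico 1 p).erase j).erase (p - j), (X - C (kx (D := D) π i))).natDegree ≤
        p - 2 := fun j hj => by
    obtain ⟨h1, h2⟩ := h.sub_mem_idx hj
    refine natDegree_mul_le.trans ?_
    rw [natDegree_prod_of_monic _ _ fun i _ => monic_X_sub_C _]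
    simp only [natDegree_X_sub_C, Finset.sum_const, smul_eq_mul, mul_one]
    rw [Finset.card_erase_of_mem (Finset.mem_erase.2 ⟨h2, h1⟩), Finset.card_erase_of_mem hj,
      Nat.card_Ico]
    have : (C (3 * kx (D := D) π j ^ 2 + D.Ab) * (X - C (kx (D := D) π j)) +
        C (2 * yP (j • piPt D π 1) ^ 2)).natDegree ≤ 1 :=
      natDegree_add_le_of_degree_le ((natDegree_C_mul_le _ _).trans (natDegree_X_sub_C_le _))
        (by rw [natDegree_C]; exact zero_le_one)
    omega
  have hs := natDegree_sum_le_of_forall_le _ _ hsum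
  refine ⟨natDegree_add_le_of_degree_le hdeg.le (hs.trans (by omega)), ?_⟩
  rw [num, coeff_add, coeff_eq_zero_of_natDegree_lt (lt_of_le_of_lt hs (by omega)), add_zero]
  exact hdeg ▸ hm

/-- **Vélu's formula in one polynomial.** -/
theorem xP_mulPt_num {S : D.Pt} (hS : S ≠ 0) (hx : ∀ j ∈ h.idx, xP S ≠ kx (D := D) π j) :
    D.mulPt π S ≠ 0 ∧ xP (D.mulPt π S) * algebraMap K Kb (π : K) ^ 2 *
      ∏ i ∈ h.idx, (xP S - kx (D := D) π i) = h.num.eval (xP S) := by
  set p := Ideal.absNorm v.asIdeal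
  haveI : NeZero p := ⟨h.prime.ne_zero⟩
  have hne : D.mulPt π S ≠ 0 := fun e => by
    obtain ⟨j, rfl⟩ := h.exists_nsmul_piPt (m := 1) (T := S) (by rwa [pow_one])
    have hj : j • piPt D π 1 = (j % p) • piPt D π 1 := by
      conv_lhs => rw [← Nat.mod_add_div j p, add_nsmul, mul_nsmul,
        (h.nsmul_piPt_eq_zero_iff (j := p) (m := 1)).2 (by rw [pow_one]), nsmul_zero, add_zero]
    rcases Nat.eq_zero_or_pos (j % p) with h0 | h0
    · exact hS (by rw [hj, h0, zero_nsmul])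
    · exact hx (j % p) (Finset.mem_Ico.2 ⟨h0, Nat.mod_lt _ h.prime.pos⟩) (by rw [hj])
  refine ⟨hne, ?_⟩
  haveI := D.finite_kerPt h.ne_zero
  let _ := Fintype.ofFinite (D.kerPt π)
  rw [(D.xy_mulPt h.ne_zero hne).1, quotX, finsum_eq_sum_of_fintype]
  have hk : ∑ T : D.kerPt π, (xP (S - (T : D.Pt)) - xP (T : D.Pt)) =
      ∑ j ∈ Finset.range p, (xP (S - j • piPt D π 1) - xP (j • piPt D π 1)) := by
    symm
    refine Finset.sum_bij (fun j _ => (⟨j • piPt D π 1, AddMonoidHom.mem_ker.2 (by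
      rw [map_nsmul, h.mulPt_piPt, h.piPt_zero, nsmul_zero])⟩ : D.kerPt π))
      (fun _ _ => Finset.mem_univ _) (fun i hi j hj e => ?_) (fun T _ => ?_) (fun _ _ => rfl)
    · have e' := congrArg Subtype.val e
      rw [Finset.mem_range] at hi hj
      by_contra hne'
      rcases Nat.lt_or_gt_of_ne hne' with hlt | hlt
      · have := (h.nsmul_piPt_eq_zero_iff (j := j - i) (m := 1)).1 (by
          rw [sub_nsmul _ hlt.le, show i • piPt D π 1 = j • piPt D π 1 from e', add_neg_cancel])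
        rw [pow_one] at this
        exact absurd (Nat.le_of_dvd (by omega) this) (by omega)
      · have := (h.nsmul_piPt_eq_zero_iff (j := i - j) (m := 1)).1 (by
          rw [sub_nsmul _ hlt.le, show i • piPt D π 1 = j • piPt D π 1 from e', add_neg_cancel])
        rw [pow_one] at this
        exact absurd (Nat.le_of_dvd (by omega) this) (by omega)
    · obtain ⟨j, hj⟩ := h.exists_nsmul_piPt (m := 1) (T := (T : D.Pt))
        (by rw [pow_one]; exact AddMonoidHom.mem_ker.1 T.2)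
      refine ⟨j % p, Finset.mem_range.2 (Nat.mod_lt _ h.prime.pos), Subtype.ext ?_⟩
      show (j % p) • piPt D π 1 = _
      rw [hj]
      conv_rhs => rw [← Nat.mod_add_div j p, add_nsmul, mul_nsmul,
        (h.nsmul_piPt_eq_zero_iff (j := p) (m := 1)).2 (by rw [pow_one]), nsmul_zero, add_zero]
  rw [hk, Finset.range_eq_Ico, Finset.sum_eq_sum_Ico_succ_bot h.prime.pos, zero_nsmul, sub_zero,
    show xP (0 : D.Pt) = (0 : Kb) from rfl, sub_zero, zero_add]
  set f : ℕ → Kb := fun j => xP (S - j • piPt D π 1) - xP (j • piPt D π 1)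
  set t : ℕ → Kb := fun j => ((3 * kx (D := D) π j ^ 2 + D.Ab) * (xP S - kx (D := D) π j) +
    2 * yP (j • piPt D π 1) ^ 2) / (xP S - kx (D := D) π j) ^ 2
  have hrefl : ∑ j ∈ h.idx, f (p - j) = ∑ j ∈ h.idx, f j :=
    Finset.sum_bij' (fun j _ => p - j) (fun j _ => p - j) (fun j hj => (h.sub_mem_idx hj).1)
      (fun j hj => (h.sub_mem_idx hj).1)
      (fun j hj => by rw [Finset.mem_Ico] at hj; omega)
      (fun j hj => by rw [Finset.mem_Ico] at hj; omega) (fun _ _ => rfl)
  have hpair : ∀ j ∈ h.idx, f j + f (p - j) = 2 * t j := fun j hj => by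
    have hp2 := pair_sum hS (h.kernel_ne_zero hj) (hx j hj)
    simp only [f, t]
    rw [h.neg_kernel hj, sub_neg_eq_add, xP_neg']
    linear_combination hp2
  have hsum : ∑ j ∈ h.idx, f j = ∑ j ∈ h.idx, t j := by
    have h2 := Finset.sum_congr rfl hpair
    rw [Finset.sum_add_distrib, hrefl, ← two_mul, ← Finset.mul_sum] at h2
    exact mul_left_cancel₀ two_ne_zero h2
  rw [show ∑ j ∈ Finset.Ico 1 p, f j = ∑ j ∈ h.idx, t j from hsum, num, eval_add, eval_mul,
    eval_X, eval_prod, eval_finsetSum, add_mul, Finset.sum_mul]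
  simp only [eval_sub, eval_X, eval_C]
  refine congrArg₂ (· + ·) rfl (Finset.sum_congr rfl fun j hj => ?_)
  obtain ⟨h1, h2⟩ := h.sub_mem_idx hj
  simp only [eval_mul, eval_add, eval_C, eval_sub, eval_X, eval_prod]
  rw [← Finset.mul_prod_erase h.idx (fun i => xP S - kx (D := D) π i) hj,
    ← Finset.mul_prod_erase _ _ (Finset.mem_erase.2 ⟨h2, h1⟩)]
  simp only [t]
  rw [show kx (D := D) π (p - j) = kx (D := D) π j by
    show xP ((p - j) • piPt D π 1) = _
    rw [h.neg_kernel hj, xP_neg']]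
  have hd : xP S - kx (D := D) π j ≠ 0 := sub_ne_zero.2 (hx j hj)
  field_simp

/-- `π ^ 2` times the product of the `-x_Q`. -/
def normC (_h : IsFrobElt D Q v π) : Kb :=
  algebraMap K Kb (π : K) ^ 2 *
    ∏ i ∈ Finset.Ico 1 (Ideal.absNorm v.asIdeal), -kx (D := D) π i

theorem eval_num {S : D.Pt} (hS : S ≠ 0) (hx : ∀ j ∈ h.idx, xP S ≠ kx (D := D) π j)
    (h0 : ∀ j ∈ h.idx, kx (D := D) π j ≠ 0) :
    h.normC * (xP (D.mulPt π S) * ∏ i ∈ h.idx, (1 - xP S / kx (D := D) π i)) =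
      h.num.eval (xP S) := by
  rw [← (h.xP_mulPt_num hS hx).2, normC, mul_assoc, mul_left_comm (∏ i ∈ _, -kx (D := D) π i),
    ← Finset.prod_mul_distrib, Finset.prod_congr rfl fun i hi =>
      (show -kx (D := D) π i * (1 - xP S / kx (D := D) π i) = xP S - kx (D := D) π i by
        field_simp [h0 i hi]
        ring)]
  ring

include hP

theorem one_lt_kx {j : ℕ} (hj : j ∈ h.idx) : 1 < P.R.valuation (kx (D := D) π j) :=
  (P.large (by rw [map_nsmul, h.red_piPt P hP, nsmul_zero]) (h.kernel_ne_zero hj)).1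

theorem kx_ne_zero {j : ℕ} (hj : j ∈ h.idx) : kx (D := D) π j ≠ 0 := fun e => by
  have := h.one_lt_kx P hP hj
  rw [e, map_zero] at this
  exact not_lt_zero this

theorem val_kx {j : ℕ} (hj : j ∈ h.idx) :
    P.R.valuation (kx (D := D) π j) * P.R.valuation (zc (piPt D π 1)) ^ 2 = 1 := by
  rw [← h.val_zc_kernel P hP (h.not_dvd_idx hj)]
  exact P.val_xP (by rw [map_nsmul, h.red_piPt P hP, nsmul_zero]) (h.kernel_ne_zero hj)

/-- Reduction of `π S` on integral points. -/
theorem eval_congr {x : Kb} (hx : P.R.valuation x ≤ 1) :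
    P.R.valuation (h.normC⁻¹ * h.num.eval x - x ^ Ideal.absNorm v.asIdeal) < 1 := by
  subst hP
  haveI : Fact P.p.Prime := ⟨h.prime⟩
  obtain ⟨y, hns⟩ := FA.EC.exists_nonsingular (D.W.baseChange Kb) x
  set S : D.Pt := .some x y hns
  have hS0 : S ≠ 0 := Affine.Point.some_ne_zero hns
  have hred : P.red S ≠ 0 := fun e => absurd hx (not_le.2 (P.one_lt_xP e hS0))
  obtain ⟨hxR, hyR, -, hns', hred'⟩ := P.red_coord hred
  have hne : ∀ j ∈ h.idx, xP S ≠ kx (D := D) π j := fun j hj e => by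
    have := h.one_lt_kx P rfl hj
    rw [← e] at this
    exact absurd hx (not_le.2 this)
  have h0 : ∀ j ∈ h.idx, kx (D := D) π j ≠ 0 := fun j hj => h.kx_ne_zero P rfl hj
  have hC : h.normC ≠ 0 := mul_ne_zero (pow_ne_zero _ ((_root_.map_ne_zero _).2 h.coe_ne_zero))
    (Finset.prod_ne_zero_iff.2 fun j hj => neg_ne_zero.2 (h0 j hj))
  have hq : P.red (D.mulPt π S) = P.qMap (P.red S) := h.red_mulPt P rfl S
  have hred2 : P.red (D.mulPt π S) ≠ 0 := by
    rw [hq]; exact fun e => hred ((map_eq_zero_iff _ P.qMap_injective).1 e)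
  obtain ⟨hxR', -, -, hns'', hred''⟩ := P.red_coord hred2
  have hres : resOf P.R (xP (D.mulPt π S)) = resOf P.R x ^ P.p := by
    rw [hq, hred', CMPlace.qMap, qEnd, mapHom_some] at hred''
    have h' := ((Affine.Point.some.injEq ..).mp hred'').1
    rw [iterateFrobenius_def, pow_one] at h'
    exact h'.symm
  have hb : P.R.valuation (xP (D.mulPt π S) - x ^ P.p) < 1 := by
    have hpow : x ^ P.p ∈ P.R := pow_mem hxR _
    have e : P.res ⟨_, sub_mem hxR' hpow⟩ = 0 := by
      rw [show (⟨_, sub_mem hxR' hpow⟩ : P.R) = ⟨_, hxR'⟩ - ⟨x, hxR⟩ ^ P.p from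
        Subtype.ext (by push_cast; rfl), map_sub, map_pow, P.res_apply, P.res_apply, hres, sub_self]
    rw [CMPlace.res, IsLocalRing.residue_eq_zero_iff, ← P.R.coe_mem_nonunits_iff,
      P.R.mem_nonunits_iff] at e
    exact e
  have hprod : P.R.valuation (∏ i ∈ h.idx, (1 - x / kx (D := D) π i) - 1) < 1 := by
    refine Finset.prod_induction _ (fun t => P.R.valuation (t - 1) < 1) (fun a b ha hb => ?_)
      (by simp) fun i hi => ?_
    · rw [show a * b - 1 = (a - 1) * (b - 1) + ((a - 1) + (b - 1)) by ring]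
      exact P.R.valuation.map_add_lt (map_mul_lt_one ha.le hb) (P.R.valuation.map_add_lt ha hb)
    · rw [sub_sub_cancel_left, Valuation.map_neg, map_div₀]
      have h1 := h.one_lt_kx P rfl hi
      exact (div_lt_one₀ (zero_lt_one.trans h1)).2 (hx.trans_lt h1)
  rw [show x = xP S from rfl, ← h.eval_num hS0 hne h0, inv_mul_cancel_left₀ hC]
  show P.R.valuation (xP (D.mulPt π S) * (∏ i ∈ h.idx, (1 - x / kx (D := D) π i)) - x ^ P.p) < 1
  rw [show xP (D.mulPt π S) * (∏ i ∈ h.idx, (1 - x / kx (D := D) π i)) - x ^ P.p =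
    xP (D.mulPt π S) * (∏ i ∈ h.idx, (1 - x / kx (D := D) π i) - 1) +
      (xP (D.mulPt π S) - x ^ P.p) by ring]
  exact P.R.valuation.map_add_lt
    (map_mul_lt_one ((P.R.valuation_le_one_iff _).2 hxR') hprod) hb

omit h hP in
/-- A polynomial small at all integral elements has small coefficients. -/
theorem coeff_lt_of_eval_lt {f : Kb[X]}
    (hf : ∀ x, P.R.valuation x ≤ 1 → P.R.valuation (f.eval x) < 1) (i : ℕ) :
    P.R.valuation (f.coeff i) < 1 := by
  by_contra hi
  set n := f.natDegree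
  obtain ⟨m, hm, hmax⟩ := Finset.exists_max_image (Finset.range (n + 1))
    (fun j => P.R.valuation (f.coeff j)) ⟨0, by simp⟩
  have hi' : i ∈ Finset.range (n + 1) := Finset.mem_range.2 (Nat.lt_succ_iff.2
    (le_natDegree_of_ne_zero fun e => hi (by rw [e, map_zero]; exact zero_lt_one)))
  have hM : 1 ≤ P.R.valuation (f.coeff m) := (not_lt.1 hi).trans (hmax i hi')
  have hM0 : 0 < P.R.valuation (f.coeff m) := zero_lt_one.trans_le hM
  have hint : ∀ j, f.coeff j / f.coeff m ∈ P.R := fun j => by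
    rw [← P.R.valuation_le_one_iff, map_div₀, div_le_one₀ hM0]
    by_cases hj : j ∈ Finset.range (n + 1)
    · exact hmax j hj
    · rw [coeff_eq_zero_of_natDegree_lt (by simpa [n] using hj), map_zero]
      exact zero_le
  set g : P.R[X] := ∑ j ∈ Finset.range (n + 1), monomial j ⟨_, hint j⟩
  have hg : (g.map P.res).coeff m = 1 := by
    have e : (⟨f.coeff m / f.coeff m, hint m⟩ : P.R) = 1 :=
      Subtype.ext (div_self (P.R.valuation.ne_zero_iff.1 hM0.ne'))
    simp only [g, coeff_map, finsetSum_coeff, coeff_monomial, Finset.sum_ite_eq', hm, if_true]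
    rw [e, map_one]
  have hg0 : g.map P.res ≠ 0 := fun e => by simp [e] at hg
  have : Infinite (Res P.R) := inferInstance
  obtain ⟨X₀, hX₀⟩ := Infinite.exists_notMem_finset (g.map P.res).roots.toFinset
  rw [Multiset.mem_toFinset, mem_roots hg0, IsRoot] at hX₀
  obtain ⟨x, rfl⟩ := IsLocalRing.residue_surjective (R := P.R) X₀
  have hev : ((g.eval x : P.R) : Kb) = f.eval (x : Kb) / f.coeff m := by
    show P.R.subtype (g.eval x) = _
    simp only [g, eval_finsetSum, eval_monomial, map_sum, map_mul, map_pow]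
    rw [eval_eq_sum_range, Finset.sum_div]
    exact Finset.sum_congr rfl fun j _ => by simp [div_mul_eq_mul_div]
  refine hX₀ ?_
  show (g.map P.res).eval (P.res x) = 0
  rw [eval_map, eval₂_at_apply, CMPlace.res, IsLocalRing.residue_eq_zero_iff,
    ← P.R.coe_mem_nonunits_iff, P.R.mem_nonunits_iff, hev, map_div₀, div_lt_one₀ hM0]
  exact (hf x ((P.R.valuation_le_one_iff _).2 x.2)).trans_le hM

theorem coeff_small (i : ℕ) :
    P.R.valuation ((C h.normC⁻¹ * h.num - X ^ Ideal.absNorm v.asIdeal).coeff i) < 1 := by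
  refine coeff_lt_of_eval_lt P (fun x hx => ?_) i
  simpa using h.eval_congr P hP hx

theorem val_normC : P.R.valuation (h.normC - 1) < 1 := by
  have h1 := h.coeff_small P hP (Ideal.absNorm v.asIdeal)
  rw [coeff_sub, coeff_C_mul, h.num_natDegree_le.2, mul_one, coeff_X_pow_self] at h1
  have h2 : P.R.valuation h.normC⁻¹ = 1 := eq_one_of_sub_lt (map_one _) h1
  have h0 : h.normC ≠ 0 := fun e => by rw [e, inv_zero, map_zero] at h2; exact zero_ne_one h2
  rw [map_inv₀, inv_eq_one] at h2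
  rw [show h.normC - 1 = -(h.normC * (h.normC⁻¹ - 1)) by field_simp; ring, Valuation.map_neg,
    map_mul, h2, one_mul]
  exact h1

/-- **The value at the points killed by `π`.** -/
theorem val_zc_piPt_one :
    P.R.valuation (zc (piPt D π 1)) ^ (Ideal.absNorm v.asIdeal - 1) =
      P.R.valuation (algebraMap K Kb (π : K)) := by
  set r := P.R.valuation (zc (piPt D π 1))
  have hprod : P.R.valuation (∏ i ∈ h.idx, -kx (D := D) π i) *
      (r ^ 2) ^ (Ideal.absNorm v.asIdeal - 1) = 1 := by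
    rw [map_prod, ← Nat.card_Ico 1 (Ideal.absNorm v.asIdeal), ← Finset.prod_const,
      ← Finset.prod_mul_distrib]
    exact Finset.prod_eq_one fun i hi => by rw [Valuation.map_neg]; exact h.val_kx P hP hi
  have hC : P.R.valuation h.normC = 1 := eq_one_of_sub_lt (map_one _) (h.val_normC P hP)
  rw [normC, map_mul, map_pow] at hC
  refine (pow_left_inj₀ zero_le zero_le two_ne_zero).1 ?_
  rw [← pow_mul, mul_comm, pow_mul]
  calc (r ^ 2) ^ (Ideal.absNorm v.asIdeal - 1)
      = P.R.valuation (algebraMap K Kb (π : K)) ^ 2 * (P.R.valuation (∏ i ∈ h.idx, -kx (D := D) π i) *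
        (r ^ 2) ^ (Ideal.absNorm v.asIdeal - 1)) := by rw [← mul_assoc]; exact (by rw [hC, one_mul])
    _ = _ := by rw [hprod, mul_one]

/-- **Its residue up to sign.** -/
theorem sq_zc_piPt_one :
    P.R.valuation ((zc (piPt D π 1) ^ (Ideal.absNorm v.asIdeal - 1) /
      algebraMap K Kb (π : K)) ^ 2 - 1) < 1 := by
  subst hP
  set z := zc (piPt D π 1)
  set p := Ideal.absNorm P.v.asIdeal
  haveI := Fact.mk h.prime
  have hz0 : z ≠ 0 := P.zc_ne_zero (h.red_piPt P rfl 1) (h.piPt_ne_zero one_ne_zero)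
  have hone : ∀ a b : Kb, P.R.valuation (a - 1) < 1 → P.R.valuation (b - 1) < 1 →
      P.R.valuation (a * b - 1) < 1 := fun a b ha hb => by
    rw [show a * b - 1 = (a - 1) * (b - 1) + ((a - 1) + (b - 1)) by ring]
    exact P.R.valuation.map_add_lt (map_mul_lt_one ha.le hb) (P.R.valuation.map_add_lt ha hb)
  have hterm : ∀ j ∈ h.idx, P.R.valuation (kx (D := D) π j * ((j : Kb) * z) ^ 2 - 1) < 1 :=
      fun j hj => by
    set S := j • piPt D π 1
    have hS : P.red S = 0 := by rw [map_nsmul, h.red_piPt P rfl, nsmul_zero]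
    have hS0 := h.kernel_ne_zero hj
    obtain ⟨hx1, hxy, hyx⟩ := P.large hS hS0
    have hy := P.yP_ne_zero hS hS0
    have e1 : P.R.valuation (xP S * zc S ^ 2 - 1) < 1 := by
      rw [show xP S * zc S ^ 2 - 1 = -(D.Ab * xP S + D.Bb) / yP S ^ 2 by
        simp only [zc]; field_simp; linear_combination -(eqn hS0)]
      rw [map_div₀, Valuation.map_neg, map_pow, hyx,
        div_lt_one₀ (pow_pos (zero_lt_one.trans hx1) 3)]
      refine lt_of_le_of_lt (Valuation.map_add_le _ (P.val_mul_le P.Ab_le le_rfl)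
        (P.Bb_le.trans hx1.le)) ?_
      exact lt_self_pow₀ hx1 (by norm_num)
    have hjv := h.val_natCast P rfl (h.not_dvd_idx hj)
    have e2 : P.R.valuation ((j : Kb) * z / zc S - 1) < 1 := by
      have hzS := P.zc_ne_zero hS hS0
      rw [div_sub_one hzS, map_div₀, Valuation.map_sub_swap, h.val_zc_kernel P rfl (h.not_dvd_idx hj),
        div_lt_one₀ (P.R.valuation.pos_iff.2 hz0)]
      exact (P.val_zc_nsmul (h.red_piPt P rfl 1) j).trans_lt (pow_lt_self_of_lt_one₀
        (P.R.valuation.pos_iff.2 hz0) (P.val_zc_lt (h.red_piPt P rfl 1)) (by norm_num))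
    have := hone _ _ e1 (by rw [sq]; exact hone _ _ e2 e2 :
      P.R.valuation (((j : Kb) * z / zc S) ^ 2 - 1) < 1)
    rw [div_pow, mul_assoc, mul_div_cancel₀ _ (pow_ne_zero 2 (P.zc_ne_zero hS hS0))] at this
    exact this
  have hall : P.R.valuation (∏ j ∈ h.idx, (kx (D := D) π j * ((j : Kb) * z) ^ 2) - 1) < 1 :=
    Finset.prod_induction _ (fun t => P.R.valuation (t - 1) < 1) hone (by simp) hterm
  have hfac : P.R.valuation ((((p - 1).factorial : ℕ) : Kb) ^ 2 - 1) < 1 := by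
    have hmem : (((p - 1).factorial : 𝓞 K) ^ 2 - 1) ∈ P.v.asIdeal := by
      have hw := ZMod.wilsons_lemma (p := p)
      have hd : (p : ℤ) ∣ (((p - 1).factorial : ℤ) ^ 2 - 1) := by
        rw [← ZMod.intCast_zmod_eq_zero_iff_dvd]
        push_cast
        rw [hw]
        ring
      have := (FA.EllipticUnits.intCast_mem_iff_dvd h.prime (rfl : p = _) _).2 hd
      push_cast at this
      exact this
    simpa using P.coe_lt_one hmem
  have hC := h.val_normC P rfl
  set X₀ := ∏ j ∈ h.idx, (kx (D := D) π j * ((j : Kb) * z) ^ 2)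
  set F := (((p - 1).factorial : ℕ) : Kb)
  have hπ : algebraMap K Kb (π : K) ≠ 0 := (_root_.map_ne_zero _).2 h.coe_ne_zero
  have key : X₀ * algebraMap K Kb (π : K) ^ 2 = h.normC * F ^ 2 * (z ^ (p - 1)) ^ 2 := by
    have heven : Even (p - 1) := by
      rcases h.prime.eq_two_or_odd with h2 | h2
      · exact absurd h2 (by have := h.five_le; omega)
      · exact ⟨p / 2, by omega⟩
    have hF : F = ∏ j ∈ h.idx, (j : Kb) := by
      rw [← Nat.cast_prod]
      show ((Nat.factorial (p - 1) : ℕ) : Kb) = _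
      rw [← Finset.prod_Ico_id_eq_factorial, Nat.sub_add_cancel h.prime.one_le]
    simp only [X₀, IsFrobElt.normC, Finset.prod_mul_distrib, Finset.prod_pow, Finset.prod_const,
      Finset.prod_neg, Nat.card_Ico, hF, show (-1 : Kb) ^ (Ideal.absNorm P.v.asIdeal - 1) = 1 from
        heven.neg_one_pow, one_mul, mul_pow, show p = Ideal.absNorm P.v.asIdeal from rfl]
    ring
  have hCF : P.R.valuation (h.normC * F ^ 2) = 1 := eq_one_of_sub_lt (map_one _) (hone _ _ hC hfac)
  have hCF0 : h.normC * F ^ 2 ≠ 0 := fun e => by rw [e, map_zero] at hCF; exact zero_ne_one hCF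
  rw [show (z ^ (p - 1) / algebraMap K Kb (π : K)) ^ 2 - 1 =
    (X₀ - 1 - (h.normC * F ^ 2 - 1)) / (h.normC * F ^ 2) by
      rw [sub_sub_sub_cancel_right, div_pow, div_sub_one (pow_ne_zero 2 hπ),
        div_eq_div_iff (pow_ne_zero 2 hπ) hCF0]
      linear_combination -key, map_div₀, hCF, div_one]
  exact P.R.valuation.map_sub_lt hall (hone _ _ hC hfac)

omit hP

/-- The evaluation at a point of the kernel of reduction. -/
theorem val_eval_num (hP : P.v = v) {x : Kb} (hx : 1 < P.R.valuation x) :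
    P.R.valuation (h.normC⁻¹ * h.num.eval x) = P.R.valuation x ^ Ideal.absNorm v.asIdeal := by
  set p := Ideal.absNorm v.asIdeal
  set f := C h.normC⁻¹ * h.num - X ^ p
  have hlt : P.R.valuation (f.eval x) < P.R.valuation x ^ p := by
    have hdeg : f.natDegree ≤ p := (natDegree_sub_le _ _).trans (max_le
      ((natDegree_C_mul_le _ _).trans h.num_natDegree_le.1) (natDegree_X_pow_le p))
    rw [eval_eq_sum_range' (Nat.lt_succ_of_le hdeg)]
    refine P.R.valuation.map_sum_lt (pow_ne_zero p (zero_lt_one.trans hx).ne') fun i hi => ?_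
    rw [map_mul, map_pow]
    rw [Finset.mem_range] at hi
    calc _ < 1 * P.R.valuation x ^ i :=
          mul_lt_mul_of_pos_right (h.coeff_small P hP i) (pow_pos (zero_lt_one.trans hx) i)
      _ ≤ _ := by rw [one_mul]; exact pow_le_pow_right₀ hx.le (by omega)
  have e : h.normC⁻¹ * h.num.eval x = f.eval x + x ^ p := by simp [f]
  rw [e, Valuation.map_add_eq_of_lt_right _ (by rwa [map_pow]), map_pow]

/-- The value of `x (π S)` times the product of the `1 - x / x_Q`. -/
theorem val_xP_mulPt (hP : P.v = v) {S : D.Pt} (hS : P.red S = 0) (hk : D.mulPt π S ≠ 0) :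
    P.R.valuation (xP (D.mulPt π S)) *
      ∏ i ∈ h.idx, P.R.valuation (1 - xP S / kx (D := D) π i) =
        P.R.valuation (xP S) ^ Ideal.absNorm v.asIdeal := by
  have hS0 : S ≠ 0 := fun e => hk (by rw [e, map_zero])
  have hne : ∀ j ∈ h.idx, xP S ≠ kx (D := D) π j := fun j hj e => by
    refine hk ?_
    rcases eq_or_eq_neg_of_xP hS0 (h.kernel_ne_zero hj) e with e' | e' <;>
      simp [e', h.mulPt_piPt 0, h.piPt_zero]
  have h0 : ∀ j ∈ h.idx, kx (D := D) π j ≠ 0 := fun j hj => h.kx_ne_zero P hP hj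
  have hC : h.normC ≠ 0 := mul_ne_zero (pow_ne_zero _ ((_root_.map_ne_zero _).2 h.coe_ne_zero))
    (Finset.prod_ne_zero_iff.2 fun j hj => neg_ne_zero.2 (h0 j hj))
  rw [← h.val_eval_num P hP (P.large hS hS0).1, ← h.eval_num hS0 hne h0, inv_mul_cancel_left₀ hC,
    map_mul, map_prod]

/-- **Below the kernel `π` scales by `|π|`.** -/
theorem val_zc_mulPt_of_lt (hP : P.v = v) {S : D.Pt} (hS : P.red S = 0)
    (hlt : P.R.valuation (zc S) < P.R.valuation (zc (piPt D π 1))) :
    P.R.valuation (zc (D.mulPt π S)) =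
      P.R.valuation (algebraMap K Kb (π : K)) * P.R.valuation (zc S) := by
  by_cases hS0 : S = 0
  · subst hS0; simp [zc_zero]
  subst hP
  have hk : D.mulPt π S ≠ 0 := fun e => by
    obtain ⟨j, rfl⟩ := h.exists_nsmul_piPt (m := 1) (T := S) (by rwa [pow_one])
    exact hlt.ne (h.val_zc_kernel P rfl fun hd => hS0
      (h.nsmul_piPt_eq_zero_iff.2 (by rwa [pow_one])))
  have key := h.val_xP_mulPt P rfl hS hk
  have hx := P.val_xP hS hS0
  have hx' := P.val_xP (P.red_mulPt_of_red Q h.two_notMem π hS) hk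
  set r := P.R.valuation (zc (piPt D π 1))
  set t := P.R.valuation (zc S) with ht
  have ht0 : t ≠ 0 := P.R.valuation.ne_zero_iff.2 (P.zc_ne_zero hS hS0)
  have hterm : ∀ i ∈ h.idx, P.R.valuation (1 - xP S / kx (D := D) π i) * t ^ 2 = r ^ 2 :=
      fun i hi => by
    have e : P.R.valuation (xP S / kx (D := D) π i) * t ^ 2 = r ^ 2 := by
      rw [map_div₀, div_mul_eq_mul_div, hx, ← h.val_kx P rfl hi,
        mul_div_cancel_left₀ _ (P.R.valuation.ne_zero_iff.2 (h.kx_ne_zero P rfl hi))]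
    have hgt : 1 < P.R.valuation (xP S / kx (D := D) π i) := by
      by_contra! hle
      have := mul_le_mul' hle (le_refl (t ^ 2))
      rw [e, one_mul] at this
      exact absurd this (not_le.2 (pow_lt_pow_left₀ hlt zero_le two_ne_zero))
    rw [Valuation.map_sub_eq_of_lt_right _ (by rwa [map_one]), e]
  have hprod : (∏ i ∈ h.idx, P.R.valuation (1 - xP S / kx (D := D) π i)) *
      (t ^ 2) ^ (P.p - 1) = P.R.valuation (algebraMap K Kb (π : K)) ^ 2 := by
    rw [← h.val_zc_piPt_one P rfl, ← pow_mul r, mul_comm (_ - 1) 2, pow_mul r,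
      ← Nat.card_Ico 1 (Ideal.absNorm P.v.asIdeal), ← Finset.prod_const, ← Finset.prod_const,
      ← Finset.prod_mul_distrib]
    exact Finset.prod_congr rfl hterm
  have hxt : P.R.valuation (xP S) ^ P.p * (t ^ 2) ^ (P.p - 1) * t ^ 2 = 1 := by
    rw [mul_assoc, ← pow_succ, Nat.sub_add_cancel h.prime.one_le, ← mul_pow, hx, one_pow]
  have hxk : P.R.valuation (xP (D.mulPt π S)) ≠ 0 := left_ne_zero_of_mul_eq_one hx'
  refine (pow_left_inj₀ zero_le zero_le two_ne_zero).1 (mul_left_cancel₀ hxk ?_)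
  rw [hx', mul_pow, ← hprod, ← mul_assoc, ← mul_assoc, key]
  exact hxt.symm

/-- **Above the kernel `π` raises to the power `p`.** -/
theorem val_zc_mulPt_of_gt (hP : P.v = v) {S : D.Pt} (hS : P.red S = 0)
    (hgt : P.R.valuation (zc (piPt D π 1)) < P.R.valuation (zc S)) :
    P.R.valuation (zc (D.mulPt π S)) = P.R.valuation (zc S) ^ Ideal.absNorm v.asIdeal := by
  subst hP
  have hS0 : S ≠ 0 := fun e => by rw [e, zc_zero, map_zero] at hgt; exact not_lt_zero hgt
  have hk : D.mulPt π S ≠ 0 := fun e => by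
    obtain ⟨j, rfl⟩ := h.exists_nsmul_piPt (m := 1) (T := S) (by rwa [pow_one])
    exact hgt.ne' (h.val_zc_kernel P rfl fun hd => hS0
      (h.nsmul_piPt_eq_zero_iff.2 (by rwa [pow_one])))
  have key := h.val_xP_mulPt P rfl hS hk
  have hx := P.val_xP hS hS0
  have hx' := P.val_xP (P.red_mulPt_of_red Q h.two_notMem π hS) hk
  set r := P.R.valuation (zc (piPt D π 1))
  set t := P.R.valuation (zc S) with ht
  have hone : ∀ i ∈ h.idx, P.R.valuation (1 - xP S / kx (D := D) π i) = 1 := fun i hi => by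
    have e : P.R.valuation (xP S / kx (D := D) π i) * t ^ 2 = r ^ 2 := by
      rw [map_div₀, div_mul_eq_mul_div, hx, ← h.val_kx P rfl hi,
        mul_div_cancel_left₀ _ (P.R.valuation.ne_zero_iff.2 (h.kx_ne_zero P rfl hi))]
    have hlt : P.R.valuation (xP S / kx (D := D) π i) < 1 := by
      by_contra! hle
      have := mul_le_mul' hle (le_refl (t ^ 2))
      rw [e, one_mul] at this
      exact absurd this (not_le.2 (pow_lt_pow_left₀ hgt zero_le two_ne_zero))
    exact P.R.valuation.map_one_sub_of_lt hlt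
  rw [Finset.prod_eq_one hone, mul_one] at key
  rw [key] at hx'
  refine (pow_left_inj₀ zero_le zero_le two_ne_zero).1 (mul_left_cancel₀
    (pow_ne_zero P.p (left_ne_zero_of_mul_eq_one hx)) ?_)
  rw [hx', ← pow_mul t, mul_comm _ 2, pow_mul t, ← mul_pow, hx, one_pow]

/-- At the value of the kernel `π` gives at most the power `p`. -/
theorem val_zc_mulPt_le (hP : P.v = v) {S : D.Pt} (hS : P.red S = 0)
    (hle : P.R.valuation (zc S) ≤ P.R.valuation (zc (piPt D π 1))) :
    P.R.valuation (zc (D.mulPt π S)) ≤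
      P.R.valuation (zc (piPt D π 1)) ^ Ideal.absNorm v.asIdeal := by
  rcases hle.lt_or_eq with hlt | heq
  · rw [h.val_zc_mulPt_of_lt P hP hS hlt, ← h.val_zc_piPt_one P hP,
      ← pow_sub_one_mul h.prime.ne_zero]
    exact mul_le_mul' le_rfl hlt.le
  by_cases hk : D.mulPt π S = 0
  · rw [hk, zc_zero, map_zero]; exact zero_le
  subst hP
  have key := h.val_xP_mulPt P rfl hS hk
  have hS0 : S ≠ 0 := fun e => hk (by rw [e, map_zero])
  have hx := P.val_xP hS hS0
  have hx' := P.val_xP (P.red_mulPt_of_red Q h.two_notMem π hS) hk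
  have hterm : ∀ i ∈ h.idx, P.R.valuation (1 - xP S / kx (D := D) π i) ≤ 1 := fun i hi => by
    refine Valuation.map_sub_le _ (map_one _).le ?_
    rw [map_div₀]
    refine (div_le_one₀ (zero_lt_one.trans (h.one_lt_kx P rfl hi))).2 (le_of_eq ?_)
    refine mul_right_cancel₀ (pow_ne_zero 2
      (P.R.valuation.ne_zero_iff.2 (P.zc_ne_zero hS hS0))) ?_
    rw [hx, heq, h.val_kx P rfl hi]
  have hxle : P.R.valuation (xP S) ^ P.p ≤ P.R.valuation (xP (D.mulPt π S)) := by
    rw [← key]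
    exact mul_le_of_le_one_right' (Finset.prod_le_one' hterm)
  rw [← heq]
  refine (pow_le_pow_iff_left₀ zero_le zero_le two_ne_zero).1 ?_
  refine le_of_mul_le_mul_left (a := P.R.valuation (xP (D.mulPt π S))) ?_
    (zero_lt_iff.2 (left_ne_zero_of_mul_eq_one hx'))
  rw [hx', ← pow_mul (P.R.valuation (zc S)), mul_comm _ 2, pow_mul (P.R.valuation (zc S)),
    ← one_pow (M := P.R.ValueGroup) P.p, ← hx, mul_pow]
  exact mul_le_mul' hxle le_rfl

end IsFrobElt

end FA.CoatesWiles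

end
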