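import Fermat.Agent.IdeleClass.Transfer
import Fermat.Agent.GoodReductionNF.Place

/-!
# An extension fixed by inertia is unramified

If the automorphisms of an algebraic closure that preserve a valuation ring and fix its residues
fix a finite Galois extension pointwise, then the values of that extension are those of the base, so
its inertia group at the place below the valuation ring is trivial.
-/

set_option autoImplicit false
set_option linter.style.haveILetI false
set_option linter.unusedSectionVars false

noncomputable section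

open NumberField IsDedekindDomain
open FA.ArtinRec
open FA.IdeleClass (valuation_algebraMap_below)
open FA.OpenImageNF (OverPlace inertGroup exists_zpow_of_fixed)
open scoped Classical Pointwise

namespace FA.CoatesWiles

variable {F L : Type*} [Field F] [NumberField F] [Field L] [NumberField L] [Algebra F L]
  {Kb : Type*} [Field Kb] [CharZero Kb] [IsAlgClosed Kb] [Algebra F Kb] [Algebra L Kb]
  [IsScalarTower F L Kb] [Algebra.IsAlgebraic F Kb] [Algebra.IsAlgebraic L Kb]
  {B : ValuationSubring Kb}

/-- A valuation ring over a place lies over the place below. -/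
theorem overPlace_below {Q : HeightOneSpectrum (𝓞 L)} (hB : OverPlace (K := L) B Q) :
    OverPlace (K := F) B (belowP F Q) where
  le_one x hx := by
    rw [IsScalarTower.algebraMap_apply F L Kb]
    refine hB.le_one _ ?_
    rw [valuation_algebraMap_below]
    exact pow_le_one₀ zero_le hx
  lt_one x hx := by
    rw [IsScalarTower.algebraMap_apply F L Kb]
    refine hB.lt_one _ ?_
    rw [valuation_algebraMap_below]
    exact pow_lt_one₀ zero_le hx (eIdx_pos Q).ne'

/-- **Fixed by inertia, so unramified.** -/
theorem inertia_eq_bot_of_fixed [IsGalois F L] {Q : HeightOneSpectrum (𝓞 L)}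
    (hB : OverPlace (K := L) B Q)
    (hfix : ∀ σ ∈ inertGroup F B, ∀ x : L, σ (algebraMap L Kb x) = algebraMap L Kb x) :
    Q.asIdeal.inertia (L ≃ₐ[F] L) = ⊥ := by
  set w := belowP F Q
  have hπ : w.valuation F (unif w : F) = WithZero.exp (-1 : ℤ) := by
    rw [valuation_eq_exp, ord_unif]
  have hx0 : algebraMap L Kb (unif Q : L) ≠ 0 := (_root_.map_ne_zero _).2 (unif Q).ne_zero
  obtain ⟨k, hk⟩ := exists_zpow_of_fixed (overPlace_below (F := F) hB) hπ hx0
    fun σ hσ => hfix σ hσ _
  have h1 : Q.valuation L ((unif Q : L) / algebraMap F L (unif w : F) ^ k) = 1 := by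
    refine (FA.GoodNF.overPlace_eq_one_iff hB _).1 ?_
    rw [map_div₀, map_div₀, map_zpow₀, ← IsScalarTower.algebraMap_apply, map_zpow₀, hk,
      div_self (zpow_ne_zero _ (B.valuation.ne_zero_iff.2 ((_root_.map_ne_zero _).2
        (unif w).ne_zero)))]
  rw [map_div₀, map_zpow₀, valuation_eq_exp, ord_unif, valuation_algebraMap_below, hπ,
    ← WithZero.exp_nsmul, ← WithZero.exp_zsmul, ← WithZero.exp_sub, ← WithZero.exp_zero,
    WithZero.exp_inj, sub_eq_zero, smul_eq_mul, nsmul_eq_mul] at h1
  have he : eIdx F Q = 1 := by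
    have hd : (eIdx F Q : ℤ) ∣ 1 := ⟨k, by linarith⟩
    exact_mod_cast Int.eq_one_of_dvd_one (by positivity) hd
  haveI : Q.asIdeal.LiesOver w.asIdeal := ⟨rfl⟩
  haveI := w.isMaximal
  haveI : Finite (𝓞 F ⧸ w.asIdeal) := Ideal.finiteQuotientOfFreeOfNeBot _ w.ne_bot
  rw [Subgroup.eq_bot_iff_card, Ideal.card_inertia_eq_ramificationIdxIn (G := L ≃ₐ[F] L) w.asIdeal
    Q.asIdeal, Ideal.ramificationIdxIn_eq_ramificationIdx _ Q.asIdeal (L ≃ₐ[F] L),
    ← Ideal.ramificationIdx'_eq_ramificationIdx _ _ w.ne_bot]
  exact he

end FA.CoatesWiles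

end
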