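import Fermat.Agent.CoatesWiles.Character
import Fermat.Agent.CoatesWiles.EisensteinSum
import Mathlib.FieldTheory.Galois.Infinite

/-!
# The value of the L-series at `1`

The sum of `conj ψ` over the ideals prime to `M` is a sum of the kernel over the chosen generators.
Smoothing with the points killed by a number `N ≡ 1` modulo `M` continues it to `σ > 1/2` and gives
at `s = 1` the period times a Galois invariant number, so `Ω` times an element of `K`.
-/

set_option autoImplicit false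
set_option linter.style.haveILetI false
set_option linter.unusedSectionVars false

noncomputable section

open WeierstrassCurve NumberField IsDedekindDomain FA.IsogenyNF FA.Mazur.Wp
open FA.ClassNumberOne (xP yP xP_unif yP_unif)
open FA.Hecke (coprimeIdeals)
open FA.DeuringCM (IQF)
open scoped WeierstrassCurve.Affine nonZeroDivisors Classical ComplexConjugate

namespace FA.CoatesWiles

variable {K : Type} [Field K] [NumberField K] {D : CMDat K} {Q : IQF K}

local notation "Kb" => AlgebraicClosure K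

namespace Grossen

variable (G : Grossen D Q)

theorem finite_torusPts : {S : D.Pt | ∃ r, G.InH r ∧ S = D.tor ((r : K) / G.M)}.Finite :=
  (finite_nsmul_eq_zero G.M_ne : {S : D.Pt | G.M • S = 0}.Finite).subset fun S ⟨r, _, e⟩ => by
    show G.M • S = 0
    rw [e, ← map_nsmul, nsmul_eq_mul, mul_div_cancel₀ _ (Nat.cast_ne_zero.2 G.M_ne), D.tor_coe]

/-- The points `tor (r / M)` of the chosen generators. -/
def pts : Finset D.Pt := G.finite_torusPts.toFinset

theorem mem_pts {S : D.Pt} : S ∈ G.pts ↔ ∃ r, G.InH r ∧ S = D.tor ((r : K) / G.M) := by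
  simp [pts]

theorem nsmul_pts {S : D.Pt} (hS : S ∈ G.pts) : G.M • S = 0 := by
  obtain ⟨r, -, rfl⟩ := G.mem_pts.1 hS
  rw [← map_nsmul, nsmul_eq_mul, mul_div_cancel₀ _ (Nat.cast_ne_zero.2 G.M_ne), D.tor_coe]

theorem pts_ne_zero {S : D.Pt} (hS : S ∈ G.pts) : S ≠ 0 := fun h => by
  obtain ⟨r, hr, rfl⟩ := G.mem_pts.1 hS
  obtain ⟨a, ha⟩ := D.tor_eq_zero_iff.1 h
  rw [div_eq_iff (Nat.cast_ne_zero.2 G.M_ne)] at ha
  have e : r = a * (G.M : 𝓞 K) := RingOfIntegers.coe_injective (by
    rw [_root_.map_mul, map_natCast]; exact ha)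
  exact G.not_isUnit_M (isCoprime_self.1 (IsCoprime.of_mul_left_right (e ▸ hr.1)))

/-- Galois permutes them. -/
theorem smul_mem_pts (σ : Kb ≃ₐ[K] Kb) {S : D.Pt} (hS : S ∈ G.pts) : σ • S ∈ G.pts := by
  obtain ⟨c, hc, hσ⟩ := G.exists_inH_smul σ
  obtain ⟨r, hr, rfl⟩ := G.mem_pts.1 hS
  refine G.mem_pts.2 ⟨c * r, hc.mul G hr, ?_⟩
  rw [hσ _ (G.nsmul_pts hS), D.mulPt_tor]
  push_cast
  rw [mul_div_assoc]

/-- The points killed by `N`. -/
def torsPts (D : CMDat K) {N : ℕ} (hN : N ≠ 0) : Finset D.Pt :=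
  (finite_nsmul_eq_zero hN : {S : D.Pt | N • S = 0}.Finite).toFinset

theorem mem_torsPts {N : ℕ} {hN : N ≠ 0} {S : D.Pt} : S ∈ torsPts D hN ↔ N • S = 0 :=
  Set.Finite.mem_toFinset _

/-- The algebraic value. -/
def algValue {N : ℕ} (hN : N ≠ 0) : Kb :=
  ∑ T ∈ G.pts, ∑ a ∈ (torsPts D hN).erase 0, 2 * yP T / (xP T - xP a)

/-- **It is fixed by Galois.** -/
theorem smul_algValue {N : ℕ} (hN : N ≠ 0) (σ : Kb ≃ₐ[K] Kb) :
    σ (G.algValue hN) = G.algValue hN := by
  rw [algValue, map_sum]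
  refine Finset.sum_bij (fun T _ => σ • T) (fun T hT => G.smul_mem_pts σ hT)
    (fun T _ T' _ e => by simpa using e)
    (fun T hT => ⟨σ⁻¹ • T, G.smul_mem_pts σ⁻¹ hT, smul_inv_smul σ T⟩) fun T hT => ?_
  rw [map_sum]
  refine Finset.sum_bij (fun a _ => σ • a) (fun a ha => ?_)
    (fun a _ b _ e => by simpa using e) (fun a ha => ?_) fun a ha => ?_
  · rw [Finset.mem_erase, mem_torsPts] at ha ⊢
    exact ⟨fun h => ha.1 ((smul_eq_zero_iff_eq σ).1 h), by rw [← smul_nsmul', ha.2, smul_zero]⟩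
  · refine ⟨σ⁻¹ • a, ?_, smul_inv_smul σ a⟩
    rw [Finset.mem_erase, mem_torsPts] at ha ⊢
    exact ⟨fun h => ha.1 ((smul_eq_zero_iff_eq σ⁻¹).1 h), by rw [← smul_nsmul', ha.2, smul_zero]⟩
  · rw [map_div₀, _root_.map_mul, map_sub, map_ofNat, xP_smul, xP_smul, yP_smul]

theorem algValue_mem {N : ℕ} (hN : N ≠ 0) :
    ∃ A : K, algebraMap K Kb A = G.algValue hN := by
  have : IsAlgClosure K Kb := ⟨inferInstance, inferInstance⟩
  have : IsGalois K Kb := IsAlgClosure.isGalois K _
  exact (InfiniteGalois.mem_range_algebraMap_iff_fixed _).2 fun σ => G.smul_algValue hN σ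

theorem normSq_emb (Q : IQF K) (z : 𝓞 K) :
    Complex.normSq (D.emb (z : K)) = (Ideal.absNorm (Ideal.span {z}) : ℝ) := by
  have h := congrArg (fun t : 𝓞 K => D.emb (t : K)) (Q.mul_conj z)
  simp only [_root_.map_mul, map_natCast] at h
  rw [Q.map_conj, Complex.mul_conj] at h
  exact_mod_cast h

theorem conj_mul_cpow (Q : IQF K) {z : 𝓞 K} (hz : z ≠ 0) (s : ℂ) :
    conj (D.emb (z : K)) * ((Ideal.absNorm (Ideal.span {z}) : ℕ) : ℂ) ^ (-s) =
      kern s (D.emb (z : K)) := by
  have hn : Ideal.absNorm (Ideal.span {z}) ≠ 0 := by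
    rw [Ne, Ideal.absNorm_eq_zero_iff, Ideal.span_singleton_eq_bot]
    exact hz
  rw [kern, normSq_emb Q, Complex.cpow_def_of_ne_zero (Nat.cast_ne_zero.2 hn),
    Complex.natCast_log, mul_comm (-s)]

/-- The sum of the kernel over a translate. -/
def kernSum (D : CMDat K) (x s : ℂ) : ℂ := ∑' l : D.L.lattice, kern s (x + l)

theorem summable_kern {x : ℂ} (hx : x ∉ D.L.lattice) {s : ℂ} (hs : 3 / 2 < s.re) :
    Summable fun l : D.L.lattice => kern s (x + l) :=
  Summable.of_norm (((summable_norm_add_rpow D.L (r := 1 - 2 * s.re) (by linarith) x)).congr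
    fun l => (norm_kern (add_notMem_ne_zero D.L hx l) s).symm)

theorem kernSum_add {x l : ℂ} (hl : l ∈ D.L.lattice) (s : ℂ) :
    kernSum D (x + l) s = kernSum D x s := by
  rw [kernSum, kernSum, ← (Equiv.addLeft (⟨l, hl⟩ : D.L.lattice)).tsum_eq
    fun m : D.L.lattice => kern s (x + m)]
  simp [add_assoc]

/-- **Summing over the points killed by `N` scales the lattice.** -/
theorem sum_kernSum {N : ℕ} (hN : N ≠ 0) {x : ℂ} (hx : (N : ℂ) * x ∉ D.L.lattice) {s : ℂ}
    (hs : 3 / 2 < s.re) (p : D.Pt → ℂ) (hp : ∀ a, N • a = 0 →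
      unif D.L (p a) = D.toL a ∧ (N : ℂ) * p a ∈ D.L.lattice) :
    ∑ a ∈ torsPts D hN, kernSum D (x + p a) s =
      kern s ((N : ℂ)⁻¹) * kernSum D ((N : ℂ) * x) s := by
  have hN' : (N : ℂ) ≠ 0 := Nat.cast_ne_zero.2 hN
  have hNL : ∀ {l : ℂ}, l ∈ D.L.lattice → (N : ℂ) * l ∈ D.L.lattice := fun h => by
    simpa [nsmul_eq_mul] using nsmul_mem h N
  let f : (torsPts D hN) × D.L.lattice → D.L.lattice := fun q =>
    ⟨(N : ℂ) * p q.1 + (N : ℂ) * (q.2 : ℂ),
      add_mem (hp _ (mem_torsPts.1 q.1.2)).2 (hNL q.2.2)⟩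
  have hf : Function.Bijective f := by
    constructor
    · rintro ⟨a, l⟩ ⟨b, m⟩ h
      have h' := congrArg Subtype.val h
      simp only [f, ← mul_add] at h'
      replace h' := mul_left_cancel₀ hN' h'
      obtain rfl : a = b := Subtype.ext (D.toL_injective (by
        rw [← (hp _ (mem_torsPts.1 a.2)).1, ← (hp _ (mem_torsPts.1 b.2)).1, unif_eq_unif_iff,
          show p a - p b = (m : ℂ) - l by linear_combination h']
        exact sub_mem m.2 l.2))
      obtain rfl : l = m := Subtype.ext (add_left_cancel h')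
      rfl
    · intro L
      obtain ⟨a, ha⟩ : ∃ a : D.Pt, N • a = 0 ∧ D.toL a = unif D.L ((L : ℂ) / N) := by
        obtain ⟨c, hc⟩ := D.mem_lattice'.1 L.2
        refine ⟨D.tor ((c : K) / N), ?_, ?_⟩
        · rw [← map_nsmul, nsmul_eq_mul, mul_div_cancel₀ _ (Nat.cast_ne_zero.2 hN), D.tor_coe]
        · rw [D.toL_tor, map_div₀, map_natCast, hc, div_mul_eq_mul_div]
      have hd : (L : ℂ) / N - p a ∈ D.L.lattice := by
        rw [← unif_eq_unif_iff, (hp a ha.1).1, ha.2]
      refine ⟨(⟨a, mem_torsPts.2 ha.1⟩, ⟨_, hd⟩), Subtype.ext ?_⟩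
      show (N : ℂ) * p a + (N : ℂ) * ((L : ℂ) / N - p a) = L
      rw [← mul_add, add_sub_cancel, mul_div_cancel₀ _ hN']
  set g : D.L.lattice → ℂ := fun L => kern s ((N : ℂ)⁻¹) * kern s ((N : ℂ) * x + L)
  have hg : Summable g := (summable_kern hx hs).mul_left _
  have e := (Equiv.ofBijective f hf).tsum_eq g
  have hgf : Summable (g ∘ f) := hg.comp_injective hf.1
  have hfib : ∀ a : torsPts D hN, ∑' l, g (f (a, l)) = kernSum D (x + p a) s := fun a => by
    refine tsum_congr fun l => ?_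
    simp only [g, f]
    rw [← kern_mul s (inv_ne_zero hN'), ← mul_add, ← mul_add, inv_mul_cancel_left₀ hN', add_assoc]
  rw [← Finset.sum_coe_sort, kernSum, ← tsum_mul_left, ← e]
  show _ = ∑' q, (g ∘ f) q
  rw [hgf.tsum_prod, tsum_fintype]
  exact Finset.sum_congr rfl fun a _ => (hfib a).symm

/-- A parameter of every point, `0` for the origin. -/
def param (D : CMDat K) (S : D.Pt) : ℂ :=
  if S = 0 then 0 else (exists_preimage (hL := D.hL) S).choose

theorem param_zero : param D (0 : D.Pt) = 0 := if_pos rfl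

theorem unif_param (S : D.Pt) : unif D.L (param D S) = D.toL S := by
  by_cases hS : S = 0
  · subst hS
    rw [param_zero, unif_of_mem _ (zero_mem _), map_zero]
  · rw [param, if_neg hS]
    exact (exists_preimage (hL := D.hL) S).choose_spec

theorem mem_of_param {S : D.Pt} {n : ℕ} (hS : n • S = 0) :
    (n : ℂ) * param D S ∈ D.L.lattice := by
  rw [← unif_eq_zero_iff, ← Int.cast_natCast, unif_int_mul, unif_param, natCast_zsmul, ← map_nsmul,
    hS, map_zero]

/-- **The Dirichlet series as a sum of the kernel.** -/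
theorem tsum_eq_kernSum {s : ℂ} (hs : 3 / 2 < s.re) :
    ∑' I : coprimeIdeals (Ideal.span {(G.M : 𝓞 K)}),
      conj (G.ψ I.1.1) * ((Ideal.absNorm I.1.1 : ℕ) : ℂ) ^ (-s) =
    kern s ((G.M : ℂ) / D.Ω) * ∑ T ∈ G.pts, kernSum D (param D T) s := by
  have hM : (G.M : ℂ) ≠ 0 := Nat.cast_ne_zero.2 G.M_ne
  set c : ℂ := (G.M : ℂ) / D.Ω
  have hc : c ≠ 0 := div_ne_zero hM D.Ω_ne_zero
  choose z hz hIz using fun I : coprimeIdeals (Ideal.span {(G.M : 𝓞 K)}) =>
    G.exists_gen (nonZeroDivisors.coe_ne_zero I.1) I.2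
  -- the parameter of a generator
  have hlat : ∀ q : (G.pts) × D.L.lattice, ∃ w : 𝓞 K, G.InH w ∧
      D.emb ((w : K) / G.M) * D.Ω = param D q.1 + q.2 := fun ⟨T, l⟩ => by
    obtain ⟨r, hr, hT⟩ := G.mem_pts.1 T.2
    have hd : param D T + (l : ℂ) - D.emb ((r : K) / G.M) * D.Ω ∈ D.L.lattice := by
      rw [add_sub_right_comm]
      refine add_mem ?_ l.2
      rw [← unif_eq_unif_iff, unif_param, hT, D.toL_tor]
    obtain ⟨b, hb⟩ := D.mem_lattice'.1 hd
    refine ⟨r + (G.M : 𝓞 K) * b, hr.congr G (Ideal.mem_span_singleton.2 ⟨-b, by ring⟩), ?_⟩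
    push_cast
    rw [add_div, mul_div_cancel_left₀ _ (Nat.cast_ne_zero.2 G.M_ne), map_add, add_mul]
    linear_combination -hb
  choose w hw hwq using hlat
  let f : (G.pts) × D.L.lattice → coprimeIdeals (Ideal.span {(G.M : 𝓞 K)}) := fun q =>
    ⟨⟨Ideal.span {w q}, mem_nonZeroDivisors_iff_ne_zero.2
      (by simpa using G.ne_zero_of_coprime (hw q).1)⟩, sup_span_eq_top (hw q).1⟩
  have hzf : ∀ q, z (f q) = w q := fun q =>
    G.eq_of_span (hz _) (hw q) ((hIz (f q)).symm)
  have hcw : ∀ q, c * (param D q.1 + (q.2 : ℂ)) = D.emb (w q : K) := fun q => by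
    rw [← hwq, map_div₀, map_natCast, ← mul_assoc, mul_comm c, mul_assoc,
      div_mul_cancel₀ _ D.Ω_ne_zero, div_mul_cancel₀ _ hM]
  have hf : Function.Bijective f := by
    constructor
    · intro q q' h
      have hw' : w q = w q' := (hzf q).symm.trans ((congrArg z h).trans (hzf q'))
      have e : param D q.1 + (q.2 : ℂ) = param D q'.1 + (q'.2 : ℂ) :=
        mul_left_cancel₀ hc (by rw [hcw, hcw, hw'])
      have e1 : q.1 = q'.1 := Subtype.ext (D.toL_injective (by
        rw [← unif_param, ← unif_param, unif_eq_unif_iff,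
          show param D q.1 - param D q'.1 = (q'.2 : ℂ) - q.2 by linear_combination e]
        exact sub_mem q'.2.2 q.2.2))
      refine Prod.ext e1 (Subtype.ext ?_)
      rw [e1] at e
      exact add_left_cancel e
    · intro I
      set T : D.Pt := D.tor ((z I : K) / G.M)
      have hT : T ∈ G.pts := G.mem_pts.2 ⟨z I, hz I, rfl⟩
      have hd : D.emb ((z I : K) / G.M) * D.Ω - param D T ∈ D.L.lattice := by
        rw [← unif_eq_unif_iff, ← D.toL_tor, unif_param]
      refine ⟨(⟨T, hT⟩, ⟨_, hd⟩), ?_⟩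
      have e : w (⟨T, hT⟩, ⟨_, hd⟩) = z I := by
        refine RingOfIntegers.coe_injective (D.emb.injective ?_)
        rw [← hcw]
        show c * (param D T + (D.emb ((z I : K) / G.M) * D.Ω - param D T)) = _
        rw [add_sub_cancel, map_div₀, map_natCast, ← mul_assoc, mul_comm c, mul_assoc,
          div_mul_cancel₀ _ D.Ω_ne_zero, div_mul_cancel₀ _ hM]
      refine Subtype.ext (Subtype.ext ?_)
      show Ideal.span {w _} = _
      rw [e, ← hIz]
  rw [← (Equiv.ofBijective f hf).tsum_eq]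
  have hterm : ∀ q, conj (G.ψ (f q).1.1) * ((Ideal.absNorm (f q).1.1 : ℕ) : ℂ) ^ (-s) =
      kern s c * kern s (param D q.1 + (q.2 : ℂ)) := fun q => by
    show conj (G.ψ (Ideal.span {w q})) * _ = _
    rw [(hw q).2, ← kern_mul s hc, hcw]
    exact conj_mul_cpow Q (G.ne_zero_of_coprime (hw q).1) s
  refine (tsum_congr hterm).trans ?_
  rw [tsum_mul_left]
  congr 1
  have hnot : ∀ T : G.pts, param D T ∉ D.L.lattice := fun T h => G.pts_ne_zero T.2
    (D.toL_injective (by rw [map_zero, ← unif_param, unif_of_mem _ h]))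
  have hsum : Summable fun q : (G.pts) × D.L.lattice => kern s (param D q.1 + (q.2 : ℂ)) := by
    refine Summable.of_norm ((summable_prod_of_nonneg fun _ => norm_nonneg _).2
      ⟨fun T => (summable_kern (hnot T) hs).norm, Summable.of_finite⟩)
  rw [hsum.tsum_prod, tsum_fintype, ← Finset.sum_coe_sort G.pts]
  rfl

/-- The smoothed series, holomorphic in `σ > 1/2`. -/
def smoothed {N : ℕ} (hN : N ≠ 0) (s : ℂ) : ℂ :=
  ∑ T ∈ G.pts, ∑ a ∈ torsPts D hN, diffSum D.L (param D T) (param D a) s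

variable {N : ℕ} (hN : N ≠ 0) (hNM : G.M ∣ N - 1)

theorem notMem_param {T : D.Pt} (hT : T ∈ G.pts) : param D T ∉ D.L.lattice := fun h =>
  G.pts_ne_zero hT (D.toL_injective (by rw [map_zero, ← unif_param, unif_of_mem _ h]))

include hN hNM in
theorem mul_param_sub {T : D.Pt} (hT : T ∈ G.pts) :
    (N : ℂ) * param D T - param D T ∈ D.L.lattice := by
  obtain ⟨k, hk⟩ := hNM
  have h := mem_of_param (n := G.M) (G.nsmul_pts hT)
  have e : (N : ℂ) * param D T - param D T = (k : ℕ) • ((G.M : ℂ) * param D T) := by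
    rw [nsmul_eq_mul, ← mul_assoc, ← Nat.cast_mul, mul_comm k, ← hk,
      Nat.cast_sub (Nat.one_le_iff_ne_zero.2 hN)]
    push_cast; ring
  rw [e]
  exact nsmul_mem h k

include hN hNM in
theorem add_pts_ne_zero {T a : D.Pt} (hT : T ∈ G.pts) (ha : N • a = 0) : T + a ≠ 0 := fun h => by
  obtain ⟨k, hk⟩ := hNM
  refine G.pts_ne_zero hT ?_
  have e : N • T = 0 := by rw [eq_neg_of_add_eq_zero_left h, neg_nsmul, ha, neg_zero]
  rw [show N = G.M * k + 1 by omega, add_nsmul, one_nsmul, mul_nsmul, G.nsmul_pts hT, nsmul_zero,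
    zero_add] at e
  exact e

theorem differentiableOn_smoothed :
    DifferentiableOn ℂ (G.smoothed hN) {s | 1 / 2 < s.re} := by
  refine DifferentiableOn.fun_sum fun T hT => DifferentiableOn.fun_sum fun a _ => ?_
  exact differentiableOn_diffSum D.L (G.notMem_param hT) _

include hNM in
theorem smoothed_eq {s : ℂ} (hs : 3 / 2 < s.re) :
    G.smoothed hN s = 2 * (kern s ((N : ℂ)⁻¹) - (N : ℂ) ^ 2) *
      ∑ T ∈ G.pts, kernSum D (param D T) s := by
  rw [smoothed, Finset.mul_sum]
  refine Finset.sum_congr rfl fun T hT => ?_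
  set x := param D T
  have hx := G.notMem_param hT
  have hxa : ∀ a, N • a = 0 → x + param D a ∉ D.L.lattice ∧ x - param D a ∉ D.L.lattice :=
    fun a ha => ⟨fun h => G.add_pts_ne_zero hN hNM hT ha (D.toL_injective (by
        rw [map_zero, map_add, ← unif_param, ← unif_param, ← unif_add, unif_of_mem _ h])),
      fun h => G.add_pts_ne_zero hN hNM hT (a := -a) (by rw [neg_nsmul, ha, neg_zero])
        (D.toL_injective (by
          rw [map_zero, map_add, map_neg, ← unif_param, ← unif_param, ← unif_neg, ← unif_add,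
            ← sub_eq_add_neg, unif_of_mem _ h]))⟩
  have hd : ∀ a ∈ torsPts D hN, diffSum D.L x (param D a) s =
      kernSum D (x + param D a) s + kernSum D (x - param D a) s - 2 * kernSum D x s := fun a ha => by
    obtain ⟨h1, h2⟩ := hxa a (mem_torsPts.1 ha)
    have e1 := (summable_kern h1 hs).congr fun l =>
      (by rw [add_right_comm] : kern s (x + param D a + l) = kern s (x + (l : ℂ) + param D a))
    have e2 := (summable_kern h2 hs).congr fun l =>
      (by rw [add_sub_right_comm] : kern s (x - param D a + l) = kern s (x + (l : ℂ) - param D a))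
    simp only [diffSum, diff2]
    rw [(e1.add e2).tsum_sub ((summable_kern hx hs).mul_left 2), e1.tsum_add e2, tsum_mul_left]
    simp only [kernSum, add_right_comm, add_sub_right_comm]
    rfl
  rw [Finset.sum_congr rfl hd, Finset.sum_sub_distrib, Finset.sum_add_distrib]
  have hNx : (N : ℂ) * x ∉ D.L.lattice := fun h => hx (by
    have h' := sub_mem h (G.mul_param_sub hN hNM hT)
    rwa [sub_sub_cancel] at h')
  have k1 := sum_kernSum hN hNx hs (param D) fun a ha => ⟨unif_param a, mem_of_param ha⟩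
  have k2 := sum_kernSum hN hNx hs (fun a => -param D (-a)) fun a ha => ⟨by
      rw [unif_neg, unif_param, map_neg, neg_neg],
    by
      rw [mul_neg]
      exact neg_mem (mem_of_param (by rw [neg_nsmul, ha, neg_zero]))⟩
  have k2' : ∑ a ∈ torsPts D hN, kernSum D (x - param D a) s =
      kern s ((N : ℂ)⁻¹) * kernSum D ((N : ℂ) * x) s := by
    refine (Finset.sum_bij (fun a _ => -a) (fun a ha => ?_) (fun a _ b _ e => neg_injective e)
      (fun b hb => ⟨-b, ?_, neg_neg b⟩) fun a _ => ?_).trans k2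
    · rw [mem_torsPts] at ha ⊢; rw [neg_nsmul, ha, neg_zero]
    · rw [mem_torsPts] at hb ⊢; rw [neg_nsmul, hb, neg_zero]
    · rw [neg_neg, sub_eq_add_neg]
  have hNx' : kernSum D ((N : ℂ) * x) s = kernSum D x s := by
    rw [show (N : ℂ) * x = x + ((N : ℂ) * x - x) by ring,
      kernSum_add (G.mul_param_sub hN hNM hT)]
  have hcard : ((torsPts D hN).card : ℂ) = (N : ℂ) ^ 2 := by
    rw [torsPts, ← Set.ncard_eq_toFinset_card _ (finite_nsmul_eq_zero hN : {S : D.Pt | N • S = 0}.Finite),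
      ← Nat.card_coe_set_eq, ← Nat.cast_pow]
    exact congrArg _ (FA.EC.natCard_nsmul_eq_zero (D.W.map (algebraMap K Kb))
      (Nat.cast_ne_zero.2 hN))
  rw [k1, k2', hNx', Finset.sum_const, nsmul_eq_mul, hcard]
  ring

include hNM in
/-- **The value at `1` of any continuation.** -/
theorem value_at_one {Lc : ℂ → ℂ} (hd : DifferentiableOn ℂ Lc {s | 1 / 2 < s.re})
    (he : ∀ s : ℂ, 2 < s.re → Lc s = ∑' I : coprimeIdeals (Ideal.span {(G.M : 𝓞 K)}),
      conj (G.ψ I.1.1) * ((Ideal.absNorm I.1.1 : ℕ) : ℂ) ^ (-s)) :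
    2 * ((N : ℂ) - (N : ℂ) ^ 2) * Lc 1 = D.Ω / G.M * D.φ (G.algValue hN) := by
  set U : Set ℂ := {s | 1 / 2 < s.re}
  have hU : IsOpen U := isOpen_lt continuous_const Complex.continuous_re
  set F : ℂ → ℂ := fun s => kern s ((G.M : ℂ) / D.Ω) * G.smoothed hN s -
    2 * (kern s ((N : ℂ)⁻¹) - (N : ℂ) ^ 2) * Lc s
  have hF : AnalyticOnNhd ℂ F U :=
    (((differentiable_kern _).differentiableOn.mul (G.differentiableOn_smoothed hN)).sub
      ((((differentiable_kern _).sub_const _).const_mul 2).differentiableOn.mul hd)).analyticOnNhd hU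
  have hUc : IsPreconnected U := (convex_halfSpace_re_gt _).isPreconnected
  have h3 : F =ᶠ[nhds (3 : ℂ)] 0 := by
    filter_upwards [(isOpen_lt continuous_const Complex.continuous_re).mem_nhds
      (show (2 : ℝ) < (3 : ℂ).re by norm_num)] with s (hs : 2 < s.re)
    have hs' : 3 / 2 < s.re := by linarith
    simp only [F, Pi.zero_apply, G.smoothed_eq hN hNM hs', he s hs, G.tsum_eq_kernSum hs']
    ring
  have h1 := hF.eqOn_zero_of_preconnected_of_eventuallyEq_zero hUc
    (show (3 : ℂ) ∈ U by simp [U]; norm_num) h3 (show (1 : ℂ) ∈ U by simp [U]; norm_num)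
  simp only [F, kern_one, inv_div, inv_inv, Pi.zero_apply] at h1
  have hval : G.smoothed hN 1 = D.φ (G.algValue hN) := by
    rw [smoothed, algValue, map_sum]
    refine Finset.sum_congr rfl fun T hT => ?_
    have hx := G.notMem_param hT
    rw [map_sum, ← Finset.add_sum_erase _ _ (mem_torsPts.2 (nsmul_zero N) : (0 : D.Pt) ∈ torsPts D hN)]
    have h0 : diffSum D.L (param D T) (param D 0) 1 = 0 := by
      simp [diffSum, diff2, param_zero, two_mul]
    rw [h0, zero_add]
    refine Finset.sum_congr rfl fun a ha => ?_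
    rw [Finset.mem_erase, mem_torsPts] at ha
    have hna : param D a ∉ D.L.lattice := fun h => ha.1 (D.toL_injective (by
      rw [map_zero, ← unif_param, unif_of_mem _ h]))
    have g1 : param D T + param D a ∉ D.L.lattice := fun h => G.add_pts_ne_zero hN hNM hT ha.2
      (D.toL_injective (by
        rw [map_zero, map_add, ← unif_param, ← unif_param, ← unif_add, unif_of_mem _ h]))
    have g2 : param D T - param D a ∉ D.L.lattice := fun h =>
      G.add_pts_ne_zero hN hNM hT (a := -a) (by rw [neg_nsmul, ha.2, neg_zero])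
        (D.toL_injective (by
          rw [map_zero, map_add, map_neg, ← unif_param, ← unif_param, ← unif_neg, ← unif_add,
            ← sub_eq_add_neg, unif_of_mem _ h]))
    rw [diffSum_one D.L hx hna g1 g2, map_div₀, _root_.map_mul, map_sub, map_ofNat]
    have ex : ∀ S : D.Pt, D.φ (xP S) = xP (D.toL S) := fun S => (xP_toC (hL := D.hL) S).symm
    have ey : ∀ S : D.Pt, D.φ (yP S) = yP (D.toL S) := fun S => (yP_toC (hL := D.hL) S).symm
    rw [ex, ex, ey, ← unif_param, ← unif_param, xP_unif, xP_unif, yP_unif]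
    ring
  rw [hval, sub_eq_zero] at h1
  linear_combination -h1

theorem isPure_type : FA.AlgHecke.IsPure
    (fun σ : K →+* ℂ => if σ Q.s = D.emb Q.s then (1 : ℤ) else 0) 1 := fun σ =>
  FA.DeuringCM.sum_type_eq_one Q.hd0 Q.hs D.emb σ

/-- **The sum continues to an entire function.** -/
theorem exists_continuation : ∃ Lc : ℂ → ℂ, Differentiable ℂ Lc ∧
    ∀ s : ℂ, 3 / 2 < s.re → Lc s = ∑' I : coprimeIdeals (Ideal.span {(G.M : 𝓞 K)}),
      conj (G.ψ I.1.1) * ((Ideal.absNorm I.1.1 : ℕ) : ℂ) ^ (-s) := by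
  obtain ⟨E, hE, hsum, -⟩ := G.algChar.exists_entire (w := 1)
    (isPure_type (D := D) (Q := Q)) G.not_normPower
  refine ⟨fun s => conj (E (conj s)), fun s => ?_, fun s hs => ?_⟩
  · have h := (hE (conj s)).conj_conj
    rwa [Complex.conj_conj] at h
  have hsu := ((hsum (conj s) (by rw [Complex.conj_re]; push_cast; linarith)).map (starRingEnd ℂ)
    Complex.continuous_conj).tsum_eq
  refine hsu.symm.trans ?_
  have hsupp : Function.support (fun I : (Ideal (𝓞 K))⁰ =>
      conj (G.ψ I.1 * ((Ideal.absNorm I.1 : ℕ) : ℂ) ^ (-conj s))) ⊆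
      (coprimeIdeals (Ideal.span {(G.M : 𝓞 K)}) : Set (Ideal (𝓞 K))⁰) := fun I hI => by
    by_contra h
    refine hI ?_
    show conj _ = 0
    rw [not_not.1 (fun e => h ((G.algChar.ne_zero_iff _ (nonZeroDivisors.coe_ne_zero I)).1 e)),
      zero_mul, map_zero]
  refine (tsum_subtype_eq_of_support_subset hsupp).symm.trans (tsum_congr fun I => ?_)
  rw [_root_.map_mul, FA.AlgHeckeFE.conj_natCast_cpow, map_neg, Complex.conj_conj]

end Grossen

end FA.CoatesWiles

end
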