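import Fermat.Agent.CoatesWiles.Tower
import Mathlib.LinearAlgebra.Vandermonde
import Mathlib.FieldTheory.Finite.Basic

/-!
# Equivariant homomorphisms killing a unit of exact level one

A homomorphism on the multiplicative group of the field of the points killed by `π ^ n`, killed by
`p`, continuous and equivariant for the multipliers, kills the units of level two: their norms to
the first layer are, after projecting to the tautological character, `p`-th powers of norms, and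
elements of norm close to one are close to quotients `γ z / z`. So one killed unit of exact level
one kills everything.
-/

set_option autoImplicit false
set_option linter.style.haveILetI false
set_option linter.unusedSectionVars false

noncomputable section

open WeierstrassCurve NumberField IsDedekindDomain FA.IsogenyNF FA.Local
open FA.DeuringCM (IQF)
open scoped WeierstrassCurve.Affine Classical

namespace FA.CoatesWiles

/-! ### Natural numbers congruent to one -/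

/-- The expansion to second order. -/
theorem exists_one_add_pow (b : ℕ) : ∀ k : ℕ,
    ∃ r : ℕ, (1 + b) ^ k = 1 + k * b + k.choose 2 * b ^ 2 + b ^ 3 * r := fun k => by
  induction k with
  | zero => exact ⟨0, by simp⟩
  | succ k ih =>
    obtain ⟨r, hr⟩ := ih
    refine ⟨r + k.choose 2 + b * r, ?_⟩
    rw [pow_succ, hr, Nat.choose_succ_succ k 1, Nat.choose_one_right, show Nat.succ 1 = 2 from rfl]
    ring

/-- **Powers of `1 + p`.** -/
theorem one_add_pow_pow_mul {p : ℕ} (hp : Odd p) (a t : ℕ) :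
    ((1 + p) ^ (p ^ a * t) : ℕ) ≡ 1 + t * p ^ (a + 1) [MOD p ^ (a + 2)] := by
  have key : ∀ a : ℕ, ∃ c, (1 + p) ^ p ^ a = 1 + p ^ (a + 1) * (1 + p * c) := fun a => by
    induction a with
    | zero => exact ⟨0, by simp⟩
    | succ a ih =>
      obtain ⟨c, hc⟩ := ih
      obtain ⟨r, hr⟩ := exists_one_add_pow (p ^ (a + 1) * (1 + p * c)) p
      obtain ⟨h, hh⟩ := hp
      have hch : p.choose 2 = p * h := by
        rw [Nat.choose_two_right, show p - 1 = 2 * h by omega, ← mul_assoc, mul_comm p 2, mul_assoc,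
          Nat.mul_div_cancel_left _ two_pos]
      refine ⟨c + h * p ^ a * (1 + p * c) ^ 2 + r * p ^ (2 * a) * (1 + p * c) ^ 3, ?_⟩
      rw [pow_succ, pow_mul, hc, hr, hch]
      ring
  obtain ⟨c, hc⟩ := key a
  obtain ⟨r, hr⟩ := exists_one_add_pow (p ^ (a + 1) * (1 + p * c)) t
  rw [pow_mul, hc, hr]
  have e : 1 + t * (p ^ (a + 1) * (1 + p * c)) + t.choose 2 * (p ^ (a + 1) * (1 + p * c)) ^ 2 +
      (p ^ (a + 1) * (1 + p * c)) ^ 3 * r = (1 + t * p ^ (a + 1)) + p ^ (a + 2) * (t * c +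
      t.choose 2 * p ^ a * (1 + p * c) ^ 2 + p ^ (2 * a + 1) * (1 + p * c) ^ 3 * r) := by ring
  rw [e]
  exact Nat.ModEq.trans (Nat.ModEq.add_left _ (Nat.modEq_zero_iff_dvd.2 (dvd_mul_right _ _)))
    (by rw [add_zero])

theorem one_add_pow_prime_pow {p : ℕ} (hp : Odd p) (n : ℕ) :
    ((1 + p) ^ p ^ (n - 1) : ℕ) ≡ 1 [MOD p ^ n] := by
  rcases n with _ | a
  · simpa using Nat.modEq_one
  refine (((one_add_pow_pow_mul hp a 1).of_dvd (pow_dvd_pow p (Nat.le_succ _))).trans ?_)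
  |> fun h => by simpa using h
  rw [one_mul]
  conv_rhs => rw [← add_zero 1]
  exact Nat.ModEq.add_left _ (Nat.modEq_zero_iff_dvd.2 dvd_rfl)

theorem eq_zero_of_one_add_pow {p : ℕ} (hpr : p.Prime) (hp : Odd p) {n d : ℕ}
    (hd : d < p ^ (n - 1)) (h : ((1 + p) ^ d : ℕ) ≡ 1 [MOD p ^ n]) : d = 0 := by
  by_contra hd0
  obtain ⟨a, t, ht, rfl⟩ := Nat.exists_eq_pow_mul_and_not_dvd hd0 p hpr.ne_one
  have hta : 1 ≤ t := Nat.one_le_iff_ne_zero.2 fun e => ht (e ▸ dvd_zero p)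
  have ha : a + 2 ≤ n := by
    by_contra! hlt
    have h1 : p ^ (n - 1) ≤ p ^ a := Nat.pow_le_pow_right hpr.pos (by omega)
    have h2 : p ^ a ≤ p ^ a * t := Nat.le_mul_of_pos_right _ hta
    omega
  have h3 := ((one_add_pow_pow_mul hp a t).symm.trans (h.of_dvd (pow_dvd_pow p ha)))
  rw [Nat.ModEq.comm, Nat.modEq_iff_dvd' (Nat.le_add_right _ _), Nat.add_sub_cancel_left,
    pow_succ p (a + 1), mul_comm t, Nat.mul_dvd_mul_iff_left (pow_pos hpr.pos _)] at h3
  exact ht h3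

variable {K : Type} [Field K] [NumberField K]

local notation "Kb" => AlgebraicClosure K

open CMDat

section Units

variable {F Γ : Type*} [Field F] [LinearOrderedCommGroupWithZero Γ] (v : Valuation F Γ)

theorem val_mul_sub_one {a b : F} {r : Γ} (hr : r ≤ 1) (ha : v (a - 1) ≤ r) (hb : v (b - 1) ≤ r) :
    v (a * b - 1) ≤ r := by
  rw [show a * b - 1 = (a - 1) * (b - 1) + ((a - 1) + (b - 1)) by ring]
  refine v.map_add_le ?_ (v.map_add_le ha hb)
  rw [map_mul]
  exact (mul_le_of_le_one_left' (ha.trans hr)).trans hb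

theorem val_pow_sub_one {a : F} {r : Γ} (hr : r ≤ 1) (ha : v (a - 1) ≤ r) (k : ℕ) :
    v (a ^ k - 1) ≤ r := by
  induction k with
  | zero => simp
  | succ k ih => rw [pow_succ]; exact val_mul_sub_one v hr ih ha

theorem val_prod_sub_one {ι : Type*} (s : Finset ι) {f : ι → F} {r : Γ} (hr : r ≤ 1)
    (hf : ∀ i ∈ s, v (f i - 1) ≤ r) : v (∏ i ∈ s, f i - 1) ≤ r :=
  Finset.prod_induction f (fun t => v (t - 1) ≤ r) (fun _ _ ha hb => val_mul_sub_one v hr ha hb)
    (by simp) hf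

theorem val_prod_one_add {ι : Type*} (s : Finset ι) {b : ι → F} {r : Γ} (hr : r ≤ 1)
    (hb : ∀ i ∈ s, v (b i) ≤ r) : v (∏ i ∈ s, (1 + b i) - 1 - ∑ i ∈ s, b i) ≤ r ^ 2 := by
  induction s using Finset.induction_on with
  | empty => simp
  | insert j s hj ih =>
    have h' := ih fun i hi => hb i (Finset.mem_insert_of_mem hi)
    have hj' := hb j (Finset.mem_insert_self _ _)
    have hs : v (∏ i ∈ s, (1 + b i) - 1) ≤ r := val_prod_sub_one v s hr fun i hi => by
      rw [add_sub_cancel_left]; exact hb i (Finset.mem_insert_of_mem hi)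
    rw [Finset.prod_insert hj, Finset.sum_insert hj, show (1 + b j) * (∏ i ∈ s, (1 + b i)) - 1 -
      (b j + ∑ i ∈ s, b i) = (∏ i ∈ s, (1 + b i) - 1 - ∑ i ∈ s, b i) +
        b j * (∏ i ∈ s, (1 + b i) - 1) by ring]
    refine v.map_add_le h' ?_
    rw [map_mul, sq]
    exact mul_le_mul' hj' hs

theorem val_one_add_pow {b : F} (hb : v b ≤ 1) (k : ℕ) :
    v ((1 + b) ^ k - 1 - k * b) ≤ v b ^ 2 := by
  have h := val_prod_one_add v (Finset.range k) hb (b := fun _ => b) (fun _ _ => le_rfl)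
  simpa using h

/-- The binomial expansion of a `p`-th power. -/
theorem val_one_add_pow_prime {p : ℕ} (hp : p.Prime) {b : F} (hb : v b ≤ 1) :
    v ((1 + b) ^ p - 1 - b ^ p - (p : F) * b) ≤ v (p : F) * v b ^ 2 := by
  have h2 := hp.two_le
  have e : (1 + b) ^ p - 1 - b ^ p - (p : F) * b =
      ∑ k ∈ Finset.Ico 2 p, (p.choose k : F) * b ^ k := by
    rw [add_comm 1 b, add_pow, Finset.sum_range_succ, Finset.range_eq_Ico,
      Finset.sum_eq_sum_Ico_succ_bot (by omega : 0 < p),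
      Finset.sum_eq_sum_Ico_succ_bot (by omega : 0 + 1 < p)]
    simp only [one_pow, mul_one, Nat.choose_self, Nat.cast_one, pow_zero, Nat.choose_zero_right,
      zero_add, pow_one, Nat.choose_one_right, Nat.reduceAdd]
    rw [Finset.sum_congr rfl fun k _ => mul_comm (b ^ k) (p.choose k : F)]
    ring
  rw [e]
  refine v.map_sum_le fun k hk => ?_
  rw [Finset.mem_Ico] at hk
  obtain ⟨c, hc⟩ := hp.dvd_choose_self (by omega : k ≠ 0) hk.2
  rw [hc, map_mul, Nat.cast_mul, map_mul, map_pow]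
  exact mul_le_mul' (mul_le_of_le_one_right' (natCast_le_one c))
    (pow_le_pow_of_le_one zero_le hb hk.1)

end Units

namespace SplitPlace

variable {D : CMDat K} {Q : IQF K} (X : SplitPlace D Q)

local notation "vv" => X.P.R.valuation

/-- The units of a given level. -/
def IsU (m i : ℕ) (x : Kb) : Prop := x ∈ X.fld m ∧ X.P.R.valuation (x - 1) ≤ X.ρ m ^ i

variable {X}

theorem IsU.one (m i : ℕ) : X.IsU m i 1 := ⟨one_mem _, by simp⟩

theorem IsU.mono {m i k : ℕ} {x : Kb} (h : X.IsU m i x) (hk : k ≤ i) : X.IsU m k x :=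
  ⟨h.1, h.2.trans (pow_le_pow_of_le_one zero_le (X.ρ_lt_one m).le hk)⟩

theorem IsU.val_eq {m i : ℕ} {x : Kb} (h : X.IsU m i x) (hi : i ≠ 0) : vv x = 1 :=
  eq_one_of_sub_lt (map_one _) (h.2.trans_lt (pow_lt_one₀ zero_le (X.ρ_lt_one m) hi))

theorem IsU.ne_zero {m i : ℕ} {x : Kb} (h : X.IsU m i x) (hi : i ≠ 0) : x ≠ 0 := fun e => by
  have := h.val_eq hi
  rw [e, map_zero] at this
  exact zero_ne_one this

theorem IsU.mul {m i : ℕ} {x y : Kb} (hx : X.IsU m i x) (hy : X.IsU m i y) :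
    X.IsU m i (x * y) :=
  ⟨mul_mem hx.1 hy.1, val_mul_sub_one _ (pow_le_one₀ zero_le (X.ρ_lt_one m).le) hx.2 hy.2⟩

theorem IsU.pow {m i : ℕ} {x : Kb} (hx : X.IsU m i x) (k : ℕ) : X.IsU m i (x ^ k) :=
  ⟨pow_mem hx.1 k, val_pow_sub_one _ (pow_le_one₀ zero_le (X.ρ_lt_one m).le) hx.2 k⟩

theorem IsU.prod {m i : ℕ} {ι : Type*} (s : Finset ι) {f : ι → Kb} (h : ∀ j ∈ s, X.IsU m i (f j)) :
    X.IsU m i (∏ j ∈ s, f j) :=
  ⟨prod_mem fun j hj => (h j hj).1,
    val_prod_sub_one _ s (pow_le_one₀ zero_le (X.ρ_lt_one m).le) fun j hj => (h j hj).2⟩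

theorem IsU.div {m i : ℕ} {x y : Kb} (hi : i ≠ 0) (hx : X.IsU m i x) (hy : X.IsU m i y) :
    X.IsU m i (x / y) := by
  refine ⟨div_mem hx.1 hy.1, ?_⟩
  rw [div_sub_one (hy.ne_zero hi), map_div₀, hy.val_eq hi, div_one,
    show x - y = (x - 1) - (y - 1) by ring]
  exact Valuation.map_sub_le _ hx.2 hy.2

theorem IsU.apply {m i : ℕ} (hm : m ≠ 0) {x : Kb} (hx : X.IsU m i x) (σ : Kb ≃ₐ[K] Kb) :
    X.IsU m i (σ x) := by
  refine ⟨X.apply_mem_fld σ hx.1, ?_⟩
  rw [← map_one σ, ← map_sub, X.val_apply σ hm (sub_mem hx.1 (one_mem _))]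
  exact hx.2

variable (X)

theorem apply_eq_of_pt {σ τ : Kb ≃ₐ[K] Kb} {m : ℕ} (h : σ • X.pt m = τ • X.pt m) {x : Kb}
    (hx : x ∈ X.fld m) : σ x = τ x := by
  have h1 : (τ⁻¹ * σ) ∈ (X.fld m).fixingSubgroup := by
    rw [X.mem_fixingSubgroup_fld, ← zc_smul, mul_smul, h, inv_smul_smul]
  have h2 := congrArg τ ((IntermediateField.mem_fixingSubgroup_iff _ _).1 h1 x hx)
  rw [AlgEquiv.mul_apply] at h2
  exact (τ.apply_symm_apply (σ x)).symm.trans h2

theorem smul_pow_pt {σ : Kb ≃ₐ[K] Kb} {j m : ℕ} (h : σ • X.pt m = j • X.pt m) (i : ℕ) :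
    (σ ^ i) • X.pt m = (j ^ i) • X.pt m := by
  induction i with
  | zero => simp
  | succ i ih => rw [pow_succ, mul_smul, h, smul_nsmul', ih, ← mul_nsmul', pow_succ']

theorem nsmul_pt_of_modEq {i j m : ℕ} (h : i ≡ j [MOD X.p ^ m]) : i • X.pt m = j • X.pt m := by
  rw [← X.nsmul_pt_mod i, h, X.nsmul_pt_mod j]

theorem odd_p : Odd X.p := X.prime.odd_of_ne_two (by have := X.five_le; omega)

theorem val_pow_sub {a b : Kb} {r s : X.P.R.ValueGroup} (ha : vv a ≤ r) (hb : vv b ≤ r)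
    (hab : vv (a - b) ≤ s) (i : ℕ) (hi : i ≠ 0) : vv (a ^ i - b ^ i) ≤ r ^ (i - 1) * s := by
  rw [← geom_sum₂_mul, map_mul]
  refine mul_le_mul' (Valuation.map_sum_le _ fun l hl => ?_) hab
  rw [map_mul, map_pow, map_pow]
  rw [Finset.mem_range] at hl
  refine (mul_le_mul' (pow_le_pow_left₀ zero_le ha l) (pow_le_pow_left₀ zero_le hb _)).trans ?_
  rw [← pow_add]
  exact le_of_eq (congrArg _ (by omega))

/-! ### One step of the norm -/

/-- **The norm of one step.** -/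
theorem norm_step {σ : Kb ≃ₐ[K] Kb} {m : ℕ} (hm : m ≠ 0) (hσ : σ • X.pt m = X.pt m) {x : Kb}
    (hx : X.IsU (m + 1) 1 x) :
    vv (∏ k ∈ Finset.range X.p, (σ ^ k) x - 1 - (x - 1) ^ X.p) ≤ X.ρ (m + 1) ^ (X.p + 1) := by
  set m' := m + 1
  have hm' : m' ≠ 0 := Nat.succ_ne_zero m
  set r := X.ρ m'
  have hr1 : r < 1 := X.ρ_lt_one m'
  set y := x - 1 with hy
  have hyle : vv y ≤ r := by simpa using hx.2
  have hymem : y ∈ X.fld m' := sub_mem hx.1 (one_mem _)
  have hx1 : vv x = 1 := hx.val_eq one_ne_zero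
  have hx0 : x ≠ 0 := hx.ne_zero one_ne_zero
  have hρ1 : X.ρ 1 ≤ r ^ X.p := by
    rw [← X.ρ_pow_level hm']
    exact pow_le_pow_of_le_one zero_le hr1.le
      (Nat.le_self_pow (by omega) X.p)
  -- the displacements
  set d : ℕ → Kb := fun k => (σ ^ k) y - y
  have hfix : ∀ k, (σ ^ k) • X.pt m = X.pt m := fun k => by
    simpa using X.smul_pow_pt (j := 1) (by rw [one_nsmul]; exact hσ) k
  have hd : ∀ k, vv (d k) ≤ r ^ X.p := fun k => by
    have h := X.val_apply_sub hm (hfix k) hymem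
    refine le_of_mul_le_mul_right (h.trans ?_) (X.ρ_pos hm')
    rw [mul_comm (r ^ X.p)]
    exact mul_le_mul' hyle hρ1
  -- their sum
  obtain ⟨i, hi⟩ := X.exists_natCast_mul hm' hymem (i := 1) (by rwa [pow_one])
  rw [pow_one] at hi
  set z := X.z m' with hz
  set y₂ := y - (i : Kb) * z
  have hd2 : ∀ k, vv ((σ ^ k) y₂ - y₂) ≤ r ^ (X.p + 1) := fun k => by
    have h := X.val_apply_sub hm (hfix k) (sub_mem hymem (mul_mem (natCast_mem _ i) (X.z_mem m')))
    refine le_of_mul_le_mul_right (h.trans ?_) (X.ρ_pos hm')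
    rw [← pow_succ, show X.p + 1 + 1 = 2 + X.p by omega, pow_add]
    exact mul_le_mul' hi hρ1
  have hker : D.mulPt (X.π ^ 1) (σ • X.pt m' - X.pt m') = 0 := by
    rw [pow_one, map_sub, D.mulPt_smul, X.h.mulPt_piPt, hσ, sub_self]
  obtain ⟨t, ht⟩ := X.h.exists_nsmul_piPt hker
  have hσ1 : σ • X.pt 1 = X.pt 1 := by
    simpa using X.smul_pt_le (j := 1) (by rw [one_nsmul]; exact hσ) (Nat.one_le_iff_ne_zero.2 hm)
  have horbit : ∀ k, (σ ^ k) • X.pt m' = X.pt m' + (k * t) • X.pt 1 := fun k => by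
    induction k with
    | zero => simp
    | succ k ih =>
      rw [pow_succ', mul_smul, ih, smul_add (A := D.Pt) σ, smul_nsmul', hσ1, Nat.succ_mul, add_nsmul,
        ← sub_add_cancel (σ • X.pt m') (X.pt m'), ht]
      abel
  have hz1 : ∀ k, vv ((σ ^ k) z - z - ((k * t : ℕ) : Kb) * X.z 1) ≤ r ^ (X.p + 1) := fun k => by
    rw [hz, ← zc_smul, horbit]
    set T := (k * t) • X.pt 1
    have hT : X.P.red T = 0 := X.red_nsmul _ 1
    have hTz : vv (zc T) ≤ X.ρ 1 := by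
      rw [← sub_add_cancel (zc T) (((k * t : ℕ) : Kb) * X.z 1)]
      exact Valuation.map_add_le _ ((X.P.val_zc_nsmul (X.red_pt 1) _).trans
        (pow_le_of_le_one zero_le (X.ρ_lt_one 1).le three_ne_zero))
        (X.P.val_mul_le (natCast_le_one _) le_rfl)
    rw [show zc (X.pt m' + T) - X.z m' - ((k * t : ℕ) : Kb) * X.z 1 =
      (zc (X.pt m' + T) - X.z m' - zc T) + (zc T - ((k * t : ℕ) : Kb) * X.z 1) by ring]
    refine Valuation.map_add_le _ ((X.P.val_zc_add (X.red_pt m') hT).trans ?_) ?_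
    · refine (mul_le_mul' ?_ (hTz.trans hρ1)).trans_eq (pow_succ' r X.p).symm
      have hle1 : vv (zc T) ≤ r := (hTz.trans hρ1).trans (pow_le_of_le_one zero_le hr1.le
        X.prime.ne_zero)
      rw [max_eq_left hle1]
      exact pow_le_of_le_one zero_le hr1.le two_ne_zero
    · refine (X.P.val_zc_nsmul (X.red_pt 1) _).trans ((pow_le_pow_left₀ zero_le hρ1 3).trans ?_)
      rw [← pow_mul]
      exact pow_le_pow_of_le_one zero_le hr1.le (by have := X.five_le; omega)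
  have hp_le : vv (X.p : Kb) ≤ X.ρ 1 := (X.val_natCast_le dvd_rfl).trans (by
    rw [← X.ρ_one_pow]
    exact pow_le_of_le_one zero_le (X.ρ_lt_one 1).le (by have := X.five_le; omega))
  have hsum : vv (∑ k ∈ Finset.range X.p, d k) ≤ r ^ (X.p + 1) := by
    have hsum0 : vv (((∑ k ∈ Finset.range X.p, k * t : ℕ) : Kb) * X.z 1) ≤ r ^ (X.p + 1) := by
      have hdvd : X.p ∣ ∑ k ∈ Finset.range X.p, k * t := by
        rw [← Finset.sum_mul]
        refine dvd_mul_of_dvd_left ?_ _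
        obtain ⟨q, hq⟩ := X.odd_p
        rw [Finset.sum_range_id, show X.p - 1 = 2 * q by omega, ← mul_assoc, mul_comm X.p 2,
          mul_assoc, Nat.mul_div_cancel_left _ two_pos]
        exact dvd_mul_right _ _
      obtain ⟨c, hc⟩ := hdvd
      rw [hc, Nat.cast_mul, map_mul, map_mul]
      refine (mul_le_mul' ((mul_le_of_le_one_right' (natCast_le_one c)).trans (hp_le.trans hρ1))
        hρ1).trans ?_
      rw [← pow_add]
      exact pow_le_pow_of_le_one zero_le hr1.le (by have := X.five_le; omega)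
    have e : ∀ k, d k = (i : Kb) * ((σ ^ k) z - z - ((k * t : ℕ) : Kb) * X.z 1) +
        (i : Kb) * (((k * t : ℕ) : Kb) * X.z 1) + ((σ ^ k) y₂ - y₂) := fun k => by
      simp only [d, y₂, map_sub, map_mul, map_natCast]
      ring
    rw [Finset.sum_congr rfl fun k _ => e k, Finset.sum_add_distrib, Finset.sum_add_distrib,
      ← Finset.mul_sum, ← Finset.mul_sum, ← Finset.sum_mul, ← Nat.cast_sum]
    refine Valuation.map_add_le _ (Valuation.map_add_le _
      (X.P.val_mul_le (natCast_le_one i) (Valuation.map_sum_le _ fun k _ => hz1 k))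
      (X.P.val_mul_le (natCast_le_one i) hsum0)) (Valuation.map_sum_le _ fun k _ => hd2 k)
  -- the product
  have hprod : ∏ k ∈ Finset.range X.p, (σ ^ k) x =
      x ^ X.p * ∏ k ∈ Finset.range X.p, (1 + d k / x) := by
    have e : ∀ k, (σ ^ k) x = x * (1 + d k / x) := fun k => by
      simp only [d, hy, map_sub, map_one]
      field_simp
      ring
    rw [Finset.prod_congr rfl fun k _ => e k, Finset.prod_mul_distrib, Finset.prod_const,
      Finset.card_range]
  have h1 : vv (∏ k ∈ Finset.range X.p, (1 + d k / x) - 1) ≤ r ^ (X.p + 1) := by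
    have h2 := val_prod_one_add vv (Finset.range X.p) (b := fun k => d k / x)
      (r := r ^ X.p) (pow_le_one₀ zero_le hr1.le)
      (fun k _ => by rw [map_div₀, hx1, div_one]; exact hd k)
    rw [← sub_add_cancel (∏ k ∈ Finset.range X.p, (1 + d k / x) - 1)
      (∑ k ∈ Finset.range X.p, d k / x)]
    refine Valuation.map_add_le _ (h2.trans ?_) ?_
    · rw [← pow_mul]; exact pow_le_pow_of_le_one zero_le hr1.le (by have := X.five_le; omega)
    · rw [← Finset.sum_div, map_div₀, hx1, div_one]; exact hsum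
  have h3 : vv (x ^ X.p - 1 - y ^ X.p) ≤ r ^ (X.p + 1) := by
    have hb := val_one_add_pow_prime vv X.prime (b := y) (hyle.trans hr1.le)
    rw [show x = 1 + y by rw [hy]; ring,
      ← sub_add_cancel ((1 + y) ^ X.p - 1 - y ^ X.p) ((X.p : Kb) * y)]
    refine Valuation.map_add_le _ (hb.trans ?_) ?_
    · rw [pow_succ]
      refine mul_le_mul' (hp_le.trans hρ1) ((pow_le_of_le_one zero_le ?_ two_ne_zero).trans hyle)
      exact hyle.trans hr1.le
    · rw [map_mul, pow_succ]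
      exact mul_le_mul' (hp_le.trans hρ1) hyle
  rw [hprod, show x ^ X.p * ∏ k ∈ Finset.range X.p, (1 + d k / x) - 1 - y ^ X.p =
    x ^ X.p * (∏ k ∈ Finset.range X.p, (1 + d k / x) - 1) + (x ^ X.p - 1 - y ^ X.p) by ring]
  refine Valuation.map_add_le _ ?_ h3
  rw [map_mul, map_pow, hx1, one_pow, one_mul]
  exact h1

/-! ### The norm to the first layer -/

/-- The product over the powers of `γ`. -/
def normTo (γ : Kb ≃ₐ[K] Kb) (N : ℕ) (x : Kb) : Kb := ∏ i ∈ Finset.range N, (γ ^ i) x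

theorem apply_prod_range {σ : Kb ≃ₐ[K] Kb} {N : ℕ} {x : Kb} (h : (σ ^ N) x = x) :
    σ (normTo σ N x) = normTo σ N x := by
  have e1 := Finset.prod_range_succ' (fun k => (σ ^ k) x) N
  rw [Finset.prod_range_succ, h, pow_zero, AlgEquiv.one_apply] at e1
  rw [normTo, map_prod]
  simp only [← AlgEquiv.mul_apply, ← pow_succ']
  rcases eq_or_ne x 0 with rfl | hx
  · simp
  · exact (mul_right_cancel₀ hx e1).symm

theorem normTo_mul (γ : Kb ≃ₐ[K] Kb) (a b : ℕ) (x : Kb) :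
    normTo γ (a * b) x = normTo γ a (normTo (γ ^ a) b x) := by
  induction b with
  | zero => simp [normTo]
  | succ b ih =>
    have e : ∀ i, (γ ^ (a * b + i)) x = (γ ^ i) (((γ ^ a) ^ b) x) := fun i => by
      rw [← pow_mul, ← AlgEquiv.mul_apply, ← pow_add, add_comm]
    simp only [normTo] at ih ⊢
    rw [Nat.mul_succ, Finset.prod_range_add, ih, Finset.prod_congr rfl fun i _ => e i,
      ← Finset.prod_mul_distrib]
    exact Finset.prod_congr rfl fun i _ => by rw [← map_mul, ← Finset.prod_range_succ]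

theorem gamma_pow_fix {γ : Kb ≃ₐ[K] Kb} {m : ℕ} (hγ : γ • X.pt m = (1 + X.p) • X.pt m) :
    (γ ^ X.p ^ (m - 1)) • X.pt m = X.pt m := by
  rw [X.smul_pow_pt hγ, X.nsmul_pt_of_modEq (one_add_pow_prime_pow X.odd_p m), one_nsmul]

theorem mem_of_fixed_step {γ τ : Kb ≃ₐ[K] Kb} {m : ℕ} (hm : m ≠ 0)
    (hγ : γ • X.pt (m + 1) = (1 + X.p) • X.pt (m + 1)) (hτ : τ • X.pt m = X.pt m) :
    ∃ t : ℕ, τ • X.pt (m + 1) = ((γ ^ X.p ^ (m - 1)) ^ t) • X.pt (m + 1) := by
  obtain ⟨j, hj, hτj⟩ := X.exists_mult τ (Nat.succ_ne_zero m)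
  have h1 : 1 ≤ j := Nat.one_le_iff_ne_zero.2 fun e => hj (e ▸ dvd_zero _)
  have hd : X.p ^ m ∣ j - 1 := X.nsmul_pt_sub h1 (by
    rw [← X.smul_pt_le hτj (Nat.le_succ m), hτ, one_nsmul])
  obtain ⟨t, ht⟩ := hd
  refine ⟨t, ?_⟩
  rw [← pow_mul, X.smul_pow_pt hγ, hτj]
  refine X.nsmul_pt_of_modEq ?_
  obtain ⟨m, rfl⟩ := Nat.exists_eq_succ_of_ne_zero hm
  rw [Nat.succ_sub_one, show j = 1 + t * X.p ^ (m + 1) by
    rw [mul_comm t, ← ht]; omega]
  exact (one_add_pow_pow_mul X.odd_p m t).symm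

/-- **The norm to the first layer keeps the units of level one and of exact level one.** -/
theorem normTo_spec {γ : Kb ≃ₐ[K] Kb} : ∀ m : ℕ, m ≠ 0 →
    γ • X.pt m = (1 + X.p) • X.pt m → ∀ x, X.IsU m 1 x →
      X.IsU 1 1 (normTo γ (X.p ^ (m - 1)) x) ∧
        (vv (normTo γ (X.p ^ (m - 1)) x - 1) < X.ρ 1 ↔ vv (x - 1) < X.ρ m) := fun m hm => by
  obtain ⟨m, rfl⟩ := Nat.exists_eq_succ_of_ne_zero hm
  clear hm
  induction m with
  | zero =>
    intro _ x hx
    simp only [normTo, Nat.succ_sub_one, pow_zero, Finset.prod_range_one, AlgEquiv.one_apply]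
    exact ⟨hx, trivial⟩
  | succ m ih =>
    intro hγ x hx
    set σ := γ ^ X.p ^ m
    have hγm := X.smul_pt_le hγ (Nat.le_succ (m + 1))
    have hσ : σ • X.pt (m + 1) = X.pt (m + 1) := X.gamma_pow_fix hγm
    have hσp : (σ ^ X.p) x = x := by
      rw [← pow_mul, ← pow_succ]
      have h := X.apply_eq_of_pt (σ := γ ^ X.p ^ (m + 1)) (τ := 1) (by
        rw [one_smul]; exact X.gamma_pow_fix hγ) hx.1
      rw [AlgEquiv.one_apply] at h
      exact h
    set S := normTo σ X.p x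
    have hSmem' : S ∈ X.fld (m + 2) := prod_mem fun k _ => X.apply_mem_fld _ hx.1
    have hSmem : S ∈ X.fld (m + 1) := X.mem_fld_of_fixed fun τ hτ => by
      obtain ⟨t, ht⟩ := X.mem_of_fixed_step (Nat.succ_ne_zero m) hγ (X.smul_pt_of_fix hτ)
      rw [Nat.succ_sub_one] at ht
      rw [X.apply_eq_of_pt ht hSmem']
      clear ht
      induction t with
      | zero => rfl
      | succ t iht => rw [pow_succ, AlgEquiv.mul_apply, apply_prod_range hσp, iht]
    have hstep : vv (S - 1 - (x - 1) ^ X.p) ≤ X.ρ (m + 2) ^ (X.p + 1) :=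
      X.norm_step (Nat.succ_ne_zero m) hσ hx
    have hpow : X.ρ (m + 2) ^ X.p = X.ρ (m + 1) := X.ρ_succ (Nat.succ_ne_zero m)
    have hsmall : vv (S - 1 - (x - 1) ^ X.p) < X.ρ (m + 1) := by
      refine hstep.trans_lt ?_
      rw [← hpow]
      exact pow_lt_pow_right_of_lt_one₀ (X.ρ_pos (Nat.succ_ne_zero _)) (X.ρ_lt_one _)
        (Nat.lt_succ_self _)
    have hyp : vv ((x - 1) ^ X.p) ≤ X.ρ (m + 1) := by
      rw [map_pow, ← hpow]
      exact pow_le_pow_left₀ zero_le (by simpa using hx.2) _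
    have hS : X.IsU (m + 1) 1 S := ⟨hSmem, by
      rw [pow_one, ← sub_add_cancel (S - 1) ((x - 1) ^ X.p)]
      exact Valuation.map_add_le _ hsmall.le hyp⟩
    have hiff : vv (S - 1) < X.ρ (m + 1) ↔ vv (x - 1) < X.ρ (m + 2) := by
      rw [← sub_add_cancel (S - 1) ((x - 1) ^ X.p)]
      constructor
      · intro h
        have h' := (X.P.R.valuation).map_sub_lt h hsmall
        rw [add_sub_cancel_left, map_pow, ← hpow] at h'
        exact lt_of_pow_lt_pow_left₀ _ zero_le h'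
      · intro h
        refine (X.P.R.valuation).map_add_lt hsmall ?_
        rw [map_pow, ← hpow]
        exact pow_lt_pow_left₀ h zero_le X.prime.ne_zero
    obtain ⟨h1, h2⟩ := ih hγm S hS
    rw [Nat.succ_sub_one] at h1 h2
    rw [Nat.succ_sub_one, pow_succ, normTo_mul]
    exact ⟨h1, h2.trans hiff⟩

/-- The norm of a unit of level two. -/
theorem normTo_two {γ : Kb ≃ₐ[K] Kb} {n : ℕ} (hn : n ≠ 0)
    (hγ : γ • X.pt n = (1 + X.p) • X.pt n) {x : Kb} (hx : X.IsU n 2 x) :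
    X.IsU 1 2 (normTo γ (X.p ^ (n - 1)) x) := by
  obtain ⟨h1, h2⟩ := X.normTo_spec n hn hγ x (hx.mono one_le_two)
  refine ⟨h1.1, X.le_succ_of_lt one_ne_zero (sub_mem h1.1 (one_mem _)) ?_⟩
  rw [pow_one]
  exact h2.2 (hx.2.trans_lt (pow_lt_self_of_lt_one₀ (X.ρ_pos hn) (X.ρ_lt_one n) one_lt_two))

/-! ### The first layer -/

theorem val_one_add_natCast_mul {m : ℕ} (hm : m ≠ 0) {u y : Kb} (hu : X.IsU m 1 u)
    (hu' : ¬ vv (u - 1) < X.ρ m) (hy : X.IsU m 1 y) :
    ∃ c : ℕ, X.IsU m 2 (y / u ^ c) := by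
  have hul : vv (u - 1) = X.ρ m := le_antisymm (by simpa using hu.2) (not_lt.1 hu')
  have hu0 : u - 1 ≠ 0 := (X.P.R.valuation).ne_zero_iff.1 (hul ▸ (X.ρ_pos hm).ne')
  have hw : vv ((y - 1) / (u - 1)) ≤ X.ρ m ^ 0 := by
    rw [pow_zero, map_div₀, hul]
    exact (div_le_one₀ (X.ρ_pos hm)).2 (by simpa using hy.2)
  obtain ⟨c, hc⟩ := X.exists_natCast_mul hm
    (div_mem (sub_mem hy.1 (one_mem _)) (sub_mem hu.1 (one_mem _))) hw
  rw [pow_zero, mul_one, zero_add, pow_one] at hc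
  refine ⟨c, div_mem hy.1 (pow_mem hu.1 c), ?_⟩
  have huc := hu.pow c
  rw [div_sub_one (huc.ne_zero one_ne_zero), map_div₀, huc.val_eq one_ne_zero, div_one]
  have h2 := val_one_add_pow vv (b := u - 1) (hul.trans_le (X.ρ_lt_one m).le) c
  rw [add_sub_cancel] at h2
  rw [show y - u ^ c = ((y - 1) / (u - 1) - c) * (u - 1) - (u ^ c - 1 - c * (u - 1)) by
    field_simp; ring]
  refine Valuation.map_sub_le _ ?_ (h2.trans_eq (by rw [hul]))
  rw [map_mul, hul, sq]
  exact mul_le_mul' hc le_rfl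

/-- The projection. -/
def proj (δ : Kb ≃ₐ[K] Kb) (g : ℕ) (x : Kb) : Kb :=
  ∏ j ∈ Finset.range (X.p - 1), (δ ^ j) x ^ (g ^ (j * (X.p - 2)))

variable {X} in
theorem IsU.proj {m i : ℕ} (hm : m ≠ 0) {x : Kb} (hx : X.IsU m i x) (δ : Kb ≃ₐ[K] Kb) (g : ℕ) :
    X.IsU m i (X.proj δ g x) :=
  IsU.prod _ fun j _ => (hx.apply hm _).pow _

theorem proj_mul (δ : Kb ≃ₐ[K] Kb) (g : ℕ) (x y : Kb) :
    X.proj δ g (x * y) = X.proj δ g x * X.proj δ g y := by
  simp only [proj, map_mul, mul_pow, Finset.prod_mul_distrib]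

theorem proj_pow (δ : Kb ≃ₐ[K] Kb) (g : ℕ) (x : Kb) (k : ℕ) :
    X.proj δ g (x ^ k) = X.proj δ g x ^ k := by
  simp only [proj, map_pow, ← Finset.prod_pow, ← pow_mul, mul_comm k]

theorem proj_normTo {γ δ : Kb ≃ₐ[K] Kb} {g n : ℕ} (hγ : γ • X.pt n = (1 + X.p) • X.pt n)
    (hδ : δ • X.pt n = g • X.pt n) (N : ℕ) {x : Kb} (hx : x ∈ X.fld n) :
    X.proj δ g (normTo γ N x) = normTo γ N (X.proj δ g x) := by
  simp only [proj, normTo, map_prod, map_pow, ← Finset.prod_pow]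
  rw [Finset.prod_comm]
  refine Finset.prod_congr rfl fun i _ => Finset.prod_congr rfl fun j _ => ?_
  congr 1
  rw [← AlgEquiv.mul_apply, ← AlgEquiv.mul_apply]
  refine X.apply_eq_of_pt ?_ hx
  rw [mul_smul, mul_smul, X.smul_pow_pt hγ, X.smul_pow_pt hδ, smul_nsmul', smul_nsmul',
    X.smul_pow_pt hγ, X.smul_pow_pt hδ, ← mul_nsmul', ← mul_nsmul', mul_comm]

theorem sum_pow_dvd {g k : ℕ} (hg : orderOf (g : ZMod X.p) = X.p - 1) (hk : ¬ (X.p - 1) ∣ k) :
    X.p ∣ ∑ j ∈ Finset.range (X.p - 1), g ^ (k * j) := by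
  haveI := Fact.mk X.prime
  rw [← ZMod.natCast_eq_zero_iff]
  push_cast
  simp only [pow_mul]
  have hr : (g : ZMod X.p) ^ k ≠ 1 := fun e => hk (hg ▸ orderOf_dvd_of_pow_eq_one e)
  rw [geom_sum_eq hr, ← pow_mul, mul_comm, pow_mul]
  conv_lhs => enter [1, 1, 1]; rw [← hg, pow_orderOf_eq_one]
  simp

theorem proj_step {δ : Kb ≃ₐ[K] Kb} {g : ℕ} (hδ : δ • X.pt 1 = g • X.pt 1)
    (hg : orderOf (g : ZMod X.p) = X.p - 1) {i : ℕ} (hi : 2 ≤ i) (hip : i < X.p) {y : Kb}
    (hy : X.IsU 1 i y) : X.IsU 1 (i + 1) (X.proj δ g y) := by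
  refine ⟨(hy.proj one_ne_zero δ g).1, ?_⟩
  set r := X.ρ 1
  have hr1 := (X.ρ_lt_one 1).le
  have hrpow : r ^ (2 * i) ≤ r ^ (i + 1) := pow_le_pow_of_le_one zero_le hr1 (by omega)
  obtain ⟨k, hk⟩ := X.exists_natCast_mul one_ne_zero (sub_mem hy.1 (one_mem _)) hy.2
  set a := fun j : ℕ => g ^ (j * (X.p - 2))
  have hterm : ∀ j, vv ((δ ^ j) y ^ a j - 1 -
      ((a j * g ^ (j * i) * k : ℕ) : Kb) * X.z 1 ^ i) ≤ r ^ (i + 1) := fun j => by
    set b := (δ ^ j) y - 1
    have hbU := hy.apply one_ne_zero (δ ^ j)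
    have hb1 : vv b ≤ 1 := hbU.2.trans (pow_le_one₀ zero_le hr1)
    have h2 := val_one_add_pow vv hb1 (a j)
    rw [show (1 : Kb) + b = (δ ^ j) y by simp [b]] at h2
    set w := (δ ^ j) (X.z 1) with hw
    have hwv : vv w = r := X.val_apply _ one_ne_zero (X.z_mem 1)
    have hwz : vv (w - ((g ^ j : ℕ) : Kb) * X.z 1) ≤ r ^ 2 :=
      X.val_apply_z_sub (X.smul_pow_pt hδ j)
    have hwi := val_pow_sub X (hwv.le) (X.P.val_mul_le (natCast_le_one _) le_rfl) hwz i (by omega)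
    have hb : vv (b - ((g ^ (j * i) * k : ℕ) : Kb) * X.z 1 ^ i) ≤ r ^ (i + 1) := by
      rw [show b - ((g ^ (j * i) * k : ℕ) : Kb) * X.z 1 ^ i =
        (δ ^ j) (y - 1 - (k : Kb) * X.z 1 ^ i) + (k : Kb) * (w ^ i -
          (((g ^ j : ℕ) : Kb) * X.z 1) ^ i) by
        simp only [b, hw, map_sub, map_one, map_mul, map_natCast, map_pow]
        push_cast
        ring]
      refine Valuation.map_add_le _ ?_ (X.P.val_mul_le (natCast_le_one k) (hwi.trans ?_))
      · rw [X.val_apply _ one_ne_zero (sub_mem (sub_mem hy.1 (one_mem _))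
          (mul_mem (natCast_mem _ k) (pow_mem (X.z_mem 1) i)))]
        exact hk
      · rw [← pow_add]; exact pow_le_pow_of_le_one zero_le hr1 (by omega)
    rw [show (δ ^ j) y ^ a j - 1 - ((a j * g ^ (j * i) * k : ℕ) : Kb) * X.z 1 ^ i =
      ((δ ^ j) y ^ a j - 1 - (a j : Kb) * b) +
        (a j : Kb) * (b - ((g ^ (j * i) * k : ℕ) : Kb) * X.z 1 ^ i) by push_cast; ring]
    refine Valuation.map_add_le _ (h2.trans ?_) (X.P.val_mul_le (natCast_le_one _) hb)
    refine le_trans (pow_le_pow_left₀ zero_le hbU.2 2) ?_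
    rw [← pow_mul, mul_comm i 2]
    exact hrpow
  have hdvd : X.p ∣ ∑ j ∈ Finset.range (X.p - 1), a j * g ^ (j * i) * k := by
    rw [← Finset.sum_mul]
    refine dvd_mul_of_dvd_left ?_ k
    rw [Finset.sum_congr rfl fun j _ => show a j * g ^ (j * i) = g ^ ((X.p - 2 + i) * j) by
      simp only [a]; rw [← pow_add]; ring_nf]
    refine X.sum_pow_dvd hg fun hd => ?_
    rw [show X.p - 2 + i = (X.p - 1) + (i - 1) by omega, Nat.dvd_add_right dvd_rfl] at hd
    exact absurd (Nat.le_of_dvd (by omega) hd) (by omega)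
  have hp := val_prod_one_add vv (Finset.range (X.p - 1)) (b := fun j => (δ ^ j) y ^ a j - 1)
    (r := r ^ i) (pow_le_one₀ zero_le hr1)
    (fun j _ => ((hy.apply one_ne_zero (δ ^ j)).pow (a j)).2)
  simp only [add_sub_cancel] at hp
  change vv (X.proj δ g y - 1 - _) ≤ _ at hp
  rw [← sub_add_cancel (X.proj δ g y - 1)
    (∑ j ∈ Finset.range (X.p - 1), ((δ ^ j) y ^ a j - 1))]
  refine Valuation.map_add_le _ (hp.trans ?_) ?_
  · rw [← pow_mul, mul_comm i 2]; exact hrpow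
  rw [← sub_add_cancel (∑ j ∈ Finset.range (X.p - 1), ((δ ^ j) y ^ a j - 1))
    (((∑ j ∈ Finset.range (X.p - 1), a j * g ^ (j * i) * k : ℕ) : Kb) * X.z 1 ^ i)]
  refine Valuation.map_add_le _ ?_ ?_
  · rw [Nat.cast_sum, Finset.sum_mul, ← Finset.sum_sub_distrib]
    exact Valuation.map_sum_le _ fun j _ => hterm j
  · rw [map_mul, map_pow, pow_succ' r]
    refine mul_le_mul' ((X.val_natCast_le hdvd).trans ?_) le_rfl
    rw [← X.ρ_one_pow]
    exact pow_le_of_le_one zero_le hr1 (by have := X.five_le; omega)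

theorem proj_iterate {δ : Kb ≃ₐ[K] Kb} {g : ℕ} (hδ : δ • X.pt 1 = g • X.pt 1)
    (hg : orderOf (g : ZMod X.p) = X.p - 1) {y : Kb} (hy : X.IsU 1 2 y) :
    X.IsU 1 X.p ((X.proj δ g)^[X.p - 2] y) := by
  have h : ∀ k, k ≤ X.p - 2 → X.IsU 1 (2 + k) ((X.proj δ g)^[k] y) := fun k hk => by
    induction k with
    | zero => exact hy
    | succ k ih =>
      rw [Function.iterate_succ_apply']
      exact X.proj_step hδ hg (i := 2 + k) (by omega) (by omega) (ih (by omega))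
  have := h (X.p - 2) le_rfl
  rwa [show 2 + (X.p - 2) = X.p by have := X.five_le; omega] at this

/-- **Units of level `p` of the first layer are `p`-th powers up to any level.** -/
theorem exists_pow_approx {y : Kb} (hy : X.IsU 1 X.p y) :
    ∀ N : ℕ, ∃ a : Kb, X.IsU 1 1 a ∧ X.IsU 1 (X.p + N) (y / a ^ X.p) := fun N => by
  induction N with
  | zero => exact ⟨1, IsU.one 1 1, by simpa using hy⟩
  | succ N ih =>
    obtain ⟨a, ha, hya⟩ := ih
    set r := X.ρ 1
    have hr1 := (X.ρ_lt_one 1).le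
    set x := y / a ^ X.p
    have hp5 := X.five_le
    set i' := N + 1 with hi'
    set z := X.z 1
    have hz0 : z ≠ 0 := X.z_ne_zero one_ne_zero
    set c₀ := (X.p : Kb) / z ^ (X.p - 1) with hc₀
    have hc : vv c₀ ≤ 1 ∧ vv (1 + c₀) = 1 ∧ vv c₀ = 1 := by
      have hpe : ((X.p : ℕ) : Kb) = algebraMap K Kb (X.π : K) * algebraMap K Kb (Q.conj X.π : K) := by
        simpa using (congrArg (fun t : 𝓞 K => algebraMap K Kb (t : K)) X.h.mul_conj).symm
      set q := algebraMap K Kb (Q.conj X.π : K)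
      set pb := algebraMap K Kb (X.π : K)
      have hq : vv q = 1 := X.P.coe_eq_one X.h.conj_notMem
      have hc1 : vv c₀ = 1 := by
        rw [hc₀, hpe, map_div₀, map_mul, hq, mul_one, map_pow, X.ρ_one_pow,
          div_self X.vπ_pos.ne']
      refine ⟨hc1.le, eq_one_of_not_lt (Valuation.map_add_le _ (map_one _).le hc1.le) fun hlt => ?_,
        hc1⟩
      have hs := X.h.sq_zc_piPt_one X.P rfl
      change vv ((z ^ (X.p - 1) / pb) ^ 2 - 1) < 1 at hs
      have hpb : pb ≠ 0 := (_root_.map_ne_zero _).2 X.h.coe_ne_zero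
      have hq2 : vv (q ^ 2 - 1) < 1 := by
        rw [show q ^ 2 - 1 = (1 + c₀) * ((c₀ - 1) * (z ^ (X.p - 1) / pb) ^ 2) +
          ((z ^ (X.p - 1) / pb) ^ 2 - 1) by rw [hc₀, hpe]; field_simp; ring]
        refine (X.P.R.valuation).map_add_lt (map_mul_lt_one' hlt ?_) hs
        refine map_mul_le_one (Valuation.map_sub_le _ hc1.le (map_one _).le) ?_
        rw [map_pow, map_div₀, map_pow, X.ρ_one_pow, div_self X.vπ_pos.ne', one_pow]
      have hu := X.P.coe_eq_one X.conj_sq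
      rw [show algebraMap K Kb ((Q.conj X.π ^ 2 - 1 : 𝓞 K) : K) = q ^ 2 - 1 by simp [q]] at hu
      exact hq2.ne hu
    obtain ⟨hc1, hc2, hc3⟩ := hc
    have hzmem : z ∈ X.fld 1 := X.z_mem 1
    have hc₀mem : c₀ ∈ X.fld 1 := div_mem (natCast_mem _ _) (pow_mem hzmem _)
    have hxU : vv (x - 1) ≤ r ^ (X.p + N) := hya.2
    obtain ⟨k, hk⟩ := X.exists_natCast_mul one_ne_zero (sub_mem hya.1 (one_mem _)) hxU
    set den := if N = 0 then 1 + c₀ else c₀ with hden
    have hdv : vv den = 1 := by rw [hden]; split_ifs <;> assumption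
    have hd0 : den ≠ 0 := (X.P.R.valuation).ne_zero_iff.1 (by rw [hdv]; exact one_ne_zero)
    have hdm : den ∈ X.fld 1 := by
      rw [hden]; split_ifs
      exacts [add_mem (one_mem _) hc₀mem, hc₀mem]
    obtain ⟨j, hj⟩ := X.exists_natCast_mul one_ne_zero (x := (k : Kb) / den) (i := 0)
      (div_mem (natCast_mem _ k) hdm)
      (by rw [pow_zero, map_div₀, hdv, div_one]; exact natCast_le_one k)
    rw [pow_zero, mul_one, zero_add, pow_one] at hj
    set b := (j : Kb) * z ^ i'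
    have hb : vv b ≤ r ^ i' := X.P.val_mul_le (natCast_le_one j) (map_pow vv z i').le
    have hbU : X.IsU 1 1 (1 + b) := ⟨add_mem (one_mem _) (mul_mem (natCast_mem _ j)
      (pow_mem hzmem _)), by
        rw [add_sub_cancel_left]; exact hb.trans (pow_le_pow_of_le_one zero_le hr1 (by omega))⟩
    refine ⟨a * (1 + b), ha.mul hbU, div_mem hy.1 (pow_mem (mul_mem ha.1 hbU.1) _), ?_⟩
    rw [show y / (a * (1 + b)) ^ X.p = x / (1 + b) ^ X.p by rw [mul_pow, ← div_div],
      div_sub_one (pow_ne_zero _ (hbU.ne_zero one_ne_zero)), map_div₀, map_pow,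
      hbU.val_eq one_ne_zero, one_pow, div_one]
    set L := X.p + (N + 1)
    have hpz : (X.p : Kb) * b = c₀ * (j : Kb) * z ^ (X.p + N) := by
      rw [hc₀, show X.p + N = (X.p - 1) + i' by omega, pow_add]
      field_simp
      simp only [b]
      ring
    have hbin : vv ((1 + b) ^ X.p - 1 - b ^ X.p - (X.p : Kb) * b) ≤ r ^ L := by
      refine (val_one_add_pow_prime vv X.prime (hb.trans (pow_le_one₀ zero_le hr1))).trans ?_
      refine (mul_le_mul' ((X.val_natCast_le dvd_rfl).trans_eq X.ρ_one_pow.symm)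
        (pow_le_pow_left₀ zero_le hb 2)).trans ?_
      rw [← pow_mul, ← pow_add]
      exact pow_le_pow_of_le_one zero_le hr1 (by omega)
    have hmain : vv ((k : Kb) * z ^ (X.p + N) - b ^ X.p - (X.p : Kb) * b) ≤ r ^ L := by
      rw [hpz]
      have hzp : vv (z ^ (X.p + N)) = r ^ (X.p + N) := map_pow _ _ _
      have hjd : vv ((k : Kb) - j * den) ≤ r := by
        rw [show (k : Kb) - j * den = ((k : Kb) / den - j) * den by field_simp, map_mul, hdv, mul_one]
        exact hj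
      by_cases hN : N = 0
      · subst hN
        have hjp : vv (((j ^ X.p : ℕ) : Kb) - (j : Kb)) ≤ r := by
          haveI := Fact.mk X.prime
          have hle : j ≤ j ^ X.p := Nat.le_self_pow X.prime.ne_zero j
          rw [← Nat.cast_sub hle]
          refine (X.val_natCast_le ((ZMod.natCast_eq_zero_iff _ _).1 (by
            rw [Nat.cast_sub hle, Nat.cast_pow, ZMod.pow_card, sub_self]))).trans ?_
          rw [← X.ρ_one_pow]
          exact pow_le_of_le_one zero_le hr1 (by omega)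
        rw [hden, if_pos rfl] at hjd
        rw [show (k : Kb) * z ^ (X.p + 0) - b ^ X.p - c₀ * (j : Kb) * z ^ (X.p + 0) =
          (((k : Kb) - j * (1 + c₀)) - (((j ^ X.p : ℕ) : Kb) - j)) * z ^ X.p by
            simp only [b, hi', zero_add, pow_one, add_zero]; push_cast; ring, map_mul, map_pow,
          show L = X.p + 1 from rfl, pow_succ']
        exact mul_le_mul' (Valuation.map_sub_le _ hjd hjp) le_rfl
      · rw [hden, if_neg hN] at hjd
        rw [show (k : Kb) * z ^ (X.p + N) - b ^ X.p - c₀ * (j : Kb) * z ^ (X.p + N) =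
          ((k : Kb) - j * c₀) * z ^ (X.p + N) - b ^ X.p by ring]
        refine Valuation.map_sub_le _ ?_ ?_
        · rw [map_mul, hzp, show L = X.p + N + 1 from rfl, pow_succ']
          exact mul_le_mul' hjd le_rfl
        · rw [map_pow]
          refine (pow_le_pow_left₀ zero_le hb _).trans ?_
          rw [← pow_mul]
          refine pow_le_pow_of_le_one zero_le hr1 ?_
          simp only [L, i']
          have : N * 2 ≤ N * X.p := Nat.mul_le_mul_left N (by omega)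
          rw [add_mul, one_mul]
          omega
    rw [show x - (1 + b) ^ X.p = (x - 1 - (k : Kb) * z ^ (X.p + N)) +
      ((k : Kb) * z ^ (X.p + N) - b ^ X.p - (X.p : Kb) * b) -
      ((1 + b) ^ X.p - 1 - b ^ X.p - (X.p : Kb) * b) by ring]
    exact Valuation.map_sub_le _ (Valuation.map_add_le _ hk hmain) hbin

theorem mul_iterate_proj (δ : Kb ≃ₐ[K] Kb) (g k : ℕ) (x y : Kb) :
    (X.proj δ g)^[k] (x * y) = (X.proj δ g)^[k] x * (X.proj δ g)^[k] y := by
  induction k generalizing x y with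
  | zero => rfl
  | succ k ih => simp only [Function.iterate_succ_apply, X.proj_mul, ih]

theorem pow_iterate_proj (δ : Kb ≃ₐ[K] Kb) (g k : ℕ) (x : Kb) (e : ℕ) :
    (X.proj δ g)^[k] (x ^ e) = (X.proj δ g)^[k] x ^ e := by
  induction k generalizing x with
  | zero => rfl
  | succ k ih => simp only [Function.iterate_succ_apply, X.proj_pow, ih]

variable {X} in
theorem IsU.iterate_proj {m i : ℕ} (hm : m ≠ 0) {x : Kb} (hx : X.IsU m i x) (δ : Kb ≃ₐ[K] Kb)
    (g k : ℕ) : X.IsU m i ((X.proj δ g)^[k] x) := by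
  induction k generalizing x with
  | zero => exact hx
  | succ k ih => rw [Function.iterate_succ_apply]; exact ih (hx.proj hm δ g)

theorem normTo_mul_distrib (γ : Kb ≃ₐ[K] Kb) (N : ℕ) (x y : Kb) :
    normTo γ N (x * y) = normTo γ N x * normTo γ N y := by
  simp only [normTo, map_mul, Finset.prod_mul_distrib]

theorem normTo_pow (γ : Kb ≃ₐ[K] Kb) (N : ℕ) (x : Kb) (k : ℕ) :
    normTo γ N (x ^ k) = normTo γ N x ^ k := by
  simp only [normTo, map_pow, Finset.prod_pow]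

theorem iterate_proj_normTo {γ δ : Kb ≃ₐ[K] Kb} {g n : ℕ} (hn : n ≠ 0)
    (hγ : γ • X.pt n = (1 + X.p) • X.pt n)
    (hδ : δ • X.pt n = g • X.pt n) (k N : ℕ) {x : Kb} (hx : X.IsU n 1 x) :
    (X.proj δ g)^[k] (normTo γ N x) = normTo γ N ((X.proj δ g)^[k] x) := by
  induction k generalizing x with
  | zero => rfl
  | succ k ih =>
    rw [Function.iterate_succ_apply, Function.iterate_succ_apply, X.proj_normTo hγ hδ N hx.1,
      ih (hx.proj hn δ g)]

/-- **A projected norm of level two is a `p`-th power of a norm up to `p`-powers and any level.** -/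
theorem exists_norm_pow {γ δ : Kb ≃ₐ[K] Kb} {g n : ℕ} (hn : n ≠ 0)
    (hγ : γ • X.pt n = (1 + X.p) • X.pt n) (hδ : δ • X.pt n = g • X.pt n)
    (hg : orderOf (g : ZMod X.p) = X.p - 1) (B : ℕ) : ∀ m : ℕ, ∀ y : Kb, X.IsU 1 2 y →
    ∃ w a ε : Kb, X.IsU n 1 w ∧ X.IsU 1 1 a ∧ X.IsU 1 (B + 1) ε ∧
      (X.proj δ g)^[(X.p - 2) * (m + 1)] y =
        normTo γ (X.p ^ (n - 1)) w ^ X.p * a ^ X.p ^ (m + 1) * ε := fun m y hy => by
  have hδ1 : δ • X.pt 1 = g • X.pt 1 := X.smul_pt_le hδ (Nat.one_le_iff_ne_zero.2 hn)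
  set N := X.p ^ (n - 1)
  set T := (X.proj δ g)^[X.p - 2]
  have hbase : ∀ y, X.IsU 1 2 y → ∃ a ε, X.IsU 1 1 a ∧ X.IsU 1 (B + 1) ε ∧ T y = a ^ X.p * ε :=
      fun y hy => by
    obtain ⟨a, ha, h'⟩ := X.exists_pow_approx (X.proj_iterate hδ1 hg hy) (B + 1)
    exact ⟨a, _, ha, h'.mono (by omega),
      (mul_div_cancel₀ _ (pow_ne_zero _ (ha.ne_zero one_ne_zero))).symm⟩
  have hN1 : normTo γ N 1 = 1 := by simp [normTo]
  induction m with
  | zero =>
    obtain ⟨a, ε, ha, hε, e⟩ := hbase y hy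
    refine ⟨1, a, ε, IsU.one n 1, ha, hε, ?_⟩
    rw [zero_add, mul_one, pow_one, hN1, one_pow, one_mul]
    exact e
  | succ m ih =>
    obtain ⟨w, a, ε, hw, ha, hε, e⟩ := ih
    set ξ := 1 + X.z n
    have hξ : X.IsU n 1 ξ := ⟨add_mem (one_mem _) (X.z_mem n), by simp [ξ]⟩
    obtain ⟨hNξ, hiff⟩ := X.normTo_spec n hn hγ ξ hξ
    obtain ⟨c, hc⟩ := X.val_one_add_natCast_mul one_ne_zero hNξ
      (fun h => (hiff.1 h).ne (by simp [ξ])) ha
    obtain ⟨a', ε', ha', hε', e'⟩ := hbase _ hc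
    have hT1 : ∀ {m i : ℕ} {x : Kb}, m ≠ 0 → X.IsU m i x → X.IsU m i (T x) := fun hm hx =>
      hx.iterate_proj hm δ g _
    refine ⟨T w * (T ξ ^ c) ^ X.p ^ m, a', ε' ^ X.p ^ (m + 1) * T ε,
      (hT1 hn hw).mul (((hT1 hn hξ).pow c).pow _), ha',
      (hε'.pow _).mul (hT1 one_ne_zero hε), ?_⟩
    rw [Nat.mul_succ, add_comm, Function.iterate_add_apply, e]
    show T (normTo γ N w ^ X.p * a ^ X.p ^ (m + 1) * ε) = _
    have hTa : T a = normTo γ N (T ξ) ^ c * (a' ^ X.p * ε') := by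
      rw [← e', ← X.iterate_proj_normTo hn hγ hδ _ N hξ, ← X.pow_iterate_proj,
        ← X.mul_iterate_proj, mul_div_cancel₀ _ ((hNξ.pow c).ne_zero one_ne_zero)]
    simp only [T] at hTa ⊢
    rw [X.mul_iterate_proj, X.mul_iterate_proj, X.pow_iterate_proj, X.pow_iterate_proj,
      X.iterate_proj_normTo hn hγ hδ _ N hw, hTa, normTo_mul_distrib, normTo_pow, normTo_pow,
      mul_pow, mul_pow, mul_pow, ← pow_mul (normTo γ N _) c, pow_succ X.p, ← pow_mul a',
      ← pow_mul (normTo γ N _ ^ c), ← pow_mul (normTo γ N _) c]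
    ring

/-! ### Norms close to one -/

/-- **An element of norm close to one is close to a quotient `z / γ z`.** -/
theorem exists_approx_hilbert90 {γ : Kb ≃ₐ[K] Kb} {n : ℕ} (hn : n ≠ 0)
    (hγ : γ • X.pt n = (1 + X.p) • X.pt n) :
    ∃ Dlt : ℕ, ∀ (B : ℕ) (W : Kb), W ∈ X.fld n → vv W = 1 →
      vv (normTo γ (X.p ^ (n - 1)) W - 1) ≤ X.ρ n ^ (B + Dlt) →
      ∃ zz ∈ X.fld n, zz ≠ 0 ∧ X.IsU n B (W * γ zz / zz) := by
  set q := X.p ^ (n - 1)
  have hq : 0 < q := pow_pos X.prime.pos _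
  set z := X.z n with hz
  have hzR : ∀ i, (γ ^ i) z ∈ X.P.R := fun i => (X.P.R.valuation_le_one_iff _).1
    ((X.val_apply _ hn (X.z_mem n)).trans_le (X.ρ_lt_one n).le)
  set M : Matrix (Fin q) (Fin q) X.P.R :=
    Matrix.vandermonde fun i : Fin q => (⟨(γ ^ (i : ℕ)) z, hzR i⟩ : X.P.R) with hM
  have hinj : Function.Injective fun i : Fin q => (⟨(γ ^ (i : ℕ)) z, hzR i⟩ : X.P.R) := by
    have key : ∀ i j : ℕ, j < q → i ≤ j → (γ ^ i) z = (γ ^ j) z → i = j := fun i j hj hij e => by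
      have hfix : (γ ^ (j - i)) z = z := by
        apply (γ ^ i).injective
        rw [← AlgEquiv.mul_apply, ← pow_add, Nat.add_sub_cancel' hij, e]
      have h := X.smul_pt_of_fix hfix
      rw [X.smul_pow_pt hγ] at h
      have h1 := X.nsmul_pt_sub (Nat.one_le_iff_ne_zero.2 (pow_ne_zero _ (by omega)))
        (h.trans (one_nsmul _).symm)
      have := eq_zero_of_one_add_pow X.prime X.odd_p (d := j - i) (n := n) (by omega)
        ((Nat.modEq_iff_dvd' (Nat.one_le_iff_ne_zero.2 (pow_ne_zero _ (by omega)))).2 h1).symm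
      omega
    intro i j e
    have e' : (γ ^ (i : ℕ)) z = (γ ^ (j : ℕ)) z := congrArg Subtype.val e
    rcases le_total (i : ℕ) j with h | h
    · exact Fin.ext (key i j j.2 h e')
    · exact Fin.ext (key j i i.2 h e'.symm).symm
  have hdet : ((M.det : X.P.R) : Kb) ≠ 0 := fun e =>
    Matrix.det_vandermonde_ne_zero_iff.2 hinj (Subtype.ext e)
  obtain ⟨Dlt, hDlt⟩ : ∃ Dlt : ℕ, X.ρ n ^ Dlt ≤ vv (M.det : Kb) := by
    have hmem : (M.det : Kb) ∈ X.fld n := by
      have e := RingHom.map_det X.P.R.subtype M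
      change (M.det : Kb) = _ at e
      rw [e, Matrix.det_apply]
      refine sum_mem fun σ _ => ?_
      rw [Units.smul_def]
      exact zsmul_mem (prod_mem fun i _ => show ((γ ^ ((σ i : Fin q) : ℕ)) z) ^ (i : ℕ) ∈ X.fld n from
        pow_mem (X.apply_mem_fld _ (X.z_mem n)) _) _
    obtain ⟨k, hk⟩ := X.exists_val_eq hn hmem hdet
    refine ⟨k.toNat, ?_⟩
    rw [hk, ← zpow_natCast]
    exact zpow_le_zpow_right_of_le_one₀ (X.ρ_pos hn) (X.ρ_lt_one n).le (Int.self_le_toNat k)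
  refine ⟨Dlt, fun B W hW hW1 hN => ?_⟩
  -- the resolvent
  set Pi : ℕ → Kb := fun i => normTo γ i W
  have hPimem : ∀ i, Pi i ∈ X.fld n := fun i => prod_mem fun l _ => X.apply_mem_fld _ hW
  have hPiR : ∀ i, Pi i ∈ X.P.R := fun i => prod_mem fun l _ =>
    (X.P.R.valuation_le_one_iff _).1 ((X.val_apply _ hn hW).trans hW1).le
  set res : Fin q → X.P.R := fun j => ∑ i : Fin q, ⟨Pi i, hPiR i⟩ * M i j
  have hcramer : ∑ j : Fin q, res j * M.adjugate j ⟨0, hq⟩ = M.det := by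
    simp only [res, Finset.sum_mul, mul_assoc]
    rw [Finset.sum_comm]
    simp only [← Finset.mul_sum, ← Matrix.mul_apply, Matrix.mul_adjugate, Matrix.smul_apply,
      Matrix.one_apply, smul_eq_mul, mul_ite, mul_one, mul_zero, Finset.sum_ite_eq',
      Finset.mem_univ, if_true]
    rw [show (⟨Pi ((⟨0, hq⟩ : Fin q) : ℕ), hPiR _⟩ : X.P.R) = 1 from
      Subtype.ext (by simp [Pi, normTo]), one_mul]
  obtain ⟨j, hj⟩ : ∃ j : Fin q, vv (M.det : Kb) ≤ vv (res j : Kb) := by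
    by_contra! hlt
    have h := congrArg (fun t : X.P.R => vv (t : Kb)) hcramer
    simp only [AddSubmonoidClass.coe_finsetSum, Subring.coe_mul] at h
    refine absurd h ((X.P.R.valuation).map_sum_lt ((X.P.R.valuation).ne_zero_iff.2 hdet)
      fun i _ => ?_).ne
    rw [MulMemClass.coe_mul, map_mul]
    exact lt_of_le_of_lt (mul_le_of_le_one_right'
      ((X.P.R.valuation_le_one_iff _).2 (M.adjugate i ⟨0, hq⟩).2)) (hlt i)
  set c := z ^ (j : ℕ)
  set zz := ∑ i ∈ Finset.range q, Pi i * (γ ^ i) c with hzz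
  have hres : (res j : Kb) = zz := by
    simp only [res, AddSubmonoidClass.coe_finsetSum, Subring.coe_mul, hzz, c, map_pow]
    rw [← Fin.sum_univ_eq_sum_range fun i => Pi i * ((γ ^ i) z) ^ (j : ℕ)]
    exact Finset.sum_congr rfl fun i _ => by simp [hM, Matrix.vandermonde_apply]
  rw [hres] at hj
  have hzzv : X.ρ n ^ Dlt ≤ vv zz := hDlt.trans hj
  have hzz0 : zz ≠ 0 := fun e => by
    rw [e, map_zero, nonpos_iff_eq_zero] at hzzv
    exact pow_ne_zero _ (X.ρ_pos hn).ne' hzzv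
  have hzzmem : zz ∈ X.fld n := sum_mem fun i _ =>
    mul_mem (hPimem i) (X.apply_mem_fld _ (pow_mem (X.z_mem n) _))
  refine ⟨zz, hzzmem, hzz0, div_mem (mul_mem hW (X.apply_mem_fld γ hzzmem)) hzzmem, ?_⟩
  have hfix : (γ ^ q) c = c := by
    have h := X.apply_eq_of_pt (σ := γ ^ q) (τ := 1)
      (by rw [one_smul]; exact X.gamma_pow_fix hγ) (pow_mem (X.z_mem n) (j : ℕ))
    rw [AlgEquiv.one_apply] at h
    exact h
  have hstep : ∀ i, W * γ (Pi i) = Pi (i + 1) := fun i => by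
    simp only [Pi, normTo, map_prod]
    rw [Finset.prod_range_succ', pow_zero, AlgEquiv.one_apply, mul_comm]
    simp only [← AlgEquiv.mul_apply, ← pow_succ']
  have e : W * γ zz - zz = (normTo γ q W - 1) * c := by
    rw [hzz, map_sum, Finset.mul_sum, ← Finset.sum_sub_distrib]
    rw [Finset.sum_congr rfl fun i _ =>
      show W * γ (Pi i * (γ ^ i) c) - Pi i * (γ ^ i) c =
        Pi (i + 1) * (γ ^ (i + 1)) c - Pi i * (γ ^ i) c by
      rw [map_mul, ← mul_assoc, hstep, pow_succ', AlgEquiv.mul_apply],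
      Finset.sum_range_sub (fun i => Pi i * (γ ^ i) c)]
    simp [Pi, normTo, hfix, sub_mul] 
  rw [div_sub_one hzz0, e, map_div₀, div_le_iff₀ (zero_lt_iff.2
    ((X.P.R.valuation).ne_zero_iff.2 hzz0)), map_mul]
  refine (mul_le_of_le_one_right' ?_).trans (hN.trans ?_)
  · rw [map_pow]; exact pow_le_one₀ zero_le (X.ρ_lt_one n).le
  · rw [pow_add]; exact mul_le_mul' le_rfl hzzv

/-! ### The kernel -/

variable {V : Type*} [AddCommGroup V]

/-- A homomorphism on a layer, killed by `p`, continuous and equivariant. -/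
structure EquivHom (n : ℕ) (φ : AlgebraicClosure K → V) : Prop where
  mul' : ∀ x ∈ X.fld n, ∀ y ∈ X.fld n, x ≠ 0 → y ≠ 0 → φ (x * y) = φ x + φ y
  cont : ∃ B : ℕ, ∀ x, X.IsU n B x → φ x = 0
  equiv : ∀ (σ : AlgebraicClosure K ≃ₐ[K] AlgebraicClosure K) (j : ℕ),
    σ • X.pt n = j • X.pt n →
    ∀ x ∈ X.fld n, x ≠ 0 → φ (σ x) = j • φ x
  killed : ∀ x ∈ X.fld n, x ≠ 0 → X.p • φ x = 0

namespace EquivHom

variable {X}
variable {n : ℕ} {φ : AlgebraicClosure K → V} (hφ : X.EquivHom n φ)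
include hφ

protected theorem map_one : φ 1 = 0 := by
  simpa using hφ.mul' 1 (one_mem _) 1 (one_mem _) one_ne_zero one_ne_zero

protected theorem map_pow {x : Kb} (hx : x ∈ X.fld n) (h0 : x ≠ 0) (k : ℕ) : φ (x ^ k) = k • φ x := by
  induction k with
  | zero => rw [pow_zero, hφ.map_one, zero_nsmul]
  | succ k ih => rw [pow_succ, hφ.mul' _ (pow_mem hx k) _ hx (pow_ne_zero k h0) h0, ih, succ_nsmul]

protected theorem map_inv {x : Kb} (hx : x ∈ X.fld n) (h0 : x ≠ 0) : φ x⁻¹ = -φ x := by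
  refine eq_neg_of_add_eq_zero_left ?_
  rw [← hφ.mul' _ (inv_mem hx) _ hx (inv_ne_zero h0) h0, inv_mul_cancel₀ h0, hφ.map_one]

protected theorem map_prod {ι : Type*} (s : Finset ι) {f : ι → Kb} (hf : ∀ i ∈ s, f i ∈ X.fld n)
    (h0 : ∀ i ∈ s, f i ≠ 0) : φ (∏ i ∈ s, f i) = ∑ i ∈ s, φ (f i) := by
  induction s using Finset.induction_on with
  | empty => simpa using hφ.map_one
  | insert j s hj ih =>
    rw [Finset.prod_insert hj, Finset.sum_insert hj, hφ.mul' _ (hf j (Finset.mem_insert_self _ _))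
      _ (prod_mem fun i hi => hf i (Finset.mem_insert_of_mem hi)) (h0 j (Finset.mem_insert_self _ _))
      (Finset.prod_ne_zero_iff.2 fun i hi => h0 i (Finset.mem_insert_of_mem hi)),
      ih (fun i hi => hf i (Finset.mem_insert_of_mem hi))
        fun i hi => h0 i (Finset.mem_insert_of_mem hi)]

theorem nsmul_mod {x : Kb} (hx : x ∈ X.fld n) (h0 : x ≠ 0) {i j : ℕ}
    (h : (i : ZMod X.p) = j) : i • φ x = j • φ x := by
  rw [ZMod.natCast_eq_natCast_iff'] at h
  have e : ∀ l : ℕ, l • φ x = (l % X.p) • φ x := fun l => by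
    conv_lhs => rw [← Nat.mod_add_div l X.p, add_nsmul, mul_comm, mul_nsmul', hφ.killed x hx h0,
      nsmul_zero, add_zero]
  rw [e i, h, ← e j]

theorem eq_zero_of_fixed {x : Kb} (hx : x ∈ X.fld n) (h0 : x ≠ 0) {g : ℕ}
    (hg : orderOf (g : ZMod X.p) = X.p - 1) (h : g • φ x = φ x) : φ x = 0 := by
  haveI := Fact.mk X.prime
  have hg1 : (g : ZMod X.p) - 1 ≠ 0 := fun e => by
    rw [sub_eq_zero] at e
    rw [e, orderOf_one] at hg
    have := X.five_le
    omega
  set a := ((g : ZMod X.p) - 1)⁻¹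
  have h2 : (a.val * g) • φ x = a.val • φ x := by rw [mul_nsmul', h]
  have h3 : (a.val * g) • φ x = (1 + a.val) • φ x := hφ.nsmul_mod hx h0 (by
    push_cast
    rw [ZMod.natCast_val, ZMod.cast_id]
    linear_combination inv_mul_cancel₀ hg1)
  rw [h2, add_nsmul, one_nsmul, right_eq_add] at h3
  exact h3

theorem map_proj {δ : Kb ≃ₐ[K] Kb} {g : ℕ} (hδ : δ • X.pt n = g • X.pt n)
    (hg : orderOf (g : ZMod X.p) = X.p - 1) {x : Kb} (hx : X.IsU n 1 x) :
    φ (X.proj δ g x) = (X.p - 1) • φ x := by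
  haveI := Fact.mk X.prime
  have hx0 := hx.ne_zero one_ne_zero
  have hne : ∀ j, (δ ^ j) x ≠ 0 := fun j => (_root_.map_ne_zero _).2 hx0
  rw [proj, hφ.map_prod _ (fun j _ => pow_mem (X.apply_mem_fld _ hx.1) _)
    (fun j _ => pow_ne_zero _ (hne j))]
  have hterm : ∀ j, φ ((δ ^ j) x ^ g ^ (j * (X.p - 2))) = φ x := fun j => by
    rw [hφ.map_pow (X.apply_mem_fld _ hx.1) (hne j),
      hφ.equiv _ _ (X.smul_pow_pt hδ j) x hx.1 hx0, ← mul_nsmul', ← pow_add]
    conv_rhs => rw [← one_nsmul (φ x)]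
    refine hφ.nsmul_mod hx.1 hx0 ?_
    have hp5 := X.five_le
    rw [Nat.cast_pow, Nat.cast_one, show j * (X.p - 2) + j = (X.p - 1) * j by
      rw [show X.p - 1 = X.p - 2 + 1 by omega]; ring, pow_mul, ← hg, pow_orderOf_eq_one, one_pow]
  rw [Finset.sum_congr rfl fun j _ => hterm j, Finset.sum_const, Finset.card_range]

theorem map_iterate_proj {δ : Kb ≃ₐ[K] Kb} {g : ℕ} (hn : n ≠ 0)
    (hδ : δ • X.pt n = g • X.pt n) (hg : orderOf (g : ZMod X.p) = X.p - 1) (k : ℕ) {x : Kb}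
    (hx : X.IsU n 1 x) : φ ((X.proj δ g)^[k] x) = (X.p - 1) ^ k • φ x := by
  induction k generalizing x with
  | zero => rw [pow_zero, one_nsmul]; rfl
  | succ k ih =>
    rw [Function.iterate_succ_apply, ih (hx.proj hn δ g), hφ.map_proj hδ hg hx, ← mul_nsmul',
      ← pow_succ]

/-- **It kills the units of level two.** -/
theorem map_level_two {γ δ : Kb ≃ₐ[K] Kb} {g : ℕ} (hn : n ≠ 0)
    (hγ : γ • X.pt n = (1 + X.p) • X.pt n) (hδ : δ • X.pt n = g • X.pt n)
    (hg : orderOf (g : ZMod X.p) = X.p - 1) {x : Kb} (hx : X.IsU n 2 x) : φ x = 0 := by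
  haveI := Fact.mk X.prime
  obtain ⟨B, hB⟩ := hφ.cont
  obtain ⟨Dlt, hD⟩ := X.exists_approx_hilbert90 hn hγ
  set N := X.p ^ (n - 1)
  have hx1 := hx.mono one_le_two
  obtain ⟨w, a, ε, hw, ha, hε, e⟩ := X.exists_norm_pow hn hγ hδ hg (B + Dlt) (n - 1) _
    (X.normTo_two hn hγ hx)
  rw [X.iterate_proj_normTo hn hγ hδ _ N hx1, Nat.sub_add_cancel (Nat.one_le_iff_ne_zero.2 hn)]
    at e
  have ha' : X.IsU n 1 a := by
    refine ⟨X.fld_mono (Nat.one_le_iff_ne_zero.2 hn) ha.1, ?_⟩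
    refine ha.2.trans ?_
    rw [pow_one, pow_one, ← X.ρ_pow_level hn]
    exact pow_le_of_le_one zero_le (X.ρ_lt_one n).le (pow_ne_zero _ X.prime.ne_zero)
  have hNa : normTo γ N a = a ^ N := by
    rw [normTo, Finset.prod_congr rfl fun i _ => show (γ ^ i) a = a from ?_, Finset.prod_const,
      Finset.card_range]
    have hγ1 := X.smul_pt_le hγ (Nat.one_le_iff_ne_zero.2 hn)
    have h := X.apply_eq_of_pt (σ := γ ^ i) (τ := 1) (by
      rw [one_smul, X.smul_pow_pt hγ1]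
      conv_rhs => rw [← one_nsmul (X.pt 1)]
      refine X.nsmul_pt_of_modEq ?_
      rw [pow_one]
      have : (1 + X.p) ≡ 1 [MOD X.p] := by simp [Nat.ModEq]
      simpa using this.pow i) ha.1
    simpa using h
  set Wt := (X.proj δ g)^[(X.p - 2) * n] x
  have hWt : X.IsU n 1 Wt := hx1.iterate_proj hn δ g _
  have hwa : X.IsU n 1 ((w * a) ^ X.p) := (hw.mul ha').pow _
  set W := Wt / (w * a) ^ X.p
  have hWU : X.IsU n 1 W := hWt.div one_ne_zero hwa
  have hNW : normTo γ N W = ε := by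
    have e2 : normTo γ N W * normTo γ N ((w * a) ^ X.p) = normTo γ N Wt := by
      rw [← normTo_mul_distrib, div_mul_cancel₀ _ (hwa.ne_zero one_ne_zero)]
    rw [normTo_pow, normTo_mul_distrib, hNa, e, mul_pow, ← pow_mul a,
      show N * X.p = X.p ^ n by
        rw [← pow_succ, Nat.sub_add_cancel (Nat.one_le_iff_ne_zero.2 hn)], mul_comm] at e2
    refine mul_left_cancel₀ (mul_ne_zero ?_ ?_) e2
    · exact pow_ne_zero _ (Finset.prod_ne_zero_iff.2 fun i _ =>
        (_root_.map_ne_zero _).2 (hw.ne_zero one_ne_zero))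
    · exact pow_ne_zero _ (ha.ne_zero one_ne_zero)
  obtain ⟨zz, hzz, hzz0, hU⟩ := hD B W hWU.1 (hWU.val_eq one_ne_zero) (by
    show vv (normTo γ N W - 1) ≤ _
    rw [hNW]
    refine hε.2.trans ?_
    rw [← X.ρ_pow_level hn, ← pow_mul]
    refine pow_le_pow_of_le_one zero_le (X.ρ_lt_one n).le ?_
    exact (Nat.le_succ _).trans (Nat.le_mul_of_pos_left _ (pow_pos X.prime.pos _)))
  have hW0 := hWU.ne_zero one_ne_zero
  have h0 := hB _ hU
  have hgz : γ zz ≠ 0 := (_root_.map_ne_zero _).2 hzz0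
  rw [div_eq_mul_inv, hφ.mul' _ (mul_mem hWU.1 (X.apply_mem_fld γ hzz)) _ (inv_mem hzz)
    (mul_ne_zero hW0 hgz) (inv_ne_zero hzz0), hφ.mul' _ hWU.1 _ (X.apply_mem_fld γ hzz) hW0 hgz,
    hφ.map_inv hzz hzz0, hφ.equiv _ _ hγ zz hzz hzz0, add_nsmul, one_nsmul, hφ.killed zz hzz hzz0,
    add_zero, add_neg_cancel_right] at h0
  have hWa : φ ((w * a) ^ X.p) = 0 := by
    rw [hφ.map_pow (mul_mem hw.1 ha'.1) ((hw.mul ha').ne_zero one_ne_zero), hφ.killed _
      (mul_mem hw.1 ha'.1) ((hw.mul ha').ne_zero one_ne_zero)]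
  have h1 : φ Wt = 0 := by
    rw [← div_mul_cancel₀ Wt (hwa.ne_zero one_ne_zero), hφ.mul' _ hWU.1 _ hwa.1 hW0
      (hwa.ne_zero one_ne_zero), h0, hWa, add_zero]
  rw [hφ.map_iterate_proj hn hδ hg _ hx1] at h1
  set k := (X.p - 2) * n
  have hk : ((X.p - 1) ^ k * (X.p - 1) ^ k : ℕ) • φ x = φ x := by
    conv_rhs => rw [← one_nsmul (φ x)]
    refine hφ.nsmul_mod hx.1 (hx.ne_zero two_ne_zero) ?_
    push_cast [Nat.cast_sub X.prime.one_le]
    rw [ZMod.natCast_self, zero_sub, ← mul_pow, neg_mul_neg, one_mul, one_pow]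
  rw [← hk, mul_nsmul', h1, nsmul_zero]

/-- **One killed unit of exact level one kills everything.** -/
theorem eq_zero {u : Kb} (hn : n ≠ 0) (hu : X.IsU n 1 u) (hu' : ¬ vv (u - 1) < X.ρ n)
    (hφu : φ u = 0) {x : Kb} (hx : x ∈ X.fld n) (hx0 : x ≠ 0) : φ x = 0 := by
  haveI := Fact.mk X.prime
  have hp5 := X.five_le
  obtain ⟨γ, hγ⟩ := X.exists_aut hn (j := 1 + X.p) (fun h => by
    rw [Nat.dvd_add_left dvd_rfl, Nat.dvd_one] at h; omega)
  obtain ⟨g', hg'⟩ := IsCyclic.exists_ofOrder_eq_natCard (α := (ZMod X.p)ˣ)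
  set g := (g' : ZMod X.p).val
  have hgc : (g : ZMod X.p) = g' := ZMod.natCast_zmod_val _
  have hg : orderOf (g : ZMod X.p) = X.p - 1 := by
    rw [hgc, orderOf_units, hg', Nat.card_eq_fintype_card, ZMod.card_units]
  have hgp : ¬ X.p ∣ g := fun h => g'.ne_zero (by
    rw [← hgc, (ZMod.natCast_eq_zero_iff g X.p).2 h])
  obtain ⟨δ, hδ⟩ := X.exists_aut hn hgp
  have hone : ∀ y, X.IsU n 1 y → φ y = 0 := fun y hy => by
    obtain ⟨c, hc⟩ := X.val_one_add_natCast_mul hn hu hu' hy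
    rw [← div_mul_cancel₀ y ((hu.pow c).ne_zero one_ne_zero), hφ.mul' _ hc.1 _ (hu.pow c).1
      (hc.ne_zero two_ne_zero) ((hu.pow c).ne_zero one_ne_zero),
      hφ.map_level_two hn hγ hδ hg hc, hφ.map_pow hu.1 (hu.ne_zero one_ne_zero), hφu, nsmul_zero,
      add_zero]
  have hnat : ∀ j : ℕ, vv (j : Kb) = 1 → φ (j : Kb) = 0 := fun j hj => by
    have hj0 : (j : Kb) ≠ 0 := (X.P.R.valuation).ne_zero_iff.1 (by rw [hj]; exact one_ne_zero)
    refine hφ.eq_zero_of_fixed (natCast_mem _ j) hj0 hg ?_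
    rw [← hφ.equiv _ _ hδ _ (natCast_mem _ j) hj0, map_natCast]
  have hunit : ∀ y ∈ X.fld n, vv y = 1 → φ y = 0 := fun y hy hy1 => by
    obtain ⟨j, hj⟩ := X.exists_natCast_mul hn hy (i := 0) (by rw [pow_zero, hy1])
    rw [pow_zero, mul_one, zero_add, pow_one] at hj
    have hj1 : vv (j : Kb) = 1 := eq_one_of_sub_lt hy1 (by
      rw [Valuation.map_sub_swap]; exact hj.trans_lt (X.ρ_lt_one n))
    have hj0 : (j : Kb) ≠ 0 := (X.P.R.valuation).ne_zero_iff.1 (by rw [hj1]; exact one_ne_zero)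
    have hU : X.IsU n 1 (y / j) := ⟨div_mem hy (natCast_mem _ j), by
      rw [div_sub_one hj0, map_div₀, hj1, div_one, pow_one]; exact hj⟩
    rw [← div_mul_cancel₀ y hj0, hφ.mul' _ hU.1 _ (natCast_mem _ j) (hU.ne_zero one_ne_zero) hj0,
      hone _ hU, hnat j hj1, add_zero]
  set z := X.z n
  have hz0 := X.z_ne_zero hn
  have hzmem := X.z_mem n
  have hφz : φ z = 0 := by
    refine hφ.eq_zero_of_fixed hzmem hz0 hg ?_
    have hδz : δ z ≠ 0 := (_root_.map_ne_zero _).2 hz0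
    rw [← hφ.equiv _ _ hδ z hzmem hz0, ← div_mul_cancel₀ (δ z) hz0,
      hφ.mul' _ (div_mem (X.apply_mem_fld δ hzmem) hzmem) _ hzmem (div_ne_zero hδz hz0) hz0,
      hunit _ (div_mem (X.apply_mem_fld δ hzmem) hzmem) (by
        rw [map_div₀, X.val_apply δ hn hzmem, div_self (X.ρ_pos hn).ne']), zero_add]
  obtain ⟨k, hk⟩ := X.exists_val_eq hn hx hx0
  have hzk : φ (z ^ k) = 0 := by
    obtain ⟨i, rfl | rfl⟩ := k.eq_nat_or_neg
    · rw [zpow_natCast, hφ.map_pow hzmem hz0, hφz, nsmul_zero]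
    · rw [zpow_neg, zpow_natCast, hφ.map_inv (pow_mem hzmem i) (pow_ne_zero i hz0),
        hφ.map_pow hzmem hz0, hφz, nsmul_zero, neg_zero]
  rw [← div_mul_cancel₀ x (zpow_ne_zero k hz0), hφ.mul' _ (div_mem hx (zpow_mem hzmem k)) _
    (zpow_mem hzmem k) (div_ne_zero hx0 (zpow_ne_zero k hz0)) (zpow_ne_zero k hz0),
    hunit _ (div_mem hx (zpow_mem hzmem k)) (by
      rw [map_div₀, map_zpow₀, hk, div_self (zpow_ne_zero k (X.ρ_pos hn).ne')]), hzk, add_zero]

end EquivHom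

end SplitPlace

end FA.CoatesWiles

end
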