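import Fermat.Agent.CoatesWiles.Vanishing

/-!
# The theorem of Coates and Wiles

Outside any finite set there is a place of degree one whose Frobenius element is `1` modulo the
modulus, so not anomalous.  A point of infinite order makes the algebraic value of the L-series
small at all these places, so it is zero.
-/

set_option autoImplicit false
set_option linter.style.haveILetI false
set_option linter.unusedSectionVars false

noncomputable section

open WeierstrassCurve NumberField IsDedekindDomain FA.IsogenyNF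
open FA.OpenImageNF (exists_overPlace)
open FA.DeuringCM (IQF)
open FA.Hecke (coprimeIdeals)
open FA.TraceNF (levelField frobTrace)
open scoped WeierstrassCurve.Affine nonZeroDivisors Classical ComplexConjugate

namespace FA.CoatesWiles

variable {K : Type} [Field K] [NumberField K]

local notation "Kb" => AlgebraicClosure K

/-- The bound of Hasse for the trace of a Frobenius element. -/
theorem sq_frobTrace_le {D : CMDat K} {Q : IQF K} {v : HeightOneSpectrum (𝓞 K)} {π : 𝓞 K}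
    (h : IsFrobElt D Q v π) :
    (frobTrace D.W₀ v) ^ 2 ≤ 4 * (Ideal.absNorm v.asIdeal : ℤ) := by
  have e1 := congrArg (fun t : 𝓞 K => D.emb (t : K)) h.tr_eq
  simp only [IQF.tr, map_add, map_intCast] at e1
  rw [Q.map_conj, Complex.add_conj] at e1
  have e2 : Complex.normSq (D.emb (π : K)) = (Ideal.absNorm v.asIdeal : ℝ) := by
    rw [Grossen.normSq_emb Q, ← h.span_eq]
  have e3 : 2 * (D.emb (π : K)).re = ((frobTrace D.W₀ v : ℤ) : ℝ) := by exact_mod_cast e1
  rw [Complex.normSq_apply] at e2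
  exact_mod_cast (show (((frobTrace D.W₀ v : ℤ) : ℝ)) ^ 2 ≤ 4 * (Ideal.absNorm v.asIdeal : ℝ) by
    rw [← e3]
    nlinarith [mul_self_nonneg (D.emb (π : K)).im])

/-- A congruence between integers in the ring of integers. -/
theorem dvd_of_natCast_dvd {m : ℕ} (hm : m ≠ 0) {a : ℤ} (h : (m : 𝓞 K) ∣ (a : 𝓞 K)) :
    (m : ℤ) ∣ a := by
  obtain ⟨c, hc⟩ := h
  have hint : IsIntegral ℤ ((a : ℚ) / m) := by
    refine (isIntegral_algHom_iff (algebraMap ℚ K).toIntAlgHom (algebraMap ℚ K).injective).1 ?_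
    rw [show (algebraMap ℚ K).toIntAlgHom ((a : ℚ) / m) = (c : K) by
      have hK := congrArg (fun t : 𝓞 K => (t : K)) hc
      simp only [map_intCast, map_mul, map_natCast] at hK
      show algebraMap ℚ K ((a : ℚ) / m) = _
      rw [map_div₀, map_intCast, map_natCast, hK, mul_div_cancel_left₀ _ (Nat.cast_ne_zero.2 hm)]]
    exact c.isIntegral_coe
  obtain ⟨k, hk⟩ := IsIntegrallyClosed.isIntegral_iff.1 hint
  refine ⟨k, ?_⟩
  rw [algebraMap_int_eq, eq_intCast, eq_div_iff (Nat.cast_ne_zero.2 hm)] at hk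
  exact_mod_cast (hk.symm.trans (mul_comm _ _))

variable {D : CMDat K} {Q : IQF K} (G : Grossen D Q)

/-- **Places of degree one that are not anomalous.** -/
theorem exists_splitPlace {T : Set (HeightOneSpectrum (𝓞 K))} (hT : T.Finite) :
    ∃ X : SplitPlace D Q, X.P.v ∉ T ∧ (G.M : 𝓞 K) ∉ X.P.v.asIdeal ∧
      ((G.M + 1 : ℕ) : 𝓞 K) ∉ X.P.v.asIdeal ∧ GoodAbove K D X.p ∧
        ¬ X.p ∣ Module.finrank K (levelField Kb D.W 35) := by
  set L := levelField Kb D.W G.M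
  haveI : FiniteDimensional K L := FA.TraceNF.finiteDimensional_levelField D.W G.M_ne
  haveI : IsGalois K L := FA.TraceNF.isGalois_levelField D.W G.M
  haveI : NumberField L := NumberField.of_module_finite K L
  haveI : FiniteDimensional K (levelField Kb D.W 35) :=
    FA.TraceNF.finiteDimensional_levelField D.W (by norm_num)
  set m := Module.finrank K (levelField Kb D.W 35)
  have hΔ0 : D.W₀.Δ ≠ 0 := fun e => D.W.isUnit_Δ.ne_zero (by
    rw [show D.W.Δ = algebraMap (𝓞 K) K D.W₀.Δ from map_Δ _ _, e, map_zero])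
  set d := Ideal.absNorm (Ideal.span {D.W₀.Δ})
  set n₀ := G.M * (G.M + 1) * m * d * (6 * 5 * 7)
  have hn₀ : n₀ ≠ 0 := by
    refine mul_ne_zero (mul_ne_zero (mul_ne_zero (mul_ne_zero G.M_ne (Nat.succ_ne_zero _))
      Module.finrank_pos.ne') ?_) (by norm_num)
    rwa [Ne, Ideal.absNorm_eq_zero_iff, Ideal.span_singleton_eq_bot]
  obtain ⟨v, P, x, hv, hp, hP, hPv, hfr⟩ := exists_degree_one_frobenius Q (1 : L ≃ₐ[K] L)
    (T := T ∪ {v : HeightOneSpectrum (𝓞 K) | (n₀ : 𝓞 K) ∈ v.asIdeal})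
    (hT.union ((Ideal.finite_factors (I := Ideal.span {(n₀ : 𝓞 K)}) (by simp [hn₀])).subset
      fun u hu => Ideal.dvd_span_singleton.2 hu))
  simp only [Set.mem_union, Set.mem_ofPred_eq, not_or] at hv
  obtain ⟨hvT, hvn⟩ := hv
  have hdvd : ∀ k, k ∣ n₀ → (k : 𝓞 K) ∉ v.asIdeal := fun k hk hm => hvn (by
    obtain ⟨c, hc⟩ := hk
    rw [hc, Nat.cast_mul]
    exact Ideal.mul_mem_right _ _ hm)
  have hM : (G.M : 𝓞 K) ∉ v.asIdeal :=
    hdvd _ ((((dvd_mul_right _ _).mul_right _).mul_right _).mul_right _)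
  have hM1 : ((G.M + 1 : ℕ) : 𝓞 K) ∉ v.asIdeal :=
    hdvd _ ((((dvd_mul_left _ _).mul_right _).mul_right _).mul_right _)
  obtain ⟨π, hπ⟩ := G.exists_frobElt hp hM
  set p := Ideal.absNorm v.asIdeal
  have hpn : ¬ p ∣ n₀ := fun h => hvn ((hπ.natCast_mem_iff n₀).2 h)
  -- Frobenius is `1` modulo the modulus
  set T₁ := D.tor ((1 : K) / G.M)
  have hT₁ : G.M • T₁ = 0 := by
    rw [← map_nsmul, nsmul_eq_mul, mul_one_div, div_self (Nat.cast_ne_zero.2 G.M_ne)]
    exact D.tor_eq_zero_iff.2 ⟨1, by simp⟩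
  have hLset : (frobSet D.W G.M : Set Kb) ⊆ L := IntermediateField.subset_adjoin K _
  obtain ⟨F, hq, hK⟩ := FA.TraceNF.exists_frobPlace_at (L := L) D.W₀ G.M_ne hπ.Δ_notMem hM
    hLset hP hPv hfr (σ := (1 : Kb ≃ₐ[K] Kb)) (by rw [map_one, mul_one, mul_inv_cancel])
  have h1 := hπ.smul_eq_of_frobPlace F hq hK hT₁
  rw [one_smul, D.mulPt_tor, eq_comm, ← sub_eq_zero, ← map_sub, mul_one_div, ← sub_div] at h1
  obtain ⟨a, ha⟩ := D.tor_eq_zero_iff.1 h1
  have hMdvd : (G.M : 𝓞 K) ∣ π - 1 := ⟨a, RingOfIntegers.coe_injective (by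
    rw [div_eq_iff (Nat.cast_ne_zero.2 G.M_ne)] at ha
    rw [map_sub, map_mul, map_one, map_natCast]
    linear_combination ha)⟩
  have h6 : ((6 : ℕ) : 𝓞 K) ∣ π - 1 := (Nat.cast_dvd_cast G.six_dvd).trans hMdvd
  have h6c : ((6 : ℕ) : 𝓞 K) ∣ Q.conj π - 1 := by
    obtain ⟨c, hc⟩ := h6
    exact ⟨Q.conj c, by rw [← map_natCast Q.conj 6, ← map_mul, ← hc, map_sub, map_one]⟩
  set t := frobTrace D.W₀ v
  have ht : ((t : ℤ) : 𝓞 K) = π + Q.conj π := hπ.tr_eq.symm
  have ht6 : (6 : ℤ) ∣ t - 2 := dvd_of_natCast_dvd (K := K) (m := 6) (by norm_num) (by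
    rw [show ((t - 2 : ℤ) : 𝓞 K) = (π - 1) + (Q.conj π - 1) by push_cast; rw [ht]; ring]
    exact dvd_add h6 h6c)
  have hp7 : 8 ≤ p := by
    have h2 := hp.two_le
    by_contra! hlt
    have h210 : p ∣ 6 * 5 * 7 := by
      rcases (by omega : p = 2 ∨ p = 3 ∨ p = 4 ∨ p = 5 ∨ p = 6 ∨ p = 7) with
        e | e | e | e | e | e <;> rw [e] at hp ⊢ <;> revert hp <;> norm_num
    exact hpn (h210.mul_left _)
  have hconj : Q.conj π ^ 2 - 1 ∉ v.asIdeal := fun hmem => by
    rw [show Q.conj π ^ 2 - 1 = (Q.conj π - 1) * (Q.conj π - -1) by ring] at hmem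
    have key : ∀ e : ℤ, (e = 1 ∨ e = -1) → Q.conj π - (e : 𝓞 K) ∉ v.asIdeal := fun e he hm => by
      have h2 : ((t - e : ℤ) : 𝓞 K) ∈ v.asIdeal := by
        rw [show ((t - e : ℤ) : 𝓞 K) = π + (Q.conj π - (e : 𝓞 K)) by push_cast; rw [ht]; ring]
        exact add_mem hπ.mem hm
      rw [FA.EllipticUnits.intCast_mem_iff_dvd hp rfl] at h2
      have hne : t - e ≠ 0 := fun h0 => by omega
      have hle := Int.le_of_dvd (abs_pos.2 hne) ((dvd_abs _ _).2 h2)
      have hb := sq_frobTrace_le hπ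
      have hpz : (8 : ℤ) ≤ p := by exact_mod_cast hp7
      rcases abs_cases (t - e) with ⟨ea, -⟩ | ⟨ea, -⟩ <;> rcases he with rfl | rfl <;> nlinarith
    rcases v.isPrime.mem_or_mem hmem with h | h
    · exact key 1 (Or.inl rfl) (by push_cast; exact h)
    · exact key (-1) (Or.inr rfl) (by push_cast; exact h)
  obtain ⟨A, hA⟩ := exists_overPlace (K := K) Kb v
  refine ⟨⟨⟨A, v, hA, hπ.Δ_notMem⟩, π, hπ, hconj⟩, hvT, hM, hM1, fun u hu => ?_, fun hd => hpn ?_⟩
  · constructor <;> intro hmem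
    · have hdN := Ideal.absNorm_dvd_absNorm_of_le ((Ideal.span_singleton_le_iff_mem _).2 hmem)
      obtain ⟨q, hq', hqu⟩ := FA.Ext.exists_rat_prime_mem u
      have hdq := FA.Chebotarev.absNorm_dvd_of_mem hqu
      obtain ⟨i, -, hi⟩ := (Nat.dvd_prime_pow hq').1 hdq
      have hu1 : Ideal.absNorm u.asIdeal ∣ p ^ Module.finrank ℚ K :=
        FA.Chebotarev.absNorm_dvd_of_mem hu
      have hpu : p ∣ Ideal.absNorm u.asIdeal := by
        obtain ⟨j, -, hj⟩ := (Nat.dvd_prime_pow hp).1 hu1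
        rcases Nat.eq_zero_or_pos j with rfl | hj0
        · exact absurd (Ideal.absNorm_eq_one_iff.1 (hj.trans (pow_zero p))) u.isPrime.ne_top
        · rw [hj]; exact dvd_pow_self _ hj0.ne'
      exact hpn ((hpu.trans hdN).trans ((dvd_mul_left _ _).mul_right _))
    · have h6' : ((6 : ℕ) : 𝓞 K) ∈ u.asIdeal := by exact_mod_cast hmem
      have hco : Nat.Coprime p 6 := (hp.coprime_iff_not_dvd).2 fun h => by
        have := Nat.le_of_dvd (by norm_num) h
        omega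
      obtain ⟨r, s, hrs⟩ := (Int.isCoprime_iff_nat_coprime.2 (by simpa using hco) :
        IsCoprime (p : ℤ) (6 : ℤ))
      refine u.isPrime.ne_top ((Ideal.eq_top_iff_one _).2 ?_)
      rw [show (1 : 𝓞 K) = ((r * (p : ℤ) + s * 6 : ℤ) : 𝓞 K) by rw [hrs, Int.cast_one]]
      push_cast
      exact add_mem (Ideal.mul_mem_left _ _ hu) (Ideal.mul_mem_left _ _ hmem)
  · exact hd.trans (((dvd_mul_left _ _).mul_right _).mul_right _)

/-- **A point of infinite order kills the algebraic value.** -/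
theorem algValue_eq_zero {S₀ : D.Pt} (hfix : ∀ σ : Kb ≃ₐ[K] Kb, σ • S₀ = S₀)
    (hinf : ∀ m : ℕ, m ≠ 0 → m • S₀ ≠ 0) :
    G.algValue (Nat.succ_ne_zero G.M) = 0 := by
  obtain ⟨A, hA⟩ := G.algValue_mem (Nat.succ_ne_zero G.M)
  by_contra h0
  have hA0 : A ≠ 0 := fun e => h0 (by rw [← hA, e, map_zero])
  obtain ⟨X, hXT, hM, hN, hg, hm⟩ := exists_splitPlace G
    (FA.ArtinRec.finite_ord_ne_zero (Units.mk0 A hA0))
  have hcop : G.M.Coprime (G.M + 1) := by simp
  have hne := X.val_algValue_ne_one G (Nat.succ_ne_zero G.M) hcop hM hN hg hm hfix hinf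
  rw [← hA] at hne
  refine hne ((FA.GoodNF.overPlace_eq_one_iff X.P.isOver A).2 ?_)
  simp only [Set.mem_ofPred_eq, ne_eq, not_not] at hXT
  rw [FA.ArtinRec.ord_eq_iff, neg_zero, WithZero.exp_zero] at hXT
  exact hXT

/-- **The theorem of Coates and Wiles over the field of multiplication.** -/
theorem lValue_eq_zero {S₀ : D.Pt} (hfix : ∀ σ : Kb ≃ₐ[K] Kb, σ • S₀ = S₀)
    (hinf : ∀ m : ℕ, m ≠ 0 → m • S₀ ≠ 0) {Lc : ℂ → ℂ}
    (hd : DifferentiableOn ℂ Lc {s | 1 / 2 < s.re})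
    (he : ∀ s : ℂ, 2 < s.re → Lc s = ∑' I : coprimeIdeals (Ideal.span {(G.M : 𝓞 K)}),
      conj (G.ψ I.1.1) * ((Ideal.absNorm I.1.1 : ℕ) : ℂ) ^ (-s)) :
    Lc 1 = 0 := by
  have h := G.value_at_one (Nat.succ_ne_zero G.M) (dvd_refl G.M) hd he
  rw [algValue_eq_zero G hfix hinf, map_zero, mul_zero, mul_eq_zero] at h
  refine h.resolve_left ?_
  push_cast
  rw [show (2 : ℂ) * (((G.M : ℂ) + 1) - ((G.M : ℂ) + 1) ^ 2) =
    -2 * (G.M : ℂ) * ((G.M : ℂ) + 1) by ring]
  exact mul_ne_zero (mul_ne_zero (by norm_num) (Nat.cast_ne_zero.2 G.M_ne))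
    (by exact_mod_cast Nat.succ_ne_zero G.M)

end FA.CoatesWiles

end
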