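import Fermat.Agent.CoatesWiles.Setting
import Fermat.Agent.GoodReductionNF.Place
import Fermat.Agent.JugendtraumField.Scalar

/-!
# A place of good reduction

A valuation ring of the algebraic closure over a place of good reduction prime to two: reduction is
onto, injective on the torsion prime to the place, and a multiplier prime to the place moves the
kernel of reduction into itself, with `x (a • R) a² ≡ x R` up to an integral term.
-/

set_option autoImplicit false
set_option linter.style.haveILetI false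
set_option linter.unusedSectionVars false

noncomputable section

open WeierstrassCurve NumberField IsDedekindDomain FA.IsogenyNF FA.Frob FA.Local
open FA.ClassNumberOne (xP yP)
open FA.OpenImageNF (OverPlace)
open scoped WeierstrassCurve.Affine Classical

namespace FA.CoatesWiles

variable {K : Type} [Field K] [NumberField K]

/-- A place of good reduction prime to two, with a place of the algebraic closure over it. -/
structure CMPlace (D : CMDat K) where
  /-- The valuation ring. -/
  R : ValuationSubring (AlgebraicClosure K)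
  /-- The place. -/
  v : HeightOneSpectrum (𝓞 K)
  isOver : OverPlace R v
  Δ_notMem : D.W₀.Δ ∉ v.asIdeal

namespace CMPlace

variable {D : CMDat K} (P : CMPlace D)

local notation "Kb" => AlgebraicClosure K

theorem coe_le_one (a : 𝓞 K) : P.R.valuation (algebraMap K Kb (a : K)) ≤ 1 :=
  P.isOver.le_one _ (P.v.valuation_le_one a)

theorem coe_eq_one {a : 𝓞 K} (ha : a ∉ P.v.asIdeal) :
    P.R.valuation (algebraMap K Kb (a : K)) = 1 :=
  P.isOver.eq_one (le_antisymm (P.v.valuation_le_one a)
    (not_lt.1 fun h => ha ((P.v.valuation_lt_one_iff_mem a).1 h)))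

theorem coe_lt_one {a : 𝓞 K} (ha : a ∈ P.v.asIdeal) :
    P.R.valuation (algebraMap K Kb (a : K)) < 1 :=
  P.isOver.lt_one _ ((P.v.valuation_lt_one_iff_mem a).2 ha)

theorem int : IntCoeff P.R.valuation (D.W.baseChange Kb).toAffine := by
  constructor <;>
    simp only [WeierstrassCurve.baseChange, WeierstrassCurve.map_a₁, WeierstrassCurve.map_a₂,
      WeierstrassCurve.map_a₃, WeierstrassCurve.map_a₄, WeierstrassCurve.map_a₆] <;>
    exact P.coe_le_one _

theorem good : P.R.valuation (D.W.baseChange Kb).toAffine.Δ = 1 := by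
  show P.R.valuation (D.W.baseChange Kb).Δ = 1
  rw [WeierstrassCurve.baseChange, map_Δ, map_Δ]
  exact P.coe_eq_one P.Δ_notMem

/-- The reduced curve. -/
abbrev Wb : WeierstrassCurve (Res P.R) := redCurve P.R (D.W.baseChange Kb).toAffine P.int

instance instIsEllipticWb : P.Wb.IsElliptic := redCurve_isElliptic P.int P.good

instance instIsAlgClosedRes : IsAlgClosed (Res P.R) := residueField_isAlgClosed P.R

/-- Reduction. -/
def red : D.Pt →+ P.Wb.toAffine.Point := redHom P.int P.good

theorem red_eq_zero_iff {S : D.Pt} :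
    P.red S = 0 ↔ E1 P.R.valuation (D.W.baseChange Kb).toAffine S :=
  redFun_eq_zero_iff P.int

/-- The coordinates of a reduced point. -/
theorem red_coord {S : D.Pt} (hS : P.red S ≠ 0) :
    xP S ∈ P.R ∧ yP S ∈ P.R ∧ S ≠ 0 ∧
      ∃ h, P.red S = .some (resOf P.R (xP S)) (resOf P.R (yP S)) h := by
  rcases S with _ | ⟨x, y, h⟩
  · exact absurd (map_zero P.red) hS
  have hx : x ∈ P.R := by
    by_contra hx
    exact hS (P.red_eq_zero_iff.2 (by
      rw [e1_some]; exact not_le.1 fun h1 => hx ((P.R.valuation_le_one_iff x).1 h1)))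
  obtain ⟨h', e⟩ := redFun_of_mem P.int h hx
  exact ⟨hx, y_mem P.int h.1 hx, Affine.Point.some_ne_zero h, h', e⟩

/-- A nonzero point of the kernel of reduction has a nonintegral abscissa. -/
theorem one_lt_xP {S : D.Pt} (hS : P.red S = 0) (h0 : S ≠ 0) : 1 < P.R.valuation (xP S) := by
  rcases S with _ | ⟨x, y, h⟩
  · exact absurd rfl h0
  exact (e1_some ..).1 (P.red_eq_zero_iff.1 hS)

/-- **Reduction is onto.** -/
theorem red_surjective : Function.Surjective P.red := by
  rintro (_ | ⟨X, Y, hXY⟩)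
  · exact ⟨0, map_zero _⟩
  obtain ⟨x, hx⟩ := IsLocalRing.residue_surjective (R := P.R) X
  obtain ⟨y, hns⟩ := FA.EC.exists_nonsingular (D.W.baseChange Kb) (x : Kb)
  obtain ⟨h', e⟩ := redFun_of_mem P.int hns x.2
  have hX : resOf P.R (x : Kb) = X := (resOf_coe P.R x).trans hx
  rcases Affine.Y_eq_of_X_eq hXY.1 h'.1 hX.symm with hY | hY
  · refine ⟨.some _ _ hns, (e.trans ?_ : P.red _ = _)⟩
    simp only [Affine.Point.some.injEq]
    exact ⟨hX, hY.symm⟩
  · refine ⟨-.some _ _ hns, ?_⟩
    rw [map_neg, show P.red (.some _ _ hns) = _ from e, Affine.Point.neg_some]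
    simp only [Affine.Point.some.injEq]
    exact ⟨hX, hY.symm⟩

/-- **Reduction is injective on the torsion prime to the place.** -/
theorem red_injective {n : ℕ} (hn : (n : 𝓞 K) ∉ P.v.asIdeal) {S : D.Pt} (hS : n • S = 0)
    (h : P.red S = 0) : S = 0 := by
  by_contra hne
  obtain ⟨p, hp, hpd⟩ := Nat.exists_prime_and_dvd (n := addOrderOf S)
    fun h => hne (AddMonoid.addOrderOf_eq_one_iff.1 h)
  obtain ⟨m, hm⟩ := hpd
  have hdvd := addOrderOf_dvd_of_nsmul_eq_zero hS
  have hpv : P.R.valuation (p : Kb) = 1 := by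
    have hpn : (p : 𝓞 K) ∉ P.v.asIdeal := fun hmem => hn (by
      obtain ⟨c, hc⟩ := (Dvd.intro m hm.symm).trans hdvd
      rw [hc, Nat.cast_mul]
      exact Ideal.mul_mem_right _ _ hmem)
    simpa using P.coe_eq_one hpn
  have h0 : m • S = 0 := redHom_injOn P.int P.good hp hpv
    (by rw [← mul_nsmul', ← hm, addOrderOf_nsmul_eq_zero])
    (by show P.red (m • S) = 0; rw [map_nsmul, h, nsmul_zero])
  have hn0 : n ≠ 0 := fun e => hn (by simp [e])
  have hpos : 0 < addOrderOf S :=
    Nat.pos_of_ne_zero fun e => hn0 (Nat.eq_zero_of_zero_dvd (e ▸ hdvd))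
  have hm0 : 0 < m := Nat.pos_of_ne_zero fun e => by rw [hm, e, mul_zero] at hpos; omega
  have := Nat.le_of_dvd hm0 (addOrderOf_dvd_of_nsmul_eq_zero h0)
  rw [hm] at this
  exact absurd this (not_le.2 ((Nat.lt_mul_iff_one_lt_left hm0).2 hp.one_lt))

/-- The multiplier divides a natural number prime to the place. -/
def UnitMul (a : 𝓞 K) : Prop := ∃ n : ℕ, (n : 𝓞 K) ∉ P.v.asIdeal ∧ a ∣ (n : 𝓞 K)

variable {P}

theorem UnitMul.notMem {a : 𝓞 K} (h : P.UnitMul a) : a ∉ P.v.asIdeal := fun hm => by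
  obtain ⟨n, hn, c, hc⟩ := h
  exact hn (hc ▸ Ideal.mul_mem_right c _ hm)

theorem UnitMul.ne_zero {a : 𝓞 K} (h : P.UnitMul a) : a ≠ 0 := fun e => h.notMem (by simp [e])

theorem UnitMul.natCast {n : ℕ} (h : (n : 𝓞 K) ∉ P.v.asIdeal) : P.UnitMul n := ⟨n, h, dvd_rfl⟩

theorem UnitMul.red_injective {a : 𝓞 K} (h : P.UnitMul a) {S : D.Pt} (hS : D.mulPt a S = 0)
    (h0 : P.red S = 0) : S = 0 := by
  obtain ⟨n, hn, hd⟩ := h
  exact P.red_injective hn (D.nsmul_eq_zero_of_mulPt hd hS) h0

/-- **A multiplier prime to the place on the kernel of reduction.** -/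
theorem UnitMul.e1 {a : 𝓞 K} (ha : P.UnitMul a) {S : D.Pt} (hS : P.red S = 0) (h0 : S ≠ 0) :
    D.mulPt a S ≠ 0 ∧
      P.R.valuation (xP (D.mulPt a S) * algebraMap K Kb (a : K) ^ 2 - xP S) ≤ 1 ∧
      P.red (D.mulPt a S) = 0 := by
  have hne : D.mulPt a S ≠ 0 := fun h => h0 (ha.red_injective h hS)
  haveI := D.finite_kerPt ha.ne_zero
  let _ := Fintype.ofFinite (D.kerPt a)
  have hb : P.R.valuation (xP (D.mulPt a S) * algebraMap K Kb (a : K) ^ 2 - xP S) ≤ 1 := by
    rw [(D.xy_mulPt ha.ne_zero hne).1, quotX, finsum_eq_sum_of_fintype,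
      ← Finset.add_sum_erase _ _ (Finset.mem_univ (0 : D.kerPt a))]
    rw [ZeroMemClass.coe_zero, sub_zero, show xP (0 : D.Pt) = (0 : Kb) from rfl, sub_zero,
      add_sub_cancel_left]
    refine P.R.valuation.map_sum_le fun Q hQ => ?_
    have hQ0 : P.red (Q : D.Pt) ≠ 0 := fun h => (Finset.ne_of_mem_erase hQ)
      (Subtype.ext (ha.red_injective (AddMonoidHom.mem_ker.1 Q.2) h))
    have hd : P.red (S - (Q : D.Pt)) ≠ 0 := by
      rw [map_sub, hS, zero_sub, neg_ne_zero]
      exact hQ0
    exact (P.R.valuation.map_sub _ _).trans (max_le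
      ((P.R.valuation_le_one_iff _).2 (P.red_coord hd).1)
      ((P.R.valuation_le_one_iff _).2 (P.red_coord hQ0).1))
  refine ⟨hne, hb, ?_⟩
  by_contra h1
  have hx := (P.R.valuation_le_one_iff _).2 (P.red_coord h1).1
  have h2 : P.R.valuation (xP (D.mulPt a S) * algebraMap K Kb (a : K) ^ 2) ≤ 1 := by
    rw [map_mul, map_pow, P.coe_eq_one ha.notMem, one_pow, mul_one]
    exact hx
  have h3 := P.R.valuation.map_sub_le h2 hb
  rw [sub_sub_cancel] at h3
  exact absurd h3 (not_le.2 (P.one_lt_xP hS h0))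

end CMPlace

end FA.CoatesWiles

end
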