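import Fermat.Agent.CoatesWiles.Setting
import Fermat.Agent.DeuringCM.Main
import Fermat.Agent.Tau.JValues
import Fermat.Agent.Tau.Homothety
import Fermat.Agent.Tau.CMFields
import Fermat.Agent.Tau.FieldClassBound

/-!
# Rational curves with multiplication by a maximal order

For the nine invariants of the maximal orders of class number one a short integral equation has a
lattice `Ω (ℤ + ℤ ω)`, so over `K = ℚ(√d)` it gives a datum with lattice `Ω 𝓞 K`.
-/

set_option autoImplicit false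
set_option linter.style.haveILetI false
set_option linter.unusedSectionVars false

noncomputable section

open WeierstrassCurve NumberField FA.Mazur.Wp
open FA.FieldClassBound (discK)
open FA.CMFields (omega)
open FA.DeuringCM (IQF)
open scoped WeierstrassCurve.Affine Classical UpperHalfPlane

namespace FA.CoatesWiles

/-- `d` is the radicand of a maximal order of class number one with invariant `v`. -/
def IsMaximalInvariant (d v : ℤ) : Prop :=
  (d, v) ∈ [((-1 : ℤ), (1728 : ℤ)), (-2, 8000), (-3, 0), (-7, -3375), (-11, -32768),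
    (-19, -884736), (-43, -884736000), (-67, -147197952000), (-163, -262537412640768000)]

theorem IsMaximalInvariant.cases {d v : ℤ} (h : IsMaximalInvariant d v) :
    Squarefree d ∧ d < 0 ∧ (discK d, v) ∈ FA.JValues.table := by
  simp only [IsMaximalInvariant, List.mem_cons, List.not_mem_nil, or_false, Prod.mk.injEq] at h
  rcases h with ⟨rfl, rfl⟩ | ⟨rfl, rfl⟩ | ⟨rfl, rfl⟩ | ⟨rfl, rfl⟩ | ⟨rfl, rfl⟩ | ⟨rfl, rfl⟩ |
    ⟨rfl, rfl⟩ | ⟨rfl, rfl⟩ | ⟨rfl, rfl⟩ <;>
    refine ⟨?_, by norm_num, by norm_num [discK, FA.JValues.table]⟩ <;>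
    first
      | exact isUnit_one.neg.squarefree
      | exact (Int.prime_two.neg).squarefree
      | exact (Nat.prime_iff_prime_int.mp (by norm_num)).neg.squarefree

/-- The short equation with integer coefficients. -/
abbrev shortInt (a b : ℤ) : WeierstrassCurve ℤ := ⟨0, 0, 0, a, b⟩

theorem shortInt_map {R : Type*} [CommRing R] (a b : ℤ) :
    (shortInt a b).map (Int.castRingHom R) = ⟨0, 0, 0, (a : R), (b : R)⟩ := by
  ext <;> simp [shortInt]

/-- The square of the generator of the maximal order. -/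
theorem omega_sq {D : ℤ} (hD : D ≤ 0) :
    omega D ^ 2 - (D : ℂ) * omega D + ((D : ℂ) ^ 2 - D) / 4 = 0 := by
  have hs : ((Real.sqrt (-(D : ℝ)) : ℂ)) ^ 2 = -(D : ℂ) := by
    rw [← Complex.ofReal_pow, Real.sq_sqrt (neg_nonneg.2 (Int.cast_nonpos.2 hD))]
    push_cast
    rfl
  rw [omega]
  linear_combination (Complex.I ^ 2 / 4) * hs - (D : ℂ) / 4 * Complex.I_sq

/-- **The lattice of a curve with one of the nine invariants.** -/
theorem exists_lattice {d v : ℤ} (h : IsMaximalInvariant d v) {a b : ℤ}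
    (hΔ : (shortInt a b).Δ ≠ 0)
    (hj : 6912 * (a : ℚ) ^ 3 = v * (4 * (a : ℚ) ^ 3 + 27 * (b : ℚ) ^ 2)) :
    ∃ (L : PeriodPair) (Ω : ℂ), (shortInt a b).map (Int.castRingHom ℂ) = latCurve L ∧
      ∀ x : ℂ, x ∈ L.lattice ↔
        ∃ i j : ℤ, x = Ω * ((i : ℂ) + (j : ℂ) * omega (discK d)) := by
  obtain ⟨hd, hd0, htab⟩ := h.cases
  have hD := FA.FieldClassBound.discK_neg hd0
  have hne : (-4 * (a : ℂ)) ^ 3 - 27 * (-4 * (b : ℂ)) ^ 2 ≠ 0 := by
    intro e
    refine hΔ ?_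
    have : ((shortInt a b).Δ : ℂ) = 0 := by
      simp only [WeierstrassCurve.Δ, b₂, b₄, b₆, b₈]
      push_cast
      linear_combination e
    exact_mod_cast this
  obtain ⟨L, h2, h3⟩ := FA.JInj.exists_g₂_g₃ hne
  obtain ⟨c, hc⟩ : (4 : ℤ) ∣ discK d * discK d - discK d := by
    have := FA.FieldClassBound.discK_mod_four d
    rcases this with e | e
    · exact dvd_sub (dvd_mul_of_dvd_left (Int.dvd_of_emod_eq_zero e) _)
        (Int.dvd_of_emod_eq_zero e)
    · rw [show discK d * discK d - discK d = discK d * (discK d - 1) by ring]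
      exact dvd_mul_of_dvd_right (by omega) _
  let τ : ℍ := ⟨omega (discK d), by
    rw [FA.CMFields.omega_im]
    exact div_pos (Real.sqrt_pos.2 (by rw [neg_pos]; exact_mod_cast hD)) two_pos⟩
  have hroot : FA.ThirteenOrders.IsRootOf τ 1 (-discK d) c := by
    refine ⟨one_pos, by simp, ?_⟩
    have hc' : ((discK d : ℤ) : ℂ) * (discK d : ℤ) - (discK d : ℤ) = 4 * (c : ℂ) := by
      exact_mod_cast hc
    show ((1 : ℤ) : ℂ) * omega (discK d) ^ 2 + ((-discK d : ℤ) : ℂ) * omega (discK d) + (c : ℂ) = 0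
    push_cast
    linear_combination omega_sq hD.le - (1 / 4 : ℂ) * hc'
  have hv : FA.ModField.jfun τ = v := FA.JValues.value hroot
    (D := discK d) (by linear_combination hc) htab
  have hjj : (latCurve (latPair τ)).j = (latCurve L).j := by
    rw [FA.Homothety.j_latCurve, FA.Homothety.j_latCurve, ← FA.Singular.jfun_eq_invariant, hv, h2,
      h3]
    have hj' : 6912 * (a : ℂ) ^ 3 = v * (4 * (a : ℂ) ^ 3 + 27 * (b : ℂ) ^ 2) := by
      exact_mod_cast congrArg (Rat.cast (K := ℂ)) hj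
    rw [← mul_div_assoc, eq_div_iff hne]
    linear_combination (16 : ℂ) * hj'
  obtain ⟨Ω, hΩ, e⟩ := (FA.Homothety.homothetic_iff_j _ _).mpr hjj
  refine ⟨L, Ω, ?_, fun x => ?_⟩
  · rw [shortInt_map, latCurve, h2, h3]
    ext <;> simp
  · rw [← SetLike.mem_coe, e, Set.mem_image]
    constructor
    · rintro ⟨y, hy, rfl⟩
      obtain ⟨m, n, rfl⟩ := mem_latPair.mp hy
      exact ⟨n, m, by show Ω * ((m : ℂ) * omega (discK d) + n) = _; ring⟩
    · rintro ⟨i, j, rfl⟩
      exact ⟨(j : ℂ) * omega (discK d) + i, mem_latPair.mpr ⟨j, i, rfl⟩, by ring⟩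

/-- The lattice has the multiplier `ω` in `ℚ(√d)`. -/
theorem cm_of_lattice {d : ℤ} (hd0 : d < 0) {L : PeriodPair} {Ω : ℂ}
    (hlat : ∀ x : ℂ, x ∈ L.lattice ↔
      ∃ i j : ℤ, x = Ω * ((i : ℂ) + (j : ℂ) * omega (discK d))) :
    ∃ ω : ℂ, (∀ m : ℤ, ω ≠ m) ∧ (∀ l ∈ L.lattice, ω * l ∈ L.lattice) ∧
      ∃ x y : ℚ, (ω - (x : ℂ)) ^ 2 = (d : ℂ) * (y : ℂ) ^ 2 := by
  have hD := FA.FieldClassBound.discK_neg hd0
  refine ⟨omega (discK d), fun m hm => ?_, fun l hl => ?_, ?_⟩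
  · have := congrArg Complex.im hm
    rw [FA.CMFields.omega_im, Complex.intCast_im, div_eq_zero_iff] at this
    have hpos : 0 < Real.sqrt (-(discK d : ℝ)) :=
      Real.sqrt_pos.2 (by rw [neg_pos]; exact_mod_cast hD)
    rcases this with e | e <;> linarith
  · obtain ⟨i, j, rfl⟩ := (hlat l).1 hl
    obtain ⟨c, hc⟩ : (4 : ℤ) ∣ discK d * discK d - discK d := by
      rcases FA.FieldClassBound.discK_mod_four d with e | e
      · exact dvd_sub (dvd_mul_of_dvd_left (Int.dvd_of_emod_eq_zero e) _)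
          (Int.dvd_of_emod_eq_zero e)
      · rw [show discK d * discK d - discK d = discK d * (discK d - 1) by ring]
        exact dvd_mul_of_dvd_right (by omega) _
    have hc' : ((discK d : ℤ) : ℂ) * (discK d : ℤ) - (discK d : ℤ) = 4 * (c : ℂ) := by
      exact_mod_cast hc
    refine (hlat _).2 ⟨-(c * j), i + j * discK d, ?_⟩
    push_cast
    linear_combination (Ω * (j : ℂ)) * omega_sq hD.le - Ω * (j : ℂ) / 4 * hc'
  · rcases em (d % 4 = 1) with h1 | h1
    · refine ⟨(d : ℚ) / 2, 1 / 2, ?_⟩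
      have hs := omega_sq (D := discK d) hD.le
      rw [show discK d = d from if_pos h1] at hs ⊢
      push_cast
      linear_combination hs
    · refine ⟨2 * (d : ℚ), 1, ?_⟩
      have hs := omega_sq (D := discK d) hD.le
      rw [show discK d = 4 * d from if_neg h1] at hs ⊢
      push_cast at hs ⊢
      linear_combination hs

/-- **The datum over the field of multiplication.** -/
theorem exists_cmDat {K : Type} [Field K] [NumberField K] (Q : IQF K) (ψ : K →+* ℂ) {a b : ℤ}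
    {L : PeriodPair} {Ω : ℂ} (hW : (shortInt a b).map (Int.castRingHom ℂ) = latCurve L)
    (hlat : ∀ x : ℂ, x ∈ L.lattice ↔
      ∃ i j : ℤ, x = Ω * ((i : ℂ) + (j : ℂ) * omega (discK Q.d))) :
    ∃ D : CMDat K, D.W₀ = (shortInt a b).map (Int.castRingHom (𝓞 K)) ∧ D.emb = ψ := by
  obtain ⟨φ, hφ⟩ : ∃ φ : AlgebraicClosure K →+* ℂ,
      φ.comp (algebraMap K (AlgebraicClosure K)) = ψ := by
    letI := ψ.toAlgebra
    let e : AlgebraicClosure K →ₐ[K] ℂ := IsAlgClosed.lift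
    exact ⟨e.toRingHom, RingHom.ext fun z => e.commutes z⟩
  obtain ⟨t, ht, hψt⟩ : ∃ t : K, t ^ 2 = (Q.d : K) ∧
      ψ t = Complex.I * (Real.sqrt (-(Q.d : ℝ)) : ℂ) := by
    have h : ψ Q.s ^ 2 = (Complex.I * (Real.sqrt (-(Q.d : ℝ)) : ℂ)) ^ 2 := by
      rw [← map_pow, Q.hs, map_intCast, mul_pow, Complex.I_sq, ← Complex.ofReal_pow,
        Real.sq_sqrt (neg_nonneg.2 (Int.cast_nonpos.2 Q.hd0.le))]
      push_cast
      ring
    rcases sq_eq_sq_iff_eq_or_eq_neg.1 h with e | e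
    · exact ⟨Q.s, Q.hs, e⟩
    · exact ⟨-Q.s, by rw [neg_sq]; exact Q.hs, by rw [map_neg, e, neg_neg]⟩
  obtain ⟨w, hw⟩ := FA.FieldClassBound.exists_omega ht hψt
  have hell : ((shortInt a b).map (Int.castRingHom ℂ)).Δ ≠ 0 := by
    rw [hW, latCurve_Δ]
    exact FA.Summary.lattice_discriminant_ne_zero L
  refine ⟨{
    A := (a : 𝓞 K)
    B := (b : 𝓞 K)
    hell := ?_
    φ := φ
    L := L
    Ω := Ω
    hL := ?_
    mem_lattice := fun x => ?_ }, ?_, hφ⟩
  · refine ⟨isUnit_iff_ne_zero.mpr fun e => hell ?_⟩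
    rw [← shortInt_map, WeierstrassCurve.map_map, map_Δ] at e
    rw [map_Δ, eq_intCast] at *
    rw [Int.cast_eq_zero] at e
    rw [e, Int.cast_zero]
  · rw [← hW, shortInt_map]
    ext <;> simp
  · have hx : ∀ r : 𝓞 K, φ (algebraMap K (AlgebraicClosure K) (r : K)) = ψ (r : K) := fun r => by
      rw [← hφ]; rfl
    simp only [hx]
    rw [hlat]
    constructor
    · rintro ⟨i, j, rfl⟩
      refine ⟨(i : 𝓞 K) + (j : 𝓞 K) * w, ?_⟩
      simp only [map_add, map_mul, map_intCast, hw]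
      ring
    · rintro ⟨r, rfl⟩
      obtain ⟨i, j, e⟩ := FA.FieldClassBound.exists_omega_coord Q.hK Q.hd Q.hd0 ht hψt r
      exact ⟨i, j, by rw [e]; ring⟩
  · exact (shortInt_map a b).symm

/-- The invariant of a short equation. -/
theorem short_j_identity {R : Type*} [Field R] [CharZero R] (a b : ℤ)
    [((shortInt a b).map (Int.castRingHom R)).IsElliptic] :
    6912 * (a : R) ^ 3 =
      ((shortInt a b).map (Int.castRingHom R)).j * (4 * (a : R) ^ 3 + 27 * (b : R) ^ 2) := by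
  set W := (shortInt a b).map (Int.castRingHom R) with hW
  have hc : W.c₄ = -48 * (a : R) := by
    simp [hW, shortInt, WeierstrassCurve.c₄, b₂, b₄]
    ring
  have hd : W.Δ = -16 * (4 * (a : R) ^ 3 + 27 * (b : R) ^ 2) := by
    simp [hW, shortInt, WeierstrassCurve.Δ, b₂, b₄, b₆, b₈]
    ring
  have hne : 4 * (a : R) ^ 3 + 27 * (b : R) ^ 2 ≠ 0 := fun e => W.isUnit_Δ.ne_zero (by
    rw [hd, e, mul_zero])
  have hm : -16 * (4 * (a : R) ^ 3 + 27 * (b : R) ^ 2) ≠ 0 := mul_ne_zero (by norm_num) hne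
  rw [WeierstrassCurve.j, Units.val_inv_eq_inv_val, coe_Δ', hc, hd, inv_mul_eq_div,
    div_mul_eq_mul_div, eq_div_iff hm]
  ring

/-- **A short integral equation.** -/
theorem exists_shortInt (E : WeierstrassCurve ℚ) [E.IsElliptic] :
    ∃ (a b : ℤ) (C : VariableChange ℚ),
      C • E = (shortInt a b).map (Int.castRingHom ℚ) := by
  set S := E.toShortNF • E with hS
  haveI : S.IsShortNF := E.toShortNF_spec
  set n : ℕ := S.a₄.den * S.a₆.den
  have hn : (n : ℚ) ≠ 0 := by simp [n]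
  obtain ⟨a, ha⟩ : ∃ a : ℤ, (a : ℚ) = (n : ℚ) ^ 4 * S.a₄ := by
    refine ⟨(S.a₄.den : ℤ) ^ 3 * (S.a₆.den : ℤ) ^ 4 * S.a₄.num, ?_⟩
    push_cast [n]
    linear_combination (-((S.a₄.den : ℚ) ^ 3 * (S.a₆.den : ℚ) ^ 4)) * Rat.mul_den_eq_num S.a₄
  obtain ⟨b, hb⟩ : ∃ b : ℤ, (b : ℚ) = (n : ℚ) ^ 6 * S.a₆ := by
    refine ⟨(S.a₄.den : ℤ) ^ 6 * (S.a₆.den : ℤ) ^ 5 * S.a₆.num, ?_⟩
    push_cast [n]
    linear_combination (-((S.a₄.den : ℚ) ^ 6 * (S.a₆.den : ℚ) ^ 5)) * Rat.mul_den_eq_num S.a₆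
  refine ⟨a, b, ⟨(Units.mk0 (n : ℚ) hn)⁻¹, 0, 0, 0⟩ * E.toShortNF, ?_⟩
  rw [mul_smul, ← hS, shortInt_map]
  ext <;>
    simp [variableChange_a₁, variableChange_a₂, variableChange_a₃, variableChange_a₄,
      variableChange_a₆, ha, hb]

end FA.CoatesWiles

end
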