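import Fermat.Agent.HasseBound.Euler
import Fermat.Agent.TraceNF.Place
import Fermat.Agent.Root.LFunctionBad

/-!
# Local factors over `ℚ`

The trace of Frobenius at a place of `ℚ` is that of the prime, the local polynomial at a good prime
is `1 - a T + p T²`, and no local polynomial vanishes at `1 / p`.
-/

set_option autoImplicit false
set_option linter.style.haveILetI false

noncomputable section

open WeierstrassCurve NumberField IsDedekindDomain
open Rat.HeightOneSpectrum (primesEquiv)
open FA.TraceNF (frobTrace)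
open FA.HasseBound (localPoly)
open scoped WeierstrassCurve.Affine Classical

namespace FA.CoatesWiles

/-- The residue field at a place of `ℚ`. -/
def residueRat (v : HeightOneSpectrum (𝓞 ℚ)) : 𝓞 ℚ ⧸ v.asIdeal ≃+* ZMod (primesEquiv v : ℕ) :=
  (Ideal.quotientEquiv v.asIdeal (Ideal.span {((primesEquiv v : ℕ) : ℤ)})
    (Rat.IsIntegralClosure.intEquiv (𝓞 ℚ))
      (Rat.HeightOneSpectrum.span_natGenerator v)).trans (Int.quotientSpanNatEquivZMod _)

theorem absNorm_rat (v : HeightOneSpectrum (𝓞 ℚ)) :
    Ideal.absNorm v.asIdeal = (primesEquiv v : ℕ) := by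
  rw [Ideal.absNorm_apply, Submodule.cardQuot_apply, Nat.card_congr (residueRat v).toEquiv,
    Nat.card_zmod]

/-- **The trace of Frobenius is that of the prime.** -/
theorem frobTrace_rat (W : WeierstrassCurve ℤ) (v : HeightOneSpectrum (𝓞 ℚ)) :
    frobTrace (W.map (Int.castRingHom (𝓞 ℚ))) v = W.apOfModel (primesEquiv v : ℕ) := by
  haveI := v.isMaximal
  letI := Ideal.Quotient.field v.asIdeal
  haveI : Fact (primesEquiv v : ℕ).Prime := ⟨(primesEquiv v).2⟩
  have h := FA.Root.natCard_point_map (residueRat v)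
    ((W.map (Int.castRingHom (𝓞 ℚ))).map (Ideal.Quotient.mk v.asIdeal))
  rw [WeierstrassCurve.map_map, WeierstrassCurve.map_map,
    RingHom.ext_int ((RingHom.comp _ (Ideal.Quotient.mk v.asIdeal)).comp
      (Int.castRingHom (𝓞 ℚ))) (Int.castRingHom (ZMod (primesEquiv v : ℕ)))] at h
  rw [frobTrace, absNorm_rat, WeierstrassCurve.apOfModel, WeierstrassCurve.traceOfFrobenius,
    WeierstrassCurve.card, WeierstrassCurve.reductionMod, Nat.card_zmod, h]

/-- **The local polynomial at a good prime.** -/
theorem localPoly_good {E : WeierstrassCurve ℚ} {W : WeierstrassCurve ℤ}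
    (hW : W.IsIntegralModelOf E) (v : HeightOneSpectrum (𝓞 ℚ))
    (hv : (W.map (Int.castRingHom (𝓞 ℚ))).Δ ∉ v.asIdeal) (x : ℂ) :
    (localPoly E (primesEquiv v)).aeval x =
      1 - (frobTrace (W.map (Int.castRingHom (𝓞 ℚ))) v : ℂ) * x +
        ((primesEquiv v : ℕ) : ℂ) * x ^ 2 := by
  have hgood : ¬ ((primesEquiv v : ℕ) : ℤ) ∣ W.Δ := fun hd => hv (by
    obtain ⟨c, hc⟩ := hd
    rw [map_Δ, eq_intCast, hc, Int.cast_mul, Int.cast_natCast]
    refine Ideal.mul_mem_right _ _ ?_
    rw [← absNorm_rat]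
    exact Ideal.absNorm_mem _)
  have key : ∀ w : HeightOneSpectrum (𝓞 ℚ), ¬ ((primesEquiv w : ℕ) : ℤ) ∣ W.Δ →
      (E.baseChange (w.adicCompletion ℚ)).localPolynomial (w.adicCompletionIntegers ℚ) =
        1 - Polynomial.C (W.apOfModel (primesEquiv w : ℕ)) * Polynomial.X +
          Polynomial.C ((primesEquiv w : ℕ) : ℤ) * Polynomial.X ^ 2 := fun w hw => by
    haveI : Fact (primesEquiv w : ℕ).Prime := ⟨(primesEquiv w).2⟩
    obtain ⟨C, hC⟩ := FA.Root.exists_completion_change hW w
    exact FA.Root.localPolynomial_of_good (FA.Root.residueEquivZMod w) W hw _ C hC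
  have e : ((primesEquiv (primesEquiv.symm (primesEquiv v) : HeightOneSpectrum (𝓞 ℚ))) : ℕ) =
      (primesEquiv v : ℕ) := by rw [Equiv.apply_symm_apply]
  have h := key (primesEquiv.symm (primesEquiv v)) (by rw [e]; exact hgood)
  rw [e] at h
  rw [localPoly, h, frobTrace_rat]
  simp

/-- **A local polynomial does not vanish at `1 / p`.** -/
theorem localPoly_inv_ne_zero (E : WeierstrassCurve ℚ) (p : Nat.Primes) :
    (localPoly E p).aeval (((p : ℕ) : ℂ)⁻¹) ≠ 0 := by
  set v : HeightOneSpectrum (𝓞 ℚ) := primesEquiv.symm p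
  have hcard : Nat.card (IsLocalRing.ResidueField (v.adicCompletionIntegers ℚ)) = (p : ℕ) := by
    rw [FA.Root.natCard_residueField]
    exact congrArg Subtype.val (primesEquiv.apply_symm_apply p)
  haveI : Finite (IsLocalRing.ResidueField (v.adicCompletionIntegers ℚ)) :=
    Nat.finite_of_card_ne_zero (by rw [hcard]; exact p.2.ne_zero)
  have hp : ((p : ℕ) : ℂ) ≠ 0 := Nat.cast_ne_zero.2 p.2.ne_zero
  have h2 : 2 ≤ (p : ℕ) := p.2.two_le
  show Polynomial.aeval _ ((E.baseChange (v.adicCompletion ℚ)).localPolynomial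
    (v.adicCompletionIntegers ℚ)) ≠ 0
  rw [WeierstrassCurve.localPolynomial]
  split_ifs
  · set n := Nat.card (((E.baseChange (v.adicCompletion ℚ)).minimal
      (v.adicCompletionIntegers ℚ)).reduction (v.adicCompletionIntegers ℚ)).toAffine.Point with hn
    have hpos : n ≠ 0 := by
      rw [hn]
      exact Nat.card_pos.ne'
    rw [hcard]
    simp only [map_add, map_sub, map_one, map_mul, map_pow, Polynomial.aeval_X, map_natCast]
    intro h
    refine hpos ?_
    field_simp at h
    have : (n : ℂ) = 0 := by linear_combination h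
    exact_mod_cast this
  · simp only [map_sub, map_one, Polynomial.aeval_X, sub_ne_zero]
    intro h
    rw [eq_comm, inv_eq_one] at h
    have : (p : ℕ) = 1 := by exact_mod_cast h
    omega
  · simp only [map_add, map_one, Polynomial.aeval_X]
    intro h
    field_simp at h
    have : ((p : ℕ) + 1 : ℕ) = 0 := by exact_mod_cast
      (by linear_combination h : ((p : ℕ) : ℂ) + 1 = 0)
    omega
  · simp

end FA.CoatesWiles

end
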