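import Fermat.Agent.CoatesWiles.RationalDatum
import Fermat.Agent.CoatesWiles.RationalLocal
import Fermat.Agent.CoatesWiles.LSum
import Fermat.Agent.CoatesWiles.Main
import Fermat.Agent.AlgebraicHeckeFE.Euler
import Fermat.Agent.DeuringCM.DescentLSeries

/-!
# The L-series over `ℚ` and the series of the character

At the primes prime to the modulus the Euler factor of the curve over `ℚ` is the product over the
places above it of the factors of the conjugate character, so the two series differ by finitely many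
entire factors and those of the curve do not vanish at `1`.
-/

set_option autoImplicit false
set_option linter.style.haveILetI false
set_option linter.unusedSectionVars false

noncomputable section

open WeierstrassCurve NumberField IsDedekindDomain
open Rat.HeightOneSpectrum (primesEquiv)
open FA.TraceNF (frobTrace)
open FA.DeuringCM (IQF conjPlace)
open FA.HasseBound (localPoly)
open FA.Hecke (coprimeIdeals)
open FA.Mazur.Wp (latCurve)
open scoped WeierstrassCurve.Affine nonZeroDivisors Pointwise Classical ComplexConjugate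

namespace FA.CoatesWiles

section euler

variable {K : Type} [Field K] [NumberField K] {D : CMDat K} {Q : IQF K} (G : Grossen D Q)

/-- **The Euler product of the series of the conjugate character.** -/
theorem Grossen.hasProd_conj {s : ℂ} (hs : 3 / 2 < s.re) :
    HasProd (fun v : HeightOneSpectrum (𝓞 K) =>
        (1 - conj (G.ψ v.asIdeal) * ((Ideal.absNorm v.asIdeal : ℕ) : ℂ) ^ (-s))⁻¹)
      (∑' I : coprimeIdeals (Ideal.span {(G.M : 𝓞 K)}),
        conj (G.ψ I.1.1) * ((Ideal.absNorm I.1.1 : ℕ) : ℂ) ^ (-s)) ∧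
      ∀ v : HeightOneSpectrum (𝓞 K),
        1 - conj (G.ψ v.asIdeal) * ((Ideal.absNorm v.asIdeal : ℕ) : ℂ) ^ (-s) ≠ 0 := by
  obtain ⟨L, hsum, hprod, hne⟩ := FA.AlgHeckeFE.hasProd_algChar G.algChar
    (Grossen.isPure_type (D := D) (Q := Q)) (s := conj s) (by
      rw [Complex.conj_re]; push_cast; linarith)
  have hterm : ∀ I : Ideal (𝓞 K),
      conj (G.ψ I * ((Ideal.absNorm I : ℕ) : ℂ) ^ (-conj s)) =
        conj (G.ψ I) * ((Ideal.absNorm I : ℕ) : ℂ) ^ (-s) := fun I => by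
    rw [_root_.map_mul, FA.AlgHeckeFE.conj_natCast_cpow, map_neg, Complex.conj_conj]
  have hfac : ∀ v : HeightOneSpectrum (𝓞 K),
      conj (1 - G.ψ v.asIdeal * ((Ideal.absNorm v.asIdeal : ℕ) : ℂ) ^ (-conj s)) =
        1 - conj (G.ψ v.asIdeal) * ((Ideal.absNorm v.asIdeal : ℕ) : ℂ) ^ (-s) := fun v => by
    rw [map_sub, map_one, hterm]
  refine ⟨?_, fun v h => hne v ?_⟩
  · have h := hprod.map (starRingEnd ℂ) Complex.continuous_conj
    simp only [Function.comp_def, map_inv₀, hfac] at h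
    have hsupp : Function.support (fun I : (Ideal (𝓞 K))⁰ =>
        conj (G.ψ I.1 * ((Ideal.absNorm I.1 : ℕ) : ℂ) ^ (-conj s))) ⊆
        (coprimeIdeals (Ideal.span {(G.M : 𝓞 K)}) : Set (Ideal (𝓞 K))⁰) := fun I hI => by
      by_contra h
      refine hI ?_
      show conj _ = 0
      rw [not_not.1 (fun e => h ((G.algChar.ne_zero_iff _ (nonZeroDivisors.coe_ne_zero I)).1 e)),
        zero_mul, map_zero]
    have hL : conj L = ∑' I : coprimeIdeals (Ideal.span {(G.M : 𝓞 K)}),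
        conj (G.ψ I.1.1) * ((Ideal.absNorm I.1.1 : ℕ) : ℂ) ^ (-s) :=
      ((hsum.map (starRingEnd ℂ) Complex.continuous_conj).tsum_eq.symm.trans
        (tsum_subtype_eq_of_support_subset hsupp).symm).trans (tsum_congr fun I => hterm I.1.1)
    rwa [← hL]
  · rw [← map_eq_zero (starRingEnd ℂ), hfac, h]

end euler

/-- The image of an integral equation. -/
theorem map_castRingHom {R S : Type*} [CommRing R] [CommRing S] (W : WeierstrassCurve ℤ)
    (f : R →+* S) : (W.map (Int.castRingHom R)).map f = W.map (Int.castRingHom S) := by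
  rw [WeierstrassCurve.map_map]
  exact congrArg W.map (RingHom.ext_int _ _)

variable {a b : ℤ}

/-- **Deuring's character below a quadratic extension**, in the form of fibres. -/
theorem exists_descended_fibres {F : Type} [Field F] [NumberField F]
    (W₀ : WeierstrassCurve (𝓞 F)) [(W₀.map (algebraMap (𝓞 F) F)).IsElliptic] (ψ : F →+* ℂ)
    {d : ℤ} (hd : Squarefree d) (hd0 : d < 0) (hnot : ¬ ∃ s : F, s ^ 2 = (d : F))
    (hcm : ∃ L : PeriodPair, L.g₂ = ψ (W₀.map (algebraMap (𝓞 F) F)).c₄ / 12 ∧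
      L.g₃ = ψ (W₀.map (algebraMap (𝓞 F) F)).c₆ / 216 ∧
      ∃ ω : ℂ, (∀ m : ℤ, ω ≠ m) ∧ (∀ l ∈ L.lattice, ω * l ∈ L.lattice) ∧
        ∃ x y : ℚ, (ω - (x : ℂ)) ^ 2 = (d : ℂ) * (y : ℂ) ^ 2) :
    ∃ (E : IntermediateField F (AlgebraicClosure F)) (_ : NumberField E) (s : E) (ψ' : E →+* ℂ)
      (𝔣 : Ideal (𝓞 E)) (f : Ideal (𝓞 E) →* ℂ)
      (t : HeightOneSpectrum (𝓞 F) → Finset (HeightOneSpectrum (𝓞 E))),
      Module.finrank F E = 2 ∧ s ^ 2 = (d : E) ∧
      FA.AlgHecke.IsAlgChar 𝔣 (fun σ => if σ s = ψ' s then 1 else 0) f ∧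
      (∀ v w, w ∈ t v ↔ w.under (𝓞 F) = v) ∧
      (∀ v, ∀ w ∈ t v, ∀ m : ℕ, (m : 𝓞 F) ∈ v.asIdeal ↔ (m : 𝓞 E) ∈ w.asIdeal) ∧
      (∀ v, ∀ w ∈ t v,
        W₀.Δ ∈ v.asIdeal ↔ (W₀.map (algebraMap (𝓞 F) (𝓞 E))).Δ ∈ w.asIdeal) ∧
      (∀ w : HeightOneSpectrum (𝓞 E),
        (W₀.map (algebraMap (𝓞 F) (𝓞 E))).Δ ∉ w.asIdeal → w.asIdeal ⊔ 𝔣 = ⊤ ∧
          ((Ideal.absNorm w.asIdeal).Prime →
            f w.asIdeal + conj (f w.asIdeal) =
              frobTrace (W₀.map (algebraMap (𝓞 F) (𝓞 E))) w ∧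
            f w.asIdeal * conj (f w.asIdeal) = (Ideal.absNorm w.asIdeal : ℂ))) ∧
      ∀ v, W₀.Δ ∉ v.asIdeal → ∀ z : ℂ,
        ∏ w ∈ t v, (1 - conj (f w.asIdeal) * ((Ideal.absNorm w.asIdeal : ℕ) : ℂ) ^ (-z)) =
          1 - (frobTrace W₀ v : ℂ) * ((Ideal.absNorm v.asIdeal : ℕ) : ℂ) ^ (-z) +
            ((Ideal.absNorm v.asIdeal : ℕ) : ℂ) *
              (((Ideal.absNorm v.asIdeal : ℕ) : ℂ) ^ (-z)) ^ 2 := by
  obtain ⟨E, instE, τ, s, ψ', 𝔣, f, hdeg, hgal, hτ, hs, -, hf, -, -, hsymm, hv⟩ :=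
    FA.DeuringCM.exists_descended_char W₀ ψ hd hd0 hnot hcm
  have hΔ : ∀ (v : HeightOneSpectrum (𝓞 F)) (w : HeightOneSpectrum (𝓞 E)),
      w.asIdeal.under (𝓞 F) = v.asIdeal →
        (W₀.Δ ∈ v.asIdeal ↔ (W₀.map (algebraMap (𝓞 F) (𝓞 E))).Δ ∈ w.asIdeal) := fun v w h => by
    rw [map_Δ, ← h, Ideal.mem_comap]
  have hfib : ∀ v : HeightOneSpectrum (𝓞 F), ∃ t : Finset (HeightOneSpectrum (𝓞 E)),
      (∀ w, w ∈ t ↔ w.under (𝓞 F) = v) ∧ (W₀.Δ ∉ v.asIdeal → ∀ z : ℂ,
        ∏ w ∈ t, (1 - conj (f w.asIdeal) * ((Ideal.absNorm w.asIdeal : ℕ) : ℂ) ^ (-z)) =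
          1 - (frobTrace W₀ v : ℂ) * ((Ideal.absNorm v.asIdeal : ℕ) : ℂ) ^ (-z) +
            ((Ideal.absNorm v.asIdeal : ℕ) : ℂ) *
              (((Ideal.absNorm v.asIdeal : ℕ) : ℂ) ^ (-z)) ^ 2) := fun v => by
    obtain ⟨w, hw, hcase⟩ := FA.DeuringCM.fibre_cases hdeg hτ v
    rcases hcase with ⟨hfix, -, hmem⟩ | ⟨hmove, -, hmem⟩
    · refine ⟨_, hmem, fun hg z => ?_⟩
      obtain ⟨-, ⟨h', -⟩ | ⟨-, hN, ha, hu0⟩⟩ := hv v hg w hw
      · exact absurd hfix h'
      rw [Finset.prod_singleton, hu0, hN, FA.DeuringCM.natCast_sq_cpow, ha, map_neg,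
        Complex.conj_natCast]
      push_cast
      ring
    · refine ⟨_, hmem, fun hg z => ?_⟩
      obtain ⟨-, ⟨-, hN, h1, h2⟩ | ⟨h', -⟩⟩ := hv v hg w hw
      swap
      · exact absurd h' hmove
      rw [Finset.prod_pair (fun h => hmove (congrArg HeightOneSpectrum.asIdeal h).symm),
        FA.DeuringCM.conjPlace_asIdeal, FA.DeuringCM.absNorm_smul, hsymm, Complex.conj_conj, hN,
        ← h1]
      linear_combination (((Ideal.absNorm v.asIdeal : ℕ) : ℂ) ^ (-z)) ^ 2 * h2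
  choose t ht hval using hfib
  refine ⟨E, instE, s, ψ', 𝔣, f, t, hdeg, hs, hf, ht, fun v w hw m => ?_,
    fun v w hw => hΔ v w (congrArg HeightOneSpectrum.asIdeal ((ht v w).1 hw)), fun w hw => ?_,
    hval⟩
  · rw [← (ht v w).1 hw]
    show (m : 𝓞 F) ∈ w.asIdeal.under (𝓞 F) ↔ _
    rw [Ideal.mem_comap, map_natCast]
  · obtain ⟨hc, hcase⟩ := hv (w.under (𝓞 F)) (fun h => hw ((hΔ _ w rfl).1 h)) w rfl
    refine ⟨hc, fun hq => ?_⟩
    rcases hcase with ⟨-, hN, h1, h2⟩ | ⟨-, hN, -⟩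
    · exact ⟨by rw [FA.DeuringCM.frobTrace_of_absNorm_eq W₀
        (v := w.under (𝓞 F)) (w := w) rfl hN, h1], by rw [hN, h2]⟩
    · rw [hN] at hq
      exact absurd hq (Nat.Prime.not_prime_pow le_rfl)

/-- **The character at the places prime to the modulus.** -/
theorem exists_compare {d : ℤ} (hd : Squarefree d) (hd0 : d < 0) {L : PeriodPair} {Ω : ℂ}
    (hW : (shortInt a b).map (Int.castRingHom ℂ) = latCurve L)
    (hlat : ∀ x : ℂ, x ∈ L.lattice ↔
      ∃ i j : ℤ, x = Ω * ((i : ℂ) + (j : ℂ) * FA.CMFields.omega (FA.FieldClassBound.discK d))) :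
    ∃ (K : Type) (_ : Field K) (_ : NumberField K) (_ : Algebra ℚ K) (D : CMDat K) (Q : IQF K)
      (G : Grossen D Q) (t : HeightOneSpectrum (𝓞 ℚ) → Finset (HeightOneSpectrum (𝓞 K))),
      D.W₀ = (shortInt a b).map (Int.castRingHom (𝓞 K)) ∧
      (∀ v w, w ∈ t v ↔ w.under (𝓞 ℚ) = v) ∧
      ∀ v : HeightOneSpectrum (𝓞 ℚ),
        (G.M : 𝓞 ℚ) ∉ v.asIdeal → ((shortInt a b).map (Int.castRingHom (𝓞 ℚ))).Δ ∉ v.asIdeal →
        ∀ z : ℂ, ∏ w ∈ t v, (1 - conj (G.ψ w.asIdeal) *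
            ((Ideal.absNorm w.asIdeal : ℕ) : ℂ) ^ (-z)) =
          1 - (frobTrace ((shortInt a b).map (Int.castRingHom (𝓞 ℚ))) v : ℂ) *
              ((primesEquiv v : ℕ) : ℂ) ^ (-z) +
            ((primesEquiv v : ℕ) : ℂ) * (((primesEquiv v : ℕ) : ℂ) ^ (-z)) ^ 2 := by
  set W₀ := (shortInt a b).map (Int.castRingHom (𝓞 ℚ)) with hW₀
  have hWQ : W₀.map (algebraMap (𝓞 ℚ) ℚ) = (shortInt a b).map (Int.castRingHom ℚ) :=
    map_castRingHom _ _
  have hΔC : ((shortInt a b).Δ : ℂ) ≠ 0 := by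
    rw [show ((shortInt a b).Δ : ℂ) = ((shortInt a b).map (Int.castRingHom ℂ)).Δ by
      rw [map_Δ, eq_intCast], hW, FA.Mazur.Wp.latCurve_Δ]
    exact FA.Summary.lattice_discriminant_ne_zero L
  haveI : (W₀.map (algebraMap (𝓞 ℚ) ℚ)).IsElliptic := ⟨isUnit_iff_ne_zero.mpr (by
    rw [hWQ, map_Δ, eq_intCast, Int.cast_ne_zero]
    exact fun e => hΔC (by rw [e, Int.cast_zero]))⟩
  have hnot : ¬ ∃ r : ℚ, r ^ 2 = (d : ℚ) := fun ⟨r, hr⟩ => by
    have : (d : ℚ) < 0 := by exact_mod_cast hd0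
    nlinarith [sq_nonneg r]
  have hcm : ∃ L : PeriodPair, L.g₂ = (Rat.castHom ℂ) (W₀.map (algebraMap (𝓞 ℚ) ℚ)).c₄ / 12 ∧
      L.g₃ = (Rat.castHom ℂ) (W₀.map (algebraMap (𝓞 ℚ) ℚ)).c₆ / 216 ∧
      ∃ ω : ℂ, (∀ m : ℤ, ω ≠ m) ∧ (∀ l ∈ L.lattice, ω * l ∈ L.lattice) ∧
        ∃ x y : ℚ, (ω - (x : ℂ)) ^ 2 = (d : ℂ) * (y : ℂ) ^ 2 := by
    refine ⟨L, ?_, ?_, cm_of_lattice hd0 hlat⟩
    · rw [← map_c₄, hWQ, map_castRingHom, hW, FA.Mazur.Wp.latCurve_c₄]
      ring
    · rw [← map_c₆, hWQ, map_castRingHom, hW, FA.Mazur.Wp.latCurve_c₆]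
      ring
  obtain ⟨E, instE, s, ψ', 𝔣, f, t, hdeg, hs, hf, ht, hnat, hΔ, hone, hval⟩ :=
    exists_descended_fibres W₀ (Rat.castHom ℂ) hd hd0 hnot hcm
  let Q : IQF E := ⟨d, s, hd, hd0, hs, by convert hdeg⟩
  obtain ⟨D, hD, hemb⟩ := exists_cmDat Q ψ' hW hlat
  obtain ⟨G⟩ := exists_grossen D Q
  have hG := G.algChar
  rw [hemb] at hG
  rw [hW₀, map_castRingHom, ← hD] at hΔ hone
  have hfin : {w : HeightOneSpectrum (𝓞 E) | (G.M : 𝓞 E) ∈ w.asIdeal}.Finite :=
    (Ideal.finite_factors (show Ideal.span {(G.M : 𝓞 E)} ≠ ⊥ by simp [G.M_ne])).subset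
      fun w hw => Ideal.dvd_span_singleton.mpr hw
  have heq : ∀ w : HeightOneSpectrum (𝓞 E), (G.M : 𝓞 E) ∉ w.asIdeal →
      G.ψ w.asIdeal = f w.asIdeal := fun w hw => by
    refine (FA.DeuringCM.eq_of_traces hf hG (frobTrace D.W₀) hfin (fun u hu hq => ?_)
      (hone w (G.coprime_M w hw).1).1
      (FA.DeuringCM.sup_eq_top w fun h => hw ((Ideal.span_singleton_le_iff_mem _).1 h))).symm
    obtain ⟨π, hπ⟩ := G.exists_frobElt hq hu
    obtain ⟨h1, h2⟩ := (hone u hπ.Δ_notMem).2 hq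
    refine ⟨fun hdvd => ?_, h1, h2, ?_, ?_⟩
    · have hmem : ((frobTrace D.W₀ u : ℤ) : 𝓞 E) ∈ u.asIdeal := by
        obtain ⟨c, hc⟩ := hdvd
        rw [hc, Int.cast_mul, Int.cast_natCast]
        exact Ideal.mul_mem_right _ _ (Ideal.absNorm_mem _)
      refine hπ.conj_notMem ?_
      have e : Q.conj π = ((frobTrace D.W₀ u : ℤ) : 𝓞 E) - π := by
        rw [← hπ.tr_eq, IQF.tr, add_sub_cancel_left]
      rw [e]
      exact sub_mem hmem hπ.mem
    · rw [G.frob u π hπ hu]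
      have e := congrArg (fun z : 𝓞 E => D.emb (z : E)) hπ.tr_eq
      simp only [IQF.tr, map_add, map_intCast, Q.map_conj] at e
      exact e
    · rw [G.frob u π hπ hu]
      have e := congrArg (fun z : 𝓞 E => D.emb (z : E)) hπ.mul_conj
      simp only [map_mul, map_natCast, Q.map_conj] at e
      exact e
  refine ⟨E, inferInstance, instE, _, D, Q, G, t, hD, ht, fun v hMv hΔv z => ?_⟩
  rw [← absNorm_rat, ← hval v hΔv z]
  exact Finset.prod_congr rfl fun w hw => by rw [heq w fun h => hMv ((hnat v w hw _).2 h)]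

/-- **A point of infinite order makes the continuation of the L-series vanish at `1`.** -/
theorem lSeries_continuation_eq_zero {d : ℤ} (hd : Squarefree d) (hd0 : d < 0) {L : PeriodPair}
    {Ω : ℂ} (hW : (shortInt a b).map (Int.castRingHom ℂ) = latCurve L)
    (hlat : ∀ x : ℂ, x ∈ L.lattice ↔
      ∃ i j : ℤ, x = Ω * ((i : ℂ) + (j : ℂ) * FA.CMFields.omega (FA.FieldClassBound.discK d)))
    {E : WeierstrassCurve ℚ} (hE : (shortInt a b).IsIntegralModelOf E)
    (P : ((shortInt a b).map (Int.castRingHom ℚ)).toAffine.Point)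
    (hP : ∀ m : ℕ, m ≠ 0 → m • P ≠ 0) {g : ℂ → ℂ} (hg : Differentiable ℂ g)
    (hgE : ∀ s : ℂ, 3 / 2 < s.re → g s = E.LSeries s) : g 1 = 0 := by
  obtain ⟨K, _, _, _, D, Q, G, t, hD, ht, hval⟩ := exists_compare hd hd0 hW hlat
  obtain ⟨Lc, hLc, hLs⟩ := G.exists_continuation
  -- the point over `K`
  have hWK : ((shortInt a b).map (Int.castRingHom ℚ)).toAffine.map
      (algebraMap ℚ (AlgebraicClosure K)) = (D.W.baseChange (AlgebraicClosure K)).toAffine := by
    show ((shortInt a b).map (Int.castRingHom ℚ)).map _ = D.W.baseChange _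
    rw [WeierstrassCurve.baseChange, map_castRingHom]
    show _ = (D.W₀.map (algebraMap (𝓞 K) K)).map _
    rw [hD, map_castRingHom, map_castRingHom]
  set up := FA.Frob.mapHom (algebraMap ℚ (AlgebraicClosure K))
    (W := ((shortInt a b).map (Int.castRingHom ℚ)).toAffine)
    (W' := (D.W.baseChange (AlgebraicClosure K)).toAffine) hWK
  have hzero : Lc 1 = 0 := lValue_eq_zero G (S₀ := up P) (fun σ => ?_)
    (fun m hm h => hP m hm ?_) hLc.differentiableOn fun s hs => hLs s (by linarith)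
  rotate_left
  · rcases P with _ | ⟨x, y, h⟩
    · exact smul_zero (A := D.Pt) σ
    · show σ • (Affine.Point.some (algebraMap ℚ (AlgebraicClosure K) x)
        (algebraMap ℚ (AlgebraicClosure K) y) _ : D.Pt) = Affine.Point.some _ _ _
      simp only [Affine.Point.algEquiv_smul_def, Affine.Point.map_some, Affine.Point.some.injEq]
      exact ⟨(σ.toAlgHom.restrictScalars ℚ).commutes x, (σ.toAlgHom.restrictScalars ℚ).commutes y⟩
  · refine FA.Frob.mapHom_injective (algebraMap ℚ (AlgebraicClosure K))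
      (W := ((shortInt a b).map (Int.castRingHom ℚ)).toAffine)
      (W' := (D.W.baseChange (AlgebraicClosure K)).toAffine) hWK ?_
    rw [map_nsmul, map_zero]
    exact h
  -- the two products
  set W₀ := (shortInt a b).map (Int.castRingHom (𝓞 ℚ)) with hW₀
  set S : Set (HeightOneSpectrum (𝓞 ℚ)) :=
    {v | (G.M : 𝓞 ℚ) ∈ v.asIdeal} ∪ {v | W₀.Δ ∈ v.asIdeal}
  have hΔ0 : W₀.Δ ≠ 0 := fun e => FA.Summary.lattice_discriminant_ne_zero L (by
    rw [← FA.Mazur.Wp.latCurve_Δ, ← hW, ← map_castRingHom _ ((algebraMap ℚ ℂ).comp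
      (algebraMap (𝓞 ℚ) ℚ)), ← hW₀, map_Δ, e, map_zero])
  have hS : S.Finite :=
    ((Ideal.finite_factors (show Ideal.span {(G.M : 𝓞 ℚ)} ≠ ⊥ by simp [G.M_ne])).subset
      fun v hv => Ideal.dvd_span_singleton.mpr hv).union
      ((Ideal.finite_factors (show Ideal.span {W₀.Δ} ≠ ⊥ by simpa using hΔ0)).subset
        fun v hv => Ideal.dvd_span_singleton.mpr hv)
  let A : HeightOneSpectrum (𝓞 ℚ) → ℂ → ℂ := fun v s =>
    (localPoly E (primesEquiv v)).aeval (((primesEquiv v : ℕ) : ℂ) ^ (-s))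
  let B : HeightOneSpectrum (𝓞 ℚ) → ℂ → ℂ := fun v s =>
    ∏ w ∈ t v, (1 - conj (G.ψ w.asIdeal) * ((Ideal.absNorm w.asIdeal : ℕ) : ℂ) ^ (-s))
  have hAB : ∀ v ∉ S, ∀ s, A v s = B v s := fun v hv s => by
    simp only [S, Set.mem_union, Set.mem_ofPred_eq, not_or] at hv
    exact (localPoly_good hE v hv.2 _).trans (hval v hv.1 hv.2 s).symm
  have hid : ∀ s : ℂ, 3 / 2 < s.re →
      g s * ∏ v ∈ hS.toFinset, A v s = Lc s * ∏ v ∈ hS.toFinset, B v s := fun s hs => by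
    obtain ⟨hp, hne⟩ := G.hasProd_conj hs
    have hpB : HasProd (fun v => (B v s)⁻¹) (Lc s) := by
      rw [hLs s hs]
      refine FA.DeuringCM.hasProd_fibres hp fun v => ⟨t v, ht v, ?_⟩
      rw [Finset.prod_inv_distrib]
    have hpA : HasProd (fun v => (A v s)⁻¹) (E.LSeries s) :=
      ((primesEquiv (R := 𝓞 ℚ)).hasProd_iff
        (f := fun p : Nat.Primes => ((localPoly E p).aeval (((p : ℕ) : ℂ) ^ (-s)))⁻¹)).2
        (FA.Summary.lSeries_eulerProduct E hs)
    have hA0 : ∀ v, A v s ≠ 0 := fun v =>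
      right_ne_zero_of_mul_eq_one (FA.HasseBound.tsum_primePow_mul E hs (primesEquiv v))
    have hB0 : ∀ v, B v s ≠ 0 := fun v => Finset.prod_ne_zero_iff.2 fun w _ => hne w
    have hcA : HasProd (fun v => if v ∈ hS.toFinset then A v s else 1)
        (∏ v ∈ hS.toFinset, A v s) := by
      have := hasProd_prod_of_ne_finset_one (L := SummationFilter.unconditional _)
        (s := hS.toFinset)
        (f := fun v => if v ∈ hS.toFinset then A v s else 1) fun v hv => if_neg hv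
      rwa [Finset.prod_congr rfl fun v hv => if_pos hv] at this
    have hcB : HasProd (fun v => if v ∈ hS.toFinset then B v s else 1)
        (∏ v ∈ hS.toFinset, B v s) := by
      have := hasProd_prod_of_ne_finset_one (L := SummationFilter.unconditional _)
        (s := hS.toFinset)
        (f := fun v => if v ∈ hS.toFinset then B v s else 1) fun v hv => if_neg hv
      rwa [Finset.prod_congr rfl fun v hv => if_pos hv] at this
    have e : (fun v => (A v s)⁻¹ * if v ∈ hS.toFinset then A v s else 1) =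
        fun v => (B v s)⁻¹ * if v ∈ hS.toFinset then B v s else 1 := funext fun v => by
      by_cases hv : v ∈ hS.toFinset
      · rw [if_pos hv, if_pos hv, inv_mul_cancel₀ (hA0 v), inv_mul_cancel₀ (hB0 v)]
      · rw [if_neg hv, if_neg hv, hAB v (fun h => hv (hS.mem_toFinset.2 h)) s]
    have hprod := hpA.mul hcA
    rw [e] at hprod
    rw [hgE s hs]
    exact hprod.unique (hpB.mul hcB)
  -- the identity at `1`
  have hcpow : ∀ n : ℕ, n ≠ 0 → Differentiable ℂ fun s : ℂ => (n : ℂ) ^ (-s) := fun n hn =>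
    differentiable_id.neg.const_cpow (Or.inl (Nat.cast_ne_zero.2 hn))
  have hA : Differentiable ℂ fun s => g s * ∏ v ∈ hS.toFinset, A v s :=
    hg.mul (Differentiable.fun_finsetProd fun v _ =>
      (Polynomial.differentiable_aeval _).comp (hcpow _ (primesEquiv v).2.ne_zero))
  have hB : Differentiable ℂ fun s => Lc s * ∏ v ∈ hS.toFinset, B v s :=
    hLc.mul (Differentiable.fun_finsetProd fun v _ => Differentiable.fun_finsetProd fun w _ =>
      ((hcpow _ fun h => w.ne_bot (Ideal.absNorm_eq_zero_iff.1 h)).const_mul _).const_sub _)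
  have h2 : (fun s => g s * ∏ v ∈ hS.toFinset, A v s) =ᶠ[nhds (3 : ℂ)]
      fun s => Lc s * ∏ v ∈ hS.toFinset, B v s := by
    filter_upwards [(isOpen_lt continuous_const Complex.continuous_re).mem_nhds
      (show (3 / 2 : ℝ) < (3 : ℂ).re by norm_num)] with s hs using hid s hs
  have h1 := congrFun (AnalyticOnNhd.eq_of_eventuallyEq (fun z _ => hA.analyticAt z)
    (fun z _ => hB.analyticAt z) h2) 1
  rw [hzero, zero_mul, mul_eq_zero] at h1
  refine h1.resolve_right (Finset.prod_ne_zero_iff.2 fun v _ => ?_)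
  show (localPoly E (primesEquiv v)).aeval (((primesEquiv v : ℕ) : ℂ) ^ (-(1 : ℂ))) ≠ 0
  rw [Complex.cpow_neg_one]
  exact localPoly_inv_ne_zero E _

end FA.CoatesWiles

end
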