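import Fermat.Agent.CoatesWiles.Place
import Fermat.Agent.HasseBound.FiniteField
import Fermat.Agent.DeuringCM.Quadratic

/-!
# The multipliers on the reduced curve

Every multiplier descends to an endomorphism of the reduced curve which is given by rational
functions outside a finite set; two such endomorphisms agreeing at infinitely many points are equal.
-/

set_option autoImplicit false
set_option linter.style.haveILetI false
set_option linter.unusedSectionVars false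

noncomputable section

open WeierstrassCurve NumberField IsDedekindDomain FA.IsogenyNF FA.Frob Filter
open FA.ClassNumberOne (xP yP)
open FA.EC (xc eq_or_eq_neg_of_xc_eq xc_some)
open scoped WeierstrassCurve.Affine Classical

namespace FA.CoatesWiles

section Rigid

variable {k : Type} [Field k] [IsAlgClosed k] (W : WeierstrassCurve k) [W.IsElliptic]

/-- **Rigidity**: an endomorphism given by rational functions with infinite kernel is zero. -/
theorem eq_zero_of_infinite_ker {Z : (WF W).toAffine.Point}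
    {g : W.toAffine.Point →+ W.toAffine.Point} (hZ : Spec W Z g)
    (h : {S | g S = 0}.Infinite) : g = 0 := by
  rcases Z with _ | ⟨X, Y, hXY⟩
  · exact eq_zero_of_eventually_const W (C₀ := 0) hZ
  obtain ⟨S, hS, hS'⟩ := (h.diff (eventually_cofinite.1 hZ)).nonempty
  simp only [Set.mem_ofPred_eq, not_not] at hS'
  rcases S with _ | ⟨x, y, hxy⟩
  · exact hS'.elim
  obtain ⟨-, -, h', he⟩ := hS'
  exact absurd ((he.symm.trans hS)) (Affine.Point.some_ne_zero h')

/-- A function vanishing at all but finitely many points is zero. -/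
theorem eq_zero_of_eventually_ev {z : FF W}
    (h : ∀ᶠ S : W.toAffine.Point in cofinite, ∀ x y hxy, S = .some x y hxy →
      ev W z x y = 0) : z = 0 := by
  by_contra hz
  have := infinite_point W
  obtain ⟨S, hS, hS0, hev⟩ := (h.and (eventually_point W (eventually_ev_ne_zero W hz))).exists
  obtain ⟨x, y, hxy, rfl⟩ := FA.EC.exists_some_of_ne_zero hS0
  rw [xc_some] at hev
  exact hev.2 y hxy.1 (hS x y hxy rfl)

/-- **An endomorphism with rational coordinates is given by a point over the function field.** -/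
theorem exists_spec_of_coords {X Y : FF W} {g : W.toAffine.Point →+ W.toAffine.Point}
    (h : ∀ᶠ S : W.toAffine.Point in cofinite, ∃ x y, ∃ hxy : W.toAffine.Nonsingular x y,
      S = .some x y hxy ∧ X ∈ regRing W x ∧ Y ∈ regRing W x ∧
        ∃ h', g S = .some (ev W X x y) (ev W Y x y) h') : ∃ Z, Spec W Z g := by
  let c : k → FF W := kEmb W
  have heq : Y ^ 2 + c W.a₁ * X * Y + c W.a₃ * Y -
      (X ^ 3 + c W.a₂ * X ^ 2 + c W.a₄ * X + c W.a₆) = 0 := by
    refine eq_zero_of_eventually_ev W (h.mono fun S hS x' y' hxy' e => ?_)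
    obtain ⟨x, y, hxy, rfl, hX, hY, h', -⟩ := hS
    obtain ⟨rfl, rfl⟩ := (Affine.Point.some.injEq ..).mp e
    let φ := evHom W x y hxy.1
    let cc : k → regRing W x := fun a => ⟨kEmb W a, kEmb_mem W a x⟩
    have hc : ∀ a, φ (cc a) = a := fun a => ev_kEmb W a x y
    let u : regRing W x := ⟨X, hX⟩
    let w : regRing W x := ⟨Y, hY⟩
    show φ (w ^ 2 + cc W.a₁ * u * w + cc W.a₃ * w -
      (u ^ 3 + cc W.a₂ * u ^ 2 + cc W.a₄ * u + cc W.a₆)) = 0
    simp only [map_add, map_sub, map_mul, map_pow, hc]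
    exact sub_eq_zero.2 ((Affine.equation_iff _ _).1 h'.1)
  have hns : (WF W).toAffine.Nonsingular X Y :=
    Affine.equation_iff_nonsingular.mp ((Affine.equation_iff _ _).2 (sub_eq_zero.1 heq))
  refine ⟨.some X Y hns, h.mono fun S hS => ?_⟩
  obtain ⟨x, y, hxy, rfl, hX, hY, h', he⟩ := hS
  exact ⟨hX, hY, h', he⟩

/-- The coordinates of `S - Q` as rational functions of `S`. -/
def trCoord (Q : W.toAffine.Point) : FF W × FF W :=
  match Q with
  | .zero => (tGen W, yGen W)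
  | .some x₀ y₀ _ =>
    let l := (yGen W - kEmb W (W.toAffine.negY x₀ y₀)) / (tGen W - kEmb W x₀)
    ((WF W).toAffine.addX (tGen W) (kEmb W x₀) l,
      (WF W).toAffine.addY (tGen W) (kEmb W x₀) (yGen W) l)

theorem tGen_ne_kEmb (c : k) : tGen W ≠ kEmb W c := fun h => by
  have h' : (algebraMap (RatFunc k) (FF W)) RatFunc.X =
      algebraMap (RatFunc k) (FF W) (RatFunc.C c) := h
  have h'' := congrArg RatFunc.num ((algebraMap (RatFunc k) (FF W)).injective h')
  rw [RatFunc.num_X, RatFunc.num_C] at h''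
  exact Polynomial.X_ne_C c h''

/-- Their values. -/
theorem eventually_trCoord (Q : W.toAffine.Point) :
    ∀ᶠ S : W.toAffine.Point in cofinite, ∃ x y, ∃ hxy : W.toAffine.Nonsingular x y,
      S = .some x y hxy ∧ (trCoord W Q).1 ∈ regRing W x ∧ (trCoord W Q).2 ∈ regRing W x ∧
        ∃ h', S - Q = .some (ev W (trCoord W Q).1 x y) (ev W (trCoord W Q).2 x y) h' := by
  rcases Q with _ | ⟨x₀, y₀, hQ⟩
  · filter_upwards [eventually_point W (p := fun _ => True) (.of_forall fun _ => trivial)]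
      with S hS
    obtain ⟨x, y, h, rfl⟩ := FA.EC.exists_some_of_ne_zero hS.1
    refine ⟨x, y, h, rfl, tGen_mem W x, yGen_mem W x, by simpa [trCoord, ev_tGen, ev_yGen] using h, ?_⟩
    simp [trCoord, ev_tGen, ev_yGen, ← Affine.Point.zero_def]
  set l := (yGen W - kEmb W (W.toAffine.negY x₀ y₀)) / (tGen W - kEmb W x₀) with hl
  have hd : tGen W - kEmb W x₀ ≠ 0 := sub_ne_zero.2 (tGen_ne_kEmb W x₀)
  filter_upwards [eventually_point W ((eventually_reg W l).and (eventually_cofinite_ne x₀))]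
    with S hS
  obtain ⟨x, y, h, rfl⟩ := FA.EC.exists_some_of_ne_zero hS.1
  rw [xc_some] at hS
  obtain ⟨hlr, hx⟩ := hS.2
  let φ := evHom W x y h.1
  let c : k → regRing W x := fun a => ⟨kEmb W a, kEmb_mem W a x⟩
  have hc : ∀ a, φ (c a) = a := fun a => ev_kEmb W a x y
  let t : regRing W x := ⟨tGen W, tGen_mem W x⟩
  let u : regRing W x := ⟨yGen W, yGen_mem W x⟩
  let L : regRing W x := ⟨l, hlr⟩
  have ht : φ t = x := ev_tGen W x y
  have hu : φ u = y := ev_yGen W x y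
  have hslope : φ L = W.toAffine.slope x x₀ y (W.toAffine.negY x₀ y₀) := by
    have e : L * (t - c x₀) = u - c (W.toAffine.negY x₀ y₀) :=
      Subtype.ext (div_mul_cancel₀ _ hd)
    have e' := congrArg φ e
    rw [map_mul, map_sub, map_sub, ht, hu, hc, hc] at e'
    rw [Affine.slope_of_X_ne hx, eq_div_iff (sub_ne_zero.2 hx)]
    exact e'
  set zX : regRing W x := L ^ 2 + c W.a₁ * L - c W.a₂ - t - c x₀
  set zY : regRing W x := -(L * (zX - t) + u) - c W.a₁ * zX - c W.a₃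
  have ezX : (trCoord W (.some x₀ y₀ hQ)).1 = zX.1 := rfl
  have ezY : (trCoord W (.some x₀ y₀ hQ)).2 = zY.1 := rfl
  have hne : ¬(x = x₀ ∧ y = W.toAffine.negY x₀ (W.toAffine.negY x₀ y₀)) := fun hh => hx hh.1
  have eX : φ zX = W.toAffine.addX x x₀ (φ L) := by
    simp only [zX, map_sub, map_add, map_mul, map_pow, hc, ht, Affine.addX]
  have eY : φ zY = W.toAffine.addY x x₀ y (φ L) := by
    simp only [zY, zX, map_sub, map_add, map_mul, map_pow, map_neg, hc, ht, hu, Affine.addY,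
      Affine.negAddY, Affine.negY, Affine.addX]
  have key : Affine.Point.some x y h - Affine.Point.some x₀ y₀ hQ =
      Affine.Point.some _ _ (Affine.nonsingular_add h ((Affine.nonsingular_neg ..).2 hQ) hne) := by
    rw [sub_eq_add_neg, Affine.Point.neg_some, Affine.Point.add_some hne]
  rw [ezX, ezY]
  have hX' : ev W zX.1 x y =
      W.toAffine.addX x x₀ (W.toAffine.slope x x₀ y (W.toAffine.negY x₀ y₀)) := by
    rw [← hslope]; exact eX
  have hY' : ev W zY.1 x y =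
      W.toAffine.addY x x₀ y (W.toAffine.slope x x₀ y (W.toAffine.negY x₀ y₀)) := by
    rw [← hslope]; exact eY
  refine ⟨x, y, h, rfl, zX.2, zY.2, ?_, ?_⟩
  · rw [hX', hY']; exact Affine.nonsingular_add h ((Affine.nonsingular_neg ..).2 hQ) hne
  · rw [key]
    simp only [Affine.Point.some.injEq]
    exact ⟨hX'.symm, hY'.symm⟩

end Rigid

namespace CMPlace

variable {K : Type} [Field K] [NumberField K] {D : CMDat K} (P : CMPlace D)

local notation "Kb" => AlgebraicClosure K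

/-- The residue map as a ring homomorphism on integral elements. -/
def res : P.R →+* Res P.R := IsLocalRing.residue P.R

theorem res_apply {x : Kb} (hx : x ∈ P.R) : P.res ⟨x, hx⟩ = resOf P.R x :=
  (resOf_coe P.R ⟨x, hx⟩).symm

/-- The multiplier descends, by rational functions. -/
def Descends (a : 𝓞 K) : Prop :=
  ∃ g : P.Wb.toAffine.Point →+ P.Wb.toAffine.Point,
    (∀ S, g (P.red S) = P.red (D.mulPt a S)) ∧ ∃ Z, Spec P.Wb Z g

theorem UnitMul.descends {a : 𝓞 K} (ha : P.UnitMul a) : P.Descends a := by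
  classical
  have hker : P.red.ker ≤ (P.red.comp (D.mulPt a)).ker := fun S hS => by
    rw [AddMonoidHom.mem_ker] at hS ⊢
    by_cases h0 : S = 0
    · simp [h0]
    · exact (ha.e1 hS h0).2.2
  set g := P.red.liftOfSurjective P.red_surjective ⟨P.red.comp (D.mulPt a), hker⟩
  have hg : ∀ S, g (P.red S) = P.red (D.mulPt a S) := fun S =>
    AddMonoidHom.liftOfRightInverse_comp_apply _ _ _ _ S
  refine ⟨g, hg, ?_⟩
  haveI := D.finite_kerPt ha.ne_zero
  let _ := Fintype.ofFinite (D.kerPt a)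
  set ab : Res P.R := resOf P.R (algebraMap K Kb (a : K)) with hab
  have haR : algebraMap K Kb (a : K) ∈ P.R := (P.R.valuation_le_one_iff _).1 (P.coe_le_one a)
  have hab0 : ab ≠ 0 := by
    rw [hab, resOf, dif_pos haR, Ne, IsLocalRing.residue_eq_zero_iff, IsLocalRing.mem_maximalIdeal,
      mem_nonunits_iff, not_not, ← valuation_eq_one_iff]
    exact P.coe_eq_one ha.notMem
  let S₁ : Finset (D.kerPt a) := Finset.univ.erase 0
  let X : FF P.Wb := (tGen P.Wb + ∑ Q ∈ S₁, ((trCoord P.Wb (P.red (Q : D.Pt))).1 -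
    kEmb P.Wb (resOf P.R (xP (Q : D.Pt))))) * kEmb P.Wb (ab ^ 2)⁻¹
  let Y : FF P.Wb := (yGen P.Wb + ∑ Q ∈ S₁, (trCoord P.Wb (P.red (Q : D.Pt))).2) *
    kEmb P.Wb (ab ^ 3)⁻¹
  refine exists_spec_of_coords P.Wb (X := X) (Y := Y) ?_
  have hG : ∀ᶠ S : P.Wb.toAffine.Point in cofinite, ∀ Q : D.kerPt a, S ≠ P.red (Q : D.Pt) :=
    eventually_all.2 fun Q => eventually_cofinite_ne _
  have htr : ∀ᶠ S : P.Wb.toAffine.Point in cofinite, ∀ Q ∈ S₁, ∃ x y,
      ∃ hxy : P.Wb.toAffine.Nonsingular x y, S = .some x y hxy ∧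
        (trCoord P.Wb (P.red (Q : D.Pt))).1 ∈ regRing P.Wb x ∧
        (trCoord P.Wb (P.red (Q : D.Pt))).2 ∈ regRing P.Wb x ∧
        ∃ h', S - P.red (Q : D.Pt) = .some (ev P.Wb (trCoord P.Wb (P.red (Q : D.Pt))).1 x y)
          (ev P.Wb (trCoord P.Wb (P.red (Q : D.Pt))).2 x y) h' :=
    (S₁.eventually_all).2 fun Q _ => eventually_trCoord P.Wb _
  filter_upwards [hG, htr] with Sb hGS htrS
  obtain ⟨S, rfl⟩ := P.red_surjective Sb
  have hS : P.red S ≠ 0 := fun h => hGS 0 (by rw [h, ZeroMemClass.coe_zero, map_zero])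
  obtain ⟨hxS, hyS, hS0, hns, hred⟩ := P.red_coord hS
  set x := resOf P.R (xP S) with hx
  set y := resOf P.R (yP S) with hy
  -- the translates
  have hsum : ∀ Q ∈ S₁, xP (S - (Q : D.Pt)) ∈ P.R ∧ xP (Q : D.Pt) ∈ P.R ∧
      yP (S - (Q : D.Pt)) ∈ P.R ∧
      ∃ (h1 : (trCoord P.Wb (P.red (Q : D.Pt))).1 ∈ regRing P.Wb x)
        (h2 : (trCoord P.Wb (P.red (Q : D.Pt))).2 ∈ regRing P.Wb x),
        ev P.Wb (trCoord P.Wb (P.red (Q : D.Pt))).1 x y = resOf P.R (xP (S - (Q : D.Pt))) ∧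
          ev P.Wb (trCoord P.Wb (P.red (Q : D.Pt))).2 x y = resOf P.R (yP (S - (Q : D.Pt))) := by
    intro Q hQ
    obtain ⟨x', y', hxy', e, h1, h2, h', ed⟩ := htrS Q hQ
    obtain ⟨rfl, rfl⟩ := (Affine.Point.some.injEq ..).mp (hred.symm.trans e)
    rw [← map_sub] at ed
    have hQ0 : P.red (Q : D.Pt) ≠ 0 := fun h => (Finset.ne_of_mem_erase hQ)
      (Subtype.ext (ha.red_injective (AddMonoidHom.mem_ker.1 Q.2) h))
    obtain ⟨a1, a2, -, h'', ed'⟩ := P.red_coord (S := S - (Q : D.Pt))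
      (fun h => hGS Q (by rwa [map_sub, sub_eq_zero] at h))
    obtain ⟨b1, b2⟩ := (Affine.Point.some.injEq ..).mp (ed.symm.trans ed')
    exact ⟨a1, (P.red_coord hQ0).1, a2, h1, h2, b1, b2⟩
  have hne : D.mulPt a S ≠ 0 := fun h =>
    hGS ⟨S, AddMonoidHom.mem_ker.2 h⟩ rfl
  obtain ⟨ex, ey⟩ := D.xy_mulPt ha.ne_zero hne
  rw [quotX, finsum_eq_sum_of_fintype,
    ← Finset.add_sum_erase _ _ (Finset.mem_univ (0 : D.kerPt a))] at ex
  rw [quotY, finsum_eq_sum_of_fintype,
    ← Finset.add_sum_erase _ _ (Finset.mem_univ (0 : D.kerPt a))] at ey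
  rw [ZeroMemClass.coe_zero, sub_zero, show xP (0 : D.Pt) = (0 : Kb) from rfl, sub_zero] at ex
  rw [ZeroMemClass.coe_zero, sub_zero] at ey
  have hX0 : ∑ Q ∈ S₁, (xP (S - (Q : D.Pt)) - xP (Q : D.Pt)) ∈ P.R :=
    sum_mem fun Q hQ => sub_mem (hsum Q hQ).1 (hsum Q hQ).2.1
  have hY0 : ∑ Q ∈ S₁, yP (S - (Q : D.Pt)) ∈ P.R := sum_mem fun Q hQ => (hsum Q hQ).2.2.1
  have hred' : P.red (D.mulPt a S) ≠ 0 := fun h => by
    have hbig := P.one_lt_xP h hne
    have e := congrArg P.R.valuation ex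
    rw [map_mul, map_pow, P.coe_eq_one ha.notMem, one_pow, mul_one] at e
    exact absurd ((P.R.valuation_le_one_iff _).2 (add_mem hxS hX0)) (not_le.2 (e ▸ hbig))
  obtain ⟨hxa, hya, -, hnsa, hreda⟩ := P.red_coord hred'
  let φ := evHom P.Wb x y hns.1
  let c : Res P.R → regRing P.Wb x := fun e => ⟨kEmb P.Wb e, kEmb_mem P.Wb e x⟩
  have hc : ∀ e, φ (c e) = e := fun e => ev_kEmb P.Wb e x y
  let T : regRing P.Wb x := ⟨tGen P.Wb, tGen_mem P.Wb x⟩
  let U : regRing P.Wb x := ⟨yGen P.Wb, yGen_mem P.Wb x⟩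
  let sX : regRing P.Wb x := ∑ Q ∈ S₁.attach, (⟨_, (hsum Q.1 Q.2).2.2.2.choose⟩ -
    c (resOf P.R (xP (Q.1 : D.Pt))))
  let sY : regRing P.Wb x :=
    ∑ Q ∈ S₁.attach, ⟨_, (hsum Q.1 Q.2).2.2.2.choose_spec.choose⟩
  let vX : regRing P.Wb x := (T + sX) * c (ab ^ 2)⁻¹
  let vY : regRing P.Wb x := (U + sY) * c (ab ^ 3)⁻¹
  have evX : (vX : FF P.Wb) = X := by
    simp only [vX, sX, X, Subring.coe_mul, Subring.coe_add, AddSubmonoidClass.coe_finsetSum,
      AddSubgroupClass.coe_sub, T, c]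
    rw [Finset.sum_attach S₁ fun Q => (trCoord P.Wb (P.red (Q : D.Pt))).1 -
      kEmb P.Wb (resOf P.R (xP (Q : D.Pt)))]
  have evY : (vY : FF P.Wb) = Y := by
    simp only [vY, sY, Y, Subring.coe_mul, Subring.coe_add, AddSubmonoidClass.coe_finsetSum, U, c]
    rw [Finset.sum_attach S₁ fun Q => (trCoord P.Wb (P.red (Q : D.Pt))).2]
  have key : φ vX = resOf P.R (xP (D.mulPt a S)) ∧ φ vY = resOf P.R (yP (D.mulPt a S)) := by
    have rX : φ sX = P.res ⟨_, hX0⟩ := by
      rw [show (⟨_, hX0⟩ : P.R) = ∑ Q ∈ S₁.attach,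
        ((⟨_, (hsum Q.1 Q.2).1⟩ : P.R) - ⟨_, (hsum Q.1 Q.2).2.1⟩) from Subtype.ext (by
          push_cast
          exact (Finset.sum_attach S₁ fun Q => xP (S - (Q : D.Pt)) - xP (Q : D.Pt)).symm)]
      simp only [sX, map_sum, map_sub, hc]
      refine Finset.sum_congr rfl fun Q _ => ?_
      rw [P.res_apply, P.res_apply]
      exact congrArg (· - _) (hsum Q.1 Q.2).2.2.2.choose_spec.choose_spec.1
    have rY : φ sY = P.res ⟨_, hY0⟩ := by
      rw [show (⟨_, hY0⟩ : P.R) = ∑ Q ∈ S₁.attach, (⟨_, (hsum Q.1 Q.2).2.2.1⟩ : P.R) from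
        Subtype.ext (by
          push_cast
          exact (Finset.sum_attach S₁ fun Q => yP (S - (Q : D.Pt))).symm)]
      simp only [sY, map_sum]
      refine Finset.sum_congr rfl fun Q _ => ?_
      rw [P.res_apply]
      exact (hsum Q.1 Q.2).2.2.2.choose_spec.choose_spec.2
    have e2 : P.res ⟨_, hxa⟩ * P.res ⟨_, haR⟩ ^ 2 = P.res ⟨_, hxS⟩ + P.res ⟨_, hX0⟩ := by
      rw [← map_pow, ← map_mul, ← map_add]
      exact congrArg P.res (Subtype.ext ex)
    have e3 : P.res ⟨_, hya⟩ * P.res ⟨_, haR⟩ ^ 3 = P.res ⟨_, hyS⟩ + P.res ⟨_, hY0⟩ := by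
      rw [← map_pow, ← map_mul, ← map_add]
      exact congrArg P.res (Subtype.ext ey)
    simp only [P.res_apply hxa, P.res_apply hya, P.res_apply haR, P.res_apply hxS,
      P.res_apply hyS, ← hab] at e2 e3
    constructor
    · rw [map_mul, map_add, hc, rX, show φ T = x from ev_tGen _ _ _, ← e2,
        mul_inv_cancel_right₀ (pow_ne_zero 2 hab0)]
    · rw [map_mul, map_add, hc, rY, show φ U = y from ev_yGen _ _ _, ← e3,
        mul_inv_cancel_right₀ (pow_ne_zero 3 hab0)]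
  refine ⟨x, y, hns, hred, evX ▸ vX.2, evY ▸ vY.2, ?_⟩
  have ex' : ev P.Wb X x y = resOf P.R (xP (D.mulPt a S)) := evX ▸ key.1
  have ey' : ev P.Wb Y x y = resOf P.R (yP (D.mulPt a S)) := evY ▸ key.2
  rw [hg, hreda, ex', ey']
  exact ⟨hnsa, rfl⟩

theorem Descends.sub {a b : 𝓞 K} (ha : P.Descends a) (hb : P.Descends b) :
    P.Descends (a - b) := by
  obtain ⟨g, hg, Z, hZ⟩ := ha
  obtain ⟨g', hg', Z', hZ'⟩ := hb
  exact ⟨g - g', fun S => by rw [AddMonoidHom.sub_apply, hg, hg', ← map_sub, ← D.mulPt_sub],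
    _, hZ.sub P.Wb hZ'⟩

theorem descends_intCast (m : ℤ) : P.Descends (m : 𝓞 K) :=
  ⟨m • AddMonoidHom.id _, fun S => by
    rw [AddMonoidHom.smul_apply, AddMonoidHom.id_apply, D.mulPt_intCast, map_zsmul],
    _, (spec_gen P.Wb).zsmul P.Wb m⟩

/-- **Every multiplier descends.** -/
theorem descends (Q : FA.DeuringCM.IQF K) (h2 : (2 : 𝓞 K) ∉ P.v.asIdeal) (a : 𝓞 K) :
    P.Descends a := by
  -- one of `a`, `a + 1`, `a + 2` is prime to the place with its conjugate
  obtain ⟨j, hj, hj'⟩ : ∃ j : ℕ, a + j ∉ P.v.asIdeal ∧ Q.conj a + j ∉ P.v.asIdeal := by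
    by_contra! hcon
    have hsub : ∀ x : 𝓞 K, ∀ i j : ℕ, x + i ∈ P.v.asIdeal → x + j ∈ P.v.asIdeal →
        (i : 𝓞 K) - j ∈ P.v.asIdeal := fun x i j hi hj => by
      rw [show (i : 𝓞 K) - j = (x + i) - (x + j) by ring]
      exact sub_mem hi hj
    have h1 : (1 : 𝓞 K) ∉ P.v.asIdeal := (Ideal.ne_top_iff_one _).1 P.v.isPrime.ne_top
    rcases Classical.em (a + (0 : ℕ) ∈ P.v.asIdeal) with h0 | h0 <;>
      rcases Classical.em (a + (1 : ℕ) ∈ P.v.asIdeal) with h1' | h1' <;>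
      rcases Classical.em (a + (2 : ℕ) ∈ P.v.asIdeal) with h2' | h2'
    · exact h1 (by simpa using hsub a 1 0 h1' h0)
    · exact h1 (by simpa using hsub a 1 0 h1' h0)
    · exact h2 (by simpa using hsub a 2 0 h2' h0)
    · exact h1 (by
        have h := hsub (Q.conj a) 2 1 (hcon 2 h2') (hcon 1 h1'); norm_num at h; exact h)
    · exact h1 (by have h := hsub a 2 1 h2' h1'; norm_num at h; exact h)
    · exact h2 (by simpa using hsub (Q.conj a) 2 0 (hcon 2 h2') (hcon 0 h0))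
    · exact h1 (by simpa using hsub (Q.conj a) 1 0 (hcon 1 h1') (hcon 0 h0))
    · exact h1 (by simpa using hsub (Q.conj a) 1 0 (hcon 1 h1') (hcon 0 h0))
  have hu : P.UnitMul (a + j) := by
    refine ⟨Ideal.absNorm (Ideal.span {a + j}), ?_,
      Ideal.mem_span_singleton.1 (Ideal.absNorm_mem _)⟩
    rw [← Q.mul_conj, map_add, map_natCast]
    exact fun h => (P.v.isPrime.mem_or_mem h).elim hj hj'
  simpa using hu.descends.sub P (P.descends_intCast (j : ℤ))

end CMPlace

end FA.CoatesWiles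

end
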