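import Fermat.Agent.IsogenyNF.CMStable

/-!
# Multiplication by the integers of an imaginary quadratic field

A short equation over `𝓞 K` with a uniformisation whose lattice is `Ω` times the image of `𝓞 K`.
The points over the algebraic closure are a module over `𝓞 K`, Galois acts linearly, and the torsion
is `K / 𝓞 K` by `k ↦ k Ω`. The coordinates of `a • P` are the Vélu sums over the kernel of `a`
divided by `a ^ 2` and `a ^ 3`.
-/

set_option autoImplicit false
set_option linter.style.haveILetI false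
set_option linter.unusedSectionVars false

noncomputable section

open WeierstrassCurve NumberField FA.Mazur.Wp FA.IsogenyNF
open FA.ClassNumberOne (xP yP xP_unif yP_unif)
open scoped WeierstrassCurve.Affine Classical

namespace FA.CoatesWiles

variable {K : Type} [Field K] [NumberField K]

/-- A curve `y² = x³ + A x + B` over `𝓞 K` uniformised by the lattice `Ω 𝓞 K`. -/
structure CMDat (K : Type) [Field K] [NumberField K] where
  /-- The coefficient of `x`. -/
  A : 𝓞 K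
  /-- The constant coefficient. -/
  B : 𝓞 K
  hell : ((⟨0, 0, 0, A, B⟩ : WeierstrassCurve (𝓞 K)).map (algebraMap (𝓞 K) K)).IsElliptic
  /-- The embedding of the algebraic closure. -/
  φ : AlgebraicClosure K →+* ℂ
  /-- The period lattice. -/
  L : PeriodPair
  /-- A generator of the lattice. -/
  Ω : ℂ
  hL : ((((⟨0, 0, 0, A, B⟩ : WeierstrassCurve (𝓞 K)).map (algebraMap (𝓞 K) K)).baseChange
    (AlgebraicClosure K)).map φ) = latCurve L
  mem_lattice : ∀ x : ℂ, x ∈ L.lattice ↔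
    ∃ a : 𝓞 K, x = φ (algebraMap K (AlgebraicClosure K) (a : K)) * Ω

namespace CMDat

variable (D : CMDat K)

/-- The equation over the integers. -/
abbrev W₀ : WeierstrassCurve (𝓞 K) := ⟨0, 0, 0, D.A, D.B⟩

/-- The curve. -/
abbrev W : WeierstrassCurve K := D.W₀.map (algebraMap (𝓞 K) K)

instance instIsElliptic : D.W.IsElliptic := D.hell

/-- The points over the algebraic closure. -/
abbrev Pt : Type := (D.W.toAffine⁄(AlgebraicClosure K)).Point

/-- The field as complex numbers. -/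
def emb : K →+* ℂ := D.φ.comp (algebraMap K (AlgebraicClosure K))

theorem mem_lattice' {x : ℂ} : x ∈ D.L.lattice ↔ ∃ a : 𝓞 K, x = D.emb (a : K) * D.Ω :=
  D.mem_lattice x

theorem stable (a : 𝓞 K) {l : ℂ} (hl : l ∈ D.L.lattice) : D.emb (a : K) * l ∈ D.L.lattice := by
  obtain ⟨b, rfl⟩ := D.mem_lattice'.1 hl
  exact D.mem_lattice'.2 ⟨a * b, by rw [← mul_assoc, ← map_mul]; rfl⟩

theorem Ω_ne_zero : D.Ω ≠ 0 := fun h => D.L.indep.ne_zero 0 (by
  obtain ⟨a, ha⟩ := D.mem_lattice'.1 D.L.ω₁_mem_lattice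
  rw [h, mul_zero] at ha
  exact ha)

/-- The points in the uniformisation. -/
abbrev toL : D.Pt →+ (latCurve D.L).toAffine.Point := toC D.W D.φ D.hL

theorem toL_injective : Function.Injective D.toL := FA.Frob.mapHom_injective D.φ D.hL

theorem exists_mul (a : 𝓞 K) : ∃ θ : D.Pt →+ D.Pt,
    (∀ P z, unif D.L z = D.toL P → D.toL (θ P) = unif D.L (D.emb (a : K) * z)) ∧
    ∀ (σ : AlgebraicClosure K ≃ₐ[K] AlgebraicClosure K) P, θ (σ • P) = σ • θ P := by
  by_cases hm : ∃ m : ℤ, D.emb (a : K) = m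
  · obtain ⟨m, hm⟩ := hm
    refine ⟨m • AddMonoidHom.id _, fun P z hz => ?_, fun σ P => ?_⟩
    · rw [hm, unif_int_mul, hz]
      exact map_zsmul D.toL m P
    · exact (smul_zsmul' σ m P).symm
  · push Not at hm
    obtain ⟨ω₀, θ, hω₀, hcomm, hθ⟩ := exists_endomorphism (W := D.W) (φ := D.φ) (L := D.L) D.hL
      hm fun l hl => D.stable a hl
    obtain rfl : ω₀ = algebraMap K (AlgebraicClosure K) (a : K) := D.φ.injective hω₀
    exact ⟨θ, hθ, fun σ P => hcomm σ (σ.commutes _) P⟩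

/-- Multiplication by an integer of `K`. -/
def mulPt (a : 𝓞 K) : D.Pt →+ D.Pt := (D.exists_mul a).choose

theorem toL_mulPt {a : 𝓞 K} {P : D.Pt} {z : ℂ} (hz : unif D.L z = D.toL P) :
    D.toL (D.mulPt a P) = unif D.L (D.emb (a : K) * z) :=
  (D.exists_mul a).choose_spec.1 P z hz

/-- **Galois acts linearly.** -/
theorem mulPt_smul (a : 𝓞 K) (σ : AlgebraicClosure K ≃ₐ[K] AlgebraicClosure K) (P : D.Pt) :
    D.mulPt a (σ • P) = σ • D.mulPt a P :=
  (D.exists_mul a).choose_spec.2 σ P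

theorem mulPt_add (a b : 𝓞 K) (P : D.Pt) : D.mulPt (a + b) P = D.mulPt a P + D.mulPt b P := by
  obtain ⟨z, hz⟩ := exists_preimage (hL := D.hL) P
  refine D.toL_injective ?_
  rw [map_add, D.toL_mulPt hz, D.toL_mulPt hz, D.toL_mulPt hz, ← unif_add]
  push_cast
  rw [map_add, add_mul]

theorem mulPt_mul (a b : 𝓞 K) (P : D.Pt) : D.mulPt (a * b) P = D.mulPt a (D.mulPt b P) := by
  obtain ⟨z, hz⟩ := exists_preimage (hL := D.hL) P
  refine D.toL_injective ?_
  rw [D.toL_mulPt hz, D.toL_mulPt (D.toL_mulPt hz).symm]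
  push_cast
  rw [map_mul, mul_assoc]

theorem mulPt_one (P : D.Pt) : D.mulPt 1 P = P := by
  obtain ⟨z, hz⟩ := exists_preimage (hL := D.hL) P
  refine D.toL_injective ?_
  rw [D.toL_mulPt hz]
  push_cast
  rw [map_one, one_mul, hz]

theorem mulPt_intCast (m : ℤ) (P : D.Pt) : D.mulPt (m : 𝓞 K) P = m • P := by
  obtain ⟨z, hz⟩ := exists_preimage (hL := D.hL) P
  refine D.toL_injective ?_
  rw [D.toL_mulPt hz, map_zsmul, ← hz, ← unif_int_mul]
  rw [show ((m : 𝓞 K) : K) = (m : K) from map_intCast (algebraMap (𝓞 K) K) m, map_intCast]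

theorem mulPt_natCast (m : ℕ) (P : D.Pt) : D.mulPt (m : 𝓞 K) P = m • P := by
  rw [← Int.cast_natCast, D.mulPt_intCast, natCast_zsmul]

theorem mulPt_zero (P : D.Pt) : D.mulPt 0 P = 0 := by
  rw [← Int.cast_zero, D.mulPt_intCast, zero_zsmul]

theorem mulPt_sub (a b : 𝓞 K) (P : D.Pt) : D.mulPt (a - b) P = D.mulPt a P - D.mulPt b P := by
  rw [eq_sub_iff_add_eq, ← D.mulPt_add, sub_add_cancel]

/-! ### The torsion -/

theorem exists_tor (k : K) : ∃ P : D.Pt, D.toL P = unif D.L (D.emb k * D.Ω) := by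
  obtain ⟨n, hn, hk⟩ : ∃ n : ℕ, n ≠ 0 ∧ IsIntegral ℤ ((n : K) * k) := by
    obtain ⟨m, hm0, hm⟩ := exists_integral_multiples (A := ℤ) (K := ℚ) (L := K) {k}
    refine ⟨m.natAbs, Int.natAbs_ne_zero.2 hm0, ?_⟩
    have h := hm k (Finset.mem_singleton_self k)
    rw [zsmul_eq_mul] at h
    rcases Int.natAbs_eq m with e | e <;> rw [e] at h
    · rwa [Int.cast_natCast] at h
    · rw [Int.cast_neg, Int.cast_natCast, neg_mul] at h
      simpa using h.neg
  obtain ⟨P, hP, -⟩ := exists_of_nsmul_eq_zero (hL := D.hL) hn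
    (Q := unif D.L (D.emb k * D.Ω)) (by
      rw [← natCast_zsmul, ← unif_int_mul, unif_eq_zero_iff, D.mem_lattice']
      refine ⟨⟨(n : K) * k, hk⟩, ?_⟩
      show _ = D.emb ((n : K) * k) * D.Ω
      rw [map_mul, map_natCast, Int.cast_natCast, mul_assoc])
  exact ⟨P, hP⟩

/-- The torsion point with parameter `k Ω`. -/
def tor : K →+ D.Pt :=
  AddMonoidHom.mk' (fun k => (D.exists_tor k).choose) fun j k => D.toL_injective <| by
    refine (D.exists_tor (j + k)).choose_spec.trans ?_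
    rw [map_add, map_add, (D.exists_tor j).choose_spec, (D.exists_tor k).choose_spec, ← unif_add,
      add_mul]

theorem toL_tor (k : K) : D.toL (D.tor k) = unif D.L (D.emb k * D.Ω) :=
  (D.exists_tor k).choose_spec

theorem tor_eq_zero_iff {k : K} : D.tor k = 0 ↔ ∃ a : 𝓞 K, k = a := by
  rw [← map_eq_zero_iff _ D.toL_injective, D.toL_tor, unif_eq_zero_iff, D.mem_lattice']
  exact exists_congr fun a => ⟨fun h => D.emb.injective (mul_right_cancel₀ D.Ω_ne_zero h),
    fun h => by rw [h]⟩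

theorem tor_coe (a : 𝓞 K) : D.tor (a : K) = 0 := D.tor_eq_zero_iff.2 ⟨a, rfl⟩

theorem mulPt_tor (a : 𝓞 K) (k : K) : D.mulPt a (D.tor k) = D.tor ((a : K) * k) := by
  refine D.toL_injective ?_
  rw [D.toL_mulPt (D.toL_tor k).symm, D.toL_tor, map_mul, mul_assoc]

/-- **All torsion is of this form.** -/
theorem exists_tor_eq {n : ℕ} (hn : n ≠ 0) {P : D.Pt} (hP : n • P = 0) :
    ∃ a : 𝓞 K, P = D.tor ((a : K) / n) := by
  obtain ⟨z, hz⟩ := exists_preimage (hL := D.hL) P
  have h0 : (n : ℂ) * z ∈ D.L.lattice := by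
    rw [← unif_eq_zero_iff, ← Int.cast_natCast, unif_int_mul, hz, natCast_zsmul, ← map_nsmul, hP,
      map_zero]
  obtain ⟨a, ha⟩ := D.mem_lattice'.1 h0
  refine ⟨a, D.toL_injective ?_⟩
  rw [D.toL_tor, ← hz, map_div₀, map_natCast, div_mul_eq_mul_div, ← ha,
    mul_div_cancel_left₀ _ (Nat.cast_ne_zero.2 hn)]

/-- The kernel of multiplication by a nonzero integer is killed by its norm. -/
theorem nsmul_eq_zero_of_mulPt {a : 𝓞 K} {n : ℕ} (h : a ∣ (n : 𝓞 K)) {P : D.Pt}
    (hP : D.mulPt a P = 0) : n • P = 0 := by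
  obtain ⟨b, hb⟩ := h
  rw [← D.mulPt_natCast, hb, mul_comm, D.mulPt_mul, hP, map_zero]

/-- The kernel of `a`. -/
abbrev kerPt (a : 𝓞 K) : AddSubgroup D.Pt := (D.mulPt a).ker

theorem finite_kerPt {a : 𝓞 K} (ha : a ≠ 0) : Finite (D.kerPt a) := by
  have hn : Ideal.absNorm (Ideal.span {a}) ≠ 0 := by
    rw [Ne, Ideal.absNorm_eq_zero_iff, Ideal.span_singleton_eq_bot]
    exact ha
  exact ((finite_nsmul_eq_zero (W := D.W) (Kb := AlgebraicClosure K) hn).subset fun P hP =>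
    D.nsmul_eq_zero_of_mulPt (Ideal.mem_span_singleton.1 (Ideal.absNorm_mem _)) hP).to_subtype

/-- **The coordinates of `a • P` are Vélu's sums.** -/
theorem xy_mulPt {a : 𝓞 K} (ha : a ≠ 0) {P : D.Pt} (hP : D.mulPt a P ≠ 0) :
    xP (D.mulPt a P) * algebraMap K _ (a : K) ^ 2 = quotX (D.kerPt a) P ∧
      yP (D.mulPt a P) * algebraMap K _ (a : K) ^ 3 = quotY (D.kerPt a) P := by
  haveI := D.finite_kerPt ha
  have hω : D.emb (a : K) ≠ 0 := (map_ne_zero _).2 (RingOfIntegers.coe_ne_zero_iff.2 ha)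
  obtain ⟨L', hL'⟩ : ∃ L' : PeriodPair, ∀ x, x ∈ L'.lattice ↔ D.emb (a : K) * x ∈ D.L.lattice :=
    ⟨FA.JInj.scalePair D.L (D.emb (a : K))⁻¹ (inv_ne_zero hω), fun x => by
      rw [FA.JInj.mem_scalePair]
      exact ⟨fun ⟨y, hy, e⟩ => by rw [← e, mul_inv_cancel_left₀ hω]; exact hy,
        fun h => ⟨_, h, inv_mul_cancel_left₀ hω x⟩⟩⟩
  have hquot : IsQuotG D.W D.φ D.hL (D.kerPt a) L' := fun x => by
    rw [hL', AddSubgroup.mem_map]
    constructor
    · intro hx
      obtain ⟨c, hc⟩ := D.mem_lattice'.1 hx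
      have e : unif D.L x = D.toL (D.tor ((c : K) / a)) := by
        rw [D.toL_tor, map_div₀, div_mul_eq_mul_div, ← hc, mul_div_cancel_left₀ _ hω]
      refine ⟨_, ?_, e.symm⟩
      rw [AddMonoidHom.mem_ker, D.mulPt_tor,
        mul_div_cancel₀ _ (RingOfIntegers.coe_ne_zero_iff.2 ha), D.tor_coe]
    · rintro ⟨Q, hQ, e⟩
      rw [← unif_eq_zero_iff, ← D.toL_mulPt e.symm, AddMonoidHom.mem_ker.1 hQ, map_zero]
  obtain ⟨z, hz⟩ := exists_preimage (hL := D.hL) P
  obtain ⟨ex, ey⟩ := wp_scale D.L L' hω hL' z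
  obtain ⟨hqx, hqy⟩ := map_quot hquot hz
  have hz' : D.emb (a : K) * z ∉ D.L.lattice := fun h => hP (D.toL_injective (by
    rw [D.toL_mulPt hz, map_zero, unif_of_mem _ h]))
  have e := D.toL_mulPt (a := a) hz
  have h1 : D.φ (xP (D.mulPt a P)) = D.L.weierstrassP (D.emb (a : K) * z) := by
    rw [← xP_toC (hL := D.hL), e, xP_unif]
  have h2 : D.φ (yP (D.mulPt a P)) = D.L.derivWeierstrassP (D.emb (a : K) * z) / 2 := by
    rw [← yP_toC (hL := D.hL), e, yP_unif]
  constructor <;> refine D.φ.injective ?_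
  · rw [map_mul, map_pow, h1, hqx, ex]
    exact div_mul_cancel₀ _ (pow_ne_zero 2 hω)
  · rw [map_mul, map_pow, h2, hqy, ey, show D.φ (algebraMap K _ (a : K)) = D.emb (a : K) from rfl]
    field_simp [hω]

end CMDat

end FA.CoatesWiles

end
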