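import Fermat.Agent.CoatesWiles.Formal
import Mathlib.FieldTheory.Galois.Infinite
import Mathlib.FieldTheory.AbsoluteGaloisGroup

/-!
# The fields of the points killed by powers of a Frobenius element

The parameter `z` of a generator of the points killed by `π ^ m` has value
`|π| ^ (1 / (p ^ (m - 1) (p - 1)))`, so its powers below that degree are a basis of its field, whose
values and residues are read off coordinate by coordinate, and every multiplier prime to `p` is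
realised by Galois.
-/

set_option autoImplicit false
set_option linter.style.haveILetI false
set_option linter.unusedSectionVars false

noncomputable section

open WeierstrassCurve NumberField IsDedekindDomain FA.IsogenyNF FA.Local Polynomial
open FA.ClassNumberOne (xP yP)
open FA.DeuringCM (IQF)
open scoped WeierstrassCurve.Affine Classical

namespace FA.CoatesWiles

variable {K : Type} [Field K] [NumberField K]

local notation "Kb" => AlgebraicClosure K

open CMDat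

/-- A split place whose conjugate Frobenius element is not `± 1` modulo it. -/
structure SplitPlace (D : CMDat K) (Q : IQF K) where
  /-- The place of the algebraic closure. -/
  P : CMPlace D
  /-- The Frobenius element. -/
  π : 𝓞 K
  h : IsFrobElt D Q P.v π
  conj_sq : Q.conj π ^ 2 - 1 ∉ P.v.asIdeal

namespace SplitPlace

variable {D : CMDat K} {Q : IQF K} (X : SplitPlace D Q)

local notation "vv" => X.P.R.valuation

/-- The norm of the place. -/
abbrev p : ℕ := Ideal.absNorm X.P.v.asIdeal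

/-- The generator of the points killed by `π ^ m`. -/
abbrev pt (m : ℕ) : D.Pt := piPt D X.π m

/-- Its parameter. -/
abbrev z (m : ℕ) : Kb := zc (X.pt m)

/-- The value of the parameter. -/
abbrev ρ (m : ℕ) : X.P.R.ValueGroup := X.P.R.valuation (X.z m)

/-- The value of `π`. -/
abbrev vπ : X.P.R.ValueGroup := X.P.R.valuation (algebraMap K Kb (X.π : K))

/-- The degree. -/
def e (m : ℕ) : ℕ := X.p ^ (m - 1) * (X.p - 1)

theorem five_le : 5 ≤ X.p := X.h.five_le

theorem prime : X.p.Prime := X.h.prime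

theorem red_pt (m : ℕ) : X.P.red (X.pt m) = 0 := X.h.red_piPt X.P rfl m

theorem red_nsmul (j m : ℕ) : X.P.red (j • X.pt m) = 0 := by
  rw [map_nsmul, X.red_pt, nsmul_zero]

theorem vπ_lt : X.vπ < 1 := X.h.val_pi_lt X.P rfl

theorem vπ_pos : 0 < X.vπ := (X.P.R.valuation).pos_iff.2 ((_root_.map_ne_zero _).2 X.h.coe_ne_zero)

theorem pt_ne_zero {m : ℕ} (hm : m ≠ 0) : X.pt m ≠ 0 := X.h.piPt_ne_zero hm

theorem z_ne_zero {m : ℕ} (hm : m ≠ 0) : X.z m ≠ 0 :=
  X.P.zc_ne_zero (X.red_pt m) (X.pt_ne_zero hm)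

theorem ρ_pos {m : ℕ} (hm : m ≠ 0) : 0 < X.ρ m := (X.P.R.valuation).pos_iff.2 (X.z_ne_zero hm)

theorem ρ_lt_one (m : ℕ) : X.ρ m < 1 := X.P.val_zc_lt (X.red_pt m)

theorem ρ_one_pow : X.ρ 1 ^ (X.p - 1) = X.vπ := X.h.val_zc_piPt_one X.P rfl

theorem ρ_step : ∀ m : ℕ, X.ρ 1 ≤ X.ρ (m + 1) ∧ X.ρ (m + 2) ^ X.p = X.ρ (m + 1) := fun m => by
  induction m with
  | zero =>
    refine ⟨le_rfl, ?_⟩
    by_cases hle : X.ρ 2 ≤ X.ρ 1
    · have h := X.h.val_zc_mulPt_le X.P rfl (X.red_pt 2) hle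
      rw [X.h.mulPt_piPt 1] at h
      exact absurd h (not_le.2 (pow_lt_self_of_lt_one₀ (X.ρ_pos one_ne_zero) (X.ρ_lt_one 1)
        X.prime.one_lt))
    · have h := X.h.val_zc_mulPt_of_gt X.P rfl (X.red_pt 2) (not_le.1 hle)
      rw [X.h.mulPt_piPt 1] at h
      exact h.symm
  | succ m ih =>
    have h1 : X.ρ 1 ≤ X.ρ (m + 2) := by
      refine ih.1.trans ?_
      rw [← ih.2]
      exact pow_le_of_le_one zero_le (X.ρ_lt_one _).le X.prime.ne_zero
    refine ⟨h1, ?_⟩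
    by_cases hle : X.ρ (m + 3) ≤ X.ρ 1
    · have h := X.h.val_zc_mulPt_le X.P rfl (X.red_pt (m + 3)) hle
      rw [X.h.mulPt_piPt (m + 2)] at h
      exact absurd (h1.trans h) (not_le.2 (pow_lt_self_of_lt_one₀ (X.ρ_pos one_ne_zero)
        (X.ρ_lt_one 1) X.prime.one_lt))
    · have h := X.h.val_zc_mulPt_of_gt X.P rfl (X.red_pt (m + 3)) (not_le.1 hle)
      rw [X.h.mulPt_piPt (m + 2)] at h
      exact h.symm

theorem ρ_succ {m : ℕ} (hm : m ≠ 0) : X.ρ (m + 1) ^ X.p = X.ρ m := by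
  obtain ⟨m, rfl⟩ := Nat.exists_eq_succ_of_ne_zero hm
  exact (X.ρ_step m).2

theorem ρ_pow_level {m : ℕ} (hm : m ≠ 0) : X.ρ m ^ X.p ^ (m - 1) = X.ρ 1 := by
  obtain ⟨m, rfl⟩ := Nat.exists_eq_succ_of_ne_zero hm
  induction m with
  | zero => rw [Nat.succ_sub_one, pow_zero, pow_one]
  | succ m ih =>
    rw [Nat.succ_sub_one, pow_succ', pow_mul, X.ρ_succ (Nat.succ_ne_zero m)]
    exact ih (Nat.succ_ne_zero m)

theorem ρ_pow_e {m : ℕ} (hm : m ≠ 0) : X.ρ m ^ X.e m = X.vπ := by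
  rw [e, pow_mul, X.ρ_pow_level hm, X.ρ_one_pow]

theorem e_pos (m : ℕ) : 0 < X.e m :=
  Nat.mul_pos (pow_pos X.prime.pos _) (by have := X.five_le; omega)

theorem zpow_injective {m : ℕ} (hm : m ≠ 0) : Function.Injective (fun k : ℤ => X.ρ m ^ k) :=
  zpow_right_injective₀ (X.ρ_pos hm) (X.ρ_lt_one m).ne

theorem val_natCast {j : ℕ} (hj : ¬ X.p ∣ j) : vv (j : Kb) = 1 := X.h.val_natCast X.P rfl hj

theorem val_natCast_le {j : ℕ} (hj : X.p ∣ j) : vv (j : Kb) ≤ X.vπ := by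
  obtain ⟨c, rfl⟩ := hj
  have e : ((X.p : ℕ) : Kb) = algebraMap K Kb (X.π : K) * algebraMap K Kb (Q.conj X.π : K) := by
    simpa using (congrArg (fun t : 𝓞 K => algebraMap K Kb (t : K)) X.h.mul_conj).symm
  rw [Nat.cast_mul, e, mul_assoc, map_mul]
  exact mul_le_of_le_one_right' (map_mul_le_one (X.P.coe_le_one _) (natCast_le_one c))

/-! ### The base -/

theorem exists_zpow {c : K} (hc : c ≠ 0) : ∃ k : ℤ, vv (algebraMap K Kb c) = X.vπ ^ k := by
  obtain ⟨k, hk⟩ : ∃ k : ℤ, X.P.v.valuation K c = WithZero.exp k :=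
    ⟨WithZero.log (X.P.v.valuation K c),
      (WithZero.exp_log ((X.P.v.valuation K).ne_zero_iff.2 hc)).symm⟩
  refine ⟨-k, ?_⟩
  have hπ : X.P.v.valuation K (X.π : K) = WithZero.exp (-1 : ℤ) := by
    rw [show (X.π : K) = algebraMap (𝓞 K) K X.π from rfl, X.P.v.valuation_of_algebraMap]
    exact X.P.v.intValuation_singleton X.h.ne_zero X.h.span_eq
  have hone : X.P.v.valuation K (c * (X.π : K) ^ k) = 1 := by
    rw [map_mul, map_zpow₀, hk, hπ, ← WithZero.exp_zsmul, ← WithZero.exp_add, ← WithZero.exp_zero,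
      WithZero.exp_inj]
    simp
  have h := X.P.isOver.eq_one hone
  rw [map_mul, map_mul, map_zpow₀, map_zpow₀, mul_eq_one_iff_eq_inv₀ (zpow_ne_zero k X.vπ_pos.ne'),
    ← zpow_neg] at h
  exact h

theorem exists_natCast_near {c : K} (hc : vv (algebraMap K Kb c) ≤ 1) :
    ∃ j : ℕ, vv (algebraMap K Kb c - (j : Kb)) < 1 := by
  have hc' : X.P.v.valuation K c ≤ 1 := (FA.GoodNF.overPlace_le_one_iff X.P.isOver c).1 hc
  obtain ⟨n, ⟨d, hd⟩, he⟩ := X.P.v.exists_primeCompl_mul_eq_of_integer c hc'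
  obtain ⟨d', hd'⟩ : ∃ d' : 𝓞 K, d * d' - 1 ∈ X.P.v.asIdeal := by
    obtain ⟨b, i, hi, e⟩ := X.P.v.isMaximal.exists_inv hd
    exact ⟨b, by rw [show d * b - 1 = -i by linear_combination e]; exact neg_mem hi⟩
  obtain ⟨j, hj⟩ := X.h.exists_natCast_dvd_sub_one (n * d')
  refine ⟨j, ?_⟩
  have h1 : vv (algebraMap K Kb ((d * d' - 1 : 𝓞 K) : K)) < 1 := X.P.coe_lt_one hd'
  have h2 : vv (algebraMap K Kb ((n * d' - j : 𝓞 K) : K)) < 1 := X.P.coe_lt_one (by
    rw [X.h.span_eq]; exact Ideal.mem_span_singleton.2 hj)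
  have e : algebraMap K Kb c - (j : Kb) = algebraMap K Kb ((n * d' - j : 𝓞 K) : K) -
      algebraMap K Kb c * algebraMap K Kb ((d * d' - 1 : 𝓞 K) : K) := by
    have he' : algebraMap (𝓞 K) K n = c * algebraMap (𝓞 K) K d := he.symm
    simp only [map_sub, map_mul, map_one, map_natCast]
    rw [he', map_mul]
    ring
  rw [e]
  exact (X.P.R.valuation).map_sub_lt h2 (map_mul_lt_one hc h1)

/-! ### Sums over powers of an element of the value `ρ` -/

theorem sum_bound {m : ℕ} (hm : m ≠ 0) {w : Kb} (hw : vv w = X.ρ m) (c : Fin (X.e m) → K) :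
    ((∀ i, c i = 0) ∨ ∃ i, c i ≠ 0 ∧
      vv (∑ i : Fin (X.e m), algebraMap K Kb (c i) * w ^ (i : ℕ)) =
        vv (algebraMap K Kb (c i) * w ^ (i : ℕ))) ∧
    ∀ i : Fin (X.e m), vv (algebraMap K Kb (c i) * w ^ (i : ℕ)) ≤
      vv (∑ i : Fin (X.e m), algebraMap K Kb (c i) * w ^ (i : ℕ)) := by
  set f : Fin (X.e m) → Kb := fun i => algebraMap K Kb (c i) * w ^ (i : ℕ)
  set s := Finset.univ.filter fun i => c i ≠ 0
  rcases s.eq_empty_or_nonempty with hs | hs
  · have h0 : ∀ i, c i = 0 := fun i => by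
      by_contra hi
      exact (Finset.eq_empty_iff_forall_notMem.1 hs i) (Finset.mem_filter.2 ⟨Finset.mem_univ i, hi⟩)
    exact ⟨.inl h0, fun i => by simp [h0]⟩
  obtain ⟨i₀, hi₀, hmax⟩ := s.exists_max_image (fun i => vv (f i)) hs
  replace hi₀ := (Finset.mem_filter.1 hi₀).2
  have hdist : ∀ i, c i ≠ 0 → vv (f i) = vv (f i₀) → i = i₀ := fun i hi e => by
    obtain ⟨a, ha⟩ := X.exists_zpow hi
    obtain ⟨b, hb⟩ := X.exists_zpow hi₀
    simp only [f, map_mul, map_pow, ha, hb, hw, ← X.ρ_pow_e hm] at e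
    rw [← zpow_natCast _ (X.e m), ← zpow_natCast, ← zpow_natCast, ← zpow_mul, ← zpow_mul,
      ← zpow_add₀ (X.ρ_pos hm).ne', ← zpow_add₀ (X.ρ_pos hm).ne'] at e
    have e' := congrArg (fun t : ℤ => t % (X.e m : ℤ)) (X.zpow_injective hm e)
    simp only [Int.mul_add_emod_self_left] at e'
    rw [Int.emod_eq_of_lt (by omega) (by have := i.2; omega),
      Int.emod_eq_of_lt (by omega) (by have := i₀.2; omega)] at e'
    exact Fin.ext (by omega)
  have hval : vv (∑ i, f i) = vv (f i₀) := by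
    refine Valuation.map_sum_eq_of_lt _ (Finset.mem_univ i₀) fun i hi => ?_
    · rw [Finset.mem_sdiff, Finset.mem_singleton] at hi
      by_cases hci : c i = 0
      · simp only [f, hci, map_zero, zero_mul]
        exact (X.P.R.valuation).pos_iff.2 (mul_ne_zero ((_root_.map_ne_zero _).2 hi₀)
          (pow_ne_zero _ ((X.P.R.valuation).ne_zero_iff.1 (hw ▸ (X.ρ_pos hm).ne'))))
      · exact lt_of_le_of_ne (hmax i (Finset.mem_filter.2 ⟨Finset.mem_univ i, hci⟩))
          fun e => hi.2 (hdist i hci e)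
  refine ⟨.inr ⟨i₀, hi₀, hval⟩, fun i => ?_⟩
  show vv (f i) ≤ vv (∑ i, f i)
  rw [hval]
  by_cases hci : c i = 0
  · simp [f, hci]
  · exact hmax i (Finset.mem_filter.2 ⟨Finset.mem_univ i, hci⟩)

theorem linearIndependent_pow {m : ℕ} (hm : m ≠ 0) {w : Kb} (hw : vv w = X.ρ m) :
    LinearIndependent K fun i : Fin (X.e m) => w ^ (i : ℕ) := by
  rw [Fintype.linearIndependent_iff]
  intro c hc i
  simp only [Algebra.smul_def] at hc
  have h := (X.sum_bound hm hw c).2 i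
  rw [hc, map_zero, nonpos_iff_eq_zero, Valuation.zero_iff, mul_eq_zero,
    pow_eq_zero_iff', map_eq_zero] at h
  exact h.resolve_right fun e => (X.ρ_pos hm).ne' (by rw [← hw, e.1, map_zero])

/-! ### Galois on the generators -/

theorem nsmul_pt_sub {j i m : ℕ} (hij : i ≤ j) (h : j • X.pt m = i • X.pt m) :
    X.p ^ m ∣ j - i :=
  X.h.nsmul_piPt_eq_zero_iff.1 (by rw [sub_nsmul _ hij, h, add_neg_cancel])

theorem nsmul_pt_mod (j m : ℕ) : (j % X.p ^ m) • X.pt m = j • X.pt m := by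
  conv_rhs => rw [← Nat.mod_add_div j (X.p ^ m), add_nsmul, mul_nsmul,
    X.h.nsmul_piPt_eq_zero_iff.2 dvd_rfl, nsmul_zero, add_zero]

theorem mulPt_pow_pt (k m : ℕ) : D.mulPt (X.π ^ k) (X.pt (m + k)) = X.pt m := by
  induction k generalizing m with
  | zero => rw [pow_zero, D.mulPt_one, add_zero]
  | succ k ih => rw [pow_succ, D.mulPt_mul, ← Nat.add_assoc, X.h.mulPt_piPt, ih]

theorem smul_pt_le {σ : Kb ≃ₐ[K] Kb} {j m : ℕ} (h : σ • X.pt m = j • X.pt m) {k : ℕ} (hk : k ≤ m) :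
    σ • X.pt k = j • X.pt k := by
  obtain ⟨i, rfl⟩ := Nat.exists_eq_add_of_le hk
  rw [← X.mulPt_pow_pt i k, ← D.mulPt_smul, h, map_nsmul]

theorem exists_mult (σ : Kb ≃ₐ[K] Kb) {m : ℕ} (hm : m ≠ 0) :
    ∃ j : ℕ, ¬ X.p ∣ j ∧ σ • X.pt m = j • X.pt m := by
  obtain ⟨j, hj⟩ := X.h.exists_nsmul_piPt (m := m) (T := σ • X.pt m) (by
    rw [D.mulPt_smul, X.h.mulPt_piPt_eq_zero_iff.2 dvd_rfl]; exact smul_zero (A := D.Pt) σ)
  refine ⟨j, fun hd => ?_, hj⟩
  have h1 := X.smul_pt_le hj (k := 1) (Nat.one_le_iff_ne_zero.2 hm)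
  rw [X.h.nsmul_piPt_eq_zero_iff.2 (by rwa [pow_one])] at h1
  exact X.pt_ne_zero one_ne_zero ((smul_eq_zero_iff_eq σ).1 h1)

theorem apply_z {σ : Kb ≃ₐ[K] Kb} {j m : ℕ} (h : σ • X.pt m = j • X.pt m) :
    σ (X.z m) = zc (j • X.pt m) := by rw [← zc_smul, h]

theorem smul_pt_of_fix {σ : Kb ≃ₐ[K] Kb} {m : ℕ} (h : σ (X.z m) = X.z m) :
    σ • X.pt m = X.pt m := by
  by_cases hm : m = 0
  · rw [hm, show X.pt 0 = 0 from X.h.piPt_zero]; exact smul_zero (A := D.Pt) σ
  obtain ⟨j, -, hj⟩ := X.exists_mult σ hm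
  exact X.P.zc_injective (hj ▸ X.red_nsmul j m) (X.red_pt m) (by rw [zc_smul, h])

/-- The field. -/
def fld (m : ℕ) : IntermediateField K Kb := IntermediateField.adjoin K {X.z m}

theorem z_mem (m : ℕ) : X.z m ∈ X.fld m := IntermediateField.mem_adjoin_simple_self K _

instance finiteDimensional_fld (m : ℕ) : FiniteDimensional K (X.fld m) :=
  IntermediateField.adjoin.finiteDimensional (Algebra.IsIntegral.isIntegral _)

theorem mem_fixingSubgroup_fld {σ : Kb ≃ₐ[K] Kb} {m : ℕ} :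
    σ ∈ (X.fld m).fixingSubgroup ↔ σ (X.z m) = X.z m := by
  rw [IntermediateField.mem_fixingSubgroup_iff]
  refine ⟨fun h => h _ (X.z_mem m), fun h x hx => ?_⟩
  induction hx using IntermediateField.adjoin_induction with
  | mem x hx => rw [Set.mem_singleton_iff.1 hx]; exact h
  | algebraMap c => exact σ.commutes c
  | add x y _ _ ha hb => rw [map_add, ha, hb]
  | inv x _ ha => rw [map_inv₀, ha]
  | mul x y _ _ ha hb => rw [map_mul, ha, hb]

theorem mem_fld_of_fixed {m : ℕ} {x : Kb}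
    (h : ∀ σ : Kb ≃ₐ[K] Kb, σ (X.z m) = X.z m → σ x = x) : x ∈ X.fld m := by
  haveI : IsAlgClosure K Kb := ⟨inferInstance, inferInstance⟩
  haveI : IsGalois K Kb := IsAlgClosure.isGalois K Kb
  rw [← InfiniteGalois.fixedField_fixingSubgroup (X.fld m)]
  exact fun σ => h σ.1 (X.mem_fixingSubgroup_fld.1 σ.2)

theorem fld_mono {k m : ℕ} (hk : k ≤ m) : X.fld k ≤ X.fld m := by
  refine IntermediateField.adjoin_le_iff.2 (Set.singleton_subset_iff.2 ?_)
  refine X.mem_fld_of_fixed fun σ hσ => ?_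
  rw [← zc_smul]
  congr 1
  simpa using X.smul_pt_le (j := 1) (by rw [one_nsmul]; exact X.smul_pt_of_fix hσ) hk

theorem apply_mem_fld (σ : Kb ≃ₐ[K] Kb) {m : ℕ} {x : Kb} (hx : x ∈ X.fld m) : σ x ∈ X.fld m := by
  have hz : σ (X.z m) ∈ X.fld m := by
    by_cases hm : m = 0
    · subst hm
      rw [z, show X.pt 0 = 0 from X.h.piPt_zero, zc_zero, map_zero]
      exact zero_mem _
    obtain ⟨j, -, hj⟩ := X.exists_mult σ hm
    rw [X.apply_z hj]
    refine X.mem_fld_of_fixed fun τ hτ => ?_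
    rw [← zc_smul, smul_nsmul', X.smul_pt_of_fix hτ]
  induction hx using IntermediateField.adjoin_induction with
  | mem x hx => rw [Set.mem_singleton_iff.1 hx]; exact hz
  | algebraMap c => rw [σ.commutes]; exact IntermediateField.algebraMap_mem _ c
  | add x y _ _ ha hb => rw [map_add]; exact add_mem ha hb
  | inv x _ ha => rw [map_inv₀]; exact inv_mem ha
  | mul x y _ _ ha hb => rw [map_mul]; exact mul_mem ha hb

instance isGalois_fld (m : ℕ) : IsGalois K (X.fld m) := by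
  haveI : Normal K (X.fld m) := IntermediateField.normal_iff_forall_map_le'.2 fun σ => by
    rintro _ ⟨x, hx, rfl⟩
    exact X.apply_mem_fld σ hx
  exact ⟨⟩

/-- The conjugates of the parameter. -/
def conjs (m : ℕ) : Finset Kb :=
  ((Finset.range (X.p ^ m)).filter fun j => ¬ X.p ∣ j).image fun j => zc (j • X.pt m)

theorem card_units {m : ℕ} (hm : m ≠ 0) :
    ((Finset.range (X.p ^ m)).filter fun j => ¬ X.p ∣ j).card = X.e m := by
  rw [e, ← Nat.totient_prime_pow X.prime (Nat.pos_of_ne_zero hm), Nat.totient]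
  refine congrArg Finset.card (Finset.filter_congr fun j _ => ?_)
  rw [Nat.coprime_pow_left_iff (Nat.pos_of_ne_zero hm), X.prime.coprime_iff_not_dvd]

theorem card_conjs {m : ℕ} (hm : m ≠ 0) : (X.conjs m).card = X.e m := by
  rw [conjs, Finset.card_image_of_injOn, X.card_units hm]
  intro i hi j hj e
  have e' := X.P.zc_injective (X.red_nsmul i m) (X.red_nsmul j m) e
  simp only [Finset.coe_filter, Finset.mem_range, Set.mem_ofPred_eq] at hi hj
  rcases le_total i j with hle | hle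
  · have hd := X.nsmul_pt_sub hle e'.symm
    by_contra hne
    have := Nat.le_of_dvd (by omega) hd
    omega
  · have hd := X.nsmul_pt_sub hle e'
    by_contra hne
    have := Nat.le_of_dvd (by omega) hd
    omega

theorem e_le_finrank {m : ℕ} (hm : m ≠ 0) : X.e m ≤ Module.finrank K (X.fld m) := by
  have hli : LinearIndependent K fun i : Fin (X.e m) =>
      (⟨X.z m, X.z_mem m⟩ : X.fld m) ^ (i : ℕ) := by
    refine LinearIndependent.of_comp (X.fld m).val.toLinearMap ?_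
    simpa [Function.comp_def] using X.linearIndependent_pow hm (w := X.z m) rfl
  simpa using hli.fintype_card_le_finrank

theorem minpoly_roots {m : ℕ} (hm : m ≠ 0) :
    ((minpoly K (X.z m)).aroots Kb).toFinset = X.conjs m ∧
      Module.finrank K (X.fld m) = X.e m := by
  have hint : IsIntegral K (X.z m) := Algebra.IsIntegral.isIntegral _
  have hdeg : Module.finrank K (X.fld m) = (minpoly K (X.z m)).natDegree :=
    IntermediateField.adjoin.finrank hint
  have hcard : ((minpoly K (X.z m)).aroots Kb).toFinset.card = (minpoly K (X.z m)).natDegree := by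
    rw [Multiset.toFinset_card_of_nodup (Polynomial.nodup_roots
      (Polynomial.Separable.map (minpoly.irreducible hint).separable)),
      ← (IsAlgClosed.splits _).natDegree_eq_card_roots, natDegree_map]
  have hsub : ((minpoly K (X.z m)).aroots Kb).toFinset ⊆ X.conjs m := fun r hr => by
    rw [Multiset.mem_toFinset, mem_aroots] at hr
    obtain ⟨σ, rfl⟩ := minpoly.exists_algEquiv_of_root' (Algebra.IsAlgebraic.isAlgebraic _) hr.2
    obtain ⟨j, hj, hσ⟩ := X.exists_mult σ hm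
    refine Finset.mem_image.2 ⟨j % X.p ^ m, Finset.mem_filter.2 ⟨Finset.mem_range.2
      (Nat.mod_lt _ (pow_pos X.prime.pos m)), fun hd => hj ?_⟩, ?_⟩
    · rwa [Nat.dvd_mod_iff (dvd_pow_self _ hm)] at hd
    · rw [X.nsmul_pt_mod, X.apply_z hσ]
  have hle := Finset.card_le_card hsub
  rw [hcard, ← hdeg, X.card_conjs hm] at hle
  refine ⟨Finset.eq_of_subset_of_card_le hsub ?_, le_antisymm hle (X.e_le_finrank hm)⟩
  rw [X.card_conjs hm, hcard, ← hdeg]
  exact X.e_le_finrank hm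

theorem finrank_fld {m : ℕ} (hm : m ≠ 0) : Module.finrank K (X.fld m) = X.e m :=
  (X.minpoly_roots hm).2

/-- **Every multiplier prime to `p` is realised.** -/
theorem exists_aut {m j : ℕ} (hm : m ≠ 0) (hj : ¬ X.p ∣ j) :
    ∃ σ : Kb ≃ₐ[K] Kb, σ • X.pt m = j • X.pt m := by
  have hmem : zc ((j % X.p ^ m) • X.pt m) ∈ X.conjs m :=
    Finset.mem_image.2 ⟨_, Finset.mem_filter.2 ⟨Finset.mem_range.2
      (Nat.mod_lt _ (pow_pos X.prime.pos m)), fun hd => hj (by
        rwa [Nat.dvd_mod_iff (dvd_pow_self _ hm)] at hd)⟩, rfl⟩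
  rw [← (X.minpoly_roots hm).1, Multiset.mem_toFinset, mem_aroots, X.nsmul_pt_mod] at hmem
  obtain ⟨σ, hσ⟩ := minpoly.exists_algEquiv_of_root'
    (Algebra.IsAlgebraic.isAlgebraic (X.z m)) hmem.2
  refine ⟨σ, X.P.zc_injective ?_ (X.red_nsmul j m) (by rw [zc_smul, hσ])⟩
  obtain ⟨i, -, hi⟩ := X.exists_mult σ hm
  exact hi ▸ X.red_nsmul i m

/-- **The expansion.** -/
theorem exists_expansion {m : ℕ} (hm : m ≠ 0) {x : Kb} (hx : x ∈ X.fld m) :
    ∃ c : Fin (X.e m) → K, x = ∑ i : Fin (X.e m), algebraMap K Kb (c i) * X.z m ^ (i : ℕ) := by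
  have hli : LinearIndependent K fun i : Fin (X.e m) =>
      (⟨X.z m, X.z_mem m⟩ : X.fld m) ^ (i : ℕ) := by
    refine LinearIndependent.of_comp (X.fld m).val.toLinearMap ?_
    simpa [Function.comp_def] using X.linearIndependent_pow hm (w := X.z m) rfl
  haveI : Nonempty (Fin (X.e m)) := ⟨⟨0, X.e_pos m⟩⟩
  have htop := hli.span_eq_top_of_card_eq_finrank (by simpa using (X.finrank_fld hm).symm)
  obtain ⟨c, hc⟩ := (Submodule.mem_span_range_iff_exists_fun K).1
    (htop.symm ▸ Submodule.mem_top : (⟨x, hx⟩ : X.fld m) ∈ _)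
  refine ⟨c, ?_⟩
  have h := congrArg (fun t : X.fld m => (t : Kb)) hc
  simp only [IntermediateField.coe_sum, IntermediateField.coe_smul,
    SubmonoidClass.coe_pow] at h
  rw [← h]
  simp [Algebra.smul_def]

/-- **Galois keeps the values.** -/
theorem val_apply (σ : Kb ≃ₐ[K] Kb) {m : ℕ} (hm : m ≠ 0) {x : Kb} (hx : x ∈ X.fld m) :
    vv (σ x) = vv x := by
  obtain ⟨c, rfl⟩ := X.exists_expansion hm hx
  obtain ⟨j, hj, hσ⟩ := X.exists_mult σ hm
  have hw : vv (σ (X.z m)) = X.ρ m := by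
    rw [X.apply_z hσ]
    exact X.P.val_zc_nsmul_eq (X.red_pt m) (X.val_natCast hj)
  simp only [map_sum, map_mul, map_pow, AlgEquiv.commutes]
  obtain ⟨h1, hle⟩ := X.sum_bound hm (rfl : vv (X.z m) = X.ρ m) c
  obtain ⟨h1', hle'⟩ := X.sum_bound hm hw c
  have heq : ∀ i : Fin (X.e m), vv (algebraMap K Kb (c i) * σ (X.z m) ^ (i : ℕ)) =
      vv (algebraMap K Kb (c i) * X.z m ^ (i : ℕ)) := fun i => by
    rw [map_mul, map_mul, map_pow, map_pow, hw]
  rcases h1 with h0 | ⟨i, -, hi⟩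
  · simp [h0]
  rcases h1' with h0 | ⟨i', -, hi'⟩
  · simp [h0]
  exact le_antisymm (hi'.trans_le (by rw [heq]; exact hle i'))
    (hi.trans_le (by rw [← heq]; exact hle' i))

theorem exists_val_eq {m : ℕ} (hm : m ≠ 0) {x : Kb} (hx : x ∈ X.fld m) (h0 : x ≠ 0) :
    ∃ k : ℤ, vv x = X.ρ m ^ k := by
  obtain ⟨c, rfl⟩ := X.exists_expansion hm hx
  rcases (X.sum_bound hm (rfl : vv (X.z m) = X.ρ m) c).1 with hc | ⟨i, hi, he⟩
  · exact absurd (by simp [hc]) h0
  obtain ⟨a, ha⟩ := X.exists_zpow hi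
  exact ⟨(X.e m : ℤ) * a + (i : ℕ), by
    rw [he, map_mul, map_pow, ha, zpow_add₀ (X.ρ_pos hm).ne', zpow_mul, zpow_natCast, zpow_natCast,
      X.ρ_pow_e hm]⟩

theorem le_succ_of_lt {m : ℕ} (hm : m ≠ 0) {x : Kb} (hx : x ∈ X.fld m) {i : ℕ}
    (h : vv x < X.ρ m ^ i) : vv x ≤ X.ρ m ^ (i + 1) := by
  rcases eq_or_ne x 0 with rfl | h0
  · rw [map_zero]; exact zero_le
  obtain ⟨k, hk⟩ := X.exists_val_eq hm hx h0
  rw [hk, ← zpow_natCast] at h ⊢
  refine zpow_le_zpow_right_of_le_one₀ (X.ρ_pos hm) (X.ρ_lt_one m).le ?_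
  by_contra! hlt
  exact absurd h (not_lt.2 (zpow_le_zpow_right_of_le_one₀ (X.ρ_pos hm) (X.ρ_lt_one m).le
    (by push_cast at hlt; omega)))

/-- **Residues.** -/
theorem exists_natCast_mul {m : ℕ} (hm : m ≠ 0) {x : Kb} (hx : x ∈ X.fld m) {i : ℕ}
    (h : vv x ≤ X.ρ m ^ i) : ∃ j : ℕ, vv (x - (j : Kb) * X.z m ^ i) ≤ X.ρ m ^ (i + 1) := by
  set y := x / X.z m ^ i with hy
  have hzi : X.z m ^ i ≠ 0 := pow_ne_zero i (X.z_ne_zero hm)
  have hy1 : vv y ≤ 1 := by
    rw [hy, map_div₀, map_pow]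
    exact (div_le_one₀ (pow_pos (X.ρ_pos hm) i)).2 h
  have hymem : y ∈ X.fld m := div_mem hx (pow_mem (X.z_mem m) i)
  obtain ⟨c, hc⟩ := X.exists_expansion hm hymem
  have hle := (X.sum_bound hm (rfl : vv (X.z m) = X.ρ m) c).2
  rw [← hc] at hle
  set i₀ : Fin (X.e m) := ⟨0, X.e_pos m⟩
  have h00 : vv (algebraMap K Kb (c i₀)) ≤ 1 := by
    simpa [i₀] using (hle i₀).trans hy1
  obtain ⟨j, hj⟩ := X.exists_natCast_near h00
  refine ⟨j, ?_⟩
  have hlt : vv (y - (j : Kb)) < 1 := by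
    rw [show y - (j : Kb) = (algebraMap K Kb (c i₀) - (j : Kb)) +
      ∑ k ∈ Finset.univ.erase i₀, algebraMap K Kb (c k) * X.z m ^ (k : ℕ) by
        rw [hc, ← Finset.add_sum_erase _ _ (Finset.mem_univ i₀)]
        simp [i₀]]
    refine (X.P.R.valuation).map_add_lt hj ((X.P.R.valuation).map_sum_lt one_ne_zero fun k hk => ?_)
    refine lt_of_le_of_ne ((hle k).trans hy1) fun e => ?_
    have hck : c k ≠ 0 := fun h0 => by rw [h0, map_zero, zero_mul, map_zero] at e; exact zero_ne_one e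
    obtain ⟨a, ha⟩ := X.exists_zpow hck
    rw [map_mul, map_pow, ha, ← X.ρ_pow_e hm, ← zpow_natCast, ← zpow_natCast, ← zpow_mul,
      ← zpow_add₀ (X.ρ_pos hm).ne', ← zpow_zero (X.ρ m)] at e
    have e' := congrArg (fun t : ℤ => t % (X.e m : ℤ)) (X.zpow_injective hm e)
    simp only [Int.mul_add_emod_self_left, Int.zero_emod] at e'
    rw [Int.emod_eq_of_lt (by omega) (by have := k.2; omega)] at e'
    exact Finset.ne_of_mem_erase hk (Fin.ext (by simp only [i₀]; omega))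
  have h1 := X.le_succ_of_lt hm (i := 0) (x := y - (j : Kb))
    (sub_mem hymem (natCast_mem _ j)) (by rwa [pow_zero])
  rw [show x - (j : Kb) * X.z m ^ i = (y - (j : Kb)) * X.z m ^ i by
    rw [hy, sub_mul, div_mul_cancel₀ _ hzi], map_mul, map_pow, add_comm, pow_add]
  rw [zero_add] at h1
  exact mul_le_mul' h1 le_rfl

/-- The action on the parameter. -/
theorem val_apply_z_sub {σ : Kb ≃ₐ[K] Kb} {j m : ℕ} (h : σ • X.pt m = j • X.pt m) :
    vv (σ (X.z m) - (j : Kb) * X.z m) ≤ X.ρ m ^ 2 := by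
  rw [X.apply_z h]
  exact (X.P.val_zc_nsmul (X.red_pt m) j).trans
    (pow_le_pow_of_le_one zero_le (X.ρ_lt_one m).le (by norm_num))

/-- **Wild elements move little.** -/
theorem val_apply_sub {σ : Kb ≃ₐ[K] Kb} {m : ℕ} (hm : m ≠ 0) (hσ : σ • X.pt m = X.pt m)
    {x : Kb} (hx : x ∈ X.fld (m + 1)) :
    vv (σ x - x) * X.ρ (m + 1) ≤ vv x * X.ρ 1 := by
  obtain ⟨c, hc⟩ := X.exists_expansion (Nat.succ_ne_zero m) hx
  obtain ⟨j, hj, hσj⟩ := X.exists_mult σ (Nat.succ_ne_zero m)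
  set w := σ (X.z (m + 1))
  set z := X.z (m + 1)
  have hw : vv w = X.ρ (m + 1) := by
    simp only [w, X.apply_z hσj]
    exact X.P.val_zc_nsmul_eq (X.red_pt _) (X.val_natCast hj)
  have hwz : vv (w - z) ≤ X.ρ 1 := by
    have hker : D.mulPt (X.π ^ 1) (σ • X.pt (m + 1) - X.pt (m + 1)) = 0 := by
      rw [pow_one, map_sub, D.mulPt_smul, X.h.mulPt_piPt, hσ, sub_self]
    obtain ⟨i, hi⟩ := X.h.exists_nsmul_piPt hker
    have e : w = zc (X.pt (m + 1) + i • X.pt 1) := by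
      rw [← hi, add_sub_cancel, zc_smul]
    rw [e]
    refine (X.P.val_zc_add_le (X.red_pt _) (X.red_nsmul i 1)).trans ?_
    by_cases hd : X.p ∣ i
    · rw [X.h.nsmul_piPt_eq_zero_iff.2 (by rwa [pow_one]), zc_zero, map_zero]; exact zero_le
    · exact (X.P.val_zc_nsmul_eq (X.red_pt 1) (X.val_natCast hd)).le
  have hle := (X.sum_bound (Nat.succ_ne_zero m) (rfl : vv z = X.ρ (m + 1)) c).2
  rw [← hc] at hle
  have e : σ x - x = ∑ k : Fin (X.e (m + 1)),
      algebraMap K Kb (c k) * (w ^ (k : ℕ) - z ^ (k : ℕ)) := by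
    rw [hc, map_sum, ← Finset.sum_sub_distrib]
    exact Finset.sum_congr rfl fun k _ => by
      simp only [w, map_mul, map_pow, AlgEquiv.commutes]
      ring
  rw [e]
  refine (le_div_iff₀ (X.ρ_pos (Nat.succ_ne_zero m))).1 (Valuation.map_sum_le _ fun k _ => ?_)
  rw [le_div_iff₀ (X.ρ_pos (Nat.succ_ne_zero m)), ← geom_sum₂_mul, map_mul, map_mul]
  calc _ ≤ vv (algebraMap K Kb (c k)) * (X.ρ (m + 1) ^ ((k : ℕ) - 1) * X.ρ 1) * X.ρ (m + 1) := by
        gcongr
        refine Valuation.map_sum_le _ fun l hl => ?_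
        rw [map_mul, map_pow, map_pow, hw, ← pow_add]
        rw [Finset.mem_range] at hl
        exact le_of_eq (congrArg _ (by omega))
    _ ≤ _ := by
      rcases Nat.eq_zero_or_pos (k : ℕ) with hk | hk
      · have h0 := hle k
        rw [hk, pow_zero, mul_one] at h0
        rw [hk, Nat.zero_sub, pow_zero, one_mul, mul_assoc]
        exact mul_le_mul' h0 (mul_le_of_le_one_right' (X.ρ_lt_one _).le)
      · have h0 := hle k
        rw [map_mul, map_pow] at h0
        refine le_of_eq_of_le ?_ (mul_le_mul' h0 (le_refl (X.ρ 1)))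
        rw [← Nat.sub_add_cancel hk, pow_succ, Nat.add_sub_cancel]
        simp only [show X.P.R.valuation z = X.ρ (m + 1) from rfl]
        ac_rfl

end SplitPlace

end FA.CoatesWiles

end
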