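import Fermat.Agent.CoatesWiles.Tower
import Fermat.Agent.CoatesWiles.LSum
import Fermat.Agent.CoatesWiles.LocalKernel

/-!
# The elliptic units at the points killed by a power of `π`

The product of the differences `x (S + T) - x a` over the chosen points `T` killed by `M` and the
nonzero points `a` killed by `N`, at `S = 2 P` over the same at `S = P`, lies in the field of `P`.
At the place it is `1 + A z` to the first order, `A` being the algebraic value of the L-series, and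
at a place where some good equation separates the `π`-power torsion it is a unit.
-/

set_option autoImplicit false
set_option linter.style.haveILetI false
set_option linter.unusedSectionVars false

noncomputable section

open WeierstrassCurve NumberField IsDedekindDomain FA.IsogenyNF FA.Frob FA.Local
open FA.ClassNumberOne (xP yP)
open FA.DeuringCM (IQF)
open scoped WeierstrassCurve.Affine Classical

namespace FA.CoatesWiles

/-- The value of a difference of abscissae of points with distinct images `± ` in a good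
reduction. -/
theorem val_xP_sub_eq_max {L : Type*} [Field L] [DecidableEq L] {A : ValuationSubring L}
    {V : WeierstrassCurve L} (hI : IntCoeff A.valuation V.toAffine)
    (hΔ : A.valuation V.toAffine.Δ = 1) [(redCurve A V.toAffine hI).IsElliptic]
    [DecidableEq (Res A)] {P a : V.toAffine.Point} (ha : a ≠ 0)
    (hP : redHom hI hΔ P ≠ 0) (h1 : redHom hI hΔ P ≠ redHom hI hΔ a)
    (h2 : redHom hI hΔ P ≠ -redHom hI hΔ a) :
    A.valuation (xP P - xP a) = max 1 (A.valuation (xP a)) := by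
  rcases P with _ | ⟨x, y, h⟩
  · exact absurd (map_zero _) hP
  rcases a with _ | ⟨x', y', h'⟩
  · exact absurd rfl ha
  show A.valuation (x - x') = max 1 (A.valuation x')
  have hx : x ∈ A := by
    by_contra hx
    exact hP ((redHom_apply hI hΔ _).trans ((redFun_eq_zero_iff hI).2
      (show 1 < A.valuation x from not_le.1 fun h1 => hx ((A.valuation_le_one_iff x).1 h1))))
  by_cases hx' : x' ∈ A
  swap
  · have hgt : 1 < A.valuation x' := not_le.1 fun h1 => hx' ((A.valuation_le_one_iff x').1 h1)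
    rw [max_eq_right hgt.le, Valuation.map_sub_eq_of_lt_right _
      (((A.valuation_le_one_iff x).2 hx).trans_lt hgt)]
  have hle := (A.valuation_le_one_iff x).2 hx
  have hle' := (A.valuation_le_one_iff x').2 hx'
  rw [max_eq_left hle']
  refine eq_one_of_not_lt (A.valuation.map_sub_le hle hle') fun hlt => ?_
  obtain ⟨k, e⟩ := redFun_of_mem hI h hx
  obtain ⟨k', e'⟩ := redFun_of_mem hI h' hx'
  have hres : resOf A x = resOf A x' := by
    rw [resOf, resOf, dif_pos hx, dif_pos hx', ← sub_eq_zero, ← map_sub,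
      IsLocalRing.residue_eq_zero_iff, ← A.coe_mem_nonunits_iff, A.mem_nonunits_iff]
    exact hlt
  rw [redHom_apply, redHom_apply, e, e'] at h1 h2
  rcases Affine.Y_eq_of_X_eq k.1 k'.1 hres with hy | hy
  · exact h1 (by simp only [Affine.Point.some.injEq]; exact ⟨hres, hy⟩)
  · exact h2 (by rw [Affine.Point.neg_some]; simp only [Affine.Point.some.injEq]; exact ⟨hres, hy⟩)

variable {K : Type} [Field K] [NumberField K]

local notation "Kb" => AlgebraicClosure K

open CMDat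

namespace CMPlace

variable {D : CMDat K} (P : CMPlace D)

local notation "vv" => P.R.valuation

/-- **The abscissa of a translate of a point of the kernel of reduction.** -/
theorem val_xP_add {S T : D.Pt} (hS : P.red S = 0) (hT : P.red T ≠ 0) :
    vv (xP (S + T) - xP T - 2 * yP T * zc S) ≤ vv (zc S) ^ 2 := by
  by_cases hS0 : S = 0
  · subst hS0; simp [zc_zero]
  obtain ⟨hx₁, hy₁, hT0, -⟩ := P.red_coord hT
  have hx₁' := (P.R.valuation_le_one_iff _).2 hx₁
  have hy₁' := (P.R.valuation_le_one_iff _).2 hy₁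
  set t := vv (zc S)
  have ht1 : t < 1 := P.val_zc_lt hS
  have ht0 : 0 < t := (P.R.valuation).pos_iff.2 (P.zc_ne_zero hS hS0)
  have hwv : vv (wc S) = t ^ 3 := P.val_wc hS
  have hw0 : wc S ≠ 0 := (P.R.valuation).ne_zero_iff.1 (by rw [hwv]; exact (pow_pos ht0 3).ne')
  have hx : xP S = zc S / wc S := by
    simp only [zc, wc]
    field_simp [P.yP_ne_zero hS hS0]
  have hy : yP S = -(1 / wc S) := by
    simp only [wc]
    field_simp [P.yP_ne_zero hS hS0]
  have hne : xP S ≠ xP T := fun e => by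
    have := (P.large hS hS0).1
    rw [e] at this
    exact absurd hx₁' (not_le.2 this)
  set z := zc S
  set w := wc S
  set a := xP T
  set b := yP T
  have hz : vv z = t := rfl
  have hd : vv (z - a * w) = t := by
    rw [Valuation.map_sub_eq_of_lt_left _ ?_, hz]
    rw [map_mul, hwv, hz]
    exact lt_of_le_of_lt (mul_le_of_le_one_left' hx₁')
      (pow_lt_self_of_lt_one₀ ht0 ht1 (by norm_num))
  have hd0 : z - a * w ≠ 0 := (P.R.valuation).ne_zero_iff.1 (by rw [hd]; exact ht0.ne')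
  have hadd : xP (S + T) = ((yP S - b) / (xP S - a)) ^ 2 - xP S - a := by
    simp only [a, b]
    rcases S with _ | ⟨x, y, k⟩
    · exact absurd rfl hS0
    rcases T with _ | ⟨x', y', k'⟩
    · exact absurd rfl hT0
    change x ≠ x' at hne
    rw [Affine.Point.add_of_X_ne hne]
    show (D.W.toAffine⁄Kb).addX x x' _ = _
    simp [Affine.addX, Affine.slope_of_X_ne hne, xP, yP]
  have key : xP (S + T) - a - 2 * b * z = (w ^ 2 * (z * (D.Ab + 3 * a ^ 2 + 4 * a * b * z)) +
      w ^ 3 * (D.Bb + b ^ 2 - 2 * a ^ 3 + 2 * b * D.Ab * z - 2 * a ^ 2 * b * z +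
        2 * b * D.Bb * w)) / (w * (z - a * w) ^ 2) := by
    have hslope : (yP S - b) / (xP S - a) = -(1 + b * w) / (z - a * w) := by
      rw [hx, hy, show z / w - a = (z - a * w) / w by field_simp,
        show -(1 / w) - b = -(1 + b * w) / w by field_simp; ring, div_div_div_cancel_right₀ hw0]
    have expand : ∀ u d c : Kb, d ≠ 0 →
        ((u / d) ^ 2 - z / w - c) * (w * d ^ 2) = w * u ^ 2 - z * d ^ 2 - c * (w * d ^ 2) :=
      fun u d c hd => by field_simp
    rw [hadd, hslope, hx, eq_div_iff (mul_ne_zero hw0 (pow_ne_zero 2 hd0)),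
      show (-(1 + b * w) / (z - a * w)) ^ 2 - z / w - a - a - 2 * b * z =
        (-(1 + b * w) / (z - a * w)) ^ 2 - z / w - (2 * a + 2 * b * z) by ring, expand _ _ _ hd0]
    linear_combination (1 + 2 * b * w) * P.wc_eq hS
  rw [key, map_div₀, map_mul, map_pow, hd, hwv, div_le_iff₀ (mul_pos (pow_pos ht0 3) (pow_pos ht0 2))]
  have h2 : ∀ {c d : Kb}, vv c ≤ 1 → vv d ≤ 1 → vv (c * d) ≤ 1 := fun hc hd => P.val_mul_le hc hd
  have hn2 : vv (2 : Kb) ≤ 1 := by simpa using natCast_le_one (v := P.R.valuation) 2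
  have hn3 : vv (3 : Kb) ≤ 1 := by simpa using natCast_le_one (v := P.R.valuation) 3
  have hn4 : vv (4 : Kb) ≤ 1 := by simpa using natCast_le_one (v := P.R.valuation) 4
  have hz1 : vv z ≤ 1 := hz ▸ ht1.le
  have hw1 : vv w ≤ 1 := hwv ▸ pow_le_one₀ zero_le ht1.le
  have ha2 : ∀ k : ℕ, vv (a ^ k) ≤ 1 := fun k => by rw [map_pow]; exact pow_le_one₀ zero_le hx₁'
  have c1 : vv (D.Ab + 3 * a ^ 2 + 4 * a * b * z) ≤ 1 :=
    Valuation.map_add_le _ (Valuation.map_add_le _ P.Ab_le (h2 hn3 (ha2 2)))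
      (h2 (h2 (h2 hn4 hx₁') hy₁') hz1)
  have c2 : vv (D.Bb + b ^ 2 - 2 * a ^ 3 + 2 * b * D.Ab * z - 2 * a ^ 2 * b * z +
      2 * b * D.Bb * w) ≤ 1 :=
    Valuation.map_add_le _ (Valuation.map_sub_le _ (Valuation.map_add_le _ (Valuation.map_sub_le _
      (Valuation.map_add_le _ P.Bb_le (sq b ▸ h2 hy₁' hy₁')) (h2 hn2 (ha2 3)))
      (h2 (h2 (h2 hn2 hy₁') P.Ab_le) hz1)) (h2 (h2 (h2 hn2 (ha2 2)) hy₁') hz1))
      (h2 (h2 (h2 hn2 hy₁') P.Bb_le) hw1)
  rw [show t ^ 2 * (t ^ 3 * t ^ 2) = t ^ 7 by rw [← pow_add, ← pow_add]]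
  refine Valuation.map_add_le _ ?_ ?_
  · rw [map_mul, map_mul, map_pow, hwv, hz, ← mul_assoc, ← pow_mul, ← pow_succ]
    exact mul_le_of_le_one_right' c1
  · rw [map_mul, map_pow, hwv, ← pow_mul]
    exact (mul_le_of_le_one_right' c2).trans (pow_le_pow_of_le_one zero_le ht1.le (by norm_num))

end CMPlace

namespace Grossen

variable {D : CMDat K} {Q : IQF K} (G : Grossen D Q) {N : ℕ} (hN : N ≠ 0)

/-- The index set. -/
def unitIdx : Finset (D.Pt × D.Pt) := G.pts ×ˢ (torsPts D hN).erase 0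

/-- The product of the differences of abscissae. -/
def unitFun (S : D.Pt) : Kb := ∏ q ∈ G.unitIdx hN, (xP (S + q.1) - xP q.2)

theorem mem_unitIdx {q : D.Pt × D.Pt} :
    q ∈ G.unitIdx hN ↔ q.1 ∈ G.pts ∧ q.2 ≠ 0 ∧ N • q.2 = 0 := by
  rw [unitIdx, Finset.mem_product, Finset.mem_erase, mem_torsPts]

theorem algValue_eq_sum :
    G.algValue hN = ∑ q ∈ G.unitIdx hN, 2 * yP q.1 / (xP q.1 - xP q.2) := by
  rw [algValue, unitIdx, Finset.sum_product]

theorem smul_unitFun (σ : Kb ≃ₐ[K] Kb) (S : D.Pt) :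
    σ (G.unitFun hN S) = G.unitFun hN (σ • S) := by
  have hmem : ∀ (τ : Kb ≃ₐ[K] Kb) (q : D.Pt × D.Pt), q ∈ G.unitIdx hN →
      (τ • q.1, τ • q.2) ∈ G.unitIdx hN := fun τ q hq => by
    rw [mem_unitIdx] at hq ⊢
    exact ⟨G.smul_mem_pts τ hq.1, fun h => hq.2.1 ((smul_eq_zero_iff_eq τ).1 h),
      by rw [← smul_nsmul', hq.2.2, smul_zero (A := D.Pt) τ]⟩
  rw [unitFun, map_prod, unitFun]
  refine Finset.prod_bij (fun q _ => (σ • q.1, σ • q.2)) (fun q hq => hmem σ q hq)
    (fun q _ r _ e => ?_) (fun q hq => ⟨_, hmem σ⁻¹ q hq, ?_⟩) fun q _ => ?_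
  · simp only [Prod.mk.injEq, smul_left_cancel_iff] at e
    exact Prod.ext e.1 e.2
  · simp
  · rw [map_sub, ← xP_smul, ← xP_smul, smul_add (A := D.Pt) σ]

variable {hN}

theorem eq_zero_of_coprime (hcop : G.M.Coprime N) {T : D.Pt} (hM : G.M • T = 0)
    (hNT : N • T = 0) : T = 0 := by
  obtain ⟨u, v, e⟩ := (Int.isCoprime_iff_nat_coprime.2 (by simpa using hcop) :
    IsCoprime (G.M : ℤ) (N : ℤ))
  rw [← one_zsmul T, ← e, add_zsmul, mul_zsmul, mul_zsmul, natCast_zsmul, natCast_zsmul, hM, hNT,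
    zsmul_zero, zsmul_zero, add_zero]

end Grossen

namespace SplitPlace

variable {D : CMDat K} {Q : IQF K} (X : SplitPlace D Q)

local notation "vv" => X.P.R.valuation

variable (G : Grossen D Q) {N : ℕ} (hN : N ≠ 0)

/-- The elliptic unit. -/
def ellUnit (n : ℕ) : Kb := G.unitFun hN (2 • X.pt n) / G.unitFun hN (X.pt n)

theorem ellUnit_mem (n : ℕ) : X.ellUnit G hN n ∈ X.fld n := by
  refine X.mem_fld_of_fixed fun σ hσ => ?_
  rw [ellUnit, map_div₀, G.smul_unitFun, G.smul_unitFun, smul_nsmul', X.smul_pt_of_fix hσ]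

variable (hcop : G.M.Coprime N) (hM : (G.M : 𝓞 K) ∉ X.P.v.asIdeal)
  (hNv : (N : 𝓞 K) ∉ X.P.v.asIdeal)
include hcop hM hNv

theorem red_facts {q : D.Pt × D.Pt} (hq : q ∈ G.unitIdx hN) :
    X.P.red q.1 ≠ 0 ∧ vv (xP q.1 - xP q.2) = 1 := by
  rw [G.mem_unitIdx] at hq
  obtain ⟨hT, ha, hNa⟩ := hq
  have hMT := G.nsmul_pts hT
  have hT0 := G.pts_ne_zero hT
  have hMN : ((G.M * N : ℕ) : 𝓞 K) ∉ X.P.v.asIdeal := fun h => by
    rw [Nat.cast_mul] at h
    exact (X.P.v.isPrime.mem_or_mem h).elim hM hNv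
  have hne : ∀ b : D.Pt, N • b = 0 → X.P.red q.1 ≠ X.P.red b := fun b hb e => by
    have h0 : q.1 - b = 0 := X.P.red_injective hMN (by
      rw [nsmul_sub, mul_nsmul, hMT, nsmul_zero, mul_comm G.M, mul_nsmul, hb, nsmul_zero,
        sub_zero]) (by rw [map_sub, e, sub_self])
    rw [sub_eq_zero] at h0
    exact hT0 (G.eq_zero_of_coprime hcop hMT (h0 ▸ hb))
  refine ⟨fun e => hne 0 (nsmul_zero N) (by rw [e, map_zero]), ?_⟩
  have hra : X.P.red q.2 ≠ 0 := fun e => ha (X.P.red_injective hNv hNa e)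
  have h := val_xP_sub_eq_max X.P.int X.P.good (P := q.1) ha (hne 0 (nsmul_zero N) ∘ fun e => by
    rw [map_zero]; exact e) (hne _ hNa) fun e => hne (-q.2) (by rw [neg_nsmul, hNa, neg_zero]) (by
    rw [map_neg]; exact e)
  rw [h, max_eq_left ((X.P.R.valuation_le_one_iff _).2 (X.P.red_coord hra).1)]

theorem val_algValue_le : vv (G.algValue hN) ≤ 1 := by
  rw [G.algValue_eq_sum]
  refine Valuation.map_sum_le _ fun q hq => ?_
  obtain ⟨h1, h2⟩ := X.red_facts G hN hcop hM hNv hq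
  rw [map_div₀, h2, div_one]
  exact X.P.val_mul_le (by simpa using natCast_le_one (v := X.P.R.valuation) 2)
    ((X.P.R.valuation_le_one_iff _).2 (X.P.red_coord h1).2.1)

/-- The product to first order. -/
theorem val_unitFun {S : D.Pt} (hS : X.P.red S = 0) :
    ∃ F₁ : Kb, G.unitFun hN S = (∏ q ∈ G.unitIdx hN, (xP q.1 - xP q.2)) * F₁ ∧
      vv (F₁ - 1 - G.algValue hN * zc S) ≤ vv (zc S) ^ 2 := by
  set b : D.Pt × D.Pt → Kb := fun q => (xP (S + q.1) - xP q.1) / (xP q.1 - xP q.2)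
  have ht1 := (X.P.val_zc_lt hS).le
  have hne : ∀ q ∈ G.unitIdx hN, xP q.1 - xP q.2 ≠ 0 := fun q hq =>
    (X.P.R.valuation).ne_zero_iff.1 (by
      rw [(X.red_facts G hN hcop hM hNv hq).2]; exact one_ne_zero)
  refine ⟨∏ q ∈ G.unitIdx hN, (1 + b q), ?_, ?_⟩
  · rw [Grossen.unitFun, ← Finset.prod_mul_distrib]
    refine Finset.prod_congr rfl fun q hq => ?_
    rw [mul_add, mul_one, mul_div_cancel₀ _ (hne q hq)]
    ring
  have hb : ∀ q ∈ G.unitIdx hN, vv (b q - 2 * yP q.1 / (xP q.1 - xP q.2) * zc S) ≤ vv (zc S) ^ 2 :=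
    fun q hq => by
      obtain ⟨h1, h2⟩ := X.red_facts G hN hcop hM hNv hq
      rw [div_mul_eq_mul_div, ← sub_div, map_div₀, h2, div_one]
      exact X.P.val_xP_add hS h1
  have hb1 : ∀ q ∈ G.unitIdx hN, vv (b q) ≤ vv (zc S) := fun q hq => by
    obtain ⟨h1, h2⟩ := X.red_facts G hN hcop hM hNv hq
    rw [← sub_add_cancel (b q) (2 * yP q.1 / (xP q.1 - xP q.2) * zc S)]
    refine Valuation.map_add_le _ ((hb q hq).trans (pow_le_of_le_one zero_le ht1 two_ne_zero))
      (X.P.val_mul_le ?_ le_rfl)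
    rw [map_div₀, h2, div_one]
    exact X.P.val_mul_le (by simpa using natCast_le_one (v := X.P.R.valuation) 2)
      ((X.P.R.valuation_le_one_iff _).2 (X.P.red_coord h1).2.1)
  have h := val_prod_one_add vv (G.unitIdx hN) ht1 hb1
  rw [G.algValue_eq_sum, Finset.sum_mul, ← sub_add_cancel (∏ q ∈ G.unitIdx hN, (1 + b q) - 1)
    (∑ q ∈ G.unitIdx hN, b q), add_sub_assoc, ← Finset.sum_sub_distrib]
  exact Valuation.map_add_le _ h (Valuation.map_sum_le _ hb)

/-- **The unit is `1 + A z` to the first order.** -/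
theorem val_ellUnit {n : ℕ} :
    vv (X.ellUnit G hN n - 1 - G.algValue hN * X.z n) ≤ X.ρ n ^ 2 := by
  obtain ⟨F₁, e₁, h₁⟩ := X.val_unitFun G hN hcop hM hNv (X.red_pt n)
  obtain ⟨F₂, e₂, h₂⟩ := X.val_unitFun G hN hcop hM hNv (X.red_nsmul 2 n)
  have hA := X.val_algValue_le G hN hcop hM hNv
  have hρ := (X.ρ_lt_one n).le
  set r := X.ρ n
  set A₀ := G.algValue hN
  have hF0 : ∏ q ∈ G.unitIdx hN, (xP q.1 - xP q.2) ≠ 0 := Finset.prod_ne_zero_iff.2 fun q hq =>
    (X.P.R.valuation).ne_zero_iff.1 (by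
      rw [(X.red_facts G hN hcop hM hNv hq).2]; exact one_ne_zero)
  have hz2 : vv (zc (2 • X.pt n) - 2 * X.z n) ≤ r ^ 2 := by
    have h := (X.P.val_zc_nsmul (X.red_pt n) 2).trans
      (pow_le_pow_of_le_one zero_le hρ (by norm_num : 2 ≤ 3))
    rwa [Nat.cast_ofNat] at h
  have hz2' : vv (zc (2 • X.pt n)) ≤ r := by
    rw [← sub_add_cancel (zc (2 • X.pt n)) (2 * X.z n)]
    exact Valuation.map_add_le _ (hz2.trans (pow_le_of_le_one zero_le hρ two_ne_zero))
      (X.P.val_mul_le (by simpa using natCast_le_one (v := X.P.R.valuation) 2) le_rfl)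
  replace h₂ := h₂.trans (pow_le_pow_left₀ zero_le hz2' 2)
  have hF1 : vv (F₁ - 1) ≤ r := by
    rw [← sub_add_cancel (F₁ - 1) (A₀ * X.z n)]
    exact Valuation.map_add_le _ (h₁.trans (pow_le_of_le_one zero_le hρ two_ne_zero))
      (X.P.val_mul_le hA le_rfl)
  have hF1v : vv F₁ = 1 := eq_one_of_sub_lt (map_one _) (hF1.trans_lt (X.ρ_lt_one n))
  have hF1' : F₁ ≠ 0 := (X.P.R.valuation).ne_zero_iff.1 (by rw [hF1v]; exact one_ne_zero)
  rw [ellUnit, e₁, e₂, mul_div_mul_left _ _ hF0,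
    show F₂ / F₁ - 1 - A₀ * X.z n = ((F₂ - 1 - A₀ * zc (2 • X.pt n)) - (F₁ - 1 - A₀ * X.z n) +
      (A₀ * (zc (2 • X.pt n) - 2 * X.z n) - A₀ * X.z n * (F₁ - 1))) / F₁ by field_simp; ring,
    map_div₀, hF1v, div_one]
  refine Valuation.map_add_le _ (Valuation.map_sub_le _ h₂ h₁)
    (Valuation.map_sub_le _ (X.P.val_mul_le hA hz2) ?_)
  rw [map_mul, map_mul, sq r]
  exact mul_le_mul' (mul_le_of_le_one_left' hA) hF1

/-- **It is a unit of level one, exact when `A` is a unit.** -/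
theorem isU_ellUnit {n : ℕ} (hn : n ≠ 0) :
    X.IsU n 1 (X.ellUnit G hN n) ∧
      (vv (G.algValue hN) = 1 → ¬ vv (X.ellUnit G hN n - 1) < X.ρ n) := by
  have h := X.val_ellUnit G hN hcop hM hNv (n := n)
  have hρ := X.ρ_lt_one n
  refine ⟨⟨X.ellUnit_mem G hN n, ?_⟩, fun hA hlt => ?_⟩
  · rw [pow_one, ← sub_add_cancel (X.ellUnit G hN n - 1) (G.algValue hN * X.z n)]
    exact Valuation.map_add_le _ (h.trans (pow_le_of_le_one zero_le hρ.le two_ne_zero))
      (X.P.val_mul_le (X.val_algValue_le G hN hcop hM hNv) le_rfl)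
  · have h2 := (X.P.R.valuation).map_sub_lt hlt
      (h.trans_lt (pow_lt_self_of_lt_one₀ (X.ρ_pos hn) hρ one_lt_two))
    rw [sub_sub_cancel, map_mul, hA, one_mul] at h2
    exact lt_irrefl _ h2

end SplitPlace

/-- Some good equation at the valuation ring in which no nonzero point killed by `a` reduces to
zero. -/
def Separates (D : CMDat K) (B : ValuationSubring (AlgebraicClosure K)) (a : 𝓞 K) : Prop :=
  ∃ (C : VariableChange (AlgebraicClosure K))
    (_hI : IntCoeff B.valuation (C • D.W.baseChange (AlgebraicClosure K)).toAffine),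
    B.valuation (C • D.W.baseChange (AlgebraicClosure K)).Δ = 1 ∧
      ∀ S : D.Pt, D.mulPt a S = 0 →
        E1 B.valuation (C • D.W.baseChange (AlgebraicClosure K)).toAffine
          ((vcEquiv C rfl).symm S) → S = 0

/-- **Where the `π`-power torsion is separated the products have one value.** -/
theorem val_unitFun_eq {D : CMDat K} {Q : IQF K} (G : Grossen D Q) {N : ℕ} (hN : N ≠ 0)
    {B : ValuationSubring Kb} {a : 𝓞 K} (hB : Separates D B a) {S S' : D.Pt}
    (hS : D.mulPt a S = 0) (hS' : D.mulPt a S' = 0) (h : (G.M * N) • S ≠ 0)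
    (h' : (G.M * N) • S' ≠ 0) :
    B.valuation (G.unitFun hN S) = B.valuation (G.unitFun hN S') := by
  obtain ⟨C, hI, hΔ, hsep⟩ := hB
  set V := C • D.W.baseChange Kb
  haveI : (redCurve B V.toAffine hI).IsElliptic := redCurve_isElliptic hI hΔ
  set e := vcEquiv C (W := D.W.baseChange Kb) (W' := V) rfl
  set r := redHom hI hΔ
  have hx : ∀ Z : D.Pt, Z ≠ 0 → xP Z = (C.u : Kb) ^ 2 * xP (e.symm Z) + C.r := fun Z hZ => by
    obtain ⟨Y, rfl⟩ := e.surjective Z
    rw [AddEquiv.symm_apply_apply]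
    rcases Y with _ | ⟨x, y, k⟩
    · exact absurd (map_zero e) hZ
    · rfl
  rw [Grossen.unitFun, Grossen.unitFun, map_prod, map_prod]
  refine Finset.prod_congr rfl fun q hq => ?_
  rw [G.mem_unitIdx] at hq
  have hMN : (G.M * N) • q.1 = 0 ∧ (G.M * N) • q.2 = 0 :=
    ⟨by rw [mul_nsmul, G.nsmul_pts hq.1, nsmul_zero],
      by rw [mul_comm, mul_nsmul, hq.2.2, nsmul_zero]⟩
  have key : ∀ Z : D.Pt, D.mulPt a Z = 0 → (G.M * N) • Z ≠ 0 →
      B.valuation (xP (Z + q.1) - xP q.2) =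
        B.valuation ((C.u : Kb) ^ 2) * max 1 (B.valuation (xP (e.symm q.2))) := fun Z hZ hZ0 => by
    have hr : ∀ c : D.Pt, (G.M * N) • c = 0 → r (e.symm (Z + q.1)) ≠ r (e.symm c) := fun c hc he => by
      refine hZ0 (hsep _ (by rw [map_nsmul, hZ, nsmul_zero]) ?_)
      have h0 := congrArg (fun W => (G.M * N) • W) he
      simp only [← map_nsmul, nsmul_add, hMN.1, hc, add_zero, map_zero] at h0
      exact (redFun_eq_zero_iff hI).1 h0
    have hne : Z + q.1 ≠ 0 := fun e0 => hr 0 (nsmul_zero _) (by rw [e0])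
    have hval := val_xP_sub_eq_max hI hΔ (P := e.symm (Z + q.1)) (a := e.symm q.2)
      (fun e0 => hq.2.1 (e.symm.map_eq_zero_iff.1 e0))
      (fun e0 => hr 0 (nsmul_zero _) (e0.trans (by rw [map_zero, map_zero]))) (hr _ hMN.2)
      fun e0 => hr (-q.2) (by rw [neg_nsmul, hMN.2, neg_zero]) (e0.trans (by rw [map_neg, map_neg]))
    rw [hx _ hne, hx _ hq.2.1,
      show (C.u : Kb) ^ 2 * xP (e.symm (Z + q.1)) + C.r - ((C.u : Kb) ^ 2 * xP (e.symm q.2) + C.r) =
        (C.u : Kb) ^ 2 * (xP (e.symm (Z + q.1)) - xP (e.symm q.2)) by ring, map_mul, hval]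
  rw [key S hS h, key S' hS' h']

end FA.CoatesWiles

end
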