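import Fermat.Agent.CoatesWiles.Units
import Fermat.Agent.GoodReductionNF.Potential
import Fermat.Agent.TraceNF.Place

/-!
# The places other than `v`

The invariant is integral, so at every valuation ring over another place some good equation exists:
at the conjugate place the given one, and elsewhere one over the field of the points killed by `35`.
There the `π`-power torsion reduces injectively, and inertia fixing the points killed by `π ^ n`
fixes every `π ^ n`-th part of a fixed point.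
-/

set_option autoImplicit false
set_option linter.style.haveILetI false
set_option linter.unusedSectionVars false

noncomputable section

open WeierstrassCurve NumberField IsDedekindDomain FA.IsogenyNF FA.Frob FA.Local
open FA.OpenImageNF (OverPlace inertGroup mem_inertGroup)
open FA.ClassNumberOne (xP yP)
open FA.DeuringCM (IQF)
open FA.TraceNF (levelField)
open scoped WeierstrassCurve.Affine Classical

namespace FA.CoatesWiles

variable {K : Type} [Field K] [NumberField K]

local notation "Kb" => AlgebraicClosure K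

/-- **The invariant is integral.** -/
theorem isIntegral_j (D : CMDat K) (Q : IQF K) : IsIntegral ℤ D.W.j := by
  obtain ⟨Lp, h2, h3, ω, hω, hst, -⟩ := emb_mem_cm D Q
  exact FA.IsogenyNF.isIntegral_j (ψ := D.emb) D.W ⟨Lp, h2, h3, ω, hω, hst⟩

variable (K) in
/-- The hypothesis on the places over the norm of `v`: good reduction prime to six. -/
def GoodAbove (D : CMDat K) (p : ℕ) : Prop :=
  ∀ u : HeightOneSpectrum (𝓞 K), (p : 𝓞 K) ∈ u.asIdeal →
    D.W₀.Δ ∉ u.asIdeal ∧ (6 : 𝓞 K) ∉ u.asIdeal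

namespace SplitPlace

variable {D : CMDat K} {Q : IQF K} (X : SplitPlace D Q)

/-- **At the conjugate place `π` kills no point of the kernel of reduction.** -/
theorem eq_zero_of_other (hg : GoodAbove K D X.p) {P : CMPlace D} (hne : P.v ≠ X.P.v)
    (hpu : (X.p : 𝓞 K) ∈ P.v.asIdeal) {n : ℕ} {S : D.Pt} (hS : D.mulPt (X.π ^ n) S = 0)
    (hred : P.red S = 0) : S = 0 := by
  set u := P.v
  have hπu : X.π ∉ u.asIdeal := fun h => hne (HeightOneSpectrum.ext ((X.P.v.isMaximal.eq_of_le
    u.isPrime.ne_top (by rw [X.h.span_eq, Ideal.span_singleton_le_iff_mem]; exact h)).symm))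
  have hcu : Q.conj X.π ∈ u.asIdeal := by
    rw [← X.h.mul_conj] at hpu
    exact (u.isPrime.mem_or_mem hpu).resolve_left hπu
  have hmax : u.asIdeal = Ideal.span {Q.conj X.π} := by
    have hle : Ideal.span {Q.conj X.π} ≤ u.asIdeal := (Ideal.span_singleton_le_iff_mem _).2 hcu
    have hpr : (Ideal.span {Q.conj X.π}).IsPrime := Ideal.isPrime_of_prime
      ((Ideal.prime_span_singleton_iff).2 ((MulEquiv.prime_iff Q.conj.toMulEquiv).2 X.h.prime_elt))
    exact ((hpr.isMaximal (by simpa [Ideal.span_singleton_eq_bot] using X.h.ne_zero)).eq_of_le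
      u.isPrime.ne_top hle).symm
  have hprime : (Ideal.absNorm u.asIdeal).Prime := by
    rw [hmax, Q.absNorm_conj, ← X.h.span_eq]
    exact X.prime
  obtain ⟨π', h'⟩ := exists_isFrobElt D Q hprime (hg u hpu).1 (hg u hpu).2
    ⟨Q.conj X.π, hcu, by rwa [Q.conj_conj]⟩
  obtain ⟨c, hc⟩ : X.π ∣ Q.conj π' := by
    obtain ⟨d, hd⟩ : Q.conj X.π ∣ π' := Ideal.mem_span_singleton.1 (hmax ▸ h'.mem)
    exact ⟨Q.conj d, by rw [hd, map_mul, Q.conj_conj]⟩
  refine h'.eq_zero_of_conj_pow P rfl (n := n) ?_ hred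
  rw [hc, mul_pow, mul_comm, D.mulPt_mul, hS, map_zero]

theorem nsmul_eq_zero_of_pow {n : ℕ} {S : D.Pt} (hS : D.mulPt (X.π ^ n) S = 0) :
    X.p ^ n • S = 0 :=
  D.nsmul_eq_zero_of_mulPt ⟨Q.conj X.π ^ n, by rw [Nat.cast_pow, ← mul_pow, X.h.mul_conj]⟩ hS

/-- **The `π`-power torsion is separated at the other places.** -/
theorem separates (hg : GoodAbove K D X.p) {u : HeightOneSpectrum (𝓞 K)} (hu : u ≠ X.P.v)
    {B : ValuationSubring Kb} (hB : OverPlace B u) (n : ℕ) : Separates D B (X.π ^ n) := by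
  by_cases hpu : (X.p : 𝓞 K) ∈ u.asIdeal
  · let P : CMPlace D := ⟨B, u, hB, (hg u hpu).1⟩
    refine ⟨1, ?_, ?_, fun S hS hE => ?_⟩
    · rw [one_smul]; exact P.int
    · rw [one_smul]; exact P.good
    · refine X.eq_zero_of_other hg (P := P) hu hpu hS (P.red_eq_zero_iff.2 ?_)
      rcases S with _ | ⟨x, y, h⟩
      · trivial
      obtain ⟨Y, hY⟩ : ∃ Y, (vcEquiv (1 : VariableChange Kb)
          (W := D.W.baseChange Kb) (W' := 1 • D.W.baseChange Kb) rfl).symm
            (Affine.Point.some x y h) = Y := ⟨_, rfl⟩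
      rw [hY] at hE
      rw [AddEquiv.symm_apply_eq] at hY
      rcases Y with _ | ⟨x', y', h'⟩
      · exact absurd (hY.trans (map_zero _)) (Affine.Point.some_ne_zero h)
      rw [vcEquiv_some, Affine.Point.some.injEq] at hY
      rw [e1_some] at hE ⊢
      rwa [hY.1, show vcX (1 : VariableChange Kb) x' = x' by
        simp [vcX, VariableChange.one_def]]
  · have hj : B.valuation (D.W.baseChange Kb).j ≤ 1 := by
      rw [show (D.W.baseChange Kb).j = algebraMap K Kb D.W.j from map_j _ _]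
      exact hB.le_one _ (u.valuation_le_one (⟨_, isIntegral_j D Q⟩ : 𝓞 K))
    obtain ⟨C, hI, hΔ⟩ := FA.GoodNF.exists_goodModel (v := B.valuation) (D.W.baseChange Kb) hj
    refine ⟨C, hI, hΔ, fun S hS hE => ?_⟩
    have hpv : B.valuation ((X.p : ℕ) : Kb) = 1 := by
      rw [show ((X.p : ℕ) : Kb) = algebraMap K Kb ((X.p : 𝓞 K) : K) by simp]
      exact hB.eq_one (le_antisymm (u.valuation_le_one _)
        (not_lt.1 fun h => hpu ((u.valuation_lt_one_iff_mem _).1 h)))
    have h0 := FA.GoodNF.eq_zero_of_e1_prime_pow hI X.prime hpv hE (n := n)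
      (by rw [← map_nsmul, X.nsmul_eq_zero_of_pow hS, map_zero])
    exact (AddEquiv.map_eq_zero_iff _).1 h0

/-- A power of an automorphism fixes a finite Galois layer. -/
theorem pow_mem_fixingSubgroup (F : IntermediateField K Kb) [FiniteDimensional K F]
    [IsGalois K F] (σ : Kb ≃ₐ[K] Kb) : σ ^ Module.finrank K F ∈ F.fixingSubgroup := by
  rw [IntermediateField.mem_fixingSubgroup_iff]
  intro x hx
  have h : AlgEquiv.restrictNormalHom (F := K) F (σ ^ Module.finrank K F) = 1 := by
    rw [map_pow, ← IsGalois.card_aut_eq_finrank K F, pow_card_eq_one']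
  have h2 := AlgEquiv.restrictNormalHom_apply (F := K) F (σ ^ Module.finrank K F) (⟨x, hx⟩ : F)
  rw [h] at h2
  exact h2.symm

/-- The powers of an automorphism moving a point by a fixed one. -/
theorem smul_pow_eq {σ : Kb ≃ₐ[K] Kb} {R T : D.Pt} (hR : σ • R = R + T) (hT : σ • T = T) :
    ∀ k : ℕ, (σ ^ k) • R = R + k • T := fun k => by
  induction k with
  | zero => simp
  | succ k ih =>
    rw [pow_succ', mul_smul, ih, smul_add (A := D.Pt) σ, hR, smul_nsmul', hT, succ_nsmul', add_assoc]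

/-- **Inertia at the other places fixes the division points.** -/
theorem smul_eq_of_inert (hg : GoodAbove K D X.p)
    (hm : ¬ X.p ∣ Module.finrank K (levelField Kb D.W 35))
    {u : HeightOneSpectrum (𝓞 K)} (hu : u ≠ X.P.v) {B : ValuationSubring Kb} (hB : OverPlace B u)
    {σ : Kb ≃ₐ[K] Kb} (hσ : σ ∈ inertGroup K B) {n : ℕ} (hn : σ • X.pt n = X.pt n) {R : D.Pt}
    (hR : σ • D.mulPt (X.π ^ n) R = D.mulPt (X.π ^ n) R) : σ • R = R := by
  set T := σ • R - R with hT
  have hTπ : D.mulPt (X.π ^ n) T = 0 := by rw [hT, map_sub, D.mulPt_smul, hR, sub_self]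
  have hσR : σ • R = R + T := by rw [hT, add_sub_cancel]
  obtain ⟨j, hj⟩ := X.h.exists_nsmul_piPt hTπ
  have hσT : σ • T = T := by rw [hj, smul_nsmul', hn]
  suffices hT0 : T = 0 by rw [hσR, hT0, add_zero]
  by_cases hpu : (X.p : 𝓞 K) ∈ u.asIdeal
  · let P : CMPlace D := ⟨B, u, hB, (hg u hpu).1⟩
    exact X.eq_zero_of_other hg (P := P) hu hpu hTπ
      (P.red_eq_zero_iff.2 ((mem_inertGroup.1 hσ).e1_smul_sub_of_good D.W P.int P.good R))
  -- pass to the field of the points killed by `35`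
  set F := levelField Kb D.W 35
  haveI : FiniteDimensional K F := FA.TraceNF.finiteDimensional_levelField D.W (by norm_num)
  haveI : IsGalois K F := FA.TraceNF.isGalois_levelField D.W 35
  haveI : NumberField F := NumberField.of_module_finite K F
  haveI : Algebra.IsAlgebraic F Kb := Algebra.IsAlgebraic.tower_top (K := K) F
  set τ := σ ^ Module.finrank K F
  have hτF : τ ∈ F.fixingSubgroup := pow_mem_fixingSubgroup F σ
  have hτ : τ ∈ inertGroup K B := pow_mem hσ _
  set τ' := F.fixingSubgroupEquiv ⟨τ, hτF⟩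
  obtain ⟨Q', hQ', -, -⟩ := FA.GoodNF.exists_place hB F
  have htor : ∀ k : ℕ, k ∣ 35 → FA.IsogenyNF.torField Kb D.W k ≤ F := fun k hk => by
    refine IntermediateField.adjoin_le_iff.2 fun x hx =>
      IntermediateField.subset_adjoin K _ (Or.inl (Or.inl ?_))
    obtain ⟨c, hc⟩ := hk
    rcases hx with ⟨S, hS, rfl⟩ | ⟨S, hS, rfl⟩
    · exact Or.inl ⟨S, show (35 : ℕ) • S = 0 by rw [hc, mul_nsmul, hS, nsmul_zero], rfl⟩
    · exact Or.inr ⟨S, show (35 : ℕ) • S = 0 by rw [hc, mul_nsmul, hS, nsmul_zero], rfl⟩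
  obtain ⟨C, hI, hΔ⟩ := FA.GoodNF.goodAt_torField Kb (isIntegral_j D Q) F
    (htor 5 ⟨7, by norm_num⟩) (htor 7 ⟨5, by norm_num⟩) Q'
  set E := D.W.map (algebraMap K F)
  haveI : (E.baseChange Kb).IsElliptic := inferInstanceAs (E.map (algebraMap F Kb)).IsElliptic
  haveI : ((C • E).baseChange Kb).IsElliptic :=
    inferInstanceAs ((C • E).map (algebraMap F Kb)).IsElliptic
  have hC' : C.map (algebraMap F Kb) • E.baseChange Kb = (C • E).baseChange Kb := by
    simp only [WeierstrassCurve.baseChange, map_variableChange]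
  set e := FA.Frob.vcEquiv _ hC'
  obtain ⟨Y, hY⟩ := e.surjective (show (E.toAffine⁄Kb).Point from R)
  have hI' : IntCoeff B.valuation ((C • E).baseChange Kb).toAffine :=
    FA.IsogenyNF.intCoeff_of_place hQ'.le_one hI
  have hΔ' : B.valuation ((C • E).baseChange Kb).toAffine.Δ = 1 := by
    show B.valuation ((C • E).map (algebraMap F Kb)).Δ = 1
    rw [map_Δ]
    exact hQ'.eq_one hΔ
  have hτ' : τ' ∈ inertGroup F B := FA.GoodNF.mem_inertGroup_layer hτ hτF
  have hE1 := (mem_inertGroup.1 hτ').e1_smul_sub_of_good (C • E) hI' hΔ' Y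
  have hsm : ∀ Z : D.Pt, (τ' • (show (E.toAffine⁄Kb).Point from Z) : (E.toAffine⁄Kb).Point) =
      (show (E.toAffine⁄Kb).Point from τ • Z) := fun Z => by
    rcases Z with _ | ⟨x, y, h⟩
    · exact (smul_zero τ').trans (smul_zero (A := D.Pt) τ).symm
    · rfl
  have hval : e (τ' • Y - Y) = (show (E.toAffine⁄Kb).Point from Module.finrank K F • T) := by
    rw [map_sub, FA.IsogenyNF.vcEquiv_smul hC', hY, hsm]
    show (τ • R - R : D.Pt) = Module.finrank K F • T
    rw [smul_pow_eq hσR hσT, add_sub_cancel_left]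
  have hp0 : X.p ^ n • (Module.finrank K F • T) = 0 := by
    rw [← mul_nsmul', mul_comm, mul_nsmul', X.nsmul_eq_zero_of_pow hTπ, nsmul_zero]
  have hpv : B.valuation ((X.p : ℕ) : Kb) = 1 := by
    rw [show ((X.p : ℕ) : Kb) = algebraMap K Kb ((X.p : 𝓞 K) : K) by simp]
    exact hB.eq_one (le_antisymm (u.valuation_le_one _)
      (not_lt.1 fun h => hpu ((u.valuation_lt_one_iff_mem _).1 h)))
  have h0 := FA.GoodNF.eq_zero_of_e1_prime_pow hI' X.prime hpv hE1 (n := n)
    (e.injective (by rw [map_nsmul, hval, map_zero]; exact hp0))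
  rw [h0, map_zero] at hval
  have hmT : Module.finrank K F • T = 0 := hval.symm
  rw [hj, ← mul_nsmul', X.h.nsmul_piPt_eq_zero_iff] at hmT
  rw [hj, X.h.nsmul_piPt_eq_zero_iff]
  exact (Nat.Coprime.pow_left n (X.prime.coprime_iff_not_dvd.2 hm)).dvd_of_dvd_mul_left hmT

end SplitPlace

end FA.CoatesWiles

end
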