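import Fermat.Agent.CoatesWiles.Unramified
import Fermat.Agent.CoatesWiles.Divisibility
import Fermat.Agent.CoatesWiles.InertiaCriterion
import Fermat.Agent.CoatesWiles.Conjugation

/-!
# A point of infinite order makes the algebraic value divisible by the place

The field of a division point of a rational point is abelian over the layer, unramified outside the
place and ramified at it, so its symbol there is a nonzero equivariant homomorphism which by the
product formula kills the elliptic unit: that unit is not of exact level one.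
-/

set_option autoImplicit false
set_option linter.style.haveILetI false
set_option linter.unusedSectionVars false

noncomputable section

open WeierstrassCurve NumberField IsDedekindDomain FA.IsogenyNF FA.Frob FA.Local IntermediateField
open IsMulCommutative
open FA.ArtinRec FA.NormResidue
open FA.HasseCyclic (nearOne mem_nearOne)
open FA.OpenImageNF (OverPlace inertGroup mem_inertGroup exists_overPlace)
open FA.ClassNumberOne (xP yP)
open FA.DeuringCM (IQF)
open scoped WeierstrassCurve.Affine Classical Pointwise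

namespace FA.CoatesWiles

variable {K : Type} [Field K] [NumberField K]

local notation "Kb" => AlgebraicClosure K

open CMDat

namespace SplitPlace

variable {D : CMDat K} {Q : IQF K} (X : SplitPlace D Q)

local notation "vv" => X.P.R.valuation

/-- A rational point has a rational multiple in the kernel of reduction. -/
theorem exists_rational_red_zero {S₀ : D.Pt} (hfix : ∀ σ : Kb ≃ₐ[K] Kb, σ • S₀ = S₀)
    (hinf : ∀ m : ℕ, m ≠ 0 → m • S₀ ≠ 0) :
    ∃ S : D.Pt, S ≠ 0 ∧ X.P.red S = 0 ∧ ∀ σ : Kb ≃ₐ[K] Kb, σ • S = S := by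
  haveI : Fact X.P.p.Prime := ⟨X.prime⟩
  haveI : IsAlgClosure K Kb := ⟨inferInstance, inferInstance⟩
  haveI : IsGalois K Kb := IsAlgClosure.isGalois K Kb
  refine ⟨D.mulPt (X.π - 1) S₀, fun h0 => ?_, ?_, fun σ => by rw [← D.mulPt_smul, hfix]⟩
  · refine hinf (Ideal.absNorm (Ideal.span {X.π - 1})) (fun h => ?_)
      (D.nsmul_eq_zero_of_mulPt (Ideal.mem_span_singleton.1 (Ideal.absNorm_mem _)) h0)
    rw [Ideal.absNorm_eq_zero_iff, Ideal.span_singleton_eq_bot, sub_eq_zero] at h
    exact X.P.v.isPrime.ne_top ((Ideal.eq_top_iff_one _).2 (h ▸ X.h.mem))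
  · rw [D.mulPt_sub, D.mulPt_one, map_sub, X.h.red_mulPt X.P rfl, sub_eq_zero]
    rcases S₀ with _ | ⟨x, y, hxy⟩
    · exact (map_zero X.P.qMap).trans rfl
    by_cases hr : X.P.red (Affine.Point.some x y hxy) = 0
    · rw [hr, map_zero]
    have hrat : ∀ c : Kb, (∀ σ : Kb ≃ₐ[K] Kb, σ c = c) → c ∈ X.P.R →
        resOf X.P.R c ^ X.P.p = resOf X.P.R c := fun c hc hR => by
      obtain ⟨a, rfl⟩ := (InfiniteGalois.mem_range_algebraMap_iff_fixed _).2 hc
      obtain ⟨j, hj⟩ := X.exists_natCast_near ((X.P.R.valuation_le_one_iff _).2 hR)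
      have e : resOf X.P.R (algebraMap K Kb a) = (j : Res X.P.R) := by
        rw [resOf, dif_pos hR, ← map_natCast (IsLocalRing.residue X.P.R), ← sub_eq_zero,
          ← map_sub, IsLocalRing.residue_eq_zero_iff, ← X.P.R.coe_mem_nonunits_iff,
          X.P.R.mem_nonunits_iff]
        simpa using hj
      haveI := X.P.instCharPRes
      rw [e, ← frobenius_def, map_natCast]
    obtain ⟨hx, hy, -, k, e⟩ := X.P.red_coord hr
    have hxfix : ∀ σ : Kb ≃ₐ[K] Kb, σ x = x := fun σ => by
      have h := congrArg xP (hfix σ)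
      rw [xP_smul] at h
      exact h
    have hyfix : ∀ σ : Kb ≃ₐ[K] Kb, σ y = y := fun σ => by
      have h := congrArg yP (hfix σ)
      rw [yP_smul] at h
      exact h
    rw [e]
    show Affine.Point.some (iterateFrobenius (Res X.P.R) X.P.p 1 (resOf X.P.R x))
      (iterateFrobenius (Res X.P.R) X.P.p 1 (resOf X.P.R y)) _ = _
    simp only [Affine.Point.some.injEq, iterateFrobenius_def, pow_one]
    exact ⟨hrat x hxfix hx, hrat y hyfix hy⟩

/-! ### The field of a division point -/

/-- The field of the point and of the parameter. -/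
def divField (n : ℕ) (R : D.Pt) : IntermediateField K Kb :=
  adjoin K {X.z n, xP R, yP R}

variable {n : ℕ} {R : D.Pt}

theorem fld_le_divField : X.fld n ≤ X.divField n R :=
  adjoin.mono K _ _ (by simp)

theorem smul_eq_smul_of_agree {σ τ : Kb ≃ₐ[K] Kb}
    (h : ∀ x ∈ X.divField n R, σ x = τ x) : σ • R = τ • R := by
  rcases R with _ | ⟨x, y, hxy⟩
  · exact (smul_zero (A := D.Pt) σ).trans (smul_zero (A := D.Pt) τ).symm
  simp only [Affine.Point.algEquiv_smul_def, Affine.Point.map_some, Affine.Point.some.injEq]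
  exact ⟨h x (subset_adjoin K _ (by simp [xP])), h y (subset_adjoin K _ (by simp [yP]))⟩

theorem mem_fixingSubgroup_divField {σ : Kb ≃ₐ[K] Kb} :
    σ ∈ (X.divField n R).fixingSubgroup ↔ σ (X.z n) = X.z n ∧ σ • R = R := by
  rw [IntermediateField.mem_fixingSubgroup_iff]
  refine ⟨fun h => ⟨h _ (subset_adjoin K _ (by simp)), ?_⟩, fun ⟨hz, hR⟩ x hx => ?_⟩
  · simpa using X.smul_eq_smul_of_agree (σ := σ) (τ := 1) (n := n) (R := R) h
  · induction hx using adjoin_induction with
    | mem x hx =>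
      rcases hx with rfl | rfl | rfl
      · exact hz
      · rw [← xP_smul, hR]
      · rw [← yP_smul, hR]
    | algebraMap c => exact σ.commutes c
    | add a b _ _ ha hb => rw [map_add, ha, hb]
    | inv a _ ha => rw [map_inv₀, ha]
    | mul a b _ _ ha hb => rw [map_mul, ha, hb]

instance finiteDimensional_divField : FiniteDimensional K (X.divField n R) :=
  finiteDimensional_adjoin fun x _ => Algebra.IsIntegral.isIntegral x

theorem isGalois_divField
    (hS : ∀ σ : Kb ≃ₐ[K] Kb, σ • D.mulPt (X.π ^ n) R = D.mulPt (X.π ^ n) R) :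
    IsGalois K (X.divField n R) := by
  haveI : IsAlgClosure K Kb := ⟨inferInstance, inferInstance⟩
  haveI : IsGalois K Kb := IsAlgClosure.isGalois K Kb
  haveI : Normal K (X.divField n R) := by
    refine normal_iff_forall_map_le'.2 fun σ => ?_
    rw [divField, adjoin_map, adjoin_le_iff]
    rintro _ ⟨x, hx, rfl⟩
    show σ x ∈ X.divField n R
    rw [← InfiniteGalois.fixedField_fixingSubgroup (X.divField n R)]
    rintro ⟨τ, hτ⟩
    obtain ⟨hz, hτR⟩ := X.mem_fixingSubgroup_divField.1 hτ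
    obtain ⟨j, hj⟩ := X.h.exists_nsmul_piPt (m := n) (T := σ • R - R)
      (by rw [map_sub, D.mulPt_smul, hS, sub_self])
    have hσR : τ • σ • R = σ • R := by
      rw [← sub_add_cancel (σ • R) R, hj, smul_add (A := D.Pt) τ, smul_nsmul',
        X.smul_pt_of_fix hz, hτR]
    show τ (σ x) = σ x
    rcases hx with rfl | rfl | rfl
    · exact (IntermediateField.mem_fixingSubgroup_iff _ _).1 (X.mem_fixingSubgroup_fld.2 hz) _
        (X.apply_mem_fld σ (X.z_mem n))
    · rw [← xP_smul, ← xP_smul, hσR]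
    · rw [← yP_smul, ← yP_smul, hσR]
  exact ⟨⟩

/-! ### The contradiction -/

variable (G : Grossen D Q) {N : ℕ} (hN : N ≠ 0)

/-- **The algebraic value is not a unit at the place.** -/
theorem val_algValue_ne_one (hcop : G.M.Coprime N) (hM : (G.M : 𝓞 K) ∉ X.P.v.asIdeal)
    (hNv : (N : 𝓞 K) ∉ X.P.v.asIdeal) (hg : GoodAbove K D X.p)
    (hm : ¬ X.p ∣ Module.finrank K (FA.TraceNF.levelField Kb D.W 35))
    {S₀ : D.Pt} (hfix : ∀ σ : Kb ≃ₐ[K] Kb, σ • S₀ = S₀) (hinf : ∀ m : ℕ, m ≠ 0 → m • S₀ ≠ 0) :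
    vv (G.algValue hN) ≠ 1 := by
  intro hA
  haveI := Fact.mk X.prime
  haveI : IsAlgClosure K Kb := ⟨inferInstance, inferInstance⟩
  haveI : IsGalois K Kb := IsAlgClosure.isGalois K Kb
  obtain ⟨S₁, hS₁0, hS₁r, hS₁⟩ := X.exists_rational_red_zero hfix hinf
  obtain ⟨k, R, hR, -, τ, hτI, hτz, hτR⟩ := X.exists_division ⟨hS₁r, fun σ _ => hS₁ σ⟩ hS₁0
  set n := k + 1
  have hn : n ≠ 0 := Nat.succ_ne_zero k
  have hS : ∀ σ : Kb ≃ₐ[K] Kb, σ • D.mulPt (X.π ^ n) R = D.mulPt (X.π ^ n) R := fun σ => by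
    rw [hR, hS₁]
  -- the fields
  set F := X.fld n
  set L := X.divField n R
  have hle : F ≤ L := X.fld_le_divField
  letI algFL : Algebra F L := (inclusion hle).toRingHom.toAlgebra
  haveI : IsScalarTower K F L := IsScalarTower.of_algebraMap_eq' rfl
  haveI : IsScalarTower F L Kb := IsScalarTower.of_algebraMap_eq' rfl
  haveI : NumberField F := NumberField.of_module_finite K F
  haveI : NumberField L := NumberField.of_module_finite K L
  haveI : IsGalois K L := X.isGalois_divField hS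
  haveI : IsGalois F L := IsGalois.tower_top_of_isGalois K F L
  haveI : Algebra.IsAlgebraic F Kb := Algebra.IsAlgebraic.tower_top (K := K) F
  haveI : Algebra.IsAlgebraic L Kb := Algebra.IsAlgebraic.tower_top (K := K) L
  -- the cocycle
  set lift : (L ≃ₐ[F] L) → (Kb ≃ₐ[K] Kb) := fun g => (g.restrictScalars K).liftNormal Kb
  have hlift : ∀ g (x : L), lift g (x : Kb) = (g x : Kb) := fun g x =>
    (g.restrictScalars K).liftNormal_commutes Kb x
  set c : (L ≃ₐ[F] L) → D.Pt := fun g => lift g • R - R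
  have hc : ∀ (g : L ≃ₐ[F] L) (σ : Kb ≃ₐ[K] Kb), (∀ x : L, σ (x : Kb) = (g x : Kb)) →
      c g = σ • R - R := fun g σ h => by
    show lift g • R - R = _
    rw [X.smul_eq_smul_of_agree (σ := lift g) (τ := σ) (n := n) fun x hx =>
      (hlift g ⟨x, hx⟩).trans (h ⟨x, hx⟩).symm]
  have hliftz : ∀ g, lift g • X.pt n = X.pt n := fun g => X.smul_pt_of_fix
    ((hlift g ⟨X.z n, hle (X.z_mem n)⟩).trans
      (congrArg Subtype.val (g.commutes (⟨X.z n, X.z_mem n⟩ : F))))
  have hcker : ∀ g, ∃ i : ℕ, c g = i • X.pt n := fun g =>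
    X.h.exists_nsmul_piPt (by rw [map_sub, D.mulPt_smul, hS, sub_self])
  have hcmul : ∀ g h, c (g * h) = c g + c h := fun g h => by
    obtain ⟨i, hi⟩ := hcker h
    rw [hc (g * h) (lift g * lift h) (fun x => by
      rw [AlgEquiv.mul_apply, hlift, hlift]; rfl), mul_smul]
    have e : lift h • R = R + c h := (add_sub_cancel R _).symm
    rw [e, smul_add (A := D.Pt) (lift g), hi, smul_nsmul', hliftz]
    simp only [c]
    abel
  have hinj : ∀ g, c g = 0 → g = 1 := fun g hg0 => AlgEquiv.ext fun x => Subtype.ext (by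
    rw [← hlift g x]
    exact (IntermediateField.mem_fixingSubgroup_iff _ _).1 (X.mem_fixingSubgroup_divField.2
      ⟨(zc_smul _ _).symm.trans (congrArg zc (hliftz g)), sub_eq_zero.1 hg0⟩) _ x.2)
  have hc1 : c 1 = 0 := by simpa using hcmul 1 1
  haveI : IsMulCommutative (L ≃ₐ[F] L) := ⟨⟨fun a b => by
    refine (eq_inv_of_mul_eq_one_left (hinj (a * b * (b * a)⁻¹) ?_)).trans (inv_inv _)
    have h1 := hcmul (a * b * (b * a)⁻¹) (b * a)
    rw [inv_mul_cancel_right, hcmul a b, hcmul b a, add_comm (c a), right_eq_add] at h1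
    exact h1⟩⟩
  -- the places
  obtain ⟨w, hw, hwv, hwmem⟩ := FA.GoodNF.exists_place X.P.isOver F
  obtain ⟨QL, hQL, -, hQmem⟩ := FA.GoodNF.exists_place X.P.isOver L
  have hQw : belowP F QL = w := HeightOneSpectrum.ext (by
    ext a
    show algebraMap (𝓞 F) (𝓞 L) a ∈ QL.asIdeal ↔ _
    rw [hQmem, hwmem]
    rfl)
  have hfixw : ∀ σ : Kb ≃ₐ[K] Kb,
      galPrime (AlgEquiv.restrictNormalHom (F := K) F σ) w = w := fun σ => HeightOneSpectrum.ext (by
    ext a
    show a ∈ AlgEquiv.restrictNormalHom (F := K) F σ • w.asIdeal ↔ _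
    rw [Ideal.mem_pointwise_smul_iff_inv_smul_mem, hwmem, hwmem, ← map_inv,
      show algebraMap F Kb ((AlgEquiv.restrictNormalHom (F := K) F σ⁻¹ • a : 𝓞 F) : F) =
        σ⁻¹ (algebraMap F Kb (a : F)) from AlgEquiv.restrictNormalHom_apply F σ⁻¹ (a : F)]
    rw [show algebraMap F Kb (a : F) = ((a : F) : Kb) from rfl, X.val_apply σ⁻¹ hn (a : F).2])
  have hFreal : ∀ u : InfinitePlace F, ¬ InfinitePlace.IsReal u := fun u hu => by
    have h2 := congrArg ((InfinitePlace.embedding_of_isReal hu).comp (algebraMap K F)) Q.hs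
    rw [map_pow, map_intCast] at h2
    have : (Q.d : ℝ) < 0 := by exact_mod_cast Q.hd0
    nlinarith [sq_nonneg (((InfinitePlace.embedding_of_isReal hu).comp (algebraMap K F)) Q.s)]
  -- the homomorphism
  set Φ : Fˣ → D.Pt := fun a => c (normSymbol L w a)
  have hΦk : ∀ a, X.p ^ n • Φ a = 0 := fun a => by
    obtain ⟨i, hi⟩ := hcker (normSymbol L w a)
    rw [show Φ a = i • X.pt n from hi, ← mul_nsmul', X.h.nsmul_piPt_eq_zero_iff]
    exact dvd_mul_right _ _
  have hexi : ∃ i, ∀ a, X.p ^ (i + 1) • Φ a = 0 := ⟨n, fun a => by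
    rw [pow_succ', mul_nsmul', hΦk, nsmul_zero]⟩
  set i₀ := Nat.find hexi
  have hne : ∃ a, X.p ^ i₀ • Φ a ≠ 0 := by
    rcases Nat.eq_zero_or_eq_succ_pred i₀ with h0 | h0
    · have hτF : ∀ x : F, τ (x : Kb) = x := fun x =>
        (IntermediateField.mem_fixingSubgroup_iff _ _).1 (X.mem_fixingSubgroup_fld.2
          ((zc_smul _ _).symm.trans (congrArg zc hτz))) _ x.2
      let gτ : L ≃ₐ[F] L := AlgEquiv.ofRingEquiv
        (f := (AlgEquiv.restrictNormalHom (F := K) L τ).toRingEquiv) fun x => Subtype.ext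
          ((AlgEquiv.restrictNormalHom_apply L τ (algebraMap F L x)).trans (hτF x))
      have hgτ : ∀ x : L, τ (x : Kb) = (gτ x : Kb) := fun x =>
        (AlgEquiv.restrictNormalHom_apply L τ x).symm
      have hstab : gτ ∈ MulAction.stabilizer (L ≃ₐ[F] L) QL.asIdeal := by
        rw [MulAction.mem_stabilizer_iff]
        ext a
        rw [Ideal.mem_pointwise_smul_iff_inv_smul_mem, hQmem, hQmem]
        have e : ((gτ⁻¹ (a : L) : L) : Kb) = τ⁻¹ ((a : L) : Kb) := τ.injective (by
          rw [hgτ, ← AlgEquiv.mul_apply, mul_inv_cancel, ← AlgEquiv.mul_apply, mul_inv_cancel]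
          rfl)
        show X.P.R.valuation ((gτ⁻¹ (a : L) : L) : Kb) < 1 ↔ _
        rw [e, (mem_inertGroup.1 (inv_mem hτI)).map_eq]
        rfl
      rw [← range_normSymbol hQw] at hstab
      obtain ⟨a, ha⟩ := hstab
      refine ⟨a, ?_⟩
      rw [h0, pow_zero, one_nsmul]
      show c (normSymbol L w a) ≠ 0
      rw [ha, hc gτ τ hgτ, sub_ne_zero]
      exact hτR
    · have := Nat.find_min hexi (m := i₀.pred) (show i₀.pred < i₀ by omega)
      push Not at this
      obtain ⟨a, ha⟩ := this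
      exact ⟨a, by rwa [← Nat.succ_eq_add_one, ← h0] at ha⟩
  set φ : Kb → D.Pt := fun x =>
    if h : x ∈ F ∧ x ≠ 0 then
      X.p ^ i₀ • Φ (Units.mk0 (⟨x, h.1⟩ : F) fun e => h.2 (congrArg Subtype.val e))
    else 0
  have hφeq : ∀ a : Fˣ, φ ((a : F) : Kb) = X.p ^ i₀ • Φ a := fun a => by
    have h : ((a : F) : Kb) ∈ F ∧ ((a : F) : Kb) ≠ 0 :=
      ⟨(a : F).2, fun e => a.ne_zero (Subtype.ext e)⟩
    simp only [φ, dif_pos h]
    exact congrArg (fun b => X.p ^ i₀ • Φ b) (Units.ext (Subtype.ext rfl))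
  have hunit : ∀ x ∈ F, x ≠ 0 → ∃ a : Fˣ, ((a : F) : Kb) = x := fun x hx h0 =>
    ⟨Units.mk0 ⟨x, hx⟩ fun e => h0 (congrArg Subtype.val e), rfl⟩
  have hΦmul : ∀ a b, Φ (a * b) = Φ a + Φ b := fun a b => by
    show c _ = _
    rw [map_mul, hcmul]
  have hkill : ∀ x ∈ F, x ≠ 0 → X.p • φ x = 0 := fun x hx h0 => by
    obtain ⟨a, rfl⟩ := hunit x hx h0
    rw [hφeq, ← mul_nsmul', ← pow_succ']
    exact Nat.find_spec hexi a
  have hφ : X.EquivHom n φ := by
    refine ⟨fun x hx y hy hx0 hy0 => ?_, ⟨nrLevel F L + 1, fun x hxU => ?_⟩,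
      fun σ j hσ x hx h0 => ?_, hkill⟩
    · obtain ⟨a, rfl⟩ := hunit x hx hx0
      obtain ⟨b, rfl⟩ := hunit y hy hy0
      rw [show ((a : F) : Kb) * ((b : F) : Kb) = (((a * b : Fˣ) : F) : Kb) from rfl, hφeq, hφeq,
        hφeq, hΦmul, nsmul_add]
    · obtain ⟨a, rfl⟩ := hunit x hxU.1 (hxU.ne_zero (Nat.succ_ne_zero _))
      rw [hφeq]
      show _ • c (normSymbol L w a) = 0
      rw [MonoidHom.mem_ker.1 (nearOne_le_ker_normSymbol w (mem_nearOne.2 ?_ :
        a ∈ nearOne w (nrLevel F L))), hc1, nsmul_zero]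
      set zF : F := ⟨X.z n, X.z_mem n⟩
      set B := nrLevel F L + 1
      have hz0 : zF ≠ 0 := fun e => X.z_ne_zero hn (congrArg Subtype.val e)
      have hy : w.valuation F (((a : F) - 1) / zF ^ B) ≤ 1 := by
        refine (FA.GoodNF.overPlace_le_one_iff hw _).1 ?_
        rw [map_div₀, map_div₀, map_pow, map_pow]
        exact (div_le_one₀ (pow_pos (X.ρ_pos hn) B)).2 hxU.2
      have hzlt : w.valuation F zF ≤ WithZero.exp (-1 : ℤ) := by
        have h1 : w.valuation F zF < 1 :=
          (FA.GoodNF.overPlace_lt_one_iff hw _).1 (X.ρ_lt_one n)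
        obtain ⟨i, hi⟩ : ∃ i : ℤ, w.valuation F zF = WithZero.exp i :=
          ⟨_, (WithZero.exp_log ((w.valuation F).ne_zero_iff.2 hz0)).symm⟩
        rw [hi, ← WithZero.exp_zero, WithZero.exp_lt_exp] at h1
        rw [hi, WithZero.exp_le_exp]
        omega
      rw [← div_mul_cancel₀ ((a : F) - 1) (pow_ne_zero B hz0), map_mul, map_pow]
      refine (mul_le_mul' hy (pow_le_pow_left₀ zero_le hzlt B)).trans ?_
      rw [one_mul, ← WithZero.exp_nsmul, WithZero.exp_le_exp]
      simp [B]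
    · obtain ⟨a, rfl⟩ := hunit x hx h0
      set gL := AlgEquiv.restrictNormalHom (F := K) L σ
      have hres : resAut F gL = AlgEquiv.restrictNormalHom (F := K) F σ := AlgEquiv.ext fun y =>
        Subtype.ext (by
          have e1 := congrArg (fun t : L => (t : Kb)) (gL.restrictNormal_commutes F y)
          exact e1.trans ((AlgEquiv.restrictNormalHom_apply L σ (algebraMap F L y)).trans
            (AlgEquiv.restrictNormalHom_apply F σ y).symm))
      have hσa : σ ((a : F) : Kb) = (((galU (resAut F gL) a : Fˣ) : F) : Kb) := by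
        rw [galU_val, hres]
        exact (AlgEquiv.restrictNormalHom_apply F σ (a : F)).symm
      have hsymb := normSymbol_galPrime (K := K) hFreal gL w a
      rw [hres, hfixw σ, ← hres] at hsymb
      rw [hσa, hφeq, hφeq, ← mul_nsmul', mul_comm j, mul_nsmul']
      refine congrArg (fun t => X.p ^ i₀ • t) ?_
      show c (normSymbol L w _) = j • c (normSymbol L w a)
      rw [hsymb]
      set g := normSymbol L w a
      have hgL' : ∀ x : L, σ⁻¹ (x : Kb) = ((gL⁻¹ x : L) : Kb) := fun x => by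
        rw [← map_inv]
        exact (AlgEquiv.restrictNormalHom_apply L σ⁻¹ x).symm
      rw [hc (conjAut gL g) (σ * lift g * σ⁻¹) (fun x => by
        rw [AlgEquiv.mul_apply, AlgEquiv.mul_apply, hgL', hlift, conjAut_apply]
        exact (AlgEquiv.restrictNormalHom_apply L σ _).symm), mul_smul, mul_smul]
      obtain ⟨i, hi⟩ := hcker g
      obtain ⟨i', hi'⟩ := X.h.exists_nsmul_piPt (m := n) (T := σ⁻¹ • R - R)
        (by rw [map_sub, D.mulPt_smul, hS, sub_self])
      have e2 : lift g • σ⁻¹ • R = σ⁻¹ • R + c g := by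
        rw [← sub_add_cancel (σ⁻¹ • R) R, hi', smul_add (A := D.Pt) (lift g), smul_nsmul', hliftz,
          show lift g • R = R + c g from (add_sub_cancel R _).symm]
        abel
      rw [e2, smul_add (A := D.Pt) σ, smul_inv_smul, add_sub_cancel_left, hi, smul_nsmul', hσ,
        ← mul_nsmul', ← mul_nsmul', mul_comm]
  -- it kills the unit
  set u := X.ellUnit G hN n
  obtain ⟨hU, hexact⟩ := X.isU_ellUnit G hN hcop hM hNv hn
  have hu0 : u ≠ 0 := hU.ne_zero one_ne_zero
  obtain ⟨au, hau⟩ := hunit u hU.1 hu0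
  have hother : ∀ u' : HeightOneSpectrum (𝓞 F), u' ≠ w → normSymbol L u' au = 1 := fun u' hu' => by
    have huv : belowP K u' ≠ X.P.v := fun e => hu' (by
      obtain ⟨g, hg'⟩ := Algebra.IsInvariant.exists_smul_of_under_eq (𝓞 K) (𝓞 F) (F ≃ₐ[K] F)
        w.asIdeal u'.asIdeal (hwv.trans (congrArg HeightOneSpectrum.asIdeal e).symm)
      obtain ⟨σ, rfl⟩ := AlgEquiv.restrictNormalHom_surjective (F := K) (K₁ := F) Kb g
      exact (HeightOneSpectrum.ext hg').trans (hfixw σ))
    have hr : ¬ IsRam L u' := by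
      rintro ⟨Q', hQ', hne'⟩
      obtain ⟨B, hB⟩ := exists_overPlace (K := L) Kb Q'
      have hBF : OverPlace (K := F) B u' := hQ' ▸ overPlace_below (F := F) hB
      refine hne' (inertia_eq_bot_of_fixed hB fun σ hσ x => ?_)
      have hσK : σ.restrictScalars K ∈ inertGroup K B :=
        ⟨(mem_inertGroup.1 hσ).map_eq, (mem_inertGroup.1 hσ).sub_lt⟩
      have hz : σ.restrictScalars K (X.z n) = X.z n := σ.commutes (⟨X.z n, X.z_mem n⟩ : F)
      have hR' := X.smul_eq_of_inert hg hm huv (overPlace_below (F := K) hBF) hσK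
        (X.smul_pt_of_fix hz) (hS _)
      exact (IntermediateField.mem_fixingSubgroup_iff _ _).1
        (X.mem_fixingSubgroup_divField.2 ⟨hz, hR'⟩) _ x.2
    obtain ⟨B, hB⟩ := exists_overPlace (K := F) Kb u'
    have hsep := X.separates hg huv (overPlace_below (F := K) hB) n
    have hkn : ∀ j : ℕ, ¬ X.p ∣ j → (G.M * N) • j • X.pt n ≠ 0 := fun j hj h => by
      rw [← mul_nsmul', X.h.nsmul_piPt_eq_zero_iff] at h
      refine ((Nat.Prime.dvd_mul X.prime).1 ((dvd_pow_self _ hn).trans h)).elim ?_ hj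
      intro hd
      rcases (Nat.Prime.dvd_mul X.prime).1 hd with hd | hd
      · exact hM ((X.h.natCast_mem_iff G.M).2 hd)
      · exact hNv ((X.h.natCast_mem_iff N).2 hd)
    have hker : ∀ j : ℕ, D.mulPt (X.π ^ n) (j • X.pt n) = 0 := fun j => by
      rw [map_nsmul, X.h.mulPt_piPt_eq_zero_iff.2 dvd_rfl, nsmul_zero]
    have heq := val_unitFun_eq G hN hsep (hker 2) (by simpa using hker 1)
      (hkn 2 fun h => by have := Nat.le_of_dvd two_pos h; have := X.five_le; omega)
      (by simpa using hkn 1 fun h => by have := Nat.le_of_dvd one_pos h; have := X.five_le; omega)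
    have hnum : G.unitFun hN (X.pt n) ≠ 0 := fun e => hu0 (by
      show G.unitFun hN (2 • X.pt n) / G.unitFun hN (X.pt n) = 0
      rw [e, div_zero])
    have hord : ord u' au = 0 := by
      rw [ord_eq_iff, neg_zero, WithZero.exp_zero, ← FA.GoodNF.overPlace_eq_one_iff hB]
      show B.valuation ((au : F) : Kb) = 1
      rw [hau]
      show B.valuation (G.unitFun hN (2 • X.pt n) / G.unitFun hN (X.pt n)) = 1
      rw [map_div₀, heq, div_self (B.valuation.ne_zero_iff.2 hnum)]
    rw [normSymbol_of_not_isRam hr, hord, zpow_zero]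
  have hψu : normSymbol L w au = 1 := by
    have h := finprod_normSymbol (L := L) hFreal au
    rwa [finprod_eq_single _ w hother] at h
  have hφu : φ u = 0 := by
    rw [← hau, hφeq]
    show _ • c _ = 0
    rw [hψu, hc1, nsmul_zero]
  obtain ⟨a, ha⟩ := hne
  refine ha ?_
  rw [← hφeq]
  exact hφ.eq_zero hn hU (hexact hA) hφu (a : F).2 fun e => a.ne_zero (Subtype.ext e)

end SplitPlace

end FA.CoatesWiles

end
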